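import Fermat.Agent.BR.Inst.NormalGen
import Fermat.Agent.Good.ChartBridge

/-!
# Program B, node B6.5(b): the normal model over `W' = A ∩ K'` (frame-agnostic form)

`N ≥ 1`, `Ω = Fb N` the function field of `X₀(N)` over `ℚ̄ = Kb`.  Data:

* `W : Subring Kb` a principal ideal domain (in the application `W = A ∩ K'`, a discrete
  valuation ring by `NormalGen.isDiscreteValuationRing_of_uniformizer`), `K' : Subfield Kb` its
  fraction field;
* `R  = W[j]   := Subring.closure (const '' W ∪ {j})`            (`modelBase`),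
* `F' = K'·F_N := Subfield.closure (const '' K' ∪ range barEmb)` (`modelField`),
* `C  = {x ∈ F' | x integral over R}`                             (any `C` with `IsModel R F' C`).

Results: `R` is noetherian and integrally closed, `R ≤ F'`, `F'` is generated over `R` by the
finitely many `j(q^d)`, `d ∣ N`, which are algebraic over `R`; hence (`model_normal`) `C` is a
noetherian integrally closed domain, finite over `R`, with fraction field `F'`.

No hypothesis on `N` versus the residue characteristic: this is used at level `N = M q` and at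
level `M`.
-/

set_option autoImplicit false
set_option linter.unusedSectionVars false
set_option synthInstance.maxHeartbeats 400000

noncomputable section

namespace Fermat.Agent.BR.Inst.NormalModel

open ModularCurve ModularCurve.IgusaScheme IntermediateField Fermat.Agent.X0 Fermat.Agent.Good.Bridge Fermat.Agent.Igusa
open Fermat.Agent.BR.Inst.NormalGen

variable (N : ℕ) [NeZero N]

/-! ### the generators `j(q^d)`, `d ∣ N` -/

/-- the family `j(q^d)`, `d ∣ N`, indexed by the divisors of `N` -/
def jFam (d : {d : ℕ // d ∈ N.divisors}) : Fb N :=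
  haveI : NeZero (d : ℕ) := ⟨(Nat.pos_of_mem_divisors d.2).ne'⟩
  jBarD N d (Nat.dvd_of_mem_divisors d.2)

/-- the finite set `{j(q^d) : d ∣ N}` of generators of `F̄_N` -/
def jGens : Set (Fb N) := Set.range (jFam N)

theorem finite_jGens : (jGens N).Finite := Set.finite_range _

theorem jBarD_mem_jGens (d : ℕ) [NeZero d] (hd : d ∣ N) : jBarD N d hd ∈ jGens N :=
  ⟨⟨d, Nat.mem_divisors.mpr ⟨hd, NeZero.ne N⟩⟩, rfl⟩

theorem jBarD_one_eq : jBarD N 1 (one_dvd N) = jBar N := by
  apply Subtype.ext
  rw [coe_jBarD, coe_jBar, qExpand_one_apply]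

theorem jBarD_eq_barEmb (d : ℕ) [NeZero d] (hd : d ∣ N) :
    jBarD N d hd = barEmb N ⟨qExpand ℚ d jq, jqd_mem_full N hd⟩ := rfl

theorem jGens_subset_range : jGens N ⊆ Set.range (barEmb N) := by
  rintro _ ⟨d, rfl⟩
  have : NeZero (d : ℕ) := ⟨(Nat.pos_of_mem_divisors d.2).ne'⟩
  exact ⟨⟨qExpand ℚ (d : ℕ) jq, jqd_mem_full N (Nat.dvd_of_mem_divisors d.2)⟩, rfl⟩

theorem barEmb_ratCast (r : ℚ) :
    barEmb N (algebraMap ℚ ↥(modularFunctionFieldFull N) r) = (r : Fb N) := by
  rw [eq_ratCast, map_ratCast]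

/-- a subfield of `F̄_N` containing the `j(q^d)` contains the image of `F_N` -/
theorem barEmb_mem_of_forall (T : Subfield (Fb N))
    (hT : ∀ (d : ℕ) [NeZero d] (hd : d ∣ N), jBarD N d hd ∈ T)
    (x : ↥(modularFunctionFieldFull N)) : barEmb N x ∈ T := by
  have key : ∀ y (hy : y ∈ IntermediateField.adjoin ℚ (divisorExpansions N)),
      barEmb N ⟨y, hy⟩ ∈ T := by
    intro y hy
    induction hy using IntermediateField.adjoin_induction with
    | mem y hy =>
      obtain ⟨d, hd0, hd, rfl⟩ := hy
      exact hT d hd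
    | algebraMap r =>
      have e : (⟨algebraMap ℚ (LaurentSeries ℚ) r,
          (IntermediateField.adjoin ℚ (divisorExpansions N)).algebraMap_mem r⟩ :
            ↥(modularFunctionFieldFull N)) = algebraMap ℚ ↥(modularFunctionFieldFull N) r :=
        Subtype.ext (by
          show algebraMap ℚ (LaurentSeries ℚ) r =
            ((algebraMap ℚ ↥(modularFunctionFieldFull N) r : ↥(modularFunctionFieldFull N)) :
              LaurentSeries ℚ)
          rw [eq_ratCast, eq_ratCast]
          rfl)
      rw [e, barEmb_ratCast]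
      exact SubfieldClass.ratCast_mem T r
    | add y z hy hz ihy ihz =>
      have e : (⟨y + z, add_mem hy hz⟩ : ↥(modularFunctionFieldFull N)) =
        (⟨y, hy⟩ : ↥(modularFunctionFieldFull N)) + ⟨z, hz⟩ := rfl
      rw [e, map_add]
      exact T.add_mem ihy ihz
    | inv y hy ihy =>
      have e : (⟨y⁻¹, inv_mem hy⟩ : ↥(modularFunctionFieldFull N)) =
        (⟨y, hy⟩ : ↥(modularFunctionFieldFull N))⁻¹ := rfl
      rw [e, map_inv₀]
      exact T.inv_mem ihy
    | mul y z hy hz ihy ihz =>
      have e : (⟨y * z, mul_mem hy hz⟩ : ↥(modularFunctionFieldFull N)) =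
        (⟨y, hy⟩ : ↥(modularFunctionFieldFull N)) * ⟨z, hz⟩ := rfl
      rw [e, map_mul]
      exact T.mul_mem ihy ihz
  exact key x.1 x.2

theorem barEmb_mem_of_jGens (T : Subfield (Fb N)) (hT : jGens N ⊆ T)
    (x : ↥(modularFunctionFieldFull N)) : barEmb N x ∈ T :=
  barEmb_mem_of_forall N T (fun d _ hd => hT (jBarD_mem_jGens N d hd)) x

/-! ### algebraicity over `ℚ(j)` inside `F̄_N` -/

/-- the image of `ℚ(j)` in `F̄_N` -/
def qjBar : Subfield (Fb N) := (ℚ⟮jFull N⟯.toSubfield).map (barEmb N)

theorem qjBar_le (T : Subfield (Fb N)) (hj : jBar N ∈ T) : qjBar N ≤ T := by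
  rintro _ ⟨x, hx, rfl⟩
  change x ∈ ℚ⟮jFull N⟯ at hx
  induction hx using IntermediateField.adjoin_induction with
  | mem y hy =>
    rw [Set.mem_singleton_iff] at hy
    subst hy
    exact hj
  | algebraMap r =>
    rw [barEmb_ratCast]
    exact SubfieldClass.ratCast_mem T r
  | add y z _ _ ihy ihz => rw [map_add]; exact T.add_mem ihy ihz
  | inv y _ ihy => rw [map_inv₀]; exact T.inv_mem ihy
  | mul y z _ _ ihy ihz => rw [map_mul]; exact T.mul_mem ihy ihz

/-- every element of the image of `F_N` is algebraic over the image of `ℚ(j)` -/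
theorem isAlgebraic_qjBar_barEmb (x : ↥(modularFunctionFieldFull N)) :
    IsAlgebraic ↥(qjBar N) (barEmb N x) := by
  have hfd := finiteDimensional_full N
  have halg : IsAlgebraic ↥ℚ⟮jFull N⟯ x := Algebra.IsAlgebraic.isAlgebraic x
  let f : ↥ℚ⟮jFull N⟯ →+* ↥(qjBar N) :=
    (barEmb N).restrict ℚ⟮jFull N⟯ (qjBar N) (fun y hy => ⟨y, hy, rfl⟩)
  have hf : Function.Injective f := by
    intro y z h
    have h1 : barEmb N (y : ↥(modularFunctionFieldFull N)) = barEmb N z :=
      congrArg (fun w : ↥(qjBar N) => (w : Fb N)) h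
    exact Subtype.ext (barEmb_injective N h1)
  exact halg.ringHom_of_comp_eq f (barEmb N) hf (by ext y; rfl)

/-! ### the model -/

section Model

variable (W : Subring Kb) (K' : Subfield Kb)

/-- `R = W[j]` as a subring of `F̄_N` -/
def modelBase : Subring (Fb N) :=
  Subring.closure ((algebraMap Kb (Fb N)) '' (W : Set Kb) ∪ {jBar N})

/-- `F' = K'·F_N` as a subfield of `F̄_N` -/
def modelField : Subfield (Fb N) :=
  Subfield.closure ((algebraMap Kb (Fb N)) '' (K' : Set Kb) ∪ Set.range (barEmb N))

theorem const_mem_modelBase {a : Kb} (ha : a ∈ W) : algebraMap Kb (Fb N) a ∈ modelBase N W :=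
  Subring.subset_closure (Or.inl ⟨a, ha, rfl⟩)

theorem jBar_mem_modelBase : jBar N ∈ modelBase N W :=
  Subring.subset_closure (Or.inr rfl)

theorem const_mem_modelField {a : Kb} (ha : a ∈ K') : algebraMap Kb (Fb N) a ∈ modelField N K' :=
  Subfield.subset_closure (Or.inl ⟨a, ha, rfl⟩)

theorem barEmb_mem_modelField (x : ↥(modularFunctionFieldFull N)) :
    barEmb N x ∈ modelField N K' :=
  Subfield.subset_closure (Or.inr ⟨x, rfl⟩)

theorem jBar_mem_modelField : jBar N ∈ modelField N K' := by
  rw [← barEmb_jFull]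
  exact barEmb_mem_modelField N K' _

theorem modelBase_eq_adjoin :
    modelBase N W = (Algebra.adjoin ↥W ({jBar N} : Set (Fb N))).toSubring := by
  rw [Algebra.adjoin_eq_ring_closure, modelBase]
  congr 2
  ext x
  constructor
  · rintro ⟨a, ha, rfl⟩
    exact ⟨⟨a, ha⟩, rfl⟩
  · rintro ⟨a, rfl⟩
    exact ⟨a, a.2, rfl⟩

theorem transcendental_jBar_sub : Transcendental ↥W (jBar N) := by
  have : IsScalarTower ↥W Kb (Fb N) := IsScalarTower.of_algebraMap_eq (fun _ => rfl)
  exact (jBar_transcendental N).restrictScalars (R := ↥W) (S := Kb)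
    (fun x y h => Subtype.ext h)

/-- the ring isomorphism `W[j] ≃ modelBase` (identity on elements) -/
def adjoinEquivModelBase :
    ↥(Algebra.adjoin ↥W ({jBar N} : Set (Fb N))) ≃+* ↥(modelBase N W) where
  toFun x := ⟨x.1, by rw [modelBase_eq_adjoin]; exact x.2⟩
  invFun x := ⟨x.1, by
    show x.1 ∈ (Algebra.adjoin ↥W ({jBar N} : Set (Fb N))).toSubring
    rw [← modelBase_eq_adjoin]; exact x.2⟩
  left_inv _ := rfl
  right_inv _ := rfl
  map_mul' _ _ := rfl
  map_add' _ _ := rfl

theorem isNoetherianRing_modelBase [IsNoetherianRing ↥W] : IsNoetherianRing ↥(modelBase N W) :=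
  have := isNoetherianRing_adjoin_transcendental (D := ↥W) (jBar N) (transcendental_jBar_sub N W)
  isNoetherianRing_of_ringEquiv _ (adjoinEquivModelBase N W)

theorem isIntegrallyClosed_modelBase [IsPrincipalIdealRing ↥W] :
    IsIntegrallyClosed ↥(modelBase N W) :=
  have := isIntegrallyClosed_adjoin_transcendental (D := ↥W) (jBar N)
    (transcendental_jBar_sub N W)
  IsIntegrallyClosed.of_equiv (adjoinEquivModelBase N W)

variable {W K'}

theorem modelBase_le_modelField (hWK : ∀ x ∈ W, x ∈ K') :
    modelBase N W ≤ (modelField N K').toSubring := by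
  rw [modelBase, Subring.closure_le]
  rintro x (⟨a, ha, rfl⟩ | hx)
  · exact const_mem_modelField N K' (hWK a ha)
  · rw [Set.mem_singleton_iff] at hx
    subst hx
    exact jBar_mem_modelField N K'

/-- `F'` is generated as a field by `R` and the `j(q^d)`, `d ∣ N`, as soon as `K' = Frac W` -/
theorem modelField_eq_closure (hWK : ∀ x ∈ W, x ∈ K')
    (hfrac : ∀ x ∈ K', ∃ a ∈ W, ∃ b ∈ W, b ≠ 0 ∧ x * b = a) :
    modelField N K' = Subfield.closure ((modelBase N W : Set (Fb N)) ∪ jGens N) := by
  apply le_antisymm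
  · rw [modelField, Subfield.closure_le]
    rintro x (⟨c, hc, rfl⟩ | ⟨y, rfl⟩)
    · obtain ⟨a, ha, b, hb, hb0, hab⟩ := hfrac c hc
      have hc' : c = a / b := by rw [eq_div_iff hb0]; exact hab
      rw [hc', map_div₀]
      exact (Subfield.closure _).div_mem
        (Subfield.subset_closure (Or.inl (const_mem_modelBase N W ha)))
        (Subfield.subset_closure (Or.inl (const_mem_modelBase N W hb)))
    · exact barEmb_mem_of_jGens N _ (fun z hz => Subfield.subset_closure (Or.inr hz)) y
  · rw [Subfield.closure_le]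
    rintro x (hx | hx)
    · exact modelBase_le_modelField N hWK hx
    · obtain ⟨y, rfl⟩ := jGens_subset_range N hx
      exact barEmb_mem_modelField N K' y

/-- the generators are algebraic over `R = W[j]` -/
theorem isAlgebraic_modelBase_of_mem_jGens {s : Fb N} (hs : s ∈ jGens N) :
    IsAlgebraic ↥(modelBase N W) s := by
  obtain ⟨y, rfl⟩ := jGens_subset_range N hs
  refine isAlgebraic_of_subfield (modelBase N W) (qjBar N) ?_ (isAlgebraic_qjBar_barEmb N y)
  exact qjBar_le N _ (Subfield.subset_closure (jBar_mem_modelBase N W))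

/-- **B6.5(b)**: the model `C = {x ∈ K'·F_N | x integral over W[j]}` is a noetherian integrally
closed domain, finite over `W[j]`, with fraction field `K'·F_N`; for every level `N` and every
principal ideal domain `W ⊆ ℚ̄` with fraction field `K'`. -/
theorem model_normal [IsPrincipalIdealRing ↥W] (hWK : ∀ x ∈ W, x ∈ K')
    (hfrac : ∀ x ∈ K', ∃ a ∈ W, ∃ b ∈ W, b ≠ 0 ∧ x * b = a)
    {C : Subring (Fb N)} (hC : IsModel (modelBase N W) (modelField N K') C) :
    IsNoetherianRing ↥C ∧ IsIntegrallyClosed ↥C ∧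
      @IsFractionRing ↥C _ ↥(modelField N K') _ (algebraOfLE hC.le_field) ∧
      @Module.Finite ↥(modelBase N W) ↥C _ _
        (algebraOfLE' (hC.base_le (modelBase_le_modelField N hWK))).toModule := by
  have h1 := isNoetherianRing_modelBase N W
  have h2 := isIntegrallyClosed_modelBase N W
  exact hC.normal (modelBase_le_modelField N hWK) (jGens N) (finite_jGens N)
    (fun s hs => isAlgebraic_modelBase_of_mem_jGens N hs)
    (modelField_eq_closure N hWK hfrac)

end Model

/-! ### the case `W = A ∩ K'` -/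

section Inter

variable (A : ValuationSubring Kb) (K' : Subfield Kb) (W : Subring Kb)

/-- every element of `K'` is a quotient of elements of `A ∩ K'` -/
theorem exists_frac_of_inter (hW : ∀ x, x ∈ W ↔ x ∈ A ∧ x ∈ K') :
    ∀ x ∈ K', ∃ a ∈ W, ∃ b ∈ W, b ≠ 0 ∧ x * b = a := by
  intro x hx
  rcases A.mem_or_inv_mem x with h | h
  · exact ⟨x, (hW x).mpr ⟨h, hx⟩, 1, W.one_mem, one_ne_zero, mul_one x⟩
  · by_cases hx0 : x = 0
    · subst hx0
      exact ⟨0, W.zero_mem, 1, W.one_mem, one_ne_zero, mul_one 0⟩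
    · exact ⟨1, W.one_mem, x⁻¹, (hW _).mpr ⟨h, K'.inv_mem hx⟩, inv_ne_zero hx0,
        mul_inv_cancel₀ hx0⟩

/-- **B6.5(b), form used by the frame**: `W = A ∩ K'` with `K'` of cyclic value group
(uniformizer `π`): the model `C = {x ∈ K'·F_N | x integral over W[j]}` is a noetherian integrally
closed domain, finite over `W[j]`, with fraction field `K'·F_N`. -/
theorem model_normal_of_inter (hW : ∀ x, x ∈ W ↔ x ∈ A ∧ x ∈ K')
    (π : Kb) (hπK : π ∈ K') (hπ0 : π ≠ 0) (hπ : A.valuation π < 1)
    (hval : ∀ x ∈ K', x ≠ 0 → ∃ n : ℤ, A.valuation x = A.valuation π ^ n)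
    {C : Subring (Fb N)} (hC : IsModel (modelBase N W) (modelField N K') C) :
    IsNoetherianRing ↥C ∧ IsIntegrallyClosed ↥C ∧
      @IsFractionRing ↥C _ ↥(modelField N K') _ (algebraOfLE hC.le_field) ∧
      @Module.Finite ↥(modelBase N W) ↥C _ _
        (algebraOfLE' (hC.base_le
          (modelBase_le_modelField N (fun x hx => ((hW x).mp hx).2)))).toModule := by
  have hdvr : IsDiscreteValuationRing ↥W :=
    isDiscreteValuationRing_of_uniformizer A K' W hW π hπK hπ0 hπ hval
  exact model_normal N (fun x hx => ((hW x).mp hx).2) (exists_frac_of_inter A K' W hW) hC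

end Inter

end Fermat.Agent.BR.Inst.NormalModel
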