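import Fermat.Agent.BR.Inst.InertiaFK
import Fermat.Agent.BR.UnramCycloTower
import Fermat.Agent.BR.Inst.NormalModel

/-!
# Program B, input (h1), end of the chain: the base level of the tower of coefficient fields

The levels of the tower are indexed by `S : Finset ℚ̄`, with coefficient field
`UnramCycloTower.coeffField q S = K₀ ⊔ ℚ(S)`, `K₀ = UnramCyclo.cycloField ℚ̄ q`.  At the BASE level
`S = ∅` the coefficient field is `K₀` itself, which is fixed pointwise by the inertia group at `q`.
Hence every function of the base level field `K₀ · F_N` (`NormalModel.modelField N K₀`) is fixed by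
the arithmetic Galois action of inertia: this is the hypothesis `hu` of `S0.TwoCompDeliverable` as
soon as the parameters `u e` of the annuli are chosen in the local rings of the base level.

* `coeffField_empty` : `coeffField q ∅ = cycloField ℚ̄ q`;
* `mem_cycloField_of_mem_coeffField_empty`;
* `gal_smul_eq_of_mem_modelField_base` : one element of `modelField N (coeffField q ∅).toSubfield`;
* `gal_smul_eq_of_mem_modelField_of_le` : the same for any `Subfield` of constants inside `K₀`;
* `hu_of_mem_modelField_base` : a family, in the shape of `hu`.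
-/

set_option autoImplicit false

open ModularCurve AlgebraicCurve

namespace Fermat.Agent.BR.Inst.InertiaBase

open Fermat.Agent.X0 Fermat.Agent.Good.Bridge Fermat.Agent.BR.Inst.FKCover
  Fermat.Agent.BR.UnramCyclo Fermat.Agent.BR.UnramCycloTower Fermat.Agent.BR.Inst.InertiaFK
  Fermat.Agent.BR.Inst.NormalModel

/-- The base level of the tower of coefficient fields is `K₀ = ℚ(μ_{prime to q})`. -/
theorem coeffField_empty (q : ℕ) :
    coeffField q (∅ : Finset Kb) = cycloField Kb q := by
  unfold coeffField
  rw [Finset.coe_empty, IntermediateField.adjoin_empty, sup_bot_eq]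

theorem mem_cycloField_of_mem_coeffField_empty {q : ℕ} {c : Kb}
    (hc : c ∈ coeffField q (∅ : Finset Kb)) : c ∈ cycloField Kb q := by
  rwa [coeffField_empty] at hc

variable {q N : ℕ} [NeZero N] (A : ValuationSubring Kb)

/-- **(h1)** for a `Subfield` of constants contained in `K₀`, in the vocabulary of the normal
models (`NormalModel.modelField`). -/
theorem gal_smul_eq_of_mem_modelField_of_le (hq : q.Prime) (hA : A.LiesOverPrime q)
    {E : Subfield Kb} (hE : ∀ c ∈ E, c ∈ cycloField Kb q)
    {σ : Kb ≃ₐ[ℚ] Kb} (hσ : σ ∈ A.inertiaSubgroupIn ℚ) {x : Fb N}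
    (hx : x ∈ modelField N E) :
    arithmeticGalois (modularFunctionFieldFull N) σ • x = x :=
  gal_smul_eq_of_mem_FKs_le A hq hA hE hσ hx

/-- **(h1)** at the base level `S = ∅` of the tower. -/
theorem gal_smul_eq_of_mem_modelField_base (hq : q.Prime) (hA : A.LiesOverPrime q)
    {σ : Kb ≃ₐ[ℚ] Kb} (hσ : σ ∈ A.inertiaSubgroupIn ℚ) {x : Fb N}
    (hx : x ∈ modelField N (coeffField q (∅ : Finset Kb)).toSubfield) :
    arithmeticGalois (modularFunctionFieldFull N) σ • x = x :=
  gal_smul_eq_of_mem_modelField_of_le A hq hA
    (fun _ hc => mem_cycloField_of_mem_coeffField_empty hc) hσ hx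

/-- **(h1)** in the shape of the hypothesis `hu` of `S0.TwoCompDeliverable`: a family of functions
of the base level field is fixed by inertia. -/
theorem hu_of_mem_modelField_base (hq : q.Prime) (hA : A.LiesOverPrime q) {ι : Sort*}
    (u : ι → Fb N)
    (hu : ∀ e, u e ∈ modelField N (coeffField q (∅ : Finset Kb)).toSubfield) :
    ∀ σ ∈ A.inertiaSubgroupIn ℚ, ∀ e,
      arithmeticGalois (modularFunctionFieldFull N) σ • u e = u e :=
  fun _ hσ e => gal_smul_eq_of_mem_modelField_base A hq hA hσ (hu e)

end Fermat.Agent.BR.Inst.InertiaBase
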