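import Fermat.Agent.BR.Inst.DegenModel
import Fermat.Agent.BR.Inst.Inf.NormalInf

/-!
# Program B, node B6.5(b), part 3: the `ℤ_(ℓ)`-chart algebras lie in the models

`N ≥ 1`, `ℓ` prime (no coprimality), `W ⊆ ℚ̄` a subring containing `ℤ_(ℓ)`.

* `isIntegral_barEmb_of_mem_chartAlg` : if `barEmb` maps `ℤ_(ℓ)` and `S ⊆ F_N` into a subring
  `R₂ ⊆ F̄_N`, then it maps `chartAlg N ℓ S` (elements integral over `ℤ_(ℓ)[S]`) to elements
  integral over `R₂`;
* `barEmb_mem_model_of_mem_chartAlgFin` : `barEmb (chartAlgFin N ℓ) ⊆ C` for every model `C` of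
  `BR/Inst/NormalModel.lean` (`IsModel (modelBase N W) (modelField N K') C`);
* `barEmb_mem_model_of_mem_chartAlgInf` : the same at infinity (`Inf.modelBaseInf`);
* `alpha_barEmb_mem_model`, `beta_barEmb_mem_model` : `α (barEmb b)`, `β (barEmb b)` lie in the
  level `M q` model for `b ∈ chartAlgFin M ℓ`;
* `const_mem_model` : constants of `W` lie in every model;
* `modelOf R F` : the canonical model `{x ∈ F | x integral over R}` (`isModel_modelOf`,
  `eq_modelOf`).
-/

set_option autoImplicit false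
set_option linter.unusedSectionVars false
set_option synthInstance.maxHeartbeats 400000

noncomputable section

namespace Fermat.Agent.BR.Inst.ChartInModel

open ModularCurve ModularCurve.IgusaScheme IntermediateField Fermat.Agent.X0
open Fermat.Agent.Good.Bridge Fermat.Agent.Igusa
open Fermat.Agent.BR.Inst.NormalGen Fermat.Agent.BR.Inst.NormalModel
open Fermat.Agent.BR.Inst.DegenModel

/-! ### the canonical model -/

section ModelOf

variable {Ω : Type*} [Field Ω]

/-- the canonical model `{x ∈ F | x integral over R}` as a subring -/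
def modelOf (R : Subring Ω) (F : Subfield Ω) : Subring Ω where
  carrier := {x | x ∈ F ∧ IsIntegral ↥R x}
  mul_mem' := fun ha hb => ⟨mul_mem ha.1 hb.1, ha.2.mul hb.2⟩
  one_mem' := ⟨one_mem _, isIntegral_one⟩
  add_mem' := fun ha hb => ⟨add_mem ha.1 hb.1, ha.2.add hb.2⟩
  zero_mem' := ⟨zero_mem _, isIntegral_zero⟩
  neg_mem' := fun ha => ⟨neg_mem ha.1, ha.2.neg⟩

theorem isModel_modelOf (R : Subring Ω) (F : Subfield Ω) : IsModel R F (modelOf R F) :=
  fun _ => Iff.rfl

theorem eq_modelOf {R : Subring Ω} {F : Subfield Ω} {C : Subring Ω}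
    (hC : IsModel R F C) : C = modelOf R F :=
  SetLike.ext fun x => (hC x).trans ((isModel_modelOf R F x).symm)

end ModelOf

variable (N : ℕ) [NeZero N] (ℓ : ℕ) [hℓ : Fact ℓ.Prime]

set_option quotPrecheck false in
local notation "ℤℓ" => ↥(GaloisRep.ratLocalizedAt ℓ)

set_option quotPrecheck false in
local notation "F" => ↥(modularFunctionFieldFull N)

/-- `barEmb` maps elements integral over `ℤ_(ℓ)[S]` to elements integral over `R₂`, as soon as
it maps `ℤ_(ℓ)` and `S` into `R₂` -/
theorem isIntegral_barEmb_of_mem_chartAlg (S : Set F) (R₂ : Subring (Fb N))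
    (hZ : ∀ r : ℤℓ, barEmb N (algebraMap ℤℓ F r) ∈ R₂) (hS : ∀ s ∈ S, barEmb N s ∈ R₂)
    {x : F} (hx : x ∈ chartAlg N ℓ S) : IsIntegral ↥R₂ (barEmb N x) := by
  rw [mem_chartAlg_iff] at hx
  have hmem : ∀ y ∈ Algebra.adjoin ℤℓ S, barEmb N y ∈ R₂ := by
    intro y hy
    induction hy using Algebra.adjoin_induction with
    | mem z hz => exact hS z hz
    | algebraMap r => exact hZ r
    | add y z _ _ hy hz => rw [map_add]; exact R₂.add_mem hy hz
    | mul y z _ _ hy hz => rw [map_mul]; exact R₂.mul_mem hy hz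
  let f : ↥(Algebra.adjoin ℤℓ S) →+* ↥R₂ :=
    (barEmb N).restrict (Algebra.adjoin ℤℓ S) R₂ hmem
  exact hx.map_of_comp_eq f (barEmb N) (by ext y; rfl)

variable {W : Subring Kb} {K' : Subfield Kb}

/-- constants of `W` lie in every model -/
theorem const_mem_model {C : Subring (Fb N)}
    (hC : IsModel (modelBase N W) (modelField N K') C) (hWK : ∀ x ∈ W, x ∈ K') {a : Kb}
    (ha : a ∈ W) : algebraMap Kb (Fb N) a ∈ C :=
  hC.base_le (modelBase_le_modelField N hWK) (const_mem_modelBase N W ha)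

theorem jBar_mem_model {C : Subring (Fb N)}
    (hC : IsModel (modelBase N W) (modelField N K') C) (hWK : ∀ x ∈ W, x ∈ K') :
    jBar N ∈ C :=
  hC.base_le (modelBase_le_modelField N hWK) (jBar_mem_modelBase N W)

/-- **the finite `ℤ_(ℓ)`-chart lies in every model over `W ⊇ ℤ_(ℓ)`** -/
theorem barEmb_mem_model_of_mem_chartAlgFin
    (hZW : ∀ r : ℤℓ, algebraMap ℚ Kb ((r : ℤℓ) : ℚ) ∈ W)
    {C : Subring (Fb N)} (hC : IsModel (modelBase N W) (modelField N K') C)
    {b : F} (hb : b ∈ chartAlgFin N ℓ) : barEmb N b ∈ C := by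
  refine (hC _).mpr ⟨barEmb_mem_modelField N K' b, ?_⟩
  refine isIntegral_barEmb_of_mem_chartAlg N ℓ {jFull N} (modelBase N W) (fun r => ?_)
    (fun s hs => ?_) hb
  · rw [barEmb_algebraMap_zl]
    exact const_mem_modelBase N W (hZW r)
  · rw [Set.mem_singleton_iff] at hs
    subst hs
    rw [barEmb_jFull]
    exact jBar_mem_modelBase N W

/-- **the `ℤ_(ℓ)`-chart at infinity lies in every model at infinity over `W ⊇ ℤ_(ℓ)`** -/
theorem barEmb_mem_model_of_mem_chartAlgInf
    (hZW : ∀ r : ℤℓ, algebraMap ℚ Kb ((r : ℤℓ) : ℚ) ∈ W)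
    {C : Subring (Fb N)} (hC : IsModel (Inf.modelBaseInf N W) (modelField N K') C)
    {b : F} (hb : b ∈ chartAlgInf N ℓ) : barEmb N b ∈ C := by
  refine (hC _).mpr ⟨barEmb_mem_modelField N K' b, ?_⟩
  refine isIntegral_barEmb_of_mem_chartAlg N ℓ {(jFull N)⁻¹} (Inf.modelBaseInf N W)
    (fun r => ?_) (fun s hs => ?_) hb
  · rw [barEmb_algebraMap_zl]
    exact Inf.const_mem_modelBaseInf N W (hZW r)
  · rw [Set.mem_singleton_iff] at hs
    subst hs
    rw [map_inv₀, barEmb_jFull]
    exact Inf.jBar_inv_mem_modelBaseInf N W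

/-! ### degeneracy maps applied to chart elements -/

section Degen

variable (M q : ℕ) [NeZero M] [NeZero q] [NeZero (M * q)] {W : Subring Kb} {K' : Subfield Kb}

/-- `α (barEmb b)` lies in the level `M q` model, for `b` in the finite `ℤ_(ℓ)`-chart of level
`M` -/
theorem alpha_barEmb_mem_model (hZW : ∀ r : ℤℓ, algebraMap ℚ Kb ((r : ℤℓ) : ℚ) ∈ W)
    {C : Subring (Fb (M * q))} (hC : IsModel (modelBase (M * q) W) (modelField (M * q) K') C)
    {b : ↥(modularFunctionFieldFull M)} (hb : b ∈ chartAlgFin M ℓ) :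
    heckeAlphaBar Kb M q (barEmb M b) ∈ C := by
  have hCM := isModel_modelOf (modelBase M W) (modelField M K')
  exact alpha_mem_model M q hCM hC (barEmb_mem_model_of_mem_chartAlgFin M ℓ hZW hCM hb)

/-- `β (barEmb b)` lies in the level `M q` model (`q` prime), for `b` in the finite
`ℤ_(ℓ)`-chart of level `M` -/
theorem beta_barEmb_mem_model (hq : q.Prime)
    (hZW : ∀ r : ℤℓ, algebraMap ℚ Kb ((r : ℤℓ) : ℚ) ∈ W)
    {C : Subring (Fb (M * q))} (hC : IsModel (modelBase (M * q) W) (modelField (M * q) K') C)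
    {b : ↥(modularFunctionFieldFull M)} (hb : b ∈ chartAlgFin M ℓ) :
    heckeBetaBar Kb M q (barEmb M b) ∈ C := by
  have hCM := isModel_modelOf (modelBase M W) (modelField M K')
  exact beta_mem_model M q hq hCM hC (barEmb_mem_model_of_mem_chartAlgFin M ℓ hZW hCM hb)

end Degen

end Fermat.Agent.BR.Inst.ChartInModel
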