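import Fermat.Agent.BR.Inst.CentreFin
import Fermat.Agent.Val.GaussBar

/-!
# Program B, FRAME adapters: the subfields `FK K' N ⊆ F̄_N` cover `F̄_N`, and Galois

`F̄_N = Fb N = ℚ̄ · F_N`.  For an intermediate field `ℚ ⊆ K' ⊆ ℚ̄` the FRAME of Program B (B6.5)
works in the subfield `FK K' N = K' · F_N` of `F̄_N` generated by the constants of `K'` and the
functions with rational `q`-expansion.  (Local copy of the FRAME definition: `FK` below is
*definitionally* the `Subfield.closure` written in `FK_def`, so that it can be identified by `rfl`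
with any other copy of the same definition.)

* `FK_mono`, `FK_le_sup_left/right` : directedness;
* `map_val_FK`, `mem_FK_iff_coe_mem_barOver` : bridge to `Val.barOver` (subfield of `ℚ̄((q))`);
* **COVER** `exists_finset_forall_mem_FK` (one element), `exists_finset_forall_subset_FK` (a finite
  set): there is a finite set `S` of constants such that the given elements lie in `FK K' N` for
  *every* `K' ⊇ S`; corollaries `exists_fg_subset_FK`, `exists_le_fg_subset_FK` (`K' = K₀(S)`),
  `exists_finiteDimensional_subset_FK`, `FK_top`, `iSup_FK`-free statement `exists_mem_FK`;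
* **GALOIS** `gal_smul_eq_of_mem_FK` : if `σ` fixes `K'` pointwise, the arithmetic Galois action of
  `σ` fixes `FK K' N` pointwise; `gal_smul_mem_FK` : if `σ K' ⊆ K'` it preserves `FK K' N`.
-/

set_option autoImplicit false

open ModularCurve AlgebraicCurve

namespace Fermat.Agent.BR.Inst.FKCover

open Fermat.Agent.X0 Fermat.Agent.Good.Bridge Fermat.Agent.Val

variable (K' : IntermediateField ℚ Kb) (N : ℕ)

/-- **FRAME.** The subfield `K' · F_N` of `F̄_N`: generated by the constants from `K'` and by the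
functions with rational `q`-expansion coefficients. -/
noncomputable def FK : Subfield (Fb N) :=
  Subfield.closure (algebraMap Kb (Fb N) '' (K' : Set Kb) ∪ Set.range (barEmb N))

theorem FK_def : FK K' N =
    Subfield.closure (algebraMap Kb (Fb N) '' (K' : Set Kb) ∪ Set.range (barEmb N)) := rfl

variable {K' N}

theorem algebraMap_mem_FK {c : Kb} (hc : c ∈ K') : algebraMap Kb (Fb N) c ∈ FK K' N :=
  Subfield.subset_closure (Or.inl ⟨c, hc, rfl⟩)

variable (K') in
theorem barEmb_mem_FK (x : ↥(modularFunctionFieldFull N)) : barEmb N x ∈ FK K' N :=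
  Subfield.subset_closure (Or.inr ⟨x, rfl⟩)

theorem FK_mono {K₁ K₂ : IntermediateField ℚ Kb} (h : K₁ ≤ K₂) : FK K₁ N ≤ FK K₂ N :=
  Subfield.closure_mono (Set.union_subset_union_left _ (Set.image_mono h))

theorem FK_le_sup_left (K₁ K₂ : IntermediateField ℚ Kb) : FK K₁ N ≤ FK (K₁ ⊔ K₂) N :=
  FK_mono le_sup_left

theorem FK_le_sup_right (K₁ K₂ : IntermediateField ℚ Kb) : FK K₂ N ≤ FK (K₁ ⊔ K₂) N :=
  FK_mono le_sup_right

/-! ### bridge to `Val.barOver` -/

variable (K' N) in
/-- The image of `FK K' N` in `ℚ̄((q))` is `Val.barOver F_N K'`. -/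
theorem map_val_FK :
    (FK K' N).map ((modularFunctionFieldBar N).val : Fb N →+* LaurentSeries Kb) =
      barOver (modularFunctionFieldFull N) K' := by
  rw [FK, RingHom.map_field_closure, barOver, Set.image_union]
  congr 2
  · ext y
    constructor
    · rintro ⟨_, ⟨c, hc, rfl⟩, rfl⟩
      refine ⟨c, hc, ?_⟩
      show (HahnSeries.C c : LaurentSeries Kb) = algebraMap Kb (LaurentSeries Kb) c
      rw [algebraMap_laurentSeries_eq_single]
      rfl
    · rintro ⟨c, hc, rfl⟩
      refine ⟨algebraMap Kb (Fb N) c, ⟨c, hc, rfl⟩, ?_⟩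
      show algebraMap Kb (LaurentSeries Kb) c = (HahnSeries.C c : LaurentSeries Kb)
      rw [algebraMap_laurentSeries_eq_single]
      rfl
  · ext y
    constructor
    · rintro ⟨_, ⟨x, rfl⟩, rfl⟩
      exact ⟨x, x.2, rfl⟩
    · rintro ⟨x, hx, rfl⟩
      exact ⟨barEmb N ⟨x, hx⟩, ⟨⟨x, hx⟩, rfl⟩, rfl⟩

theorem mem_FK_iff_coe_mem_barOver {x : Fb N} :
    x ∈ FK K' N ↔ (x : LaurentSeries Kb) ∈ barOver (modularFunctionFieldFull N) K' := by
  rw [← map_val_FK, Subfield.mem_map]
  constructor
  · intro h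
    exact ⟨x, h, rfl⟩
  · rintro ⟨y, hy, hyx⟩
    have : y = x := Subtype.ext hyx
    rwa [← this]

/-! ### COVER -/

/-- Every element of `ℚ̄ · F₀` lies in `K · F₀` for a finitely generated `K ⊆ ℚ̄`. -/
theorem exists_fg_mem_barOver (F₀ : IntermediateField ℚ (LaurentSeries ℚ))
    {x : LaurentSeries Kb} (hx : x ∈ laurentBaseChange Kb F₀) :
    ∃ K : IntermediateField ℚ Kb, K.FG ∧ x ∈ barOver F₀ K := by
  rw [mem_laurentBaseChange_iff] at hx
  induction hx using Subfield.closure_induction with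
  | mem y hy =>
      rcases hy with ⟨c, rfl⟩ | ⟨z, hz, rfl⟩
      · refine ⟨IntermediateField.adjoin ℚ {c}, ?_, ?_⟩
        · have := IntermediateField.fg_adjoin_finset (F := ℚ) ({c} : Finset Kb)
          simpa using this
        · apply Subfield.subset_closure
          left
          refine ⟨c, IntermediateField.mem_adjoin_simple_self ℚ c, ?_⟩
          rw [algebraMap_laurentSeries_eq_single]
          rfl
      · exact ⟨⊥, IntermediateField.fg_bot, Subfield.subset_closure (Or.inr ⟨z, hz, rfl⟩)⟩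
  | one => exact ⟨⊥, IntermediateField.fg_bot, (barOver F₀ ⊥).one_mem⟩
  | add x y _ _ hx hy =>
      obtain ⟨K, hK, hxK⟩ := hx
      obtain ⟨K₂, hK₂, hyK⟩ := hy
      exact ⟨K ⊔ K₂, IntermediateField.fg_sup hK hK₂, (barOver F₀ (K ⊔ K₂)).add_mem
        (barOver_mono F₀ le_sup_left hxK) (barOver_mono F₀ le_sup_right hyK)⟩
  | neg x _ hx =>
      obtain ⟨K, hK, hxK⟩ := hx
      exact ⟨K, hK, (barOver F₀ K).neg_mem hxK⟩
  | inv x _ hx =>
      obtain ⟨K, hK, hxK⟩ := hx
      exact ⟨K, hK, (barOver F₀ K).inv_mem hxK⟩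
  | mul x y _ _ hx hy =>
      obtain ⟨K, hK, hxK⟩ := hx
      obtain ⟨K₂, hK₂, hyK⟩ := hy
      exact ⟨K ⊔ K₂, IntermediateField.fg_sup hK hK₂, (barOver F₀ (K ⊔ K₂)).mul_mem
        (barOver_mono F₀ le_sup_left hxK) (barOver_mono F₀ le_sup_right hyK)⟩

/-- **COVER, one element.** For every `x ∈ F̄_N` there is a finite set `S` of constants such that
`x ∈ FK K' N` for every `K' ⊇ S`. -/
theorem exists_finset_forall_mem_FK (x : Fb N) :
    ∃ S : Finset Kb, ∀ K' : IntermediateField ℚ Kb, (↑S : Set Kb) ⊆ K' → x ∈ FK K' N := by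
  classical
  obtain ⟨K, hK, hxK⟩ := exists_fg_mem_barOver (modularFunctionFieldFull N) x.2
  obtain ⟨t, ht, rfl⟩ := IntermediateField.fg_def.mp hK
  refine ⟨ht.toFinset, fun K' hS => ?_⟩
  rw [mem_FK_iff_coe_mem_barOver]
  refine barOver_mono _ ?_ hxK
  rw [IntermediateField.adjoin_le_iff]
  intro c hc
  exact hS (by simpa using hc)

/-- **COVER, finite sets.** For every finite `T ⊆ F̄_N` there is a finite set `S` of constants
such that `T ⊆ FK K' N` for every `K' ⊇ S`. -/
theorem exists_finset_forall_subset_FK (T : Finset (Fb N)) :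
    ∃ S : Finset Kb, ∀ K' : IntermediateField ℚ Kb, (↑S : Set Kb) ⊆ K' →
      (↑T : Set (Fb N)) ⊆ FK K' N := by
  classical
  choose S hS using fun x : Fb N => exists_finset_forall_mem_FK (N := N) x
  refine ⟨T.biUnion S, fun K' hK' x hx => hS x K' ?_⟩
  intro c hc
  exact hK' (by
    rw [Finset.mem_coe, Finset.mem_biUnion]
    exact ⟨x, hx, hc⟩)

theorem exists_finset_forall_subset_FK' {T : Set (Fb N)} (hT : T.Finite) :
    ∃ S : Finset Kb, ∀ K' : IntermediateField ℚ Kb, (↑S : Set Kb) ⊆ K' → T ⊆ FK K' N := by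
  obtain ⟨S, hS⟩ := exists_finset_forall_subset_FK (N := N) hT.toFinset
  exact ⟨S, fun K' hK' => by simpa using hS K' hK'⟩

/-- **COVER**, in the form `K' = K₀(S)`, `S` finite. -/
theorem exists_le_fg_subset_FK (K₀ : IntermediateField ℚ Kb) (T : Finset (Fb N)) :
    ∃ S : Finset Kb, (↑T : Set (Fb N)) ⊆ FK (K₀ ⊔ IntermediateField.adjoin ℚ (↑S : Set Kb)) N := by
  obtain ⟨S, hS⟩ := exists_finset_forall_subset_FK (N := N) T
  refine ⟨S, hS _ ?_⟩
  intro c hc
  exact (le_sup_right : IntermediateField.adjoin ℚ (↑S : Set Kb) ≤ _)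
    (IntermediateField.subset_adjoin ℚ _ hc)

/-- **COVER**, with `K'` finitely generated (a number field). -/
theorem exists_fg_subset_FK (T : Finset (Fb N)) :
    ∃ K' : IntermediateField ℚ Kb, K'.FG ∧ (↑T : Set (Fb N)) ⊆ FK K' N := by
  obtain ⟨S, hS⟩ := exists_finset_forall_subset_FK (N := N) T
  exact ⟨IntermediateField.adjoin ℚ (↑S : Set Kb), IntermediateField.fg_adjoin_finset S,
    hS _ (IntermediateField.subset_adjoin ℚ _)⟩

/-- **COVER**, with `K'` a number field. -/
theorem exists_finiteDimensional_subset_FK (T : Finset (Fb N)) :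
    ∃ K' : IntermediateField ℚ Kb, FiniteDimensional ℚ K' ∧ (↑T : Set (Fb N)) ⊆ FK K' N := by
  obtain ⟨S, hS⟩ := exists_finset_forall_subset_FK (N := N) T
  refine ⟨IntermediateField.adjoin ℚ (↑S : Set Kb), ?_, hS _ (IntermediateField.subset_adjoin ℚ _)⟩
  have : Algebra.IsAlgebraic ℚ Kb := algebraIsAlgebraic_rat_algebraicClosure
  exact IntermediateField.finiteDimensional_adjoin fun c _ => Algebra.IsIntegral.isIntegral c

theorem exists_mem_FK (x : Fb N) :
    ∃ K' : IntermediateField ℚ Kb, FiniteDimensional ℚ K' ∧ x ∈ FK K' N := by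
  classical
  obtain ⟨K', hK', h⟩ := exists_finiteDimensional_subset_FK (N := N) {x}
  exact ⟨K', hK', h (by simp)⟩

variable (N) in
theorem FK_top : FK ⊤ N = ⊤ := by
  rw [eq_top_iff]
  intro x _
  obtain ⟨K', _, h⟩ := exists_mem_FK x
  exact FK_mono le_top h

/-! ### GALOIS -/

section Galois

variable [NeZero N]

/-- **GALOIS.** If `σ` fixes `K'` pointwise, the arithmetic Galois action of `σ` on `F̄_N` fixes
`FK K' N` pointwise. -/
theorem gal_smul_eq_of_mem_FK {σ : Kb ≃ₐ[ℚ] Kb} (hσ : ∀ c ∈ K', σ c = c) {x : Fb N}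
    (hx : x ∈ FK K' N) : arithmeticGalois (modularFunctionFieldFull N) σ • x = x := by
  induction hx using Subfield.closure_induction with
  | mem y hy =>
      rcases hy with ⟨c, hc, rfl⟩ | ⟨z, rfl⟩
      · rw [SemilinearAut.smul_algebraMap, baseAut_arithmeticGalois]
        show algebraMap Kb (Fb N) (σ c) = _
        rw [hσ c hc]
      · exact gal_smul_barEmb σ z
  | one => exact smul_one _
  | add x y _ _ hx hy => rw [smul_add, hx, hy]
  | neg x _ hx => rw [smul_neg, hx]
  | inv x _ hx => rw [smul_inv'', hx]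
  | mul x y _ _ hx hy => rw [smul_mul', hx, hy]

/-- If `σ K' ⊆ K'`, the arithmetic Galois action of `σ` preserves `FK K' N`. -/
theorem gal_smul_mem_FK {σ : Kb ≃ₐ[ℚ] Kb} (hσ : ∀ c ∈ K', σ c ∈ K') {x : Fb N}
    (hx : x ∈ FK K' N) : arithmeticGalois (modularFunctionFieldFull N) σ • x ∈ FK K' N := by
  induction hx using Subfield.closure_induction with
  | mem y hy =>
      rcases hy with ⟨c, hc, rfl⟩ | ⟨z, rfl⟩
      · rw [SemilinearAut.smul_algebraMap, baseAut_arithmeticGalois]
        exact algebraMap_mem_FK (hσ c hc)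
      · rw [gal_smul_barEmb σ z]
        exact barEmb_mem_FK K' z
  | one => rw [smul_one]; exact one_mem _
  | add x y _ _ hx hy => rw [smul_add]; exact add_mem hx hy
  | neg x _ hx => rw [smul_neg]; exact neg_mem hx
  | inv x _ hx => rw [smul_inv'']; exact inv_mem hx
  | mul x y _ _ hx hy => rw [smul_mul']; exact mul_mem hx hy

end Galois

/-! ### `Subfield` form (constants in a `Subfield ℚ̄`, the shape of the tower of unramified DVR fields) -/

section SubfieldForm

variable (E : Subfield Kb)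

variable (N) in
/-- The same subfield of `F̄_N`, for a `Subfield` of constants. -/
noncomputable def FKs : Subfield (Fb N) :=
  Subfield.closure (algebraMap Kb (Fb N) '' (E : Set Kb) ∪ Set.range (barEmb N))

/-- A subfield of `ℚ̄` as an intermediate field of `ℚ̄/ℚ`. -/
noncomputable def ofSubfield : IntermediateField ℚ Kb :=
  E.toIntermediateField fun r => by
    rw [eq_ratCast]
    exact SubfieldClass.ratCast_mem _ r

@[simp] theorem mem_ofSubfield {c : Kb} : c ∈ ofSubfield E ↔ c ∈ E := Iff.rfl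

@[simp] theorem coe_ofSubfield : (ofSubfield E : Set Kb) = E := rfl

@[simp] theorem ofSubfield_toSubfield : ofSubfield K'.toSubfield = K' := rfl

variable (K' N) in
theorem FK_eq_FKs : FK K' N = FKs N K'.toSubfield := rfl

variable (N) in
theorem FKs_eq_FK : FKs N E = FK (ofSubfield E) N := rfl

theorem FKs_mono {E₁ E₂ : Subfield Kb} (h : E₁ ≤ E₂) : FKs N E₁ ≤ FKs N E₂ :=
  Subfield.closure_mono (Set.union_subset_union_left _ (Set.image_mono h))

/-- **COVER**, `Subfield` form. -/
theorem exists_finset_forall_subset_FKs (T : Finset (Fb N)) :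
    ∃ S : Finset Kb, ∀ E : Subfield Kb, (↑S : Set Kb) ⊆ E → (↑T : Set (Fb N)) ⊆ FKs N E := by
  obtain ⟨S, hS⟩ := exists_finset_forall_subset_FK (N := N) T
  exact ⟨S, fun E hE => hS (ofSubfield E) hE⟩

/-- **GALOIS**, `Subfield` form. -/
theorem gal_smul_eq_of_mem_FKs [NeZero N] {σ : Kb ≃ₐ[ℚ] Kb} (hσ : ∀ c ∈ E, σ c = c) {x : Fb N}
    (hx : x ∈ FKs N E) : arithmeticGalois (modularFunctionFieldFull N) σ • x = x :=
  gal_smul_eq_of_mem_FK (K' := ofSubfield E) hσ hx

end SubfieldForm

end Fermat.Agent.BR.Inst.FKCover
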