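/-
Program B (BADRED), block B6, node B6.5c (helper22), abstract part 1: the localisation of a
noetherian integrally closed domain `B` at a height-one prime `p`, as a `ValuationSubring` of the
fraction field.

* `centre O hO` : the centre on `B` of a valuation subring `O ⊇ B` (a prime ideal);
* `locVS p hp : ValuationSubring F` : `B_p = {x | KrullNormal.RegularAt p x}`;
* `centre_locVS` : its centre is `p`;
* `eq_locVS_of_le` : **maximality** (a discrete valuation ring is a maximal proper subring);
* `eq_locVS_centre` : a valuation subring `O ⊇ B`, `O ≠ ⊤`, whose centre has height one is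
  `B_centre`.
Mathlib + BR/KrullNormal.
-/
import Mathlib
import Fermat.Agent.BR.KrullNormal

set_option autoImplicit false
set_option linter.style.haveILetI false
set_option linter.unusedSectionVars false

namespace Fermat.Agent.BR.Inst.LocVal

open Fermat.Agent.BR.KrullNormal

variable {B : Type*} [CommRing B] {F : Type*} [Field F] [Algebra B F]

/-! ### The centre of a valuation subring -/

/-- The centre on `B` of a valuation subring `O` of `F` containing (the image of) `B`. -/
def centre (O : ValuationSubring F) (hO : ∀ b : B, algebraMap B F b ∈ O) : Ideal B where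
  carrier := {b | algebraMap B F b ∈ O.nonunits}
  add_mem' := by
    intro a b ha hb
    simp only [Set.mem_ofPred_eq, O.mem_nonunits_iff, map_add] at ha hb ⊢
    exact lt_of_le_of_lt (O.valuation.map_add _ _) (max_lt ha hb)
  zero_mem' := by
    simp only [Set.mem_ofPred_eq, O.mem_nonunits_iff, map_zero]
    exact zero_lt_one
  smul_mem' := by
    intro c b hb
    simp only [Set.mem_ofPred_eq, O.mem_nonunits_iff, smul_eq_mul, map_mul] at hb ⊢
    calc O.valuation (algebraMap B F c) * O.valuation (algebraMap B F b)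
        ≤ 1 * O.valuation (algebraMap B F b) :=
          mul_le_mul' ((O.valuation_le_one_iff _).mpr (hO c)) le_rfl
      _ = O.valuation (algebraMap B F b) := one_mul _
      _ < 1 := hb

theorem mem_centre_iff {O : ValuationSubring F} {hO : ∀ b : B, algebraMap B F b ∈ O} {b : B} :
    b ∈ centre O hO ↔ algebraMap B F b ∈ O.nonunits := Iff.rfl

theorem mem_centre_iff_lt {O : ValuationSubring F} {hO : ∀ b : B, algebraMap B F b ∈ O} {b : B} :
    b ∈ centre O hO ↔ O.valuation (algebraMap B F b) < 1 := by
  rw [mem_centre_iff, O.mem_nonunits_iff]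

instance centre_isPrime (O : ValuationSubring F) (hO : ∀ b : B, algebraMap B F b ∈ O) :
    (centre O hO).IsPrime := by
  constructor
  · intro h
    have h1 : (1 : B) ∈ centre O hO := by rw [h]; trivial
    rw [mem_centre_iff_lt, map_one, map_one] at h1
    exact lt_irrefl _ h1
  · intro a b hab
    rw [mem_centre_iff_lt, map_mul, map_mul] at hab
    rw [mem_centre_iff_lt, mem_centre_iff_lt]
    by_contra hcon
    rw [not_or, not_lt, not_lt] at hcon
    have ha : O.valuation (algebraMap B F a) = 1 :=
      le_antisymm ((O.valuation_le_one_iff _).mpr (hO a)) hcon.1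
    have hb : O.valuation (algebraMap B F b) = 1 :=
      le_antisymm ((O.valuation_le_one_iff _).mpr (hO b)) hcon.2
    rw [ha, hb, one_mul] at hab
    exact lt_irrefl _ hab

/-! ### `B_p` as a subring of `F` -/

/-- the subring of elements regular at `p` -/
def locSubring (p : Ideal B) [p.IsPrime] : Subring F where
  carrier := {x | RegularAt p x}
  mul_mem' := by
    rintro x y ⟨a, b, hb, hab⟩ ⟨a', b', hb', hab'⟩
    refine ⟨a * a', b * b', fun h => ?_, ?_⟩
    · rcases Ideal.IsPrime.mem_or_mem inferInstance h with h | h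
      · exact hb h
      · exact hb' h
    · rw [map_mul, map_mul, ← hab, ← hab']; ring
  one_mem' := ⟨1, 1, fun h => (Ideal.ne_top_iff_one p).mp (Ideal.IsPrime.ne_top inferInstance) h,
    by simp⟩
  add_mem' := by
    rintro x y ⟨a, b, hb, hab⟩ ⟨a', b', hb', hab'⟩
    refine ⟨a * b' + a' * b, b * b', fun h => ?_, ?_⟩
    · rcases Ideal.IsPrime.mem_or_mem inferInstance h with h | h
      · exact hb h
      · exact hb' h
    · rw [map_add, map_mul, map_mul, map_mul, ← hab, ← hab']; ring
  zero_mem' := ⟨0, 1, fun h => (Ideal.ne_top_iff_one p).mp (Ideal.IsPrime.ne_top inferInstance) h,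
    by simp⟩
  neg_mem' := by
    rintro x ⟨a, b, hb, hab⟩
    exact ⟨-a, b, hb, by rw [map_neg, ← hab]; ring⟩

theorem mem_locSubring_iff {p : Ideal B} [p.IsPrime] {x : F} :
    x ∈ locSubring (F := F) p ↔ RegularAt p x := Iff.rfl

theorem algebraMap_mem_locSubring (p : Ideal B) [p.IsPrime] (b : B) :
    algebraMap B F b ∈ locSubring (F := F) p :=
  ⟨b, 1, fun h => (Ideal.ne_top_iff_one p).mp (Ideal.IsPrime.ne_top inferInstance) h, by simp⟩

/-! ### `B_p` is a valuation ring when `p` has height one -/

section DVR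

variable [IsDomain B] [IsFractionRing B F]

theorem algebraMap_ne_zero_of_notMem {p : Ideal B} {b : B} (hb : b ∉ p) :
    algebraMap B F b ≠ 0 := by
  intro h
  apply hb
  have : b = 0 := IsFractionRing.injective B F (by rw [h, map_zero])
  rw [this]
  exact p.zero_mem

variable [IsNoetherianRing B] [IsIntegrallyClosed B]

/-- an element of `F` or its inverse is regular at a height-one prime -/
theorem regularAt_or_inv (p : Ideal B) [p.IsPrime] (hp : p.height = 1) (x : F) :
    RegularAt p x ∨ RegularAt p x⁻¹ := by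
  set S := Localization.AtPrime p with hS
  haveI : IsDiscreteValuationRing S := isDiscreteValuationRing_of_height_one B p hp
  letI : Algebra S F :=
    (IsLocalization.lift (M := p.primeCompl) (S := S) (g := algebraMap B F)
      (fun y => (algebraMap_ne_zero_of_notMem (F := F) y.2).isUnit)).toAlgebra
  haveI : IsScalarTower B S F :=
    IsScalarTower.of_algebraMap_eq fun b => (IsLocalization.lift_eq _ b).symm
  haveI : IsFractionRing S F :=
    IsFractionRing.isFractionRing_of_isDomain_of_isLocalization p.primeCompl S F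
  have key : ∀ y : F, IsLocalization.IsInteger S y → RegularAt p y := by
    rintro y ⟨s, hs⟩
    obtain ⟨⟨a, b⟩, hab⟩ := IsLocalization.mk'_surjective p.primeCompl s
    refine ⟨a, b, b.2, ?_⟩
    have h1 : s * algebraMap B S b = algebraMap B S a := by
      rw [← hab]; exact IsLocalization.mk'_spec S a b
    have h2 := congrArg (algebraMap S F) h1
    rw [map_mul, ← IsScalarTower.algebraMap_apply, ← IsScalarTower.algebraMap_apply] at h2
    rw [← hs]
    exact h2
  rcases (ValuationRing.iff_isInteger_or_isInteger S F).mp inferInstance x with h | h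
  · exact Or.inl (key x h)
  · exact Or.inr (key x⁻¹ h)

/-- **`B_p` as a valuation subring of `F`**, for a height-one prime `p`. -/
def locVS (p : Ideal B) [p.IsPrime] (hp : p.height = 1) : ValuationSubring F :=
  { locSubring (F := F) p with
    mem_or_inv_mem' := regularAt_or_inv p hp }

theorem mem_locVS_iff {p : Ideal B} [p.IsPrime] {hp : p.height = 1} {x : F} :
    x ∈ locVS (F := F) p hp ↔ RegularAt p x := Iff.rfl

theorem algebraMap_mem_locVS (p : Ideal B) [p.IsPrime] (hp : p.height = 1) (b : B) :
    algebraMap B F b ∈ locVS (F := F) p hp :=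
  algebraMap_mem_locSubring p b

/-- elements outside `p` are units of `B_p` -/
theorem inv_algebraMap_mem_locVS {p : Ideal B} [p.IsPrime] (hp : p.height = 1) {b : B}
    (hb : b ∉ p) : (algebraMap B F b)⁻¹ ∈ locVS (F := F) p hp :=
  ⟨1, b, hb, by rw [map_one, inv_mul_cancel₀ (algebraMap_ne_zero_of_notMem hb)]⟩

/-- a regular element with numerator in `p` is a nonunit -/
theorem centre_locVS (p : Ideal B) [p.IsPrime] (hp : p.height = 1) :
    centre (locVS (F := F) p hp) (algebraMap_mem_locVS p hp) = p := by
  ext b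
  rw [mem_centre_iff]
  constructor
  · intro hb
    by_contra hbp
    have h1 := inv_algebraMap_mem_locVS (F := F) hp hbp
    have h0 : algebraMap B F b ≠ 0 := algebraMap_ne_zero_of_notMem hbp
    rw [(locVS (F := F) p hp).mem_nonunits_iff] at hb
    have h2 : (locVS (F := F) p hp).valuation (algebraMap B F b)⁻¹ ≤ 1 :=
      ((locVS (F := F) p hp).valuation_le_one_iff _).mpr h1
    rw [map_inv₀] at h2
    have h3 : (1 : (locVS (F := F) p hp).ValueGroup) ≤
        (locVS (F := F) p hp).valuation (algebraMap B F b) := by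
      have hv0 : (locVS (F := F) p hp).valuation (algebraMap B F b) ≠ 0 :=
        ((locVS (F := F) p hp).valuation.ne_zero_iff).mpr h0
      exact (inv_le_one₀ (zero_lt_iff.mpr hv0)).mp h2
    exact absurd hb (not_lt.mpr h3)
  · intro hb
    by_cases h0 : algebraMap B F b = 0
    · rw [h0, (locVS (F := F) p hp).mem_nonunits_iff, map_zero]; exact zero_lt_one
    -- if `b` were a unit of `B_p`, `b⁻¹ = a / s` with `s ∉ p`, so `s = a b ∈ p`
    rw [(locVS (F := F) p hp).mem_nonunits_iff]
    by_contra hlt
    have h1 : (locVS (F := F) p hp).valuation (algebraMap B F b)⁻¹ ≤ 1 := by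
      rw [map_inv₀]
      have hv0 : (locVS (F := F) p hp).valuation (algebraMap B F b) ≠ 0 :=
        ((locVS (F := F) p hp).valuation.ne_zero_iff).mpr h0
      exact (inv_le_one₀ (zero_lt_iff.mpr hv0)).mpr (not_lt.mp hlt)
    obtain ⟨a, s, hs, has⟩ := ((locVS (F := F) p hp).valuation_le_one_iff _).mp h1
    apply hs
    have h2 : algebraMap B F s = algebraMap B F (a * b) := by
      rw [map_mul, ← has]
      field_simp
    rw [IsFractionRing.injective B F h2]
    exact p.mul_mem_left a hb

/-- **A uniformizer of `B_p`**: every nonzero element of `F` is a unit of `B_p` times a power of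
`t`. -/
theorem exists_uniformizer (p : Ideal B) [p.IsPrime] (hp : p.height = 1) :
    ∃ t : F, t ≠ 0 ∧ RegularAt p t ∧ ¬ RegularAt p t⁻¹ ∧
      ∀ x : F, x ≠ 0 → ∃ n : ℤ, RegularAt p (x * t ^ (-n)) ∧ RegularAt p (x * t ^ (-n))⁻¹ := by
  set S := Localization.AtPrime p with hS
  haveI : IsDiscreteValuationRing S := isDiscreteValuationRing_of_height_one B p hp
  letI : Algebra S F :=
    (IsLocalization.lift (M := p.primeCompl) (S := S) (g := algebraMap B F)
      (fun y => (algebraMap_ne_zero_of_notMem (F := F) y.2).isUnit)).toAlgebra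
  haveI : IsScalarTower B S F :=
    IsScalarTower.of_algebraMap_eq fun b => (IsLocalization.lift_eq _ b).symm
  haveI : IsFractionRing S F :=
    IsFractionRing.isFractionRing_of_isDomain_of_isLocalization p.primeCompl S F
  have hinj : Function.Injective (algebraMap S F) := IsFractionRing.injective S F
  have key : ∀ s : S, RegularAt p (algebraMap S F s) := by
    intro s
    obtain ⟨⟨a, b⟩, hab⟩ := IsLocalization.mk'_surjective p.primeCompl s
    refine ⟨a, b, b.2, ?_⟩
    have h1 : s * algebraMap B S b = algebraMap B S a := by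
      rw [← hab]; exact IsLocalization.mk'_spec S a b
    have h2 := congrArg (algebraMap S F) h1
    rw [map_mul, ← IsScalarTower.algebraMap_apply, ← IsScalarTower.algebraMap_apply] at h2
    exact h2
  have key' : ∀ y : F, RegularAt p y → ∃ s : S, algebraMap S F s = y := by
    rintro y ⟨a, b, hb, hab⟩
    refine ⟨IsLocalization.mk' S a (⟨b, hb⟩ : p.primeCompl), ?_⟩
    have hb0 : algebraMap B F b ≠ 0 := algebraMap_ne_zero_of_notMem hb
    have h1 : IsLocalization.mk' S a (⟨b, hb⟩ : p.primeCompl) * algebraMap B S b =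
        algebraMap B S a := IsLocalization.mk'_spec S a (⟨b, hb⟩ : p.primeCompl)
    have h2 := congrArg (algebraMap S F) h1
    rw [map_mul, ← IsScalarTower.algebraMap_apply, ← IsScalarTower.algebraMap_apply, ← hab] at h2
    exact mul_right_cancel₀ hb0 h2
  obtain ⟨ϖ, hϖ⟩ := IsDiscreteValuationRing.exists_irreducible S
  have hϖ0 : ϖ ≠ 0 := hϖ.ne_zero
  have ht0 : algebraMap S F ϖ ≠ 0 := fun h => hϖ0 (hinj (by rw [h, map_zero]))
  refine ⟨algebraMap S F ϖ, ht0, key ϖ, ?_, ?_⟩
  · intro hreg
    obtain ⟨s, hs⟩ := key' _ hreg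
    apply hϖ.not_isUnit
    refine IsUnit.of_mul_eq_one s (hinj ?_)
    rw [map_mul, hs, map_one, mul_inv_cancel₀ ht0]
  · intro x hx
    obtain ⟨s1, s2, hs2, hx12⟩ := IsFractionRing.div_surjective (A := S) x
    have hs20 : s2 ≠ 0 := nonZeroDivisors.ne_zero hs2
    have hs10 : s1 ≠ 0 := by
      rintro rfl
      rw [map_zero, zero_div] at hx12
      exact hx hx12.symm
    obtain ⟨n1, u1, h1⟩ := IsDiscreteValuationRing.eq_unit_mul_pow_irreducible hs10 hϖ
    obtain ⟨n2, u2, h2⟩ := IsDiscreteValuationRing.eq_unit_mul_pow_irreducible hs20 hϖ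
    refine ⟨(n1 : ℤ) - n2, ?_⟩
    have hu2 : algebraMap S F (u2 : S) ≠ 0 := fun h => u2.ne_zero (hinj (by rw [h, map_zero]))
    have hu1 : algebraMap S F (u1 : S) ≠ 0 := fun h => u1.ne_zero (hinj (by rw [h, map_zero]))
    have hcalc : x * algebraMap S F ϖ ^ (-((n1 : ℤ) - n2)) =
        algebraMap S F ((u1 * u2⁻¹ : Sˣ) : S) := by
      rw [← hx12, h1, h2, map_mul, map_mul, map_pow, map_pow, Units.val_mul, map_mul]
      have hinv : algebraMap S F ((u2⁻¹ : Sˣ) : S) = (algebraMap S F (u2 : S))⁻¹ := by
        apply eq_inv_of_mul_eq_one_left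
        rw [← map_mul, ← Units.val_mul, inv_mul_cancel, Units.val_one, map_one]
      rw [hinv, neg_sub, zpow_sub₀ ht0, zpow_natCast, zpow_natCast]
      field_simp
    constructor
    · rw [hcalc]; exact key _
    · rw [hcalc]
      have hinv : (algebraMap S F ((u1 * u2⁻¹ : Sˣ) : S))⁻¹ =
          algebraMap S F (((u1 * u2⁻¹)⁻¹ : Sˣ) : S) := by
        symm
        apply eq_inv_of_mul_eq_one_left
        rw [← map_mul, ← Units.val_mul, inv_mul_cancel, Units.val_one, map_one]
      rw [hinv]; exact key _

/-- **Maximality**: a valuation subring strictly containing `B_p` is the whole field. -/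
theorem eq_locVS_of_le (p : Ideal B) [p.IsPrime] (hp : p.height = 1) (O : ValuationSubring F)
    (hle : locVS (F := F) p hp ≤ O) (hO : O ≠ ⊤) : O = locVS (F := F) p hp := by
  apply le_antisymm _ hle
  intro x hxO
  by_contra hxV
  apply hO
  rw [eq_top_iff]
  intro y _
  obtain ⟨t, ht0, ht, htinv, hunif⟩ := exists_uniformizer (F := F) p hp
  have hx0 : x ≠ 0 := by
    rintro rfl
    exact hxV (locVS (F := F) p hp).zero_mem
  have htO : t ∈ O := hle ht
  -- `t⁻¹ ∈ O`
  have htinvO : t⁻¹ ∈ O := by
    obtain ⟨n, hn1, hn2⟩ := hunif x hx0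
    -- `x = ε t^n` with `ε` a unit of `B_p`; `x ∉ B_p` forces `n < 0`
    have hn : n < 0 := by
      by_contra hn
      rw [not_lt] at hn
      apply hxV
      have hx : x = (x * t ^ (-n)) * t ^ n := by
        rw [mul_assoc, ← zpow_add₀ ht0, neg_add_cancel, zpow_zero, mul_one]
      rw [hx]
      obtain ⟨m, rfl⟩ := Int.eq_ofNat_of_zero_le hn
      rw [zpow_natCast]
      exact (locVS (F := F) p hp).mul_mem _ _ hn1 (pow_mem ht m)
    obtain ⟨m, hm⟩ : ∃ m : ℕ, -n = m + 1 := ⟨(-n - 1).toNat, by omega⟩
    have h1 : t⁻¹ = x * (x * t ^ (-n))⁻¹ * t ^ m := by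
      rw [hm, mul_inv, ← mul_assoc, mul_inv_cancel₀ hx0, one_mul, ← zpow_neg, neg_add,
        zpow_add₀ ht0, zpow_neg_one, mul_comm (t ^ (-(m : ℤ))), mul_assoc, zpow_neg, zpow_natCast,
        inv_mul_cancel₀ (pow_ne_zero m ht0), mul_one]
    rw [h1]
    exact O.mul_mem _ _ (O.mul_mem _ _ hxO (hle hn2)) (pow_mem htO m)
  by_cases hy0 : y = 0
  · rw [hy0]; exact O.zero_mem
  obtain ⟨n, hn1, -⟩ := hunif y hy0
  have hy : y = (y * t ^ (-n)) * t ^ n := by
    rw [mul_assoc, ← zpow_add₀ ht0, neg_add_cancel, zpow_zero, mul_one]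
  rw [hy]
  refine O.mul_mem _ _ (hle hn1) ?_
  rcases le_total 0 n with h | h
  · obtain ⟨m, rfl⟩ := Int.eq_ofNat_of_zero_le h
    rw [zpow_natCast]; exact pow_mem htO m
  · obtain ⟨m, hm⟩ : ∃ m : ℕ, n = -(m : ℤ) := ⟨(-n).toNat, by omega⟩
    rw [hm, zpow_neg, zpow_natCast, ← inv_pow]
    exact pow_mem htinvO m

/-- A valuation subring `O ⊇ B`, `O ≠ ⊤`, whose centre has height one is `B_centre`. -/
theorem eq_locVS_centre (O : ValuationSubring F) (hO : ∀ b : B, algebraMap B F b ∈ O)
    (htop : O ≠ ⊤) (hht : (centre O hO).height = 1) :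
    O = locVS (F := F) (centre O hO) hht := by
  apply eq_locVS_of_le _ hht O _ htop
  rintro x ⟨a, b, hb, hab⟩
  have hb0 : algebraMap B F b ≠ 0 := algebraMap_ne_zero_of_notMem hb
  have hbunit : O.valuation (algebraMap B F b) = 1 := by
    rw [mem_centre_iff_lt, not_lt] at hb
    exact le_antisymm ((O.valuation_le_one_iff _).mpr (hO b)) hb
  rw [← O.valuation_le_one_iff]
  have : O.valuation x = O.valuation (algebraMap B F a) := by
    rw [← hab, map_mul, hbunit, mul_one]
  rw [this]
  exact (O.valuation_le_one_iff _).mpr (hO a)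

end DVR

end Fermat.Agent.BR.Inst.LocVal
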