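/-
Program B (bad reduction), level-data assembly, slice (S1) (helper19): the localisation of a
subring `C` of a field `F` at a prime ideal `n`, AS A SUBRING OF `F`.

The three descents (`BR/S0/SmoothDescent`, `BR/S0/NodeDescent`, `BR/S0/AnnulusDescent`) consume
the local rings `O_{n,W'}` of the normal models as subrings of the function field; the structure
theory (`BR/SpecialFibre`, `BR/HorizPrimes`, `BR/LocalDivNode`, …) is written for an abstract
localisation.  This file is the bridge.

* `locSub C n : Subring F` (= `Inst.LocVal.locSubring n`), `mem_locSub_iff`, `le_locSub`,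
  `inv_mem_locSub`, `locSub_mono`;
* `algebraLocSub : Algebra C (locSub C n)`, `isLocalization_locSub :
  IsLocalization.AtPrime (locSub C n) n`, hence `isLocalRing_locSub`, `isNoetherianRing_locSub`,
  `isIntegrallyClosed_locSub`;
* units: `isUnit_locSub_iff`, `not_isUnit_iff_mem` (for `x ∈ C`: unit of the localisation iff
  `x ∉ n`), `exists_num_of_not_isUnit`;
* the prime dictionary: `under` of a prime `p'` of `locSub C n` is a prime `p ≤ n` of `C` of the
  same height (`height_under`), and `mem_iff_num_mem : x * b = a, b ∉ n ⇒ (x ∈ p' ↔ a ∈ p)`;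
* `forall_mem_iff_nonunits` : if `p = C ∩ 𝔪_V` for a valuation ring `V ⊇ C` whose centre lies in
  `n`, then `p' = locSub C n ∩ 𝔪_V`.
-/
import Mathlib
import Fermat.Agent.BR.Inst.LocVal

set_option autoImplicit false
set_option linter.style.haveILetI false
set_option linter.unusedSectionVars false

namespace Fermat.Agent.BR.Inst.LocSub

open Fermat.Agent.BR.Inst.LocVal

variable {F : Type*} [Field F] (C : Subring F) (n : Ideal C) [hn : n.IsPrime]

/-- The localisation of the subring `C` at the prime `n`, as a subring of `F`. -/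
def locSub : Subring F := locSubring (F := F) n

variable {C n}

theorem mem_locSub_iff {x : F} :
    x ∈ locSub C n ↔ ∃ a b : C, b ∉ n ∧ x * (b : F) = (a : F) := Iff.rfl

variable (C n)

theorem le_locSub : C ≤ locSub C n := fun x hx =>
  ⟨⟨x, hx⟩, 1, fun h => hn.ne_top ((Ideal.eq_top_iff_one n).mpr h), by
    show x * ((1 : C) : F) = x
    rw [Subring.coe_one, mul_one]⟩

variable {C n}

theorem coe_ne_zero_of_notMem {b : C} (hb : b ∉ n) : (b : F) ≠ 0 := by
  intro h0
  apply hb
  have : b = 0 := Subtype.ext h0
  rw [this]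
  exact n.zero_mem

theorem inv_mem_locSub {b : C} (hb : b ∉ n) : ((b : F))⁻¹ ∈ locSub C n :=
  ⟨1, b, hb, by
    show ((b : F))⁻¹ * (b : F) = ((1 : C) : F)
    rw [inv_mul_cancel₀ (coe_ne_zero_of_notMem hb)]
    rfl⟩

theorem div_mem_locSub (a : C) {b : C} (hb : b ∉ n) : (a : F) / (b : F) ∈ locSub C n :=
  ⟨a, b, hb, div_mul_cancel₀ _ (coe_ne_zero_of_notMem hb)⟩

theorem eq_div_of_num_den {x : F} {a b : C} (hb : b ∉ n) (h : x * (b : F) = (a : F)) :
    x = (a : F) / (b : F) :=
  _root_.eq_div_of_mul_eq (coe_ne_zero_of_notMem hb) h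

/-- Monotonicity: a bigger ring with a prime lying over `n`. -/
theorem locSub_mono {C' : Subring F} {n' : Ideal C'} [n'.IsPrime] (hC : C ≤ C')
    (hn' : ∀ x : C, x ∉ n → (⟨(x : F), hC x.2⟩ : C') ∉ n') : locSub C n ≤ locSub C' n' := by
  rintro x ⟨a, b, hb, hab⟩
  exact ⟨⟨(a : F), hC a.2⟩, ⟨(b : F), hC b.2⟩, hn' b hb, hab⟩

variable (C n)

/-- The algebra structure of the localisation over the ring. -/
instance algebraLocSub : Algebra C (locSub C n) :=
  (Subring.inclusion (le_locSub C n)).toAlgebra

variable {C n}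

@[simp] theorem coe_algebraMap (a : C) : ((algebraMap C (locSub C n) a : locSub C n) : F) = a :=
  rfl

theorem algebraMap_injective : Function.Injective (algebraMap C (locSub C n)) := by
  intro a b hab
  apply Subtype.ext
  have := congrArg (fun z : locSub C n => (z : F)) hab
  simpa only [coe_algebraMap] using this

variable (C n)

/-- `locSub C n` is the localisation of `C` at `n`. -/
instance isLocalization_locSub : IsLocalization.AtPrime (locSub C n) n := by
  refine (isLocalization_iff _ _).mpr ⟨?_, ?_, ?_⟩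
  · rintro ⟨s, hs⟩
    refine IsUnit.of_mul_eq_one (⟨((s : F))⁻¹, inv_mem_locSub hs⟩ : locSub C n) ?_
    apply Subtype.ext
    show (s : F) * ((s : F))⁻¹ = 1
    exact mul_inv_cancel₀ (coe_ne_zero_of_notMem hs)
  · rintro ⟨x, a, b, hb, hab⟩
    exact ⟨(a, ⟨b, hb⟩), Subtype.ext hab⟩
  · intro x y hxy
    exact ⟨1, by rw [algebraMap_injective hxy]⟩

theorem isLocalRing_locSub : IsLocalRing (locSub C n) :=
  IsLocalization.AtPrime.isLocalRing (locSub C n) n

theorem isNoetherianRing_locSub [h : IsNoetherianRing C] : IsNoetherianRing (locSub C n) :=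
  IsLocalization.isNoetherianRing n.primeCompl (locSub C n) h

theorem isIntegrallyClosed_locSub [IsIntegrallyClosed C] : IsIntegrallyClosed (locSub C n) :=
  isIntegrallyClosed_of_isLocalization (locSub C n) n.primeCompl n.primeCompl_le_nonZeroDivisors

variable {C n}

/-! ### Units -/

/-- The units of the localisation: quotients of two elements outside `n`. -/
theorem isUnit_locSub_iff {x : F} (hx : x ∈ locSub C n) :
    IsUnit (⟨x, hx⟩ : locSub C n) ↔ ∃ a b : C, a ∉ n ∧ b ∉ n ∧ x * (b : F) = (a : F) := by
  constructor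
  · intro hu
    obtain ⟨a, b, hb, hab⟩ := hx
    refine ⟨a, b, ?_, hb, hab⟩
    intro ha
    -- `x = a / b` with `a ∈ n` lies in the maximal ideal
    haveI := isLocalRing_locSub C n
    have h1 : (⟨x, ⟨a, b, hb, hab⟩⟩ : locSub C n) * algebraMap C (locSub C n) b =
        algebraMap C (locSub C n) a := Subtype.ext hab
    have h2 : algebraMap C (locSub C n) a ∈ IsLocalRing.maximalIdeal (locSub C n) := by
      rw [← IsLocalization.AtPrime.map_eq_maximalIdeal n (locSub C n)]
      exact Ideal.mem_map_of_mem _ ha
    rw [← h1] at h2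
    have h3 : IsUnit ((⟨x, ⟨a, b, hb, hab⟩⟩ : locSub C n) * algebraMap C (locSub C n) b) :=
      hu.mul (IsLocalization.map_units (locSub C n) (⟨b, hb⟩ : n.primeCompl))
    exact (IsLocalRing.mem_maximalIdeal _).mp h2 h3
  · rintro ⟨a, b, ha, hb, hab⟩
    have ha0 : (a : F) ≠ 0 := coe_ne_zero_of_notMem ha
    have hb0 : (b : F) ≠ 0 := coe_ne_zero_of_notMem hb
    refine IsUnit.of_mul_eq_one (⟨(b : F) / (a : F), div_mem_locSub b ha⟩ : locSub C n) ?_
    apply Subtype.ext
    show x * ((b : F) / (a : F)) = 1
    rw [← mul_div_assoc, hab, div_self ha0]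

/-- An element of `C` is a unit of the localisation iff it lies outside `n`. -/
theorem isUnit_coe_iff (x : C) :
    IsUnit (⟨(x : F), le_locSub C n x.2⟩ : locSub C n) ↔ x ∉ n := by
  have e : (⟨(x : F), le_locSub C n x.2⟩ : locSub C n) = algebraMap C (locSub C n) x := rfl
  rw [e]
  constructor
  · intro hu hx
    haveI := isLocalRing_locSub C n
    have h2 : algebraMap C (locSub C n) x ∈ IsLocalRing.maximalIdeal (locSub C n) := by
      rw [← IsLocalization.AtPrime.map_eq_maximalIdeal n (locSub C n)]
      exact Ideal.mem_map_of_mem _ hx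
    exact (IsLocalRing.mem_maximalIdeal _).mp h2 hu
  · intro hx
    exact IsLocalization.map_units (locSub C n) (⟨x, hx⟩ : n.primeCompl)

/-- A non-unit of the localisation has its numerator in `n`. -/
theorem num_mem_of_not_isUnit {x : F} (hx : x ∈ locSub C n)
    (hu : ¬ IsUnit (⟨x, hx⟩ : locSub C n)) {a b : C} (hb : b ∉ n) (hab : x * (b : F) = (a : F)) :
    a ∈ n := by
  by_contra ha
  exact hu ((isUnit_locSub_iff hx).mpr ⟨a, b, ha, hb, hab⟩)

/-! ### The prime dictionary -/

/-- Membership in a prime of the localisation is tested on numerators. -/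
theorem mem_iff_num_mem (p' : Ideal (locSub C n)) [p'.IsPrime] {x : locSub C n} {a b : C}
    (hb : b ∉ n) (hab : (x : F) * (b : F) = (a : F)) : x ∈ p' ↔ a ∈ p'.under C := by
  have h1 : x * algebraMap C (locSub C n) b = algebraMap C (locSub C n) a := Subtype.ext hab
  have hbu : IsUnit (algebraMap C (locSub C n) b) :=
    IsLocalization.map_units (locSub C n) (⟨b, hb⟩ : n.primeCompl)
  rw [Ideal.under_def, Ideal.mem_comap, ← h1]
  constructor
  · intro hx
    exact p'.mul_mem_right _ hx
  · intro hx
    rcases Ideal.IsPrime.mem_or_mem inferInstance hx with h | h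
    · exact h
    · exact absurd (p'.eq_top_of_isUnit_mem h hbu) (Ideal.IsPrime.ne_top inferInstance)

/-- The trace on `C` of a prime of the localisation lies in `n`. -/
theorem under_le (p' : Ideal (locSub C n)) [hp' : p'.IsPrime] : p'.under C ≤ n := by
  intro a ha
  by_contra han
  have hu : IsUnit (algebraMap C (locSub C n) a) :=
    IsLocalization.map_units (locSub C n) (⟨a, han⟩ : n.primeCompl)
  exact hp'.ne_top (p'.eq_top_of_isUnit_mem ha hu)

/-- The trace on `C` of a prime of the localisation has the same height. -/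
theorem height_under (p' : Ideal (locSub C n)) : (p'.under C).height = p'.height :=
  IsLocalization.height_under n.primeCompl p'

/-- If the trace `p` of the prime `p'` of the localisation is the centre on `C` of a valuation
ring `V ⊇ C` whose centre is contained in `n`, then `p'` is the centre of `V` on the
localisation. -/
theorem forall_mem_iff_nonunits (p' : Ideal (locSub C n)) [p'.IsPrime] (V : ValuationSubring F)
    (hCV : ∀ x : C, (x : F) ∈ V) (hcentre : ∀ x : C, (x : F) ∈ V.nonunits → x ∈ n)
    (hp : ∀ x : C, x ∈ p'.under C ↔ (x : F) ∈ V.nonunits) (x : locSub C n) :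
    x ∈ p' ↔ (x : F) ∈ V.nonunits := by
  obtain ⟨a, b, hb, hab⟩ := x.2
  replace hab : (x : F) * (b : F) = (a : F) := hab
  rw [mem_iff_num_mem p' hb hab, hp]
  -- `b` is a unit of `V`
  have hbV : V.valuation (b : F) = 1 := by
    have h1 : (b : F) ∉ V.nonunits := fun h => hb (hcentre b h)
    rw [V.mem_nonunits_iff, not_lt] at h1
    exact le_antisymm ((V.valuation_le_one_iff _).mpr (hCV b)) h1
  rw [V.mem_nonunits_iff, V.mem_nonunits_iff, ← hab, map_mul, hbV, mul_one]

/-- The localisation lies in every valuation ring containing `C` whose centre lies in `n`. -/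
theorem locSub_le_valuationSubring (V : ValuationSubring F) (hCV : ∀ x : C, (x : F) ∈ V)
    (hcentre : ∀ x : C, (x : F) ∈ V.nonunits → x ∈ n) {x : F} (hx : x ∈ locSub C n) : x ∈ V := by
  obtain ⟨a, b, hb, hab⟩ := hx
  replace hab : x * (b : F) = (a : F) := hab
  have hbV : V.valuation (b : F) = 1 := by
    have h1 : (b : F) ∉ V.nonunits := fun h => hb (hcentre b h)
    rw [V.mem_nonunits_iff, not_lt] at h1
    exact le_antisymm ((V.valuation_le_one_iff _).mpr (hCV b)) h1
  rw [← V.valuation_le_one_iff]
  have h2 : V.valuation x = V.valuation (a : F) := by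
    rw [← hab, map_mul, hbV, mul_one]
  rw [h2]
  exact (V.valuation_le_one_iff _).mpr (hCV a)

end Fermat.Agent.BR.Inst.LocSub
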