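import Mathlib
import Fermat.Agent.BR.Inst.LocSub
import Fermat.Agent.BR.Inst.NormalModel
import Fermat.Agent.BR.Inst.ChartInModel
import Fermat.Agent.BR.Inst.FKCover
import Fermat.Agent.BR.UnramCycloTower

/-!
# Program B (BADRED), block B6.5: the level-data assembly, family-level facts

The directed family of finite levels consumed by the three descents (`BR/S0/SmoothDescent`,
`BR/S0/NodeDescent`, `BR/S0/AnnulusLevels`).  Index: `S : Finset Kb` (`Kb = ℚ̄`).

* `KS q S` (the coefficient field `K₀(S)`, `K₀ = ℚ(μ_{prime to q})`, of `BR/UnramCycloTower`),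
  `WS A q S = A ∩ K₀(S)` (`mem_WS_iff`, `isDiscreteValuationRing_WS`, `fullRes_WS`,
  `mem_WS_singleton` : `A = ⋃ W'_S`), a chosen uniformizer `unif A hq hA S` (`unif_mem_KS`,
  `unif_ne_zero`, `unif_lt_one`, `valuation_eq_zpow_unif`, `valuation_le_unif`,
  `valuation_natCast_eq_pow_unif`);
* `FS N q S = K₀(S)·F_N` (`FS_mono`, `exists_forall_mem_FS` : `F̄_N = ⋃ F_S`, from
  `BR/Inst/FKCover`);
* chart-agnostic base rings: `BaseFamily N A q base` (`base S = W'_S[j]` for the finite chart: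
  `baseFamily_fin`; `W'_S[1/j]` at infinity), models `CS N q base S = modelOf (base S) (FS N q S)`
  (`CS_mono`, `const_mem_CS`, `base_le_CS`);
* a point = a compatible family of primes `n S` of the models (`hcompat`; from a prime of any ring
  containing all the models: `nBig`, `nBig_compat`); local rings `RS n S = locSub (CS …) (n S)`:
  `RS_mono`, `RS_directed`, `RS_cover` / `RS_cover_cofinal` (`F̄_N = ⋃ Frac R_S`), `RS_const` /
  `RS_const_cofinal` (`A ⊆ ⋃ R_S`), `isNoetherianRing_RS`, `isIntegrallyClosed_RS`,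
  `isLocalRing_RS`, `isUnit_RS_iff` (`𝔪(R_T) ∩ R_S = 𝔪(R_S)`), `RS_le_valuationSubring`,
  `const_mem_RS`, `unif_mem_RS`.
-/

set_option autoImplicit false
set_option linter.unusedSectionVars false
set_option synthInstance.maxHeartbeats 400000

noncomputable section

namespace Fermat.Agent.BR.Inst.Levels

open Fermat.Agent.X0 Fermat.Agent.BR.UnramCyclo Fermat.Agent.BR.UnramCycloTower
open Fermat.Agent.BR.Inst.NormalGen Fermat.Agent.BR.Inst.NormalModel
open Fermat.Agent.BR.Inst.ChartInModel Fermat.Agent.BR.Inst.LocSub Fermat.Agent.BR.Inst.FKCover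

/-! ### The coefficient fields and their valuation rings -/

section Coeff

/-- the coefficient field `K₀(S)` of level `S`, as a subfield of `ℚ̄` -/
def KS (q : ℕ) (S : Finset Kb) : Subfield Kb := (coeffField q S).toSubfield

theorem mem_KS_iff {q : ℕ} {S : Finset Kb} {x : Kb} : x ∈ KS q S ↔ x ∈ coeffField q S := Iff.rfl

theorem KS_mono (q : ℕ) {S T : Finset Kb} (h : S ⊆ T) : KS q S ≤ KS q T := fun _ hx =>
  coeffField_mono q h hx

theorem subset_KS (q : ℕ) (S : Finset Kb) : (S : Set Kb) ⊆ KS q S := subset_coeffField q S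

variable (A : ValuationSubring Kb)

/-- `W'_S = A ∩ K₀(S)` -/
def WS (q : ℕ) (S : Finset Kb) : Subring Kb := A.toSubring ⊓ (KS q S).toSubring

variable {A}

theorem mem_WS_iff {q : ℕ} {S : Finset Kb} {x : Kb} : x ∈ WS A q S ↔ x ∈ A ∧ x ∈ KS q S :=
  Iff.rfl

theorem WS_mono (q : ℕ) {S T : Finset Kb} (h : S ⊆ T) : WS A q S ≤ WS A q T := fun _ hx =>
  ⟨hx.1, KS_mono q h hx.2⟩

/-- `A = ⋃ W'_S` -/
theorem mem_WS_singleton (q : ℕ) {a : Kb} (ha : a ∈ A) : a ∈ WS A q {a} :=
  ⟨ha, mem_coeffField_singleton q a⟩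

theorem mem_WS_of_mem {q : ℕ} {S : Finset Kb} {a : Kb} (ha : a ∈ A) (haS : a ∈ S) :
    a ∈ WS A q S :=
  ⟨ha, subset_KS q S (Finset.mem_coe.2 haS)⟩

variable (A)

/-- the uniformizer of level `S` -/
theorem exists_uniformizer_KS {q : ℕ} (hq : q.Prime) (hA : A.LiesOverPrime q) (S : Finset Kb) :
    ∃ π' ∈ KS q S, π' ≠ 0 ∧ A.valuation π' < 1 ∧
      (∀ x ∈ KS q S, x ≠ 0 → ∃ n : ℤ, A.valuation x = A.valuation π' ^ n) ∧
      ∃ e : ℕ, 0 < e ∧ A.valuation (q : Kb) = A.valuation π' ^ e :=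
  exists_uniformizer_coeffField A hq hA S

theorem isDiscreteValuationRing_WS {q : ℕ} (hq : q.Prime) (hA : A.LiesOverPrime q)
    (S : Finset Kb) : IsDiscreteValuationRing ↥(WS A q S) := by
  obtain ⟨π', hπK, hπ0, hπ1, hval, -⟩ := exists_uniformizer_KS A hq hA S
  exact isDiscreteValuationRing_of_uniformizer A (KS q S) (WS A q S) (fun _ => mem_WS_iff) π' hπK
    hπ0 hπ1 hval

/-- the residue field of `W'_S` is the residue field of `A` -/
theorem fullRes_WS {q : ℕ} (hq : q.Prime) (hA : A.LiesOverPrime q) (S : Finset Kb) :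
    ∀ a ∈ A, ∃ a' ∈ WS A q S, a - a' ∈ A.nonunits := by
  intro a ha
  obtain ⟨a', h1, h2, h3⟩ := fullRes_coeffField A hq hA S a ha
  exact ⟨a', ⟨h2, h1⟩, h3⟩

/-- a chosen uniformizer of level `S` -/
def unif {q : ℕ} (hq : q.Prime) (hA : A.LiesOverPrime q) (S : Finset Kb) : Kb :=
  (exists_uniformizer_KS A hq hA S).choose

section Unif

variable {q : ℕ} (hq : q.Prime) (hA : A.LiesOverPrime q) (S : Finset Kb)

theorem unif_mem_KS : unif A hq hA S ∈ KS q S :=
  (exists_uniformizer_KS A hq hA S).choose_spec.1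

theorem unif_ne_zero : unif A hq hA S ≠ 0 :=
  (exists_uniformizer_KS A hq hA S).choose_spec.2.1

theorem unif_lt_one : A.valuation (unif A hq hA S) < 1 :=
  (exists_uniformizer_KS A hq hA S).choose_spec.2.2.1

theorem valuation_eq_zpow_unif {x : Kb} (hx : x ∈ KS q S) (hx0 : x ≠ 0) :
    ∃ n : ℤ, A.valuation x = A.valuation (unif A hq hA S) ^ n :=
  (exists_uniformizer_KS A hq hA S).choose_spec.2.2.2.1 x hx hx0

theorem valuation_natCast_eq_pow_unif :
    ∃ e : ℕ, 0 < e ∧ A.valuation (q : Kb) = A.valuation (unif A hq hA S) ^ e :=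
  (exists_uniformizer_KS A hq hA S).choose_spec.2.2.2.2

theorem unif_mem_WS : unif A hq hA S ∈ WS A q S :=
  ⟨(A.valuation_le_one_iff _).mp (unif_lt_one A hq hA S).le, unif_mem_KS A hq hA S⟩

/-- the uniformizer has the largest valuation `< 1` in `K₀(S)` -/
theorem valuation_le_unif {c : Kb} (hc : c ∈ KS q S) (hc1 : A.valuation c < 1) :
    A.valuation c ≤ A.valuation (unif A hq hA S) := by
  by_cases hc0 : c = 0
  · rw [hc0, map_zero]
    exact zero_le
  obtain ⟨n, hn⟩ := valuation_eq_zpow_unif A hq hA S hc hc0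
  have hγ0 : A.valuation (unif A hq hA S) ≠ 0 := (map_ne_zero _).2 (unif_ne_zero A hq hA S)
  have h1 : A.valuation (unif A hq hA S) ^ n ≤ 1 := by
    rw [← hn]
    exact hc1.le
  have h2 := Fermat.Agent.BR.UnramTower.zpow_nonneg_of_le_one hγ0 (unif_lt_one A hq hA S) h1
  obtain ⟨m, rfl⟩ := Int.eq_ofNat_of_zero_le h2
  rw [zpow_natCast] at hn
  rcases Nat.eq_zero_or_pos m with rfl | hm
  · rw [pow_zero] at hn
    rw [hn] at hc1
    exact absurd hc1 (lt_irrefl _)
  · rw [hn]
    calc A.valuation (unif A hq hA S) ^ m ≤ A.valuation (unif A hq hA S) ^ 1 :=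
          pow_le_pow_of_le_one zero_le (unif_lt_one A hq hA S).le hm
      _ = A.valuation (unif A hq hA S) := pow_one _

end Unif

end Coeff

/-! ### The function fields of the levels -/

section Fields

variable (N : ℕ) [NeZero N]

/-- `F_S = K₀(S) · F_N ⊆ F̄_N` -/
def FS (q : ℕ) (S : Finset Kb) : Subfield (Fb N) := modelField N (KS q S)

theorem FS_mono (q : ℕ) {S T : Finset Kb} (h : S ⊆ T) : FS N q S ≤ FS N q T := by
  unfold FS modelField
  apply Subfield.closure_mono
  apply Set.union_subset_union_left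
  exact Set.image_mono (KS_mono q h)

/-- `F̄_N = ⋃ F_S`, cofinal form -/
theorem exists_forall_mem_FS (q : ℕ) (y : Fb N) :
    ∃ S : Finset Kb, ∀ T : Finset Kb, S ⊆ T → y ∈ FS N q T := by
  obtain ⟨S, hS⟩ := exists_finset_forall_mem_FK (N := N) y
  refine ⟨S, fun T hST => ?_⟩
  exact hS (coeffField q T) (fun c hc => subset_coeffField q T (Finset.coe_subset.2 hST hc))

theorem const_mem_FS (q : ℕ) {S : Finset Kb} {a : Kb} (ha : a ∈ KS q S) :
    algebraMap Kb (Fb N) a ∈ FS N q S :=
  const_mem_modelField N (KS q S) ha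

end Fields

/-! ### Integrality over a bigger base -/

section Integral

variable {Ω : Type*} [Field Ω]

theorem isIntegral_of_le {R R' : Subring Ω} (h : R ≤ R') {x : Ω} (hx : IsIntegral ↥R x) :
    IsIntegral ↥R' x := by
  obtain ⟨p, hp, hpx⟩ := hx
  refine ⟨p.map (Subring.inclusion h), hp.map _, ?_⟩
  rw [Polynomial.eval₂_map]
  exact hpx

theorem modelOf_mono {R R' : Subring Ω} {F F' : Subfield Ω} (hR : R ≤ R') (hF : F ≤ F') :
    modelOf R F ≤ modelOf R' F' := fun _ hx => ⟨hF hx.1, isIntegral_of_le hR hx.2⟩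

theorem le_modelOf {R : Subring Ω} {F : Subfield Ω} (hRF : R ≤ F.toSubring) : R ≤ modelOf R F :=
  (isModel_modelOf R F).base_le hRF

end Integral

/-! ### The chart-agnostic base and the models -/

section Models

variable (N : ℕ) [NeZero N] (A : ValuationSubring Kb) (q : ℕ)

/-- A family of base rings `R₀(S) ⊆ F_S` (`W'_S[j]` for the finite chart, `W'_S[1/j]` for the chart
at infinity) over which the models `C_S = {x ∈ F_S | x integral over R₀(S)}` are noetherian,
integrally closed, with fraction field `F_S`. -/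
structure BaseFamily (base : Finset Kb → Subring (Fb N)) : Prop where
  mono : ∀ {S T : Finset Kb}, S ⊆ T → base S ≤ base T
  const_mem : ∀ (S : Finset Kb) (a : Kb), a ∈ WS A q S → algebraMap Kb (Fb N) a ∈ base S
  le_field : ∀ S : Finset Kb, base S ≤ (FS N q S).toSubring
  noeth : ∀ S : Finset Kb, IsNoetherianRing ↥(modelOf (base S) (FS N q S))
  intClosed : ∀ S : Finset Kb, IsIntegrallyClosed ↥(modelOf (base S) (FS N q S))
  frac : ∀ (S : Finset Kb) (x : Fb N), x ∈ FS N q S →
    ∃ a b : ↥(modelOf (base S) (FS N q S)), b ≠ 0 ∧ x * (b : Fb N) = (a : Fb N)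

/-- the finite chart: `R₀(S) = W'_S[j]` -/
theorem baseFamily_fin {q : ℕ} (hq : q.Prime) (hA : A.LiesOverPrime q) :
    BaseFamily N A q (fun S => modelBase N (WS A q S)) := by
  have key : ∀ S : Finset Kb,
      IsNoetherianRing ↥(modelOf (modelBase N (WS A q S)) (FS N q S)) ∧
      IsIntegrallyClosed ↥(modelOf (modelBase N (WS A q S)) (FS N q S)) ∧
      ∀ x : Fb N, x ∈ FS N q S →
        ∃ a b : ↥(modelOf (modelBase N (WS A q S)) (FS N q S)), b ≠ 0 ∧
          x * (b : Fb N) = (a : Fb N) := by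
    intro S
    obtain ⟨π', hπK, hπ0, hπ1, hval, -⟩ := exists_uniformizer_KS A hq hA S
    have hC := isModel_modelOf (modelBase N (WS A q S)) (FS N q S)
    obtain ⟨h1, h2, h3, -⟩ := model_normal_of_inter N A (KS q S) (WS A q S) (fun _ => mem_WS_iff)
      π' hπK hπ0 hπ1 hval hC
    refine ⟨h1, h2, fun x hx => ?_⟩
    obtain ⟨⟨a, s⟩, has⟩ := @IsLocalization.surj ↥(modelOf (modelBase N (WS A q S)) (FS N q S)) _
      (nonZeroDivisors ↥(modelOf (modelBase N (WS A q S)) (FS N q S))) ↥(FS N q S) _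
      (algebraOfLE hC.le_field) h3 (⟨x, hx⟩ : ↥(FS N q S))
    refine ⟨a, s.1, nonZeroDivisors.ne_zero s.2, ?_⟩
    exact congrArg (fun z : ↥(FS N q S) => (z : Fb N)) has
  refine ⟨fun h => ?_, fun S a ha => const_mem_modelBase N (WS A q S) ha, fun S => ?_,
    fun S => (key S).1, fun S => (key S).2.1, fun S => (key S).2.2⟩
  · unfold modelBase
    apply Subring.closure_mono
    apply Set.union_subset_union_left
    exact Set.image_mono (WS_mono q h)
  · exact modelBase_le_modelField N (fun x hx => (mem_WS_iff.1 hx).2)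

variable {N A q}
variable {base : Finset Kb → Subring (Fb N)}

/-- the model of level `S` -/
abbrev CS (N : ℕ) [NeZero N] (q : ℕ) (base : Finset Kb → Subring (Fb N)) (S : Finset Kb) :
    Subring (Fb N) :=
  modelOf (base S) (FS N q S)

theorem isModel_CS (S : Finset Kb) : IsModel (base S) (FS N q S) (CS N q base S) :=
  isModel_modelOf _ _

theorem CS_mono (hb : BaseFamily N A q base) {S T : Finset Kb} (h : S ⊆ T) :
    CS N q base S ≤ CS N q base T :=
  modelOf_mono (hb.mono h) (FS_mono N q h)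

theorem base_le_CS (hb : BaseFamily N A q base) (S : Finset Kb) : base S ≤ CS N q base S :=
  le_modelOf (hb.le_field S)

theorem const_mem_CS (hb : BaseFamily N A q base) {S : Finset Kb} {a : Kb}
    (ha : a ∈ WS A q S) : algebraMap Kb (Fb N) a ∈ CS N q base S :=
  base_le_CS hb S (hb.const_mem S a ha)

theorem CS_le_FS (S : Finset Kb) : CS N q base S ≤ (FS N q S).toSubring := fun _ hx => hx.1

end Models

/-! ### The local rings of a point over the tower -/

section Point

variable {N : ℕ} [NeZero N] {A : ValuationSubring Kb} {q : ℕ}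
  {base : Finset Kb → Subring (Fb N)} (hb : BaseFamily N A q base)
  (n : ∀ S : Finset Kb, Ideal ↥(CS N q base S)) [hn : ∀ S, (n S).IsPrime]
  (hcompat : ∀ {S T : Finset Kb} (h : S ⊆ T) (x : ↥(CS N q base S)),
    Subring.inclusion (CS_mono hb h) x ∈ n T ↔ x ∈ n S)

/-- the local ring `O_{n,W'_S}` of the model of level `S` at the point `n`, as a subring of
`F̄_N` -/
abbrev RS (S : Finset Kb) : Subring (Fb N) := locSub (CS N q base S) (n S)

theorem mem_RS_iff {S : Finset Kb} {x : Fb N} :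
    x ∈ RS n S ↔ ∃ a b : ↥(CS N q base S), b ∉ n S ∧ x * (b : Fb N) = (a : Fb N) := Iff.rfl

theorem CS_le_RS (S : Finset Kb) : CS N q base S ≤ RS n S := le_locSub _ _

include hb in
theorem isNoetherianRing_RS (S : Finset Kb) : IsNoetherianRing ↥(RS n S) :=
  have := hb.noeth S
  isNoetherianRing_locSub (CS N q base S) (n S)

include hb in
theorem isIntegrallyClosed_RS (S : Finset Kb) : IsIntegrallyClosed ↥(RS n S) :=
  have := hb.intClosed S
  isIntegrallyClosed_locSub (CS N q base S) (n S)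

theorem isLocalRing_RS (S : Finset Kb) : IsLocalRing ↥(RS n S) :=
  isLocalRing_locSub (CS N q base S) (n S)

include hcompat in
theorem RS_mono {S T : Finset Kb} (h : S ⊆ T) : RS n S ≤ RS n T :=
  locSub_mono (CS_mono hb h) (fun x hx hx' => hx ((hcompat h x).mp hx'))

include hcompat in
/-- the family is directed -/
theorem RS_directed (S T : Finset Kb) : ∃ U : Finset Kb, RS n S ≤ RS n U ∧ RS n T ≤ RS n U := by
  classical
  exact ⟨S ∪ T, RS_mono hb n hcompat Finset.subset_union_left,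
    RS_mono hb n hcompat Finset.subset_union_right⟩

include hb in
/-- `F̄_N = ⋃ Frac R_S`, cofinal form -/
theorem RS_cover_cofinal (y : Fb N) : ∃ S : Finset Kb, ∀ T : Finset Kb, S ⊆ T →
    ∃ a b : ↥(RS n T), b ≠ 0 ∧ y * (b : Fb N) = (a : Fb N) := by
  obtain ⟨S, hS⟩ := exists_forall_mem_FS N q y
  refine ⟨S, fun T hST => ?_⟩
  obtain ⟨a, b, hb0, hab⟩ := hb.frac T y (hS T hST)
  refine ⟨⟨a, CS_le_RS n T a.2⟩, ⟨b, CS_le_RS n T b.2⟩, ?_, hab⟩
  intro h0
  apply hb0
  apply Subtype.ext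
  exact congrArg (fun z : ↥(RS n T) => (z : Fb N)) h0

include hb in
/-- `F̄_N = ⋃ Frac R_S` -/
theorem RS_cover (y : Fb N) :
    ∃ S : Finset Kb, ∃ a b : ↥(RS n S), b ≠ 0 ∧ y * (b : Fb N) = (a : Fb N) := by
  obtain ⟨S, hS⟩ := RS_cover_cofinal hb n y
  exact ⟨S, hS S subset_rfl⟩

include hb in
/-- `A ⊆ ⋃ R_S` -/
theorem RS_const (a : Kb) (ha : a ∈ A) : ∃ S : Finset Kb, algebraMap Kb (Fb N) a ∈ RS n S :=
  ⟨{a}, CS_le_RS n {a} (const_mem_CS hb (mem_WS_singleton q ha))⟩

include hb in
theorem const_mem_RS {S : Finset Kb} {a : Kb} (ha : a ∈ WS A q S) :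
    algebraMap Kb (Fb N) a ∈ RS n S :=
  CS_le_RS n S (const_mem_CS hb ha)

include hb in
/-- the chosen uniformizer of level `S` is a constant of `R_S` -/
theorem unif_mem_RS (hq : q.Prime) (hA : A.LiesOverPrime q) (S : Finset Kb) :
    algebraMap Kb (Fb N) (unif A hq hA S) ∈ RS n S :=
  const_mem_RS hb n (unif_mem_WS A hq hA S)

include hb hcompat in
/-- a constant of `A` lies in all the levels above some level -/
theorem RS_const_cofinal (a : Kb) (ha : a ∈ A) :
    ∃ S : Finset Kb, ∀ T : Finset Kb, S ⊆ T → algebraMap Kb (Fb N) a ∈ RS n T :=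
  ⟨{a}, fun _ hT => RS_mono hb n hcompat hT
    (CS_le_RS n {a} (const_mem_CS hb (mem_WS_singleton q ha)))⟩

include hcompat in
/-- `𝔪(R_T) ∩ R_S = 𝔪(R_S)` -/
theorem isUnit_RS_iff {S T : Finset Kb} (h : S ⊆ T) {x : Fb N} (hx : x ∈ RS n S) :
    IsUnit (⟨x, RS_mono hb n hcompat h hx⟩ : ↥(RS n T)) ↔ IsUnit (⟨x, hx⟩ : ↥(RS n S)) := by
  constructor
  · intro hu
    have hx' := hx
    obtain ⟨a, b, hbn, hab⟩ := hx'
    replace hab : x * (b : Fb N) = (a : Fb N) := hab
    refine (isUnit_locSub_iff hx).mpr ⟨a, b, ?_, hbn, hab⟩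
    intro ha
    obtain ⟨a', b', ha', hb', hab'⟩ := (isUnit_locSub_iff (RS_mono hb n hcompat h hx)).mp hu
    -- `a * b' = a' * b` in `C_T`
    have h1 : (a : Fb N) * (b' : Fb N) = (a' : Fb N) * (b : Fb N) := by
      rw [← hab, ← hab']
      ring
    have h2 : Subring.inclusion (CS_mono hb h) a * b' =
        a' * Subring.inclusion (CS_mono hb h) b := by
      apply Subtype.ext
      rw [Subring.coe_mul, Subring.coe_mul, Subring.coe_inclusion, Subring.coe_inclusion]
      exact h1
    have h3 : a' * Subring.inclusion (CS_mono hb h) b ∈ n T := by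
      rw [← h2]
      exact (n T).mul_mem_right b' ((hcompat h a).mpr ha)
    rcases (hn T).mem_or_mem h3 with h4 | h4
    · exact ha' h4
    · exact hbn ((hcompat h b).mp h4)
  · intro hu
    obtain ⟨a, b, ha, hbn, hab⟩ := (isUnit_locSub_iff hx).mp hu
    refine (isUnit_locSub_iff (RS_mono hb n hcompat h hx)).mpr
      ⟨Subring.inclusion (CS_mono hb h) a, Subring.inclusion (CS_mono hb h) b,
        fun h' => ha ((hcompat h a).mp h'), fun h' => hbn ((hcompat h b).mp h'), ?_⟩
    rw [Subring.coe_inclusion, Subring.coe_inclusion]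
    exact hab

/-- the local rings lie in every valuation ring containing the model whose centre lies in the
point -/
theorem RS_le_valuationSubring (S : Finset Kb) (V : ValuationSubring (Fb N))
    (hCV : ∀ x : ↥(CS N q base S), (x : Fb N) ∈ V)
    (hcentre : ∀ x : ↥(CS N q base S), (x : Fb N) ∈ V.nonunits → x ∈ n S) :
    ∀ x ∈ RS n S, x ∈ V := fun _ hx =>
  locSub_le_valuationSubring V hCV hcentre hx

end Point

/-! ### Points given by a prime of a ring containing all the models -/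

section Big

variable {N : ℕ} [NeZero N] {A : ValuationSubring Kb} {q : ℕ}
  {base : Finset Kb → Subring (Fb N)} (hb : BaseFamily N A q base)
  (Rbig : Subring (Fb N)) (hbig : ∀ S : Finset Kb, CS N q base S ≤ Rbig) (nb : Ideal ↥Rbig)
  [hnb : nb.IsPrime]

/-- the trace on the model of level `S` of a prime of the level-free chart ring -/
def nBig (S : Finset Kb) : Ideal ↥(CS N q base S) := nb.comap (Subring.inclusion (hbig S))

instance nBig_isPrime (S : Finset Kb) : (nBig Rbig hbig nb S).IsPrime :=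
  Ideal.comap_isPrime _ _

theorem mem_nBig_iff {S : Finset Kb} (x : ↥(CS N q base S)) :
    x ∈ nBig Rbig hbig nb S ↔ (⟨(x : Fb N), hbig S x.2⟩ : ↥Rbig) ∈ nb := Iff.rfl

theorem nBig_compat {S T : Finset Kb} (h : S ⊆ T) (x : ↥(CS N q base S)) :
    Subring.inclusion (CS_mono hb h) x ∈ nBig Rbig hbig nb T ↔ x ∈ nBig Rbig hbig nb S := by
  rw [mem_nBig_iff, mem_nBig_iff]
  simp only [Subring.coe_inclusion]

end Big

end Fermat.Agent.BR.Inst.Levels
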