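import Mathlib
import Fermat.Agent.BR.Inst.Levels
import Fermat.Agent.BR.S0.SmoothModelFamily
import Fermat.Agent.BR.S0.CrossingModel
import Fermat.Agent.BR.S0.HorizProvider

/-!
# Program B (BADRED), block B6.5: the level-data assembly, the family literals

For the concrete family of models `CS N q base S` (`S : Finset Kb`) of `BR/Inst/Levels`:

* `CS_directed`, `CS_frac`, `CS_const` : the three family hypotheses `hdir`, `hfrac`, `hconst` of
  `SmoothFamily.ofModels` / `smoothChartOfModels` (`BR/S0/SmoothModelFamily`) and of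
  `NodeLevels.ofModels` / `nodeChartOfModels` (`BR/S0/CrossingModel`), verbatim;
* `mem_FS_of_frac`, `exists_centredAt_of_horizontal_level` : the field `horiz` (places over the
  horizontal height-one primes) for every local ring `R` of fractions of the model of level `S`
  in which the uniformizer `unif A hq hA S` is a non-unit (`BR/S0/HorizProvider`);
* `smoothChartOfLevels`, `nodeChartOfLevels` : the smooth chart / node chart over `A` from
  per-level models `M S` on `CS N q base S` with uniformizer `unif A hq hA S`; no hypothesis on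
  the family is left, and no `horiz` hypothesis.
-/

set_option autoImplicit false
set_option linter.unusedSectionVars false

noncomputable section

namespace Fermat.Agent.BR.Inst.LevelsFamily

open AlgebraicCurve Fermat.Agent.X0 Fermat.Agent.Red Fermat.Agent.BR.Centre
open Fermat.Agent.BR.UnramCycloTower Fermat.Agent.BR.Inst.Levels Fermat.Agent.BR.Inst.FKCover
open Fermat.Agent.BR.S0 Fermat.Agent.BR.S0.HorizProvider

variable {N : ℕ} [NeZero N] {A : ValuationSubring Kb} {q : ℕ}
  {base : Finset Kb → Subring (Fb N)} (hb : BaseFamily N A q base)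

/-! ### The family hypotheses of the `ofModels` constructors -/

include hb in
/-- `hdir` -/
theorem CS_directed (S T : Finset Kb) :
    ∃ U : Finset Kb, CS N q base S ≤ CS N q base U ∧ CS N q base T ≤ CS N q base U := by
  classical
  exact ⟨S ∪ T, CS_mono hb Finset.subset_union_left, CS_mono hb Finset.subset_union_right⟩

include hb in
/-- `hfrac` -/
theorem CS_frac (y : Fb N) :
    ∃ S : Finset Kb, ∃ a b : ↥(CS N q base S), b ≠ 0 ∧ y * (b : Fb N) = (a : Fb N) := by
  obtain ⟨S, hS⟩ := exists_forall_mem_FS N q y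
  exact ⟨S, hb.frac S y (hS S subset_rfl)⟩

include hb in
/-- `hconst` -/
theorem CS_const (a : Kb) (ha : a ∈ A) :
    ∃ S : Finset Kb, algebraMap Kb (Fb N) a ∈ CS N q base S :=
  ⟨{a}, const_mem_CS hb (mem_WS_singleton q ha)⟩

/-! ### `horiz` at every level -/

/-- A ring of fractions of the model of level `S` lies in the function field of level `S`. -/
theorem mem_FS_of_frac {S : Finset Kb} {x : Fb N}
    (hx : ∃ a b : ↥(CS N q base S), b ≠ 0 ∧ x * (b : Fb N) = (a : Fb N)) : x ∈ FS N q S := by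
  obtain ⟨a, b, hb0, hab⟩ := hx
  have hb0' : (b : Fb N) ≠ 0 := fun h => hb0 (Subtype.ext h)
  have hx' : x = (a : Fb N) / (b : Fb N) := by
    rw [eq_div_iff hb0']
    exact hab
  rw [hx']
  exact (FS N q S).div_mem (CS_le_FS S a.2) (CS_le_FS S b.2)

include hb in
/-- **`horiz` at level `S`**: let `R` be a local ring of fractions of the model of level `S` in
which the uniformizer of level `S` is a non-unit.  Every nonzero prime of `R` not containing the
uniformizer is the kernel of the evaluation at a place centred at `R`. -/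
theorem exists_centredAt_of_horizontal_level (hq : q.Prime) (hA : A.LiesOverPrime q)
    (S : Finset Kb) (R : Subring (Fb N)) [IsLocalRing R] (hCR : CS N q base S ≤ R)
    (hfrac : ∀ x ∈ R, ∃ a b : ↥(CS N q base S), b ≠ 0 ∧ x * (b : Fb N) = (a : Fb N))
    (hnu : ¬ IsUnit (⟨algebraMap Kb (Fb N) (unif A hq hA S),
      hCR (const_mem_CS hb (unif_mem_WS A hq hA S))⟩ : R))
    (p : Ideal R) [p.IsPrime] (hp : p ≠ ⊥)
    (hϖp : (⟨algebraMap Kb (Fb N) (unif A hq hA S),
      hCR (const_mem_CS hb (unif_mem_WS A hq hA S))⟩ : R) ∉ p) :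
    ∃ P : Place Kb (Fb N), CentredAt A R P ∧
      (∀ y : R, (y : Fb N) ∈ P.toValuationSubring.nonunits ↔ y ∈ p) ∧
      ∀ y : R, evalAt P (y : Fb N) = 0 ↔ y ∈ p :=
  exists_centredAt_of_horizontal A (coeffField q S) R
    (fun y hy => mem_FS_of_frac (hfrac y hy))
    (fun _ hcK hcA => hCR (const_mem_CS hb ⟨hcA, hcK⟩))
    (unif A hq hA S) (unif_mem_KS A hq hA S) (unif_ne_zero A hq hA S) (unif_lt_one A hq hA S)
    (fun _ hx hx0 => valuation_eq_zpow_unif A hq hA S hx hx0)
    (hCR (const_mem_CS hb (unif_mem_WS A hq hA S))) hnu p hp hϖp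

/-! ### The smooth chart over `A` from the models of all levels -/

section Smooth

variable {k : Type*} [Field k] {Ft : Type*} [Field Ft] [Algebra k Ft] {π : A →+* k}
  {O : ValuationSubring (Fb N)} {res : O →+* Ft} {Q : Place k Ft} {T : Set (Place Kb (Fb N))}
  {t : Fb N}

include hb in
/-- `horiz` for the local ring of a smooth model of level `S`, in the shape of
`SmoothFamily.ofModels`. -/
theorem SmoothModel.horiz_level (hq : q.Prime) (hA : A.LiesOverPrime q) (S : Finset Kb)
    (M : SmoothModel A π O res Q T t (CS N q base S) (unif A hq hA S))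
    (hres0 : ∀ x : O, res x = 0 ↔ (x : Fb N) ∈ O.nonunits)
    (hAO : ∀ c : Kb, A.valuation c < 1 → algebraMap Kb (Fb N) c ∈ O.nonunits)
    (p : Ideal M.loc) (hp : p.IsPrime) (hp1 : p.height = 1)
    (hϖp : (⟨algebraMap Kb (Fb N) (unif A hq hA S), M.le_loc M.unif_mem⟩ : M.loc) ∉ p) :
    ∃ P : Place Kb (Fb N), CentredAt A M.loc P ∧
      ∀ y : M.loc, evalAt P (y : Fb N) = 0 ↔ y ∈ p := by
  have hnu : ¬ IsUnit (⟨algebraMap Kb (Fb N) (unif A hq hA S),
      M.le_loc (const_mem_CS hb (unif_mem_WS A hq hA S))⟩ : M.loc) := by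
    have h1 := M.isUnit_coe_iff ⟨algebraMap Kb (Fb N) (unif A hq hA S), M.unif_mem⟩
    intro hu
    apply h1.mp hu
    rw [M.mem_point_iff]
    have h2 : algebraMap Kb (Fb N) (unif A hq hA S) ∈ O.nonunits := hAO _ (unif_lt_one A hq hA S)
    have h3 := (hres0 ⟨algebraMap Kb (Fb N) (unif A hq hA S), M.le _ M.unif_mem⟩).mpr h2
    rw [h3, map_zero]
    exact zero_lt_one
  obtain ⟨P, hP, -, hP2⟩ := exists_centredAt_of_horizontal_level hb hq hA S M.loc M.le_loc
    (fun x hx => by
      obtain ⟨a, b, hbp, hab⟩ := M.mem_loc_iff.mp hx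
      refine ⟨a, b, ?_, hab⟩
      rintro rfl
      exact hbp M.point.zero_mem)
    hnu p (ne_bot_of_height_eq_one hp1) hϖp
  exact ⟨P, hP, hP2⟩

include hb in
/-- **The smooth chart over `A`** at a non-crossing point from the models of all levels. -/
def smoothChartOfLevels (hq : q.Prime) (hA : A.LiesOverPrime q)
    (M : ∀ S : Finset Kb, SmoothModel A π O res Q T t (CS N q base S) (unif A hq hA S))
    (hres : ∀ (a : Kb) (ha : a ∈ A) (h : algebraMap Kb (Fb N) a ∈ O),
      res ⟨algebraMap Kb (Fb N) a, h⟩ = algebraMap k Ft (π ⟨a, ha⟩))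
    (hres0 : ∀ x : O, res x = 0 ↔ (x : Fb N) ∈ O.nonunits)
    (hπ : ∀ a : A, π a ≠ 0 → (a : Kb)⁻¹ ∈ A)
    (hAO : ∀ c : Kb, A.valuation c < 1 → algebraMap Kb (Fb N) c ∈ O.nonunits)
    (hord : ∀ h : t ∈ O, Q.ord (res ⟨t, h⟩) = 1) : SmoothChart A O res Q T :=
  smoothChartOfModels M (CS_directed hb) (CS_frac hb) (CS_const hb) hres hres0 hπ hAO hord
    (fun S p hp hp1 hϖp => SmoothModel.horiz_level hb hq hA S (M S) hres0 hAO p hp hp1 hϖp)

end Smooth

/-! ### The node chart over `A` from the models of all levels -/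

section Crossing

variable {k : Type*} [Field k] {Ft₁ Ft₂ : Type*} [Field Ft₁] [Algebra k Ft₁] [Field Ft₂]
  [Algebra k Ft₂] {π : A →+* k} {O₁ O₂ : ValuationSubring (Fb N)} {res₁ : O₁ →+* Ft₁}
  {res₂ : O₂ →+* Ft₂} {Q₁ : Place k Ft₁} {Q₂ : Place k Ft₂} {T : Set (Place Kb (Fb N))}

include hb in
/-- `horiz` for the local ring of a crossing model of level `S`, in the shape of
`NodeLevels.ofModels`. -/
theorem CrossingModel.horiz_level (hq : q.Prime) (hA : A.LiesOverPrime q) (S : Finset Kb)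
    (M : CrossingModel A π O₁ O₂ res₁ res₂ Q₁ Q₂ T (CS N q base S) (unif A hq hA S))
    (hres0₁ : ∀ x : O₁, (x : Fb N) ∈ O₁.nonunits → res₁ x = 0)
    (hAO : ∀ c : Kb, A.valuation c < 1 → algebraMap Kb (Fb N) c ∈ O₁.nonunits)
    (p : Ideal M.loc) (hp : p.IsPrime) (hp1 : p.height = 1)
    (hϖp : (⟨algebraMap Kb (Fb N) (unif A hq hA S), M.le_loc M.unif_mem⟩ : M.loc) ∉ p) :
    ∃ P : Place Kb (Fb N), CentredAt A M.loc P ∧
      ∀ y : M.loc, evalAt P (y : Fb N) = 0 ↔ y ∈ p := by
  have := M.isLocalRing_loc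
  have hnu : ¬ IsUnit (⟨algebraMap Kb (Fb N) (unif A hq hA S),
      M.le_loc (const_mem_CS hb (unif_mem_WS A hq hA S))⟩ : M.loc) := by
    intro hu
    have h1 := (Fermat.Agent.BR.Inst.LocSub.isUnit_coe_iff (n := M.point)
      ⟨algebraMap Kb (Fb N) (unif A hq hA S), M.unif_mem⟩).mp hu
    apply h1
    rw [M.mem_point_iff]
    have h2 : algebraMap Kb (Fb N) (unif A hq hA S) ∈ O₁.nonunits :=
      hAO _ (unif_lt_one A hq hA S)
    have h3 := hres0₁ ⟨algebraMap Kb (Fb N) (unif A hq hA S), M.le₁ _ M.unif_mem⟩ h2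
    rw [h3, map_zero]
    exact zero_lt_one
  obtain ⟨P, hP, -, hP2⟩ := exists_centredAt_of_horizontal_level hb hq hA S M.loc M.le_loc
    (fun x hx => by
      obtain ⟨a, b, hbp, hab⟩ := M.mem_loc_iff.mp hx
      refine ⟨a, b, ?_, hab⟩
      rintro rfl
      exact hbp M.point.zero_mem)
    hnu p (ne_bot_of_height_eq_one hp1) hϖp
  exact ⟨P, hP, hP2⟩

include hb in
/-- **The node chart over `A`** at a crossing point from the models of all levels. -/
def nodeChartOfLevels (hq : q.Prime) (hA : A.LiesOverPrime q)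
    (M : ∀ S : Finset Kb,
      CrossingModel A π O₁ O₂ res₁ res₂ Q₁ Q₂ T (CS N q base S) (unif A hq hA S))
    (hres₁ : ∀ (a : Kb) (ha : a ∈ A) (h : algebraMap Kb (Fb N) a ∈ O₁),
      res₁ ⟨algebraMap Kb (Fb N) a, h⟩ = algebraMap k Ft₁ (π ⟨a, ha⟩))
    (hres0₁ : ∀ x : O₁, (x : Fb N) ∈ O₁.nonunits → res₁ x = 0)
    (hres0₂ : ∀ x : O₂, (x : Fb N) ∈ O₂.nonunits → res₂ x = 0)
    (hπ : ∀ a : A, π a ≠ 0 → (a : Kb)⁻¹ ∈ A)
    (hAO : ∀ c : Kb, A.valuation c < 1 → algebraMap Kb (Fb N) c ∈ O₁.nonunits) :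
    NodeChart A O₁ O₂ res₁ res₂ Q₁ Q₂ T :=
  nodeChartOfModels M (CS_directed hb) (CS_frac hb) (CS_const hb) hres₁ hres0₁ hres0₂ hπ
    (fun S p hp hp1 hϖp => CrossingModel.horiz_level hb hq hA S (M S) hres0₁ hAO p hp hp1 hϖp)

end Crossing

end Fermat.Agent.BR.Inst.LevelsFamily
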