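import Fermat.Agent.BR.Inst.NormalModel

/-!
# Program B, node B6.5c: going-down for the model `C` over `W[j]`

`W = A ∩ K'` a discrete valuation ring with uniformizer `π'` (unfolded `IsDVRField` fields),
`R = modelBase N W = W[j]`, `C` a model (`IsModel R (modelField N K') C`).  A height-one prime `p`
of `C` containing `π'` contracts to `π' R`; consequently primitive polynomials in `j` over `W` do
not lie in `p` (the residue of `j` is transcendental: `C_p` dominates the Gauss valuation ring).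
-/

set_option autoImplicit false
set_option linter.unusedSectionVars false
set_option linter.style.haveILetI false
set_option synthInstance.maxHeartbeats 400000

noncomputable section

namespace Fermat.Agent.BR.Inst.GoingDownFK

open ModularCurve Fermat.Agent.X0 Fermat.Agent.BR.Inst.NormalGen Fermat.Agent.BR.Inst.NormalModel
open Polynomial

/-! ### Generic: contraction of a height-one prime under going-down -/

section Generic

variable {R S : Type*} [CommRing R] [CommRing S] [IsDomain S] [Algebra R S]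
  [Algebra.HasGoingDown R S]

/-- **Going-down for height-one primes.** If `S` is a domain with going-down over `R ⊆ S`, a
height-one prime `p` of `S` whose contraction contains a nonzero prime `P₀` of `R` contracts
exactly to `P₀`. -/
theorem under_eq_of_height_eq_one (hinj : Function.Injective (algebraMap R S))
    {P₀ : Ideal R} [P₀.IsPrime] (hP₀ : P₀ ≠ ⊥) (p : Ideal S) [p.IsPrime] (hp : p.height = 1)
    (hle : P₀ ≤ p.under R) : p.under R = P₀ := by
  by_contra hne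
  have hlt : P₀ < p.under R := lt_of_le_of_ne hle (Ne.symm hne)
  obtain ⟨P, hPp, hPprime, hPover⟩ := Ideal.exists_ideal_lt_liesOver_of_lt (q := p.under R) p hlt
  have hPbot : P ≠ ⊥ := by
    rintro rfl
    apply hP₀
    rw [hPover.over, Ideal.under_def, ← RingHom.ker_eq_comap_bot,
      (RingHom.injective_iff_ker_eq_bot _).1 hinj]
  have h0 : P.height ≠ 0 := fun h => hPbot (Ideal.height_eq_zero_iff_eq_bot.1 h)
  have h1 : 1 ≤ P.height := Order.one_le_iff_ne_zero.2 h0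
  have h2 : P.height + 1 ≤ p.height := Ideal.height_add_one_le_of_lt_of_isPrime hPp
  rw [hp] at h2
  have h3 : (1 : ℕ∞) + 1 ≤ 1 := (add_le_add_left h1 1).trans h2
  exact absurd h3 (by decide)

end Generic

/-! ### the uniformizer of `W = A ∩ K'` is prime -/

section DVR

variable {Ω : Type*} [Field Ω] (A : ValuationSubring Ω) (K' : Subfield Ω) (W : Subring Ω)

/-- divisibility by the uniformizer in `W = A ∩ K'` -/
theorem pi_dvd_iff (hW : ∀ x, x ∈ W ↔ x ∈ A ∧ x ∈ K') {π' : Ω} (hπW : π' ∈ W) (hπ0 : π' ≠ 0)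
    (hπ1 : A.valuation π' < 1)
    (hdvr : ∀ c ∈ K', c ≠ 0 → ∃ n : ℤ, A.valuation c = A.valuation π' ^ n) (x : ↥W) :
    (⟨π', hπW⟩ : ↥W) ∣ x ↔ A.valuation (x : Ω) < 1 := by
  have hv0 : 0 < A.valuation π' := zero_lt_iff.2 ((_root_.map_ne_zero _).2 hπ0)
  constructor
  · rintro ⟨y, rfl⟩
    have hy : A.valuation (y : Ω) ≤ 1 := (A.valuation_le_one_iff _).2 ((hW _).1 y.2).1
    show A.valuation (π' * (y : Ω)) < 1
    rw [map_mul]
    calc A.valuation π' * A.valuation (y : Ω) ≤ A.valuation π' * 1 :=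
          mul_le_mul' le_rfl hy
      _ = A.valuation π' := mul_one _
      _ < 1 := hπ1
  · intro hx
    by_cases hx0 : (x : Ω) = 0
    · exact ⟨0, Subtype.ext (by simp [hx0])⟩
    have hxK : (x : Ω) ∈ K' := ((hW _).1 x.2).2
    have hπK : π' ∈ K' := ((hW _).1 hπW).2
    obtain ⟨n, hn⟩ := hdvr _ hxK hx0
    have hn1 : 0 < n := by
      rw [hn] at hx
      exact (zpow_lt_one_iff_right_of_lt_one₀ hv0 hπ1).1 hx
    have hyK : (x : Ω) / π' ∈ K' := K'.div_mem hxK hπK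
    have hyA : (x : Ω) / π' ∈ A := by
      rw [← A.valuation_le_one_iff, map_div₀, hn]
      have h3 : A.valuation π' ^ n / A.valuation π' = A.valuation π' ^ (n - 1) := by
        rw [zpow_sub₀ hv0.ne', zpow_one]
      rw [h3, zpow_le_one_iff_right_of_lt_one₀ hv0 hπ1]
      omega
    refine ⟨⟨(x : Ω) / π', (hW _).2 ⟨hyA, hyK⟩⟩, Subtype.ext ?_⟩
    show (x : Ω) = π' * ((x : Ω) / π')
    field_simp

/-- the uniformizer of `W = A ∩ K'` is a prime element -/
theorem prime_pi (hW : ∀ x, x ∈ W ↔ x ∈ A ∧ x ∈ K') {π' : Ω} (hπW : π' ∈ W) (hπ0 : π' ≠ 0)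
    (hπ1 : A.valuation π' < 1)
    (hdvr : ∀ c ∈ K', c ≠ 0 → ∃ n : ℤ, A.valuation c = A.valuation π' ^ n) :
    Prime (⟨π', hπW⟩ : ↥W) := by
  refine ⟨fun h => hπ0 (congrArg Subtype.val h), ?_, ?_⟩
  · intro hu
    have h1 : (⟨π', hπW⟩ : ↥W) ∣ 1 := hu.dvd
    rw [pi_dvd_iff A K' W hW hπW hπ0 hπ1 hdvr] at h1
    simp at h1
  · intro a b hab
    rw [pi_dvd_iff A K' W hW hπW hπ0 hπ1 hdvr] at hab ⊢
    rw [pi_dvd_iff A K' W hW hπW hπ0 hπ1 hdvr]
    by_contra hcon
    rw [not_or, not_lt, not_lt] at hcon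
    have ha : A.valuation (a : Ω) ≤ 1 := (A.valuation_le_one_iff _).2 ((hW _).1 a.2).1
    have hb : A.valuation (b : Ω) ≤ 1 := (A.valuation_le_one_iff _).2 ((hW _).1 b.2).1
    have ha1 : A.valuation (a : Ω) = 1 := le_antisymm ha hcon.1
    have hb1 : A.valuation (b : Ω) = 1 := le_antisymm hb hcon.2
    have : A.valuation ((a * b : ↥W) : Ω) = 1 := by
      show A.valuation ((a : Ω) * (b : Ω)) = 1
      rw [map_mul, ha1, hb1, one_mul]
    rw [this] at hab
    exact lt_irrefl _ hab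

end DVR

/-! ### the model -/

section Model

variable (N : ℕ) [NeZero N] (A : ValuationSubring Kb) (K' : Subfield Kb) (W : Subring Kb)

/-- `W[X] ≃ W[j] = modelBase N W` -/
def polyEquiv : (↥W)[X] ≃+* ↥(modelBase N W) :=
  (Polynomial.algEquivOfTranscendental ↥W (jBar N)
    (transcendental_jBar_sub N W)).toRingEquiv.trans (adjoinEquivModelBase N W)

theorem coe_polyEquiv (f : (↥W)[X]) :
    ((polyEquiv N W f : ↥(modelBase N W)) : Fb N) = aeval (jBar N) f := by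
  show ((Polynomial.algEquivOfTranscendental ↥W (jBar N) (transcendental_jBar_sub N W) f :
    ↥(Algebra.adjoin ↥W ({jBar N} : Set (Fb N)))) : Fb N) = _
  rw [Polynomial.algEquivOfTranscendental_apply, Polynomial.aeval_subalgebra_coe]

theorem coe_polyEquiv_C (w : ↥W) :
    ((polyEquiv N W (C w) : ↥(modelBase N W)) : Fb N) = algebraMap Kb (Fb N) (w : Kb) := by
  rw [coe_polyEquiv, aeval_C]
  rfl

variable {N A K' W}

/-- the uniformizer is a prime element of `W[j]` -/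
theorem prime_pi_modelBase (hW : ∀ x, x ∈ W ↔ x ∈ A ∧ x ∈ K') {π' : Kb} (hπW : π' ∈ W)
    (hπ0 : π' ≠ 0) (hπ1 : A.valuation π' < 1)
    (hdvr : ∀ c ∈ K', c ≠ 0 → ∃ n : ℤ, A.valuation c = A.valuation π' ^ n) :
    Prime (⟨algebraMap Kb (Fb N) π', const_mem_modelBase N W hπW⟩ : ↥(modelBase N W)) := by
  have h1 : Prime (C (⟨π', hπW⟩ : ↥W)) :=
    Polynomial.prime_C_iff.2 (prime_pi A K' W hW hπW hπ0 hπ1 hdvr)
  have h2 : polyEquiv N W (C (⟨π', hπW⟩ : ↥W)) =
      (⟨algebraMap Kb (Fb N) π', const_mem_modelBase N W hπW⟩ : ↥(modelBase N W)) :=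
    Subtype.ext (coe_polyEquiv_C N W _)
  rw [← h2]
  exact (MulEquiv.prime_iff (polyEquiv N W).toMulEquiv).2 h1

set_option maxHeartbeats 1600000 in
/-- **(i) Going-down**: a height-one prime `p` of the model `C` containing `π'` meets `W[j]`
exactly in `π' W[j]`. -/
theorem mem_iff_dvd (hW : ∀ x, x ∈ W ↔ x ∈ A ∧ x ∈ K') {π' : Kb} (hπK : π' ∈ K')
    (hπ0 : π' ≠ 0) (hπ1 : A.valuation π' < 1)
    (hdvr : ∀ c ∈ K', c ≠ 0 → ∃ n : ℤ, A.valuation c = A.valuation π' ^ n)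
    {C : Subring (Fb N)} (hC : IsModel (modelBase N W) (modelField N K') C)
    (p : Ideal ↥C) [p.IsPrime] (hp : p.height = 1)
    (hπC : algebraMap Kb (Fb N) π' ∈ C)
    (hπp : (⟨algebraMap Kb (Fb N) π', hπC⟩ : ↥C) ∈ p)
    {y : Fb N} (hyR : y ∈ modelBase N W) (hyC : y ∈ C) :
    (⟨y, hyC⟩ : ↥C) ∈ p ↔ ∃ z ∈ modelBase N W, y = algebraMap Kb (Fb N) π' * z := by
  have hWK : ∀ x ∈ W, x ∈ K' := fun x hx => ((hW x).mp hx).2
  have hπA : π' ∈ A := (A.valuation_le_one_iff _).1 hπ1.le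
  have hπW : π' ∈ W := (hW _).2 ⟨hπA, hπK⟩
  have hRC : modelBase N W ≤ C := hC.base_le (modelBase_le_modelField N hWK)
  letI algRC : Algebra ↥(modelBase N W) ↥C := algebraOfLE' hRC
  haveI : IsScalarTower ↥(modelBase N W) ↥C (Fb N) :=
    IsScalarTower.of_algebraMap_eq (fun _ => rfl)
  have hinj : Function.Injective (algebraMap ↥(modelBase N W) ↥C) := fun x y h =>
    Subtype.ext (congrArg (fun z : ↥C => (z : Fb N)) h)
  haveI : FaithfulSMul ↥(modelBase N W) ↥C := (faithfulSMul_iff_algebraMap_injective _ _).2 hinj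
  haveI : Algebra.IsIntegral ↥(modelBase N W) ↥C :=
    ⟨fun x => (isIntegral_algebraMap_iff (B := Fb N) Subtype.val_injective).1 ((hC x).1 x.2).2⟩
  haveI : IsDiscreteValuationRing ↥W :=
    isDiscreteValuationRing_of_uniformizer A K' W hW π' hπK hπ0 hπ1 hdvr
  haveI : IsIntegrallyClosed ↥(modelBase N W) := isIntegrallyClosed_modelBase N W
  set πR : ↥(modelBase N W) := ⟨algebraMap Kb (Fb N) π', const_mem_modelBase N W hπW⟩ with hπR
  have hprime : Prime πR := prime_pi_modelBase hW hπW hπ0 hπ1 hdvr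
  haveI : (Ideal.span {πR}).IsPrime := (Ideal.span_singleton_prime hprime.ne_zero).2 hprime
  have hne : Ideal.span {πR} ≠ ⊥ := by
    rw [Ne, Ideal.span_singleton_eq_bot]
    exact hprime.ne_zero
  have hle : Ideal.span {πR} ≤ p.under ↥(modelBase N W) := by
    rw [Ideal.span_le, Set.singleton_subset_iff]
    show algebraMap ↥(modelBase N W) ↥C πR ∈ p
    exact hπp
  have hund := under_eq_of_height_eq_one hinj hne p hp hle
  have hmem : (⟨y, hyC⟩ : ↥C) ∈ p ↔ (⟨y, hyR⟩ : ↥(modelBase N W)) ∈ p.under ↥(modelBase N W) :=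
    Iff.rfl
  rw [hmem, hund, Ideal.mem_span_singleton]
  constructor
  · rintro ⟨z, hz⟩
    exact ⟨z, z.2, congrArg Subtype.val hz⟩
  · rintro ⟨z, hz, rfl⟩
    exact ⟨⟨z, hz⟩, rfl⟩

/-- **(ii) Primitive polynomials in `j` are units at `p`**: a polynomial over `W` one of whose
coefficients is a unit does not lie in a height-one prime of `C` containing `π'`. -/
theorem aeval_notMem (hW : ∀ x, x ∈ W ↔ x ∈ A ∧ x ∈ K') {π' : Kb} (hπK : π' ∈ K')
    (hπ0 : π' ≠ 0) (hπ1 : A.valuation π' < 1)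
    (hdvr : ∀ c ∈ K', c ≠ 0 → ∃ n : ℤ, A.valuation c = A.valuation π' ^ n)
    {C : Subring (Fb N)} (hC : IsModel (modelBase N W) (modelField N K') C)
    (p : Ideal ↥C) [p.IsPrime] (hp : p.height = 1)
    (hπC : algebraMap Kb (Fb N) π' ∈ C)
    (hπp : (⟨algebraMap Kb (Fb N) π', hπC⟩ : ↥C) ∈ p)
    (f : (↥W)[X]) (hf : ∃ n, IsUnit (f.coeff n))
    (hyC : aeval (jBar N) f ∈ C) :
    (⟨aeval (jBar N) f, hyC⟩ : ↥C) ∉ p := by
  have hπA : π' ∈ A := (A.valuation_le_one_iff _).1 hπ1.le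
  have hπW : π' ∈ W := (hW _).2 ⟨hπA, hπK⟩
  have hyR : aeval (jBar N) f ∈ modelBase N W := by
    rw [← coe_polyEquiv]
    exact (polyEquiv N W f).2
  intro hmem
  obtain ⟨z, hz, hyz⟩ := (mem_iff_dvd hW hπK hπ0 hπ1 hdvr hC p hp hπC hπp hyR hyC).1 hmem
  -- transport to `W[X]`
  obtain ⟨g, hg⟩ := (polyEquiv N W).surjective ⟨z, hz⟩
  have h1 : polyEquiv N W f = polyEquiv N W (Polynomial.C (⟨π', hπW⟩ : ↥W) * g) := by
    apply Subtype.ext
    rw [map_mul, Subring.coe_mul, coe_polyEquiv, coe_polyEquiv_C, hg]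
    exact hyz
  have h2 : f = Polynomial.C (⟨π', hπW⟩ : ↥W) * g := (polyEquiv N W).injective h1
  obtain ⟨n, hn⟩ := hf
  have h3 : (⟨π', hπW⟩ : ↥W) ∣ f.coeff n := by
    rw [h2, coeff_C_mul]
    exact dvd_mul_right _ _
  exact (prime_pi A K' W hW hπW hπ0 hπ1 hdvr).not_isUnit (isUnit_of_dvd_unit h3 hn)

/-- **(ii'), `ℚ̄`-polynomial form** (helper15's shape): for `f : W[X]` with a coefficient equal to
`1`, the element `aeval j (f.map W.subtype)` of `C` does not lie in `p`. -/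
theorem aeval_map_notMem (hW : ∀ x, x ∈ W ↔ x ∈ A ∧ x ∈ K') {π' : Kb} (hπK : π' ∈ K')
    (hπ0 : π' ≠ 0) (hπ1 : A.valuation π' < 1)
    (hdvr : ∀ c ∈ K', c ≠ 0 → ∃ n : ℤ, A.valuation c = A.valuation π' ^ n)
    {C : Subring (Fb N)} (hC : IsModel (modelBase N W) (modelField N K') C)
    (p : Ideal ↥C) [p.IsPrime] (hp : p.height = 1)
    (hπC : algebraMap Kb (Fb N) π' ∈ C)
    (hπp : (⟨algebraMap Kb (Fb N) π', hπC⟩ : ↥C) ∈ p)
    (f : (↥W)[X]) (hf : ∃ n, f.coeff n = 1) (y : ↥C)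
    (hy : (y : Fb N) = aeval (jBar N) (f.map W.subtype)) : y ∉ p := by
  have e : aeval (jBar N) (f.map W.subtype) = aeval (jBar N) f :=
    Polynomial.aeval_map_algebraMap (A := Kb) (jBar N) f
  have hyC : aeval (jBar N) f ∈ C := by
    rw [← e, ← hy]
    exact y.2
  have hyy : y = ⟨aeval (jBar N) f, hyC⟩ := Subtype.ext (hy.trans e)
  rw [hyy]
  obtain ⟨n, hn⟩ := hf
  exact aeval_notMem hW hπK hπ0 hπ1 hdvr hC p hp hπC hπp f ⟨n, by rw [hn]; exact isUnit_one⟩ hyC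

/-- **(i')**, in the shape of the hypothesis `hgd` of helper22's `StarAssembly.star_of_exh`. -/
theorem mem_span_of_mem (hW : ∀ x, x ∈ W ↔ x ∈ A ∧ x ∈ K') {π' : Kb} (hπK : π' ∈ K')
    (hπ0 : π' ≠ 0) (hπ1 : A.valuation π' < 1)
    (hdvr : ∀ c ∈ K', c ≠ 0 → ∃ n : ℤ, A.valuation c = A.valuation π' ^ n)
    {C : Subring (Fb N)} (hC : IsModel (modelBase N W) (modelField N K') C)
    (hπC : algebraMap Kb (Fb N) π' ∈ C) (hπR : algebraMap Kb (Fb N) π' ∈ modelBase N W)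
    (hRC : modelBase N W ≤ C) :
    ∀ p : Ideal ↥C, p.IsPrime → p.height = 1 →
      (⟨algebraMap Kb (Fb N) π', hπC⟩ : ↥C) ∈ p →
      ∀ r : ↥(modelBase N W), (⟨(r : Fb N), hRC r.2⟩ : ↥C) ∈ p →
        r ∈ Ideal.span {(⟨algebraMap Kb (Fb N) π', hπR⟩ : ↥(modelBase N W))} := by
  intro p hpp hp hπp r hr
  haveI := hpp
  obtain ⟨z, hz, hrz⟩ :=
    (mem_iff_dvd hW hπK hπ0 hπ1 hdvr hC p hp hπC hπp r.2 (hRC r.2)).1 hr
  rw [Ideal.mem_span_singleton]
  exact ⟨⟨z, hz⟩, Subtype.ext hrz⟩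

/-- an integer prime to `q` is a unit of `W = A ∩ K'` -/
theorem isUnit_intCast {q : ℕ} (hq : q.Prime) (hA : A.LiesOverPrime q)
    (hW : ∀ x, x ∈ W ↔ x ∈ A ∧ x ∈ K') {m : ℤ} (hm : ¬ (q : ℤ) ∣ m) : IsUnit ((m : ℤ) : ↥W) := by
  have hcop : IsCoprime m (q : ℤ) := by
    rw [Int.isCoprime_iff_gcd_eq_one, Int.gcd_comm]
    exact (Int.isCoprime_iff_gcd_eq_one.1
      ((Prime.coprime_iff_not_dvd (Nat.prime_iff_prime_int.1 hq)).2 hm))
  obtain ⟨a, b, hab⟩ := hcop
  have hmA : ((m : ℤ) : Kb) ∈ A := intCast_mem A m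
  have hqv : A.valuation ((q : ℕ) : Kb) < 1 := A.mem_nonunits_iff.1 hA
  have hv : A.valuation ((m : ℤ) : Kb) = 1 := by
    refine le_antisymm ((A.valuation_le_one_iff _).2 hmA) ?_
    by_contra hlt
    rw [not_le] at hlt
    have h1 : ((a : ℤ) : Kb) * ((m : ℤ) : Kb) + ((b : ℤ) : Kb) * ((q : ℕ) : Kb) = 1 := by
      have := congrArg (fun z : ℤ => (z : Kb)) hab
      push_cast at this
      exact this
    have h2 : A.valuation (((a : ℤ) : Kb) * ((m : ℤ) : Kb)) < 1 := by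
      rw [map_mul]
      calc A.valuation ((a : ℤ) : Kb) * A.valuation ((m : ℤ) : Kb)
          ≤ 1 * A.valuation ((m : ℤ) : Kb) :=
            mul_le_mul' ((A.valuation_le_one_iff _).2 (intCast_mem A a)) le_rfl
        _ = A.valuation ((m : ℤ) : Kb) := one_mul _
        _ < 1 := hlt
    have h3 : A.valuation (((b : ℤ) : Kb) * ((q : ℕ) : Kb)) < 1 := by
      rw [map_mul]
      calc A.valuation ((b : ℤ) : Kb) * A.valuation ((q : ℕ) : Kb)
          ≤ 1 * A.valuation ((q : ℕ) : Kb) :=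
            mul_le_mul' ((A.valuation_le_one_iff _).2 (intCast_mem A b)) le_rfl
        _ = A.valuation ((q : ℕ) : Kb) := one_mul _
        _ < 1 := hqv
    have h4 : A.valuation (1 : Kb) < 1 := by
      rw [← h1]
      exact lt_of_le_of_lt (A.valuation.map_add _ _) (max_lt h2 h3)
    rw [map_one] at h4
    exact lt_irrefl _ h4
  have hm0 : ((m : ℤ) : Kb) ≠ 0 := by
    intro h
    rw [h, map_zero] at hv
    exact zero_ne_one hv
  have hinvA : (((m : ℤ) : Kb))⁻¹ ∈ A := by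
    rw [← A.valuation_le_one_iff, map_inv₀, hv, inv_one]
  have hinvK : (((m : ℤ) : Kb))⁻¹ ∈ K' := K'.inv_mem (intCast_mem K' m)
  refine IsUnit.of_mul_eq_one (⟨(((m : ℤ) : Kb))⁻¹, (hW _).2 ⟨hinvA, hinvK⟩⟩ : ↥W)
    (Subtype.ext ?_)
  show (((m : ℤ) : ↥W) : Kb) * (((m : ℤ) : Kb))⁻¹ = 1
  rw [Subring.coe_intCast]
  exact mul_inv_cancel₀ hm0

/-- **(iii) `ℤ`-form** (helper15's `hgd`): an integer polynomial in `j` lying in a height-one
prime of `C` over `π'` has all its coefficients divisible by `q`. -/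
theorem int_aeval_mem_imp_dvd {q : ℕ} (hq : q.Prime) (hA : A.LiesOverPrime q)
    (hW : ∀ x, x ∈ W ↔ x ∈ A ∧ x ∈ K') {π' : Kb} (hπK : π' ∈ K')
    (hπ0 : π' ≠ 0) (hπ1 : A.valuation π' < 1)
    (hdvr : ∀ c ∈ K', c ≠ 0 → ∃ n : ℤ, A.valuation c = A.valuation π' ^ n)
    {C : Subring (Fb N)} (hC : IsModel (modelBase N W) (modelField N K') C)
    (p : Ideal ↥C) [p.IsPrime] (hp : p.height = 1)
    (hπC : algebraMap Kb (Fb N) π' ∈ C)
    (hπp : (⟨algebraMap Kb (Fb N) π', hπC⟩ : ↥C) ∈ p) :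
    ∀ R : ℤ[X], ∀ y : ↥C, (y : Fb N) = Polynomial.aeval (jBar N) R → y ∈ p →
      ∀ i, (q : ℤ) ∣ R.coeff i := by
  intro R y hy hyp
  by_contra hcon
  push Not at hcon
  obtain ⟨i, hi⟩ := hcon
  let f : (↥W)[X] := R.map (Int.castRingHom ↥W)
  have e : aeval (jBar N) f = aeval (jBar N) R :=
    Polynomial.aeval_map_algebraMap (A := ↥W) (jBar N) R
  have hyC : aeval (jBar N) f ∈ C := by
    rw [e, ← hy]
    exact y.2
  have hyy : y = ⟨aeval (jBar N) f, hyC⟩ := Subtype.ext (hy.trans e.symm)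
  rw [hyy] at hyp
  refine aeval_notMem hW hπK hπ0 hπ1 hdvr hC p hp hπC hπp f ⟨i, ?_⟩ hyC hyp
  show IsUnit ((R.map (Int.castRingHom ↥W)).coeff i)
  rw [Polynomial.coeff_map, eq_intCast]
  exact isUnit_intCast hq hA hW hi

end Model

end Fermat.Agent.BR.Inst.GoingDownFK
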