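import Fermat.Agent.BR.Inst.ExhFK
import Fermat.Agent.BR.Inst.LocVal

/-!
# Program B, node B6.5c-(★'): the star property of the normal model, in the frame

`K' ⊆ ℚ̄` a coefficient field, `W = A ∩ K'` a discrete valuation ring of uniformizer `π'`,
`C ⊆ F̄_{Mq}` a subring with `IsModel (modelBase (M q) W) (modelField (M q) K') C`.  Then

  `x π' ∈ C`, `x ∈ O₁`, `x ∈ O₂`  ⟹  `x ∈ C`        (`star_of_goingDown`)

as soon as the height-one primes of `C` containing `π'` have transcendental residue of `j`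
(hypothesis `hgd`, the going-down input: `π'·W[j]` is a prime of `W[j]` and `C` is integral over the
integrally closed domain `W[j]`).

Proof: Krull (`KrullNormal.mem_range_of_forall_height_one`): it suffices to show that `x` is regular
at every height-one prime `p` of `C`.  If `π' ∉ p` then `x = (x π') / π'` is regular at `p`.
If `π' ∈ p` then `C_p` is a valuation subring of `K'·F_{Mq}` over `A ∩ K'` in which `π'` is a
nonunit and the residue of `j` is transcendental: by the exhaustion in the frame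
(`ExhFK.eq_comap_O1_or_eq_comap_O2`) it is `O₁ ∩ K'·F_{Mq}` or `O₂ ∩ K'·F_{Mq}`, and `x` lies in both.
-/

set_option autoImplicit false
set_option linter.unusedSectionVars false
set_option linter.style.haveILetI false
set_option synthInstance.maxHeartbeats 400000

noncomputable section

namespace Fermat.Agent.BR.Inst.StarFK

open ModularCurve Polynomial Fermat.Agent.X0 Fermat.Agent.Val Fermat.Agent.BR.TwoVal
  Fermat.Agent.Good.Bridge Fermat.Agent.BR.Inst.NormalModel Fermat.Agent.BR.Inst.NormalGen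
  Fermat.Agent.BR.Inst.LocVal Fermat.Agent.BR.KrullNormal

section IntForm

variable {q : ℕ} [hq : Fact q.Prime] (N : ℕ) [NeZero N]
  (A : ValuationSubring Kb) (hA : A.LiesOverPrime q) (W : Subring Kb) (hWA : ∀ x ∈ W, x ∈ A)
  (π' : Kb) (hπW : π' ∈ W) (hπ1 : A.valuation π' < 1)

include hA hWA hπW hπ1 in
/-- an integral polynomial in `j` divisible by `π'` in `W[j]` has all its coefficients divisible
by `q` -/
theorem dvd_coeff_of_eq_pi_mul (R : ℤ[X]) {s : Fb N} (hs : s ∈ modelBase N W)
    (h : aeval (jBar N) R = algebraMap Kb (Fb N) π' * s) : ∀ i, (q : ℤ) ∣ R.coeff i := by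
  rw [modelBase_eq_adjoin, Subalgebra.mem_toSubring, Algebra.adjoin_singleton_eq_range_aeval] at hs
  obtain ⟨S, hS⟩ := hs
  replace hS : aeval (jBar N) S = s := hS
  subst hS
  have htr := transcendental_jBar_sub N W
  have e1 : aeval (jBar N) (R.map (algebraMap ℤ ↥W)) = aeval (jBar N) R :=
    aeval_map_algebraMap _ _ _
  have e2 : aeval (jBar N) (C (⟨π', hπW⟩ : ↥W) * S) =
      algebraMap Kb (Fb N) π' * aeval (jBar N) S := by
    rw [map_mul, aeval_C]
    rfl
  have h0 : aeval (jBar N) (R.map (algebraMap ℤ ↥W) - C (⟨π', hπW⟩ : ↥W) * S) = 0 := by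
    rw [map_sub, e1, e2, h, sub_self]
  have h1 : R.map (algebraMap ℤ ↥W) - C (⟨π', hπW⟩ : ↥W) * S = 0 := by
    by_contra hne
    exact htr ⟨_, hne, h0⟩
  intro i
  by_contra hnd
  have h2 := congrArg (fun P : (↥W)[X] => ((P.coeff i : ↥W) : Kb)) (sub_eq_zero.1 h1)
  simp only [coeff_map, coeff_C_mul] at h2
  have h3 : A.valuation ((R.coeff i : ℤ) : Kb) = 1 :=
    valuation_intCast_eq_one A hq.out (A.mem_nonunits_iff.1 hA) hnd
  have h4 : ((algebraMap ℤ ↥W (R.coeff i) : ↥W) : Kb) = ((R.coeff i : ℤ) : Kb) := by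
    rw [eq_intCast]; rfl
  have h5 : A.valuation (((⟨π', hπW⟩ : ↥W) * S.coeff i : ↥W) : Kb) < 1 := by
    show A.valuation (π' * ((S.coeff i : ↥W) : Kb)) < 1
    rw [map_mul]
    calc A.valuation π' * A.valuation ((S.coeff i : ↥W) : Kb) ≤ A.valuation π' * 1 :=
          mul_le_mul' le_rfl ((A.valuation_le_one_iff _).2 (hWA _ (S.coeff i).2))
      _ = A.valuation π' := mul_one _
      _ < 1 := hπ1
  rw [← h2, h4, h3] at h5
  exact lt_irrefl _ h5

end IntForm

/-- integral polynomials in `j` lie in `W[j]` -/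
theorem aeval_int_mem_modelBase (N : ℕ) [NeZero N] (W : Subring Kb) (R : ℤ[X]) :
    aeval (jBar N) R ∈ modelBase N W := by
  rw [aeval_eq_sum_range]
  refine Subring.sum_mem _ fun i _ => ?_
  exact Subring.zsmul_mem _ (Subring.pow_mem _ (jBar_mem_modelBase N W) i) _

variable {M q : ℕ} [NeZero M] [hq : Fact q.Prime]

variable (A : ValuationSubring Kb) (hA : A.LiesOverPrime q) (hqM : ¬ q ∣ M) (K' : Subfield Kb)
  (W : Subring Kb) (hW : ∀ x, x ∈ W ↔ x ∈ A ∧ x ∈ K')
  (π' : Kb) (hπK : π' ∈ K') (hπ0 : π' ≠ 0) (hπ1 : A.valuation π' < 1)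
  (hdvr : ∀ c ∈ K', c ≠ 0 → ∃ n : ℤ, A.valuation c = A.valuation π' ^ n)
  {C : Subring (Fb (M * q))} (hC : IsModel (modelBase (M * q) W) (modelField (M * q) K') C)

include hW hC in
theorem modelBase_le_model : modelBase (M * q) W ≤ C :=
  hC.base_le (modelBase_le_modelField (M * q) (fun x hx => ((hW x).mp hx).2))

include hW hπK hπ1 in
theorem pi_mem_W : π' ∈ W :=
  (hW π').mpr ⟨(A.valuation_le_one_iff π').mp hπ1.le, hπK⟩

include hW hπK hπ1 hC in
theorem pi_mem_model : algebraMap Kb (Fb (M * q)) π' ∈ C :=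
  modelBase_le_model A K' W hW hC
    (const_mem_modelBase (M * q) W (pi_mem_W A K' W hW π' hπK hπ1))

include hA hW hπK hπ0 hπ1 hdvr hC in
/-- **(★') from the going-down input.** -/
theorem star_of_goingDown
    (hgd : ∀ (p : Ideal ↥C) [p.IsPrime], p.height = 1 →
      (⟨algebraMap Kb (Fb (M * q)) π', pi_mem_model A K' W hW π' hπK hπ1 hC⟩ : ↥C) ∈ p →
      ∀ R : ℤ[X], ∀ y : ↥C, (y : Fb (M * q)) = aeval (jBar (M * q)) R → y ∈ p →
        ∀ i, (q : ℤ) ∣ R.coeff i)
    {x : Fb (M * q)} (hx : x * algebraMap Kb (Fb (M * q)) π' ∈ C)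
    (h1 : x ∈ O1 M A hA) (h2 : x ∈ O2 A hA hqM) : x ∈ C := by
  set FK := modelField (M * q) K' with hFK
  have hπF0 : algebraMap Kb (Fb (M * q)) π' ≠ 0 := (_root_.map_ne_zero _).2 hπ0
  have hπFK : algebraMap Kb (Fb (M * q)) π' ∈ FK := const_mem_modelField (M * q) K' hπK
  have hxFK : x ∈ FK := by
    have e : x = x * algebraMap Kb (Fb (M * q)) π' / algebraMap Kb (Fb (M * q)) π' := by
      rw [mul_div_cancel_right₀ _ hπF0]
    rw [e]
    exact FK.div_mem (hC.le_field hx) hπFK
  letI : Algebra ↥C ↥FK := algebraOfLE hC.le_field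
  obtain ⟨hnoeth, hic, hfrac, -⟩ := model_normal_of_inter (M * q) A K' W hW π' hπK hπ0 hπ1 hdvr hC
  haveI := hnoeth
  haveI := hic
  haveI := hfrac
  set πC : ↥C := ⟨algebraMap Kb (Fb (M * q)) π', pi_mem_model A K' W hW π' hπK hπ1 hC⟩ with hπC
  have key : (⟨x, hxFK⟩ : ↥FK) ∈ (algebraMap ↥C ↥FK).range := by
    apply mem_range_of_forall_height_one
    intro p hp hht
    haveI := hp
    by_cases hπp : πC ∈ p
    · -- the vertical case
      have hV := ExhFK.eq_comap_O1_or_eq_comap_O2 A hA hqM K' π' hπK hπ0 hπ1 hdvr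
        (locVS (F := ↥FK) p hht) ?_ ?_ ?_ ?_
      · rw [← mem_locVS_iff (hp := hht)]
        rcases hV with hV | hV
        · rw [hV, ValuationSubring.mem_comap]
          exact h1
        · rw [hV, ValuationSubring.mem_comap]
          exact h2
      · intro c hc hcA
        have hcC : algebraMap Kb (Fb (M * q)) c ∈ C :=
          modelBase_le_model A K' W hW hC (const_mem_modelBase (M * q) W ((hW c).mpr ⟨hcA, hc⟩))
        exact algebraMap_mem_locVS p hht (⟨_, hcC⟩ : ↥C)
      · have h3 : πC ∈ centre (locVS (F := ↥FK) p hht) (algebraMap_mem_locVS p hht) := by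
          rw [centre_locVS]; exact hπp
        exact mem_centre_iff.1 h3
      · have hjC : jBar (M * q) ∈ C :=
          modelBase_le_model A K' W hW hC (jBar_mem_modelBase (M * q) W)
        exact algebraMap_mem_locVS p hht (⟨_, hjC⟩ : ↥C)
      · intro R hR
        have hjC : jBar (M * q) ∈ C :=
          modelBase_le_model A K' W hW hC (jBar_mem_modelBase (M * q) W)
        set y : ↥C := aeval (⟨jBar (M * q), hjC⟩ : ↥C) R with hy
        have hyF : (y : Fb (M * q)) = aeval (jBar (M * q)) R := by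
          have : C.subtype y = aeval (jBar (M * q)) R := by
            rw [hy, aeval_def, aeval_def, hom_eval₂]
            congr 1
          exact this
        have hyK : algebraMap ↥C ↥FK y =
            aeval (⟨jBar (M * q), jBar_mem_modelField (M * q) K'⟩ : ↥FK) R := by
          apply Subtype.ext
          rw [algebraOfLE_apply, hyF]
          have : FK.subtype (aeval (⟨jBar (M * q), jBar_mem_modelField (M * q) K'⟩ : ↥FK) R) =
              aeval (jBar (M * q)) R := by
            rw [aeval_def, aeval_def, hom_eval₂]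
            congr 1
          exact this.symm
        have hyp : y ∈ p := by
          rw [← centre_locVS (F := ↥FK) p hht, mem_centre_iff, hyK]
          exact hR
        exact hgd p hht hπp R y hyF hyp
    · -- the horizontal case
      refine ⟨⟨x * algebraMap Kb (Fb (M * q)) π', hx⟩, πC, hπp, ?_⟩
      apply Subtype.ext
      rfl
  obtain ⟨c, hc⟩ := key
  have : (c : Fb (M * q)) = x := congrArg (fun z : ↥FK => (z : Fb (M * q))) hc
  rw [← this]
  exact c.2

include hA hW hπK hπ0 hπ1 hdvr hC in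
/-- **(★') from the going-down input, ideal form**: it suffices that every height-one prime of
`C` containing `π'` meets `W[j]` in `π'·W[j]`. -/
theorem star_of_goingDownSpan
    (hgd : ∀ (p : Ideal ↥C) [p.IsPrime], p.height = 1 →
      (⟨algebraMap Kb (Fb (M * q)) π', pi_mem_model A K' W hW π' hπK hπ1 hC⟩ : ↥C) ∈ p →
      ∀ (r : Fb (M * q)) (hr : r ∈ modelBase (M * q) W),
        (⟨r, modelBase_le_model A K' W hW hC hr⟩ : ↥C) ∈ p →
        ∃ s ∈ modelBase (M * q) W, r = algebraMap Kb (Fb (M * q)) π' * s)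
    {x : Fb (M * q)} (hx : x * algebraMap Kb (Fb (M * q)) π' ∈ C)
    (h1 : x ∈ O1 M A hA) (h2 : x ∈ O2 A hA hqM) : x ∈ C := by
  refine star_of_goingDown A hA hqM K' W hW π' hπK hπ0 hπ1 hdvr hC ?_ hx h1 h2
  intro p hp hht hπp R y hyF hyp
  have hr : aeval (jBar (M * q)) R ∈ modelBase (M * q) W := aeval_int_mem_modelBase (M * q) W R
  have hy : y = (⟨aeval (jBar (M * q)) R, modelBase_le_model A K' W hW hC hr⟩ : ↥C) :=
    Subtype.ext hyF
  rw [hy] at hyp
  obtain ⟨s, hs, hrs⟩ := hgd p hht hπp _ hr hyp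
  exact dvd_coeff_of_eq_pi_mul (M * q) A hA W (fun x hx => ((hW x).mp hx).1) π'
    (pi_mem_W A K' W hW π' hπK hπ1) hπ1 R hs hrs

end Fermat.Agent.BR.Inst.StarFK
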