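import Fermat.Agent.BR.Inst.NormalModel
import Fermat.Agent.BR.KronCong
import Fermat.Agent.ES.Generators

/-!
# Program B, node B6.5(b), part 2: the degeneracy maps `α, β` on the normal models

`M ≥ 1`, `q` prime (no coprimality needed), `W ⊆ K' ⊆ ℚ̄` as in `BR/Inst/NormalModel.lean`,
`C_M`, `C_{Mq}` the models (`NormalGen.IsModel (modelBase N W) (modelField N K') C_N`) at levels
`M` and `M q`.

* `isIntegral_jBarD_prime` : `j(q^p)` (`p` prime, `p ∣ N`) is integral over every subring of `F̄_N`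
  containing `j` (modular polynomial `Φ_p ∈ ℤ[X, Y]` of `BR/KronPoly`, `BR/KronCong`);
* `map_mem_model` (generic): transfer of models along a ring homomorphism;
* `alpha_mem_model`, `beta_mem_model` : `α(C_M) ⊆ C_{Mq}`, `β(C_M) ⊆ C_{Mq}`
  (`α = heckeAlphaBar Kb M q`, `β = heckeBetaBar Kb M q`), and the ring homomorphisms
  `alphaModel`, `betaModel : ↥C_M →+* ↥C_{Mq}`.
-/

set_option autoImplicit false
set_option linter.unusedSectionVars false
set_option synthInstance.maxHeartbeats 400000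

noncomputable section

namespace Fermat.Agent.BR.Inst.DegenModel

open ModularCurve ModularCurve.IgusaScheme IntermediateField Fermat.Agent.X0
open Fermat.Agent.Good.Bridge Fermat.Agent.Igusa Fermat.Agent.BR.Kron
open Fermat.Agent.BR.Inst.NormalGen Fermat.Agent.BR.Inst.NormalModel
open Polynomial

/-! ### `j(q^p)` is integral over `ℤ[j]`, `p` prime -/

section Integral

variable (N : ℕ) [NeZero N] (p : ℕ) [NeZero p]

theorem coe_jBar_eq : ((jBar N : Fb N) : LaurentSeries Kb) = jqModC Kb := by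
  rw [coe_jBar, coeffEmb, ← jqModC_rat, ModularCurve.coeffMap_jqModC]

theorem coe_jBarD_eq (hpN : p ∣ N) :
    ((jBarD N p hpN : Fb N) : LaurentSeries Kb) = jqNModC Kb p := by
  rw [coe_jBarD, Fermat.Agent.ES.coeffEmb_qExpand_jq]

/-- the modular equation `Φ_p(X = j(q^p), Y = j) = 0` in `F̄_N` -/
theorem phiK_evalEval_jBar (hp : p.Prime) (hpN : p ∣ N) :
    (phiK p (Fb N)).evalEval (jBar N) (jBarD N p hpN) = 0 := by
  have hinj : Function.Injective ((modularFunctionFieldBar N).val : Fb N →+* LaurentSeries Kb) :=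
    Subtype.val_injective
  apply hinj
  rw [map_zero, map_phiK_evalEval]
  have e1 : ((modularFunctionFieldBar N).val : Fb N →+* LaurentSeries Kb) (jBar N) = jqModC Kb :=
    coe_jBar_eq N
  have e2 : ((modularFunctionFieldBar N).val : Fb N →+* LaurentSeries Kb) (jBarD N p hpN) =
      jqNModC Kb p := coe_jBarD_eq N p hpN
  rw [e1, e2]
  exact phiK_evalEval_jq p hp Kb

/-- `j(q^p)` is integral over every subring of `F̄_N` containing `j` -/
theorem isIntegral_jBarD_prime (hp : p.Prime) (hpN : p ∣ N) (R : Subring (Fb N))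
    (hj : jBar N ∈ R) : IsIntegral ↥R (jBarD N p hpN) := by
  let g : ℤ[X] →+* ↥R := eval₂RingHom (Int.castRingHom ↥R) ⟨jBar N, hj⟩
  refine ⟨(PhiZ p).map g, (PhiZ_monic p hp).map g, ?_⟩
  rw [Polynomial.eval₂_map]
  have hcomp : (algebraMap ↥R (Fb N)).comp g = eval₂RingHom (Int.castRingHom (Fb N)) (jBar N) := by
    apply Polynomial.ringHom_ext
    · intro a
      simp [g]
    · simp [g]
      rfl
  rw [hcomp, eval₂_eval₂RingHom_apply]
  exact phiK_evalEval_jBar N p hp hpN

end Integral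

/-! ### generic transfer of models along a ring homomorphism -/

section Gen

variable {Ω₁ Ω₂ : Type*} [Field Ω₁] [Field Ω₂] (φ : Ω₁ →+* Ω₂)

theorem isIntegral_of_mem (R : Subring Ω₂) {x : Ω₂} (hx : x ∈ R) : IsIntegral ↥R x :=
  isIntegral_algebraMap (R := ↥R) (x := (⟨x, hx⟩ : ↥R))

/-- a ring hom mapping generators of `R₁` to elements integral over `R₂` maps elements integral
over `R₁` to elements integral over `R₂` -/
theorem isIntegral_map_of_closure (S₁ : Set Ω₁) (R₂ : Subring Ω₂)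
    (h : ∀ s ∈ S₁, IsIntegral ↥R₂ (φ s)) {x : Ω₁}
    (hx : IsIntegral ↥(Subring.closure S₁) x) : IsIntegral ↥R₂ (φ x) := by
  have h' : ∀ y ∈ Subring.closure S₁, IsIntegral ↥R₂ (φ y) := by
    intro y hy
    induction hy using Subring.closure_induction with
    | mem z hz => exact h z hz
    | zero => rw [map_zero]; exact isIntegral_zero
    | one => rw [map_one]; exact isIntegral_one
    | add y z _ _ hy hz => rw [map_add]; exact hy.add hz
    | neg y _ hy => rw [map_neg]; exact hy.neg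
    | mul y z _ _ hy hz => rw [map_mul]; exact hy.mul hz
  let I : Subalgebra ↥R₂ Ω₂ := integralClosure ↥R₂ Ω₂
  let f : ↥(Subring.closure S₁) →+* ↥I := φ.restrict (Subring.closure S₁) I.toSubring h'
  have h1 : IsIntegral ↥I (φ x) := hx.map_of_comp_eq f φ (by ext y; rfl)
  exact isIntegral_trans (R := ↥R₂) (A := ↥I) _ h1

theorem map_mem_of_closure (T₁ : Set Ω₁) (F₂ : Subfield Ω₂) (h : ∀ t ∈ T₁, φ t ∈ F₂) {x : Ω₁}
    (hx : x ∈ Subfield.closure T₁) : φ x ∈ F₂ := by
  induction hx using Subfield.closure_induction with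
  | mem z hz => exact h z hz
  | one => rw [map_one]; exact one_mem _
  | add y z _ _ hy hz => rw [map_add]; exact add_mem hy hz
  | neg y _ hy => rw [map_neg]; exact neg_mem hy
  | inv y _ hy => rw [map_inv₀]; exact inv_mem hy
  | mul y z _ _ hy hz => rw [map_mul]; exact mul_mem hy hz

/-- transfer of models: `φ` maps `C₁` into `C₂` -/
theorem map_mem_model {R₁ : Subring Ω₁} {F₁ : Subfield Ω₁} {C₁ : Subring Ω₁}
    {R₂ : Subring Ω₂} {F₂ : Subfield Ω₂} {C₂ : Subring Ω₂}
    (h₁ : IsModel R₁ F₁ C₁) (h₂ : IsModel R₂ F₂ C₂)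
    (S₁ : Set Ω₁) (hR₁ : R₁ = Subring.closure S₁) (hS : ∀ s ∈ S₁, IsIntegral ↥R₂ (φ s))
    (T₁ : Set Ω₁) (hF₁ : F₁ = Subfield.closure T₁) (hT : ∀ t ∈ T₁, φ t ∈ F₂)
    {x : Ω₁} (hx : x ∈ C₁) : φ x ∈ C₂ := by
  subst hR₁ hF₁
  obtain ⟨hxF, hxI⟩ := (h₁ x).mp hx
  exact (h₂ _).mpr ⟨map_mem_of_closure φ T₁ F₂ hT hxF, isIntegral_map_of_closure φ S₁ R₂ hS hxI⟩

end Gen

/-! ### the degeneracy maps on the models -/

section Degen

variable (M q : ℕ) [NeZero M] [NeZero q] [NeZero (M * q)]

/-- `α ∘ barEmb_M = barEmb_{Mq} ∘ (F_M ⊆ F_{Mq})` -/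
theorem alpha_barEmb (y : ↥(modularFunctionFieldFull M)) :
    heckeAlphaBar Kb M q (barEmb M y) =
      barEmb (M * q) ⟨(y : LaurentSeries ℚ), full_degeneracy_le (dvd_mul_right M q) y.2⟩ := by
  apply Subtype.ext
  rw [coe_heckeAlphaBar, coe_barEmb, coe_barEmb]

/-- `β ∘ barEmb_M = barEmb_{Mq} ∘ (f(τ) ↦ f(qτ))` -/
theorem beta_barEmb (y : ↥(modularFunctionFieldFull M)) :
    heckeBetaBar Kb M q (barEmb M y) =
      barEmb (M * q) ⟨qExpand ℚ q (y : LaurentSeries ℚ),
        full_degeneracy_map_le (N := M) q ⟨y, y.2, rfl⟩⟩ := by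
  apply Subtype.ext
  rw [coe_heckeBetaBar, coe_barEmb, coe_barEmb, coeffEmb, ← ModularCurve.coeffMap_qExpand]

theorem alpha_jBar : heckeAlphaBar Kb M q (jBar M) = jBar (M * q) := by
  apply Subtype.ext
  rw [coe_heckeAlphaBar, coe_jBar, coe_jBar]

theorem beta_jBar : heckeBetaBar Kb M q (jBar M) = jBarD (M * q) q (dvd_mul_left q M) := by
  apply Subtype.ext
  rw [coe_heckeBetaBar, coe_jBar, coe_jBarD, coeffEmb, ← ModularCurve.coeffMap_qExpand]

variable {W : Subring Kb} {K' : Subfield Kb}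

/-- a `Kb`-algebra map `φ : F̄_M → F̄_{Mq}` with `φ j` integral over `W[j]` and
`φ (barEmb F_M) ⊆ K'·F_{Mq}` maps the level `M` model into the level `Mq` model -/
theorem algHom_mem_model (φ : Fb M →ₐ[Kb] Fb (M * q))
    (hj : IsIntegral ↥(modelBase (M * q) W) (φ (jBar M)))
    (hφ : ∀ y, φ (barEmb M y) ∈ modelField (M * q) K')
    {CM : Subring (Fb M)} {C : Subring (Fb (M * q))}
    (hCM : IsModel (modelBase M W) (modelField M K') CM)
    (hC : IsModel (modelBase (M * q) W) (modelField (M * q) K') C) {x : Fb M} (hx : x ∈ CM) :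
    φ x ∈ C := by
  refine map_mem_model (φ : Fb M →+* Fb (M * q)) hCM hC _ rfl ?_ _ rfl ?_ hx
  · rintro s (⟨a, ha, rfl⟩ | hs)
    · have e : (φ : Fb M →+* Fb (M * q)) (algebraMap Kb (Fb M) a) =
          algebraMap Kb (Fb (M * q)) a := φ.commutes a
      rw [e]
      exact isIntegral_of_mem _ (const_mem_modelBase (M * q) W ha)
    · rw [Set.mem_singleton_iff] at hs
      subst hs
      exact hj
  · rintro t (⟨a, ha, rfl⟩ | ⟨y, rfl⟩)
    · have e : (φ : Fb M →+* Fb (M * q)) (algebraMap Kb (Fb M) a) =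
          algebraMap Kb (Fb (M * q)) a := φ.commutes a
      rw [e]
      exact const_mem_modelField (M * q) K' ha
    · exact hφ y

/-- **α maps the level `M` model into the level `Mq` model** -/
theorem alpha_mem_model {CM : Subring (Fb M)} {C : Subring (Fb (M * q))}
    (hCM : IsModel (modelBase M W) (modelField M K') CM)
    (hC : IsModel (modelBase (M * q) W) (modelField (M * q) K') C) {x : Fb M} (hx : x ∈ CM) :
    heckeAlphaBar Kb M q x ∈ C := by
  refine algHom_mem_model M q (heckeAlphaBar Kb M q) ?_ (fun y => ?_) hCM hC hx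
  · rw [alpha_jBar]
    exact isIntegral_of_mem _ (jBar_mem_modelBase (M * q) W)
  · rw [alpha_barEmb]
    exact barEmb_mem_modelField (M * q) K' _

/-- **β maps the level `M` model into the level `Mq` model** (`q` prime) -/
theorem beta_mem_model (hq : q.Prime) {CM : Subring (Fb M)} {C : Subring (Fb (M * q))}
    (hCM : IsModel (modelBase M W) (modelField M K') CM)
    (hC : IsModel (modelBase (M * q) W) (modelField (M * q) K') C) {x : Fb M} (hx : x ∈ CM) :
    heckeBetaBar Kb M q x ∈ C := by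
  refine algHom_mem_model M q (heckeBetaBar Kb M q) ?_ (fun y => ?_) hCM hC hx
  · rw [beta_jBar]
    exact isIntegral_jBarD_prime (M * q) q hq (dvd_mul_left q M) _ (jBar_mem_modelBase (M * q) W)
  · rw [beta_barEmb]
    exact barEmb_mem_modelField (M * q) K' _


/-- `α` as a ring homomorphism between the models -/
def alphaModel {CM : Subring (Fb M)} {C : Subring (Fb (M * q))}
    (hCM : IsModel (modelBase M W) (modelField M K') CM)
    (hC : IsModel (modelBase (M * q) W) (modelField (M * q) K') C) : ↥CM →+* ↥C :=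
  ((heckeAlphaBar Kb M q : Fb M →ₐ[Kb] Fb (M * q)) : Fb M →+* Fb (M * q)).restrict CM C
    (fun _ hx => alpha_mem_model M q hCM hC hx)

/-- `β` as a ring homomorphism between the models -/
def betaModel (hq : q.Prime) {CM : Subring (Fb M)} {C : Subring (Fb (M * q))}
    (hCM : IsModel (modelBase M W) (modelField M K') CM)
    (hC : IsModel (modelBase (M * q) W) (modelField (M * q) K') C) : ↥CM →+* ↥C :=
  ((heckeBetaBar Kb M q : Fb M →ₐ[Kb] Fb (M * q)) : Fb M →+* Fb (M * q)).restrict CM C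
    (fun _ hx => beta_mem_model M q hq hCM hC hx)

@[simp] theorem coe_alphaModel {CM : Subring (Fb M)} {C : Subring (Fb (M * q))}
    (hCM : IsModel (modelBase M W) (modelField M K') CM)
    (hC : IsModel (modelBase (M * q) W) (modelField (M * q) K') C) (x : ↥CM) :
    ((alphaModel M q hCM hC x : ↥C) : Fb (M * q)) = heckeAlphaBar Kb M q (x : Fb M) := rfl

@[simp] theorem coe_betaModel (hq : q.Prime) {CM : Subring (Fb M)} {C : Subring (Fb (M * q))}
    (hCM : IsModel (modelBase M W) (modelField M K') CM)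
    (hC : IsModel (modelBase (M * q) W) (modelField (M * q) K') C) (x : ↥CM) :
    ((betaModel M q hq hCM hC x : ↥C) : Fb (M * q)) = heckeBetaBar Kb M q (x : Fb M) := rfl

end Degen

end Fermat.Agent.BR.Inst.DegenModel
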