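/-
Program B (BADRED), block B6, node B6.5c (helper22), abstract part 2: the two vertical components
of a noetherian normal model.

`B` noetherian integrally closed domain with fraction field `F`, `q : B` nonzero, `O₁ O₂` two
valuation subrings of `F` containing `B` in which `q` is a uniformizer (`hunif`), separated by
elements of `B` (`hsep`), and exhausting the valuation subrings over `B` whose centre is a
height-one prime containing `q` (`hexh`).  Then `p_i := centre O_i` satisfy all the fields of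
`SpecialFibre.TwoComponents q p₁ p₂` (helper21, finding 615): `vertical`, `unif₁`, `unif₂`, and
`height p_i = 1`, `B_{p_i} = O_i`.
Mathlib + BR/KrullNormal + BR/Inst/LocVal.
-/
import Mathlib
import Fermat.Agent.BR.Inst.LocVal

set_option autoImplicit false
set_option linter.unusedSectionVars false

namespace Fermat.Agent.BR.Inst

open Fermat.Agent.BR.KrullNormal Fermat.Agent.BR.Inst.LocVal

variable {B : Type*} [CommRing B] [IsDomain B] {F : Type*} [Field F] [Algebra B F]
  [IsFractionRing B F]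

theorem LocVal.centre_congr {O O' : ValuationSubring F} (h : O = O')
    (hO : ∀ b : B, algebraMap B F b ∈ O) (hO' : ∀ b : B, algebraMap B F b ∈ O') :
    centre O hO = centre O' hO' := by
  subst h; rfl

/-- a valuation subring with a nonzero nonunit is not the whole field -/
theorem LocVal.ne_top_of_mem_nonunits {O : ValuationSubring F} {x : F} (hx : x ∈ O.nonunits)
    (hx0 : x ≠ 0) : O ≠ ⊤ := by
  intro h
  have h1 : x⁻¹ ∈ O := by rw [h]; trivial
  rw [O.mem_nonunits_iff] at hx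
  have h2 := (O.valuation_le_one_iff _).mpr h1
  rw [map_inv₀] at h2
  have hv0 : O.valuation x ≠ 0 := (O.valuation.ne_zero_iff).mpr hx0
  have h3 : 1 ≤ O.valuation x := (inv_le_one₀ (zero_lt_iff.mpr hv0)).mp h2
  exact absurd hx (not_lt.mpr h3)

/-- The hypotheses of the abstract two-component theorem. -/
structure TwoCompData (q : B) (O₁ O₂ : ValuationSubring F) : Prop where
  q_ne_zero : q ≠ 0
  le₁ : ∀ b : B, algebraMap B F b ∈ O₁
  le₂ : ∀ b : B, algebraMap B F b ∈ O₂
  q_mem₁ : algebraMap B F q ∈ O₁.nonunits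
  q_mem₂ : algebraMap B F q ∈ O₂.nonunits
  unif₁ : ∀ x ∈ O₁.nonunits, x / algebraMap B F q ∈ O₁
  unif₂ : ∀ x ∈ O₂.nonunits, x / algebraMap B F q ∈ O₂
  sep₁ : ∃ s : B, algebraMap B F s ∈ O₂.nonunits ∧ algebraMap B F s ∉ O₁.nonunits
  sep₂ : ∃ t : B, algebraMap B F t ∈ O₁.nonunits ∧ algebraMap B F t ∉ O₂.nonunits
  exh : ∀ (O : ValuationSubring F) (hO : ∀ b : B, algebraMap B F b ∈ O),
    algebraMap B F q ∈ O.nonunits → (centre O hO).height = 1 → O = O₁ ∨ O = O₂

namespace TwoCompData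

variable {q : B} {O₁ O₂ : ValuationSubring F}

theorem symm (D : TwoCompData q O₁ O₂) : TwoCompData q O₂ O₁ where
  q_ne_zero := D.q_ne_zero
  le₁ := D.le₂
  le₂ := D.le₁
  q_mem₁ := D.q_mem₂
  q_mem₂ := D.q_mem₁
  unif₁ := D.unif₂
  unif₂ := D.unif₁
  sep₁ := D.sep₂
  sep₂ := D.sep₁
  exh := fun O hO h1 h2 => (D.exh O hO h1 h2).symm

/-- the first component -/
def p₁ (D : TwoCompData q O₁ O₂) : Ideal B := centre O₁ D.le₁

/-- the second component -/
def p₂ (D : TwoCompData q O₁ O₂) : Ideal B := centre O₂ D.le₂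

instance prime₁ (D : TwoCompData q O₁ O₂) : D.p₁.IsPrime := centre_isPrime O₁ D.le₁

instance prime₂ (D : TwoCompData q O₁ O₂) : D.p₂.IsPrime := centre_isPrime O₂ D.le₂

theorem q_mem_p₁ (D : TwoCompData q O₁ O₂) : q ∈ D.p₁ := D.q_mem₁

theorem q_mem_p₂ (D : TwoCompData q O₁ O₂) : q ∈ D.p₂ := D.q_mem₂

theorem not_p₂_le_p₁ (D : TwoCompData q O₁ O₂) : ¬ D.p₂ ≤ D.p₁ := by
  obtain ⟨s, hs2, hs1⟩ := D.sep₁
  exact fun h => hs1 (h hs2)

theorem not_p₁_le_p₂ (D : TwoCompData q O₁ O₂) : ¬ D.p₁ ≤ D.p₂ := by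
  obtain ⟨t, ht1, ht2⟩ := D.sep₂
  exact fun h => ht2 (h ht1)

theorem p₁_ne_p₂ (D : TwoCompData q O₁ O₂) : D.p₁ ≠ D.p₂ := fun h =>
  D.not_p₁_le_p₂ (le_of_eq h)

variable [IsNoetherianRing B] [IsIntegrallyClosed B]

/-- **`vertical`**: every height-one prime of `B` containing `q` is `p₁` or `p₂`. -/
theorem vertical (D : TwoCompData q O₁ O₂) (p : Ideal B) (hp : p.IsPrime) (hht : p.height = 1)
    (hq : q ∈ p) : p = D.p₁ ∨ p = D.p₂ := by
  have := hp
  have hc := centre_locVS (F := F) p hht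
  have hq' : algebraMap B F q ∈ (locVS (F := F) p hht).nonunits := by
    rw [← mem_centre_iff (hO := algebraMap_mem_locVS p hht), hc]; exact hq
  have hht' : (centre (locVS (F := F) p hht) (algebraMap_mem_locVS p hht)).height = 1 := by
    rw [hc]; exact hht
  rcases D.exh _ (algebraMap_mem_locVS p hht) hq' hht' with h | h
  · left
    rw [← hc]
    exact centre_congr h _ _
  · right
    rw [← hc]
    exact centre_congr h _ _

/-- `p₁` has height one. -/
theorem height_p₁ (D : TwoCompData q O₁ O₂) : D.p₁.height = 1 := by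
  have hle : Ideal.span {q} ≤ D.p₁ := by
    rw [Ideal.span_le, Set.singleton_subset_iff]; exact D.q_mem_p₁
  obtain ⟨p, hpmin, hple⟩ := Ideal.exists_minimalPrimes_le hle
  have hpprime : p.IsPrime := hpmin.1.1
  have hqp : q ∈ p := hpmin.1.2 (Ideal.subset_span rfl)
  have h1 : p.height ≤ 1 :=
    Ideal.height_le_one_of_isPrincipal_of_mem_minimalPrimes (Ideal.span {q}) p hpmin
  have h0 : p.height ≠ 0 := by
    rw [Ne, Ideal.height_eq_zero_iff_eq_bot]
    intro hbot
    rw [hbot, Ideal.mem_bot] at hqp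
    exact D.q_ne_zero hqp
  have hht : p.height = 1 := le_antisymm h1 (Order.one_le_iff_pos.mpr (pos_iff_ne_zero.mpr h0))
  rcases D.vertical p hpprime hht hqp with h | h
  · rw [← h]; exact hht
  · exact absurd (h ▸ hple) D.not_p₂_le_p₁

theorem height_p₂ (D : TwoCompData q O₁ O₂) : D.p₂.height = 1 := D.symm.height_p₁

theorem algebraMap_q_ne_zero (D : TwoCompData q O₁ O₂) : algebraMap B F q ≠ 0 := fun h =>
  D.q_ne_zero (IsFractionRing.injective B F (by rw [h, map_zero]))

/-- `O₁ = B_{p₁}`. -/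
theorem eq_locVS₁ (D : TwoCompData q O₁ O₂) : O₁ = locVS (F := F) D.p₁ D.height_p₁ :=
  eq_locVS_centre O₁ D.le₁ (ne_top_of_mem_nonunits D.q_mem₁ D.algebraMap_q_ne_zero) D.height_p₁

theorem eq_locVS₂ (D : TwoCompData q O₁ O₂) : O₂ = locVS (F := F) D.p₂ D.height_p₂ :=
  D.symm.eq_locVS₁

/-- **`unif₁`**: `q` generates `p₁ B_{p₁}`. -/
theorem unif_p₁ (D : TwoCompData q O₁ O₂) (x : B) (hx : x ∈ D.p₁) :
    ∃ s, s ∉ D.p₁ ∧ q ∣ s * x := by
  have h1 : algebraMap B F x / algebraMap B F q ∈ O₁ := D.unif₁ _ hx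
  rw [D.eq_locVS₁, mem_locVS_iff] at h1
  obtain ⟨a, s, hs, has⟩ := h1
  refine ⟨s, hs, a, ?_⟩
  apply IsFractionRing.injective B F
  rw [map_mul, map_mul, ← has]
  field_simp [D.algebraMap_q_ne_zero]

theorem unif_p₂ (D : TwoCompData q O₁ O₂) (x : B) (hx : x ∈ D.p₂) :
    ∃ s, s ∉ D.p₂ ∧ q ∣ s * x := D.symm.unif_p₁ x hx

end TwoCompData

end Fermat.Agent.BR.Inst
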