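/-
Program B (BADRED), block B6, node B6.5c (helper22), abstract part 3: the two vertical components
from the SATURATION property (★).

`B` a domain inside a field `F` (only injectivity of `algebraMap B F` is used: `F` may be bigger
than the fraction field), `q : B` nonzero, `O₁ O₂` valuation subrings of `F` containing `B`, `q` a
uniformizer of both on the relevant elements (`unif`), separators `s, t ∈ B`, and

  (★)  `x * q ∈ B`, `x ∈ O₁`, `x ∈ O₂`  ⟹  `x ∈ B`.

Then `q B = P₁ ⊓ P₂` and `SpecialFibre.TwoComponents q P₁ P₂` (`P_i` the centres of `O_i`).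
Also the wrapper `TwoCompData.twoComponents` for the exhaustion route of `TwoCompAbs`.
-/
import Mathlib
import Fermat.Agent.BR.Inst.TwoCompAbs
import Fermat.Agent.BR.SpecialFibre

set_option autoImplicit false
set_option linter.unusedSectionVars false

namespace Fermat.Agent.BR.Inst

open Fermat.Agent.BR.Inst.LocVal Fermat.Agent.BR.SpecialFibre

variable {B : Type*} [CommRing B] [IsDomain B] {F : Type*} [Field F] [Algebra B F]

/-- The hypotheses of the saturation route. -/
structure StarData (q : B) (O₁ O₂ : ValuationSubring F) : Prop where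
  inj : Function.Injective (algebraMap B F)
  q_ne_zero : q ≠ 0
  le₁ : ∀ b : B, algebraMap B F b ∈ O₁
  le₂ : ∀ b : B, algebraMap B F b ∈ O₂
  q_mem₁ : algebraMap B F q ∈ O₁.nonunits
  q_mem₂ : algebraMap B F q ∈ O₂.nonunits
  unif₁ : ∀ b : B, algebraMap B F b ∈ O₁.nonunits → algebraMap B F b / algebraMap B F q ∈ O₁
  unif₂ : ∀ b : B, algebraMap B F b ∈ O₂.nonunits → algebraMap B F b / algebraMap B F q ∈ O₂
  sep₁ : ∃ s : B, algebraMap B F s ∈ O₂.nonunits ∧ algebraMap B F s ∉ O₁.nonunits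
  sep₂ : ∃ t : B, algebraMap B F t ∈ O₁.nonunits ∧ algebraMap B F t ∉ O₂.nonunits
  star : ∀ x : F, (∃ b : B, x * algebraMap B F q = algebraMap B F b) → x ∈ O₁ → x ∈ O₂ →
    ∃ b : B, algebraMap B F b = x

namespace StarData

variable {q : B} {O₁ O₂ : ValuationSubring F}

theorem symm (D : StarData q O₁ O₂) : StarData q O₂ O₁ where
  inj := D.inj
  q_ne_zero := D.q_ne_zero
  le₁ := D.le₂
  le₂ := D.le₁
  q_mem₁ := D.q_mem₂
  q_mem₂ := D.q_mem₁
  unif₁ := D.unif₂
  unif₂ := D.unif₁
  sep₁ := D.sep₂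
  sep₂ := D.sep₁
  star := fun x hx h2 h1 => D.star x hx h1 h2

/-- the first component -/
def P₁ (D : StarData q O₁ O₂) : Ideal B := centre O₁ D.le₁

/-- the second component -/
def P₂ (D : StarData q O₁ O₂) : Ideal B := centre O₂ D.le₂

instance prime₁ (D : StarData q O₁ O₂) : D.P₁.IsPrime := centre_isPrime O₁ D.le₁

instance prime₂ (D : StarData q O₁ O₂) : D.P₂.IsPrime := centre_isPrime O₂ D.le₂

theorem mem_P₁_iff (D : StarData q O₁ O₂) {b : B} : b ∈ D.P₁ ↔ algebraMap B F b ∈ O₁.nonunits :=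
  Iff.rfl

theorem mem_P₂_iff (D : StarData q O₁ O₂) {b : B} : b ∈ D.P₂ ↔ algebraMap B F b ∈ O₂.nonunits :=
  Iff.rfl

theorem algebraMap_q_ne_zero (D : StarData q O₁ O₂) : algebraMap B F q ≠ 0 := fun h =>
  D.q_ne_zero (D.inj (by rw [h, map_zero]))

/-- elements of a valuation subring divided by... : membership of a quotient `b / q` -/
theorem div_mul_q (D : StarData q O₁ O₂) (b : B) :
    algebraMap B F b / algebraMap B F q * algebraMap B F q = algebraMap B F b :=
  div_mul_cancel₀ _ D.algebraMap_q_ne_zero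

/-- **`q B = P₁ ⊓ P₂`**: the special fibre is reduced. -/
theorem inf_eq (D : StarData q O₁ O₂) : D.P₁ ⊓ D.P₂ = Ideal.span {q} := by
  apply le_antisymm
  · rintro x ⟨h1, h2⟩
    obtain ⟨b, hb⟩ := D.star (algebraMap B F x / algebraMap B F q) ⟨x, D.div_mul_q x⟩
      (D.unif₁ x h1) (D.unif₂ x h2)
    rw [Ideal.mem_span_singleton]
    refine ⟨b, D.inj ?_⟩
    rw [map_mul, hb, mul_comm, D.div_mul_q]
  · rw [Ideal.span_le, Set.singleton_subset_iff]
    exact ⟨D.q_mem₁, D.q_mem₂⟩

/-- **`unif₁`**: `q` generates `P₁ B_{P₁}`. -/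
theorem unif_P₁ (D : StarData q O₁ O₂) (x : B) (hx : x ∈ D.P₁) : ∃ s, s ∉ D.P₁ ∧ q ∣ s * x := by
  obtain ⟨s, hs2, hs1⟩ := D.sep₁
  refine ⟨s, hs1, ?_⟩
  have hq0 := D.algebraMap_q_ne_zero
  obtain ⟨b, hb⟩ := D.star (algebraMap B F (s * x) / algebraMap B F q) ⟨s * x, D.div_mul_q _⟩
    (by
      have : algebraMap B F (s * x) / algebraMap B F q =
          algebraMap B F s * (algebraMap B F x / algebraMap B F q) := by
        rw [map_mul, mul_div_assoc]
      rw [this]
      exact O₁.mul_mem _ _ (D.le₁ s) (D.unif₁ x hx))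
    (by
      have : algebraMap B F (s * x) / algebraMap B F q =
          (algebraMap B F s / algebraMap B F q) * algebraMap B F x := by
        rw [map_mul, mul_div_right_comm]
      rw [this]
      exact O₂.mul_mem _ _ (D.unif₂ s hs2) (D.le₂ x))
  refine ⟨b, D.inj ?_⟩
  rw [map_mul (algebraMap B F) q b, hb]
  field_simp

theorem unif_P₂ (D : StarData q O₁ O₂) (x : B) (hx : x ∈ D.P₂) : ∃ s, s ∉ D.P₂ ∧ q ∣ s * x :=
  D.symm.unif_P₁ x hx

/-- **`vertical`**: a height-one prime containing `q` is `P₁` or `P₂`. -/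
theorem vertical (D : StarData q O₁ O₂) (p : Ideal B) (hp : p.IsPrime) (hht : p.height = 1)
    (hq : q ∈ p) : p = D.P₁ ∨ p = D.P₂ := by
  have hle : D.P₁ * D.P₂ ≤ p := by
    refine le_trans Ideal.mul_le_inf ?_
    rw [D.inf_eq, Ideal.span_le, Set.singleton_subset_iff]
    exact hq
  have key : ∀ (P : Ideal B), P.IsPrime → q ∈ P → P ≤ p → p = P := by
    intro P hP hqP hPp
    by_contra hne
    have hlt : P < p := lt_of_le_of_ne hPp (fun h => hne h.symm)
    have h1 := (Ideal.height_le_iff (p := p) (n := 1)).mp (by rw [hht]; exact le_rfl) P hP hlt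
    have h0 : P.height = 0 := by
      have : P.height < 1 := by exact_mod_cast h1
      exact Order.lt_one_iff.mp this
    rw [Ideal.height_eq_zero_iff_eq_bot] at h0
    rw [h0, Ideal.mem_bot] at hqP
    exact D.q_ne_zero hqP
  rcases (Ideal.IsPrime.mul_le hp).mp hle with h | h
  · exact Or.inl (key _ D.prime₁ D.q_mem₁ h)
  · exact Or.inr (key _ D.prime₂ D.q_mem₂ h)

/-- **The two-component structure** (helper21's `SpecialFibre.TwoComponents`). -/
theorem twoComponents (D : StarData q O₁ O₂) : TwoComponents q D.P₁ D.P₂ where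
  q_ne_zero := D.q_ne_zero
  prime1 := D.prime₁
  prime2 := D.prime₂
  q_mem1 := D.q_mem₁
  q_mem2 := D.q_mem₂
  vertical := D.vertical
  unif1 := D.unif_P₁
  unif2 := D.unif_P₂

end StarData

/-- The exhaustion route of `TwoCompAbs` also gives `SpecialFibre.TwoComponents`. -/
theorem TwoCompData.twoComponents [IsFractionRing B F] [IsNoetherianRing B]
    [IsIntegrallyClosed B] {q : B} {O₁ O₂ : ValuationSubring F} (D : TwoCompData q O₁ O₂) :
    TwoComponents q D.p₁ D.p₂ where
  q_ne_zero := D.q_ne_zero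
  prime1 := D.prime₁
  prime2 := D.prime₂
  q_mem1 := D.q_mem_p₁
  q_mem2 := D.q_mem_p₂
  vertical := D.vertical
  unif1 := D.unif_p₁
  unif2 := D.unif_p₂

end Fermat.Agent.BR.Inst
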