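/-
Program B (BADRED), block B6, node B6.5(c)(C) (helper22): the two vertical components of the normal
model of `X₀(Mq)` over `W' = A ∩ K'` — FRAME-FREE instantiation of `StarData`.

`M` prime to the prime `q`, `A ⊂ ℚ̄` a valuation subring over `q`, `K' ⊆ ℚ̄` a coefficient field with
`W = A ∩ K'` a discrete valuation ring of uniformizer `π'`, and `C ⊆ F̄_{Mq}` ANY subring with
`NormalGen.IsModel (modelBase (M*q) W) (modelField (M*q) K') C` (helper4's `BR/Inst/NormalModel`: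
`C = {x ∈ K'·F_{Mq} | x integral over W[j]}`).

Named hypotheses (structure `ModelHyp`), to be discharged by helper13 (`unif₁`, `unif₂` = (I1')),
helper15 (`star` = (★')) and the Kronecker elements (`sKron_mem`, `tKron_mem`):

* `unif_i` : `x ∈ K'·F_{Mq}` non-unit of `O_i` ⟹ `x / π' ∈ O_i`;
* `star`   : `x π' ∈ C`, `x ∈ O₁`, `x ∈ O₂` ⟹ `x ∈ C`;
* `sKron M q, tKron M q ∈ C`.

Results: `ModelHyp.starData`, `P1`, `P2` (the centres of `O₁`, `O₂` on `C`), `inf_eq`
(`P1 ⊓ P2 = (π')`), `twoComponents : SpecialFibre.TwoComponents π' P1 P2`, `mem_P1_iff_res1`,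
`mem_P2_iff_res2`, and (with the value group hypothesis `hval`, through `model_normal_of_inter`):
`height_P1`, `height_P2`, `locVS_P1`, `locVS_P2` (`C_{P_i} = O_i ∩ K'·F_{Mq}`).
-/
import Mathlib
import Fermat.Agent.BR.Inst.TwoCompStar
import Fermat.Agent.BR.Inst.NormalModel
import Fermat.Agent.BR.TwoValInst
import Fermat.Agent.BR.ValTwo

set_option autoImplicit false
set_option linter.unusedSectionVars false
set_option linter.style.haveILetI false
set_option synthInstance.maxHeartbeats 400000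

noncomputable section

namespace Fermat.Agent.BR.Inst.TwoCompInst

open ModularCurve AlgebraicCurve Fermat.Agent.X0 Fermat.Agent.Val Fermat.Agent.Good.Bridge
open Fermat.Agent.BR.TwoVal Fermat.Agent.BR.TwoValInst
open Fermat.Agent.BR.Inst.NormalGen Fermat.Agent.BR.Inst.NormalModel
open Fermat.Agent.BR.Inst.LocVal Fermat.Agent.BR.SpecialFibre

/-! ### generic: integral elements over a subring of a valuation ring -/

theorem mem_of_isIntegral_of_le {Ω : Type*} [Field Ω] (R : Subring Ω) (O : ValuationSubring Ω)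
    (hRO : ∀ x ∈ R, x ∈ O) {x : Ω} (hx : IsIntegral ↥R x) : x ∈ O := by
  have hRO' : R ≤ O.toSubring := hRO
  have h1 : IsIntegral ↥O x := by
    obtain ⟨p, hp, hpx⟩ := hx
    refine ⟨p.map (Subring.inclusion hRO'), hp.map _, ?_⟩
    rw [Polynomial.eval₂_map]
    exact hpx
  obtain ⟨y, hy⟩ := IsIntegrallyClosed.isIntegral_iff.mp h1
  rw [← hy]
  exact y.2

variable {M q : ℕ} [NeZero M] [hq : Fact q.Prime]
variable (A : ValuationSubring Kb) (hA : A.LiesOverPrime q) (hqM : ¬ q ∣ M)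

/-! ### constants -/

theorem const_mem_O1_iff (c : Kb) : algebraMap Kb (Fb (M * q)) c ∈ O1 M A hA ↔ c ∈ A :=
  ValTwo.algebraMap_mem_gauss_iff hq.out A hA (M * q) c

theorem const_mem_O2_iff (c : Kb) : algebraMap Kb (Fb (M * q)) c ∈ O2 A hA hqM ↔ c ∈ A := by
  rw [mem_O2_iff, AlgEquiv.commutes, const_mem_O1_iff]

theorem comap_const_O1 : (O1 M A hA).comap (algebraMap Kb (Fb (M * q))) = A := by
  ext c
  exact const_mem_O1_iff A hA c

theorem comap_const_O2 : (O2 A hA hqM).comap (algebraMap Kb (Fb (M * q))) = A := by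
  ext c
  exact const_mem_O2_iff A hA hqM c

theorem const_mem_nonunits_O1_iff (c : Kb) :
    algebraMap Kb (Fb (M * q)) c ∈ (O1 M A hA).nonunits ↔ c ∈ A.nonunits :=
  algebraMap_mem_nonunits_iff (comap_const_O1 A hA) c

theorem const_mem_nonunits_O2_iff (c : Kb) :
    algebraMap Kb (Fb (M * q)) c ∈ (O2 A hA hqM).nonunits ↔ c ∈ A.nonunits :=
  algebraMap_mem_nonunits_iff (comap_const_O2 A hA hqM) c

theorem jBar_mem_O1 : jBar (M * q) ∈ O1 M A hA := by
  have h := jOne_mem_O1 (M := M) A hA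
  rwa [jOne, jBarD_one_eq] at h

theorem jBar_mem_O2 : jBar (M * q) ∈ O2 A hA hqM := by
  have h := jOne_mem_O2 (M := M) A hA hqM
  rwa [jOne, jBarD_one_eq] at h

/-! ### the base ring `W[j]` lies in both valuation rings -/

theorem modelBase_le_O1 {W : Subring Kb} (hWA : ∀ x ∈ W, x ∈ A) :
    ∀ x ∈ modelBase (M * q) W, x ∈ O1 M A hA := by
  have h : modelBase (M * q) W ≤ (O1 M A hA).toSubring := by
    rw [modelBase, Subring.closure_le]
    rintro x (⟨a, ha, rfl⟩ | hx)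
    · exact (const_mem_O1_iff A hA a).mpr (hWA a ha)
    · rw [Set.mem_singleton_iff] at hx
      subst hx
      exact jBar_mem_O1 A hA
  exact h

theorem modelBase_le_O2 {W : Subring Kb} (hWA : ∀ x ∈ W, x ∈ A) :
    ∀ x ∈ modelBase (M * q) W, x ∈ O2 A hA hqM := by
  have h : modelBase (M * q) W ≤ (O2 A hA hqM).toSubring := by
    rw [modelBase, Subring.closure_le]
    rintro x (⟨a, ha, rfl⟩ | hx)
    · exact (const_mem_O2_iff A hA hqM a).mpr (hWA a ha)
    · rw [Set.mem_singleton_iff] at hx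
      subst hx
      exact jBar_mem_O2 A hA hqM
  exact h

/-! ### the hypotheses -/

/-- The hypotheses of the instantiation: the frame data (`W = A ∩ K'`, uniformizer `π'`, the model
`C`) and the three named inputs (I1'), (★'), Kronecker elements. -/
structure ModelHyp (K' : Subfield Kb) (W : Subring Kb) (π' : Kb) (C : Subring (Fb (M * q))) :
    Prop where
  hW : ∀ x, x ∈ W ↔ x ∈ A ∧ x ∈ K'
  hπK : π' ∈ K'
  hπ0 : π' ≠ 0
  hπ1 : A.valuation π' < 1
  hC : IsModel (modelBase (M * q) W) (modelField (M * q) K') C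
  unif₁ : ∀ x ∈ modelField (M * q) K', x ∈ (O1 M A hA).nonunits →
    x / algebraMap Kb (Fb (M * q)) π' ∈ O1 M A hA
  unif₂ : ∀ x ∈ modelField (M * q) K', x ∈ (O2 A hA hqM).nonunits →
    x / algebraMap Kb (Fb (M * q)) π' ∈ O2 A hA hqM
  star : ∀ x : Fb (M * q), x * algebraMap Kb (Fb (M * q)) π' ∈ C → x ∈ O1 M A hA →
    x ∈ O2 A hA hqM → x ∈ C
  sKron_mem : sKron M q ∈ C
  tKron_mem : tKron M q ∈ C

namespace ModelHyp

variable {A hA hqM}
variable {K' : Subfield Kb} {W : Subring Kb} {π' : Kb} {C : Subring (Fb (M * q))}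

theorem W_le_A (H : ModelHyp A hA hqM K' W π' C) : ∀ x ∈ W, x ∈ A := fun x hx =>
  ((H.hW x).mp hx).1

theorem W_le_K (H : ModelHyp A hA hqM K' W π' C) : ∀ x ∈ W, x ∈ K' := fun x hx =>
  ((H.hW x).mp hx).2

theorem pi_mem_A (H : ModelHyp A hA hqM K' W π' C) : π' ∈ A :=
  (A.valuation_le_one_iff _).mp H.hπ1.le

theorem pi_mem_W (H : ModelHyp A hA hqM K' W π' C) : π' ∈ W := (H.hW _).mpr ⟨H.pi_mem_A, H.hπK⟩

theorem base_le (H : ModelHyp A hA hqM K' W π' C) : modelBase (M * q) W ≤ C :=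
  H.hC.base_le (modelBase_le_modelField (M * q) H.W_le_K)

theorem const_mem (H : ModelHyp A hA hqM K' W π' C) {a : Kb} (ha : a ∈ W) :
    algebraMap Kb (Fb (M * q)) a ∈ C :=
  H.base_le (const_mem_modelBase (M * q) W ha)

theorem pi_mem (H : ModelHyp A hA hqM K' W π' C) : algebraMap Kb (Fb (M * q)) π' ∈ C :=
  H.const_mem H.pi_mem_W

/-- the uniformizer as an element of the model -/
def piC (H : ModelHyp A hA hqM K' W π' C) : ↥C := ⟨algebraMap Kb (Fb (M * q)) π', H.pi_mem⟩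

theorem le_O1 (H : ModelHyp A hA hqM K' W π' C) (x : ↥C) : algebraMap ↥C (Fb (M * q)) x ∈
    O1 M A hA :=
  mem_of_isIntegral_of_le _ _ (modelBase_le_O1 A hA H.W_le_A) ((H.hC _).mp x.2).2

theorem le_O2 (H : ModelHyp A hA hqM K' W π' C) (x : ↥C) : algebraMap ↥C (Fb (M * q)) x ∈
    O2 A hA hqM :=
  mem_of_isIntegral_of_le _ _ (modelBase_le_O2 A hA hqM H.W_le_A) ((H.hC _).mp x.2).2

theorem mem_field (H : ModelHyp A hA hqM K' W π' C) (x : ↥C) :
    (x : Fb (M * q)) ∈ modelField (M * q) K' := ((H.hC _).mp x.2).1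

theorem pi_mem_nonunits (H : ModelHyp A hA hqM K' W π' C) : π' ∈ A.nonunits := by
  rw [A.mem_nonunits_iff]
  exact H.hπ1

/-- **The saturation data** of the model `C` with respect to the two Gauss valuations. -/
theorem starData (H : ModelHyp A hA hqM K' W π' C) :
    StarData (B := ↥C) (F := Fb (M * q)) H.piC (O1 M A hA) (O2 A hA hqM) where
  inj := Subtype.val_injective
  q_ne_zero := fun h => H.hπ0 (by
    have h1 : algebraMap Kb (Fb (M * q)) π' = 0 := congrArg Subtype.val h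
    exact (map_eq_zero_iff _ (algebraMap Kb (Fb (M * q))).injective).mp h1)
  le₁ := H.le_O1
  le₂ := H.le_O2
  q_mem₁ := (const_mem_nonunits_O1_iff A hA π').mpr H.pi_mem_nonunits
  q_mem₂ := (const_mem_nonunits_O2_iff A hA hqM π').mpr H.pi_mem_nonunits
  unif₁ := fun b hb => H.unif₁ _ (H.mem_field b) hb
  unif₂ := fun b hb => H.unif₂ _ (H.mem_field b) hb
  sep₁ := ⟨⟨sKron M q, H.sKron_mem⟩, sKron_mem_nonunits_O2 A hA hqM,
    sKron_notMem_nonunits_O1 A hA hqM⟩
  sep₂ := ⟨⟨tKron M q, H.tKron_mem⟩, tKron_mem_nonunits_O1 A hA,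
    tKron_notMem_nonunits_O2 A hA hqM⟩
  star := fun x ⟨b, hb⟩ h1 h2 => ⟨⟨x, H.star x (by
    have : x * algebraMap Kb (Fb (M * q)) π' = (b : Fb (M * q)) := hb
    rw [this]
    exact b.2) h1 h2⟩, rfl⟩

/-- the first vertical component: the centre of `O₁` on `C` -/
def P1 (H : ModelHyp A hA hqM K' W π' C) : Ideal ↥C := H.starData.P₁

/-- the second vertical component: the centre of `O₂` on `C` -/
def P2 (H : ModelHyp A hA hqM K' W π' C) : Ideal ↥C := H.starData.P₂

instance prime_P1 (H : ModelHyp A hA hqM K' W π' C) : H.P1.IsPrime := H.starData.prime₁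

instance prime_P2 (H : ModelHyp A hA hqM K' W π' C) : H.P2.IsPrime := H.starData.prime₂

theorem mem_P1_iff (H : ModelHyp A hA hqM K' W π' C) {x : ↥C} :
    x ∈ H.P1 ↔ (x : Fb (M * q)) ∈ (O1 M A hA).nonunits := Iff.rfl

theorem mem_P2_iff (H : ModelHyp A hA hqM K' W π' C) {x : ↥C} :
    x ∈ H.P2 ↔ (x : Fb (M * q)) ∈ (O2 A hA hqM).nonunits := Iff.rfl

/-- `P1` is the kernel of `res1` on `C`. -/
theorem mem_P1_iff_res1 (H : ModelHyp A hA hqM K' W π' C) {x : ↥C} :
    x ∈ H.P1 ↔ res1 M A hA ⟨(x : Fb (M * q)), H.le_O1 x⟩ = 0 := by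
  rw [H.mem_P1_iff]
  exact mem_nonunits_O1_iff A hA (H.le_O1 x)

/-- `P2` is the kernel of `res2` on `C`. -/
theorem mem_P2_iff_res2 (H : ModelHyp A hA hqM K' W π' C) {x : ↥C} :
    x ∈ H.P2 ↔ res2 A hA hqM ⟨(x : Fb (M * q)), H.le_O2 x⟩ = 0 := by
  rw [H.mem_P2_iff]
  exact mem_nonunits_O2_iff A hA hqM (H.le_O2 x)

/-- **the special fibre is reduced**: `P1 ⊓ P2 = (π')`. -/
theorem inf_eq (H : ModelHyp A hA hqM K' W π' C) : H.P1 ⊓ H.P2 = Ideal.span {H.piC} :=
  H.starData.inf_eq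

/-- **B6.5(c)**: the two vertical components of the model `C` of `X₀(Mq)` over `W' = A ∩ K'`. -/
theorem twoComponents (H : ModelHyp A hA hqM K' W π' C) : TwoComponents H.piC H.P1 H.P2 :=
  H.starData.twoComponents

theorem sKron_mem_P2 (H : ModelHyp A hA hqM K' W π' C) :
    (⟨sKron M q, H.sKron_mem⟩ : ↥C) ∈ H.P2 := sKron_mem_nonunits_O2 A hA hqM

theorem sKron_notMem_P1 (H : ModelHyp A hA hqM K' W π' C) :
    (⟨sKron M q, H.sKron_mem⟩ : ↥C) ∉ H.P1 := sKron_notMem_nonunits_O1 A hA hqM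

theorem tKron_mem_P1 (H : ModelHyp A hA hqM K' W π' C) :
    (⟨tKron M q, H.tKron_mem⟩ : ↥C) ∈ H.P1 := tKron_mem_nonunits_O1 A hA

theorem tKron_notMem_P2 (H : ModelHyp A hA hqM K' W π' C) :
    (⟨tKron M q, H.tKron_mem⟩ : ↥C) ∉ H.P2 := tKron_notMem_nonunits_O2 A hA hqM

theorem P1_ne_P2 (H : ModelHyp A hA hqM K' W π' C) : H.P1 ≠ H.P2 := fun h =>
  H.tKron_notMem_P2 (h ▸ H.tKron_mem_P1)

end ModelHyp

end Fermat.Agent.BR.Inst.TwoCompInst
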