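import Fermat.Agent.BR.Inst.ContentFK
import Fermat.Agent.BR.Inst.DegenModel
import Fermat.Agent.BR.Inst.TwoCompInst

/-!
# Program B, node B6.5c (glue): `TwoCompInst.ModelHyp` from the saturation property `(★')` alone

Frame-free, against helper4's `NormalModel` and helper22's `TwoCompInst.ModelHyp`: `W = A ∩ K'`
(`hW`), `C` with `IsModel (modelBase (M q) W) (modelField (M q) K') C`, `π'` a uniformizer
(unfolded `IsDVRField` fields).

* `tKron_mem`, `sKron_mem` : the Kronecker elements `t = j_q - j^q`, `s = j - j_q^q` lie in `C`;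
* `unif1`, `unif2` : `e(w_i | K'·F_{Mq}) = 1` (from `ContentFK`);
* `modelHyp_of_star` : all fields of `ModelHyp` except `star` (helper15's `(★')`);
* `twoComponents_of_star` : `SpecialFibre.TwoComponents π' P1 P2` from `(★')`.
-/

set_option autoImplicit false
set_option linter.unusedSectionVars false
set_option linter.style.haveILetI false
set_option synthInstance.maxHeartbeats 400000

noncomputable section

namespace Fermat.Agent.BR.Inst.TwoCompGlue

open ModularCurve Fermat.Agent.X0 Fermat.Agent.Val Fermat.Agent.BR.TwoVal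
  Fermat.Agent.Good.Bridge Fermat.Agent.BR.Inst.NormalGen Fermat.Agent.BR.Inst.NormalModel
  Fermat.Agent.BR.TwoValInst Fermat.Agent.BR.Inst.TwoCompInst

section Level

variable {M q : ℕ} [NeZero M] [hq : Fact q.Prime]

variable (A : ValuationSubring Kb) (hA : A.LiesOverPrime q) (hqM : ¬ q ∣ M)
  {K' : Subfield Kb} {W : Subring Kb}

/-- `j_q = jBarD (M q) q` -/
theorem jQ_eq : jQ M q = jBarD (M * q) q (dvd_mul_left q M) := by
  apply Subtype.ext
  show coeffEmb Kb (qExpand ℚ (1 * q) jq) = coeffEmb Kb (qExpand ℚ q jq)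
  rw [qExpand_congr (one_mul q)]

theorem jOne_eq : jOne M q = jBar (M * q) := jBarD_one_eq (M * q)

variable {C : Subring (Fb (M * q))}
  (hC : IsModel (modelBase (M * q) W) (modelField (M * q) K') C)

/-! ### (G2) `j`, `j_q`, `t`, `s` lie in `C` -/

include hC in
theorem modelBase_le (hWK : ∀ x ∈ W, x ∈ K') : modelBase (M * q) W ≤ C :=
  hC.base_le (modelBase_le_modelField (M * q) hWK)

include hC in
theorem jOne_mem (hWK : ∀ x ∈ W, x ∈ K') : jOne M q ∈ C := by
  rw [jOne_eq]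
  exact modelBase_le hC hWK (jBar_mem_modelBase (M * q) W)

include hC in
theorem jQ_mem : jQ M q ∈ C := by
  rw [jQ_eq, hC]
  refine ⟨?_, ?_⟩
  · rw [jBarD_eq_barEmb]
    exact barEmb_mem_modelField (M * q) K' _
  · exact DegenModel.isIntegral_jBarD_prime (M * q) q hq.out (dvd_mul_left q M) _
      (jBar_mem_modelBase (M * q) W)

include hC in
/-- **`t = j_q - j^q ∈ C`** -/
theorem tKron_mem (hWK : ∀ x ∈ W, x ∈ K') : tKron M q ∈ C :=
  sub_mem (jQ_mem hC) (pow_mem (jOne_mem hC hWK) q)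

include hC in
/-- **`s = j - j_q^q ∈ C`** -/
theorem sKron_mem (hWK : ∀ x ∈ W, x ∈ K') : sKron M q ∈ C :=
  sub_mem (jOne_mem hC hWK) (pow_mem (jQ_mem hC) q)

/-! ### (G4) `e = 1` on `K'·F_{Mq}` -/

variable (K') in
/-- **`unif₁`** in the shape of `ModelHyp` -/
theorem unif1 {π' : Kb} (hπ0 : π' ≠ 0) (hπ1 : A.valuation π' < 1)
    (hdvr : ∀ c ∈ K', c ≠ 0 → ∃ n : ℤ, A.valuation c = A.valuation π' ^ n) :
    ∀ x ∈ modelField (M * q) K', x ∈ (O1 M A hA).nonunits →
      x / algebraMap Kb (Fb (M * q)) π' ∈ O1 M A hA :=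
  fun _ hx hx1 => ContentFK.div_pi_mem_O1_sf A hA K' π' hπ0 hπ1 hdvr hx hx1

variable (K') in
/-- **`unif₂`** in the shape of `ModelHyp` -/
theorem unif2 {π' : Kb} (hπ0 : π' ≠ 0) (hπ1 : A.valuation π' < 1)
    (hdvr : ∀ c ∈ K', c ≠ 0 → ∃ n : ℤ, A.valuation c = A.valuation π' ^ n) :
    ∀ x ∈ modelField (M * q) K', x ∈ (O2 A hA hqM).nonunits →
      x / algebraMap Kb (Fb (M * q)) π' ∈ O2 A hA hqM :=
  fun _ hx hx2 => ContentFK.div_pi_mem_O2_sf A hA hqM K' π' hπ0 hπ1 hdvr hx hx2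

/-! ### the constructor -/

/-- **`ModelHyp` from `(★')` alone**: the frame data + the saturation property. -/
theorem modelHyp_of_star (hW : ∀ x, x ∈ W ↔ x ∈ A ∧ x ∈ K') {π' : Kb} (hπK : π' ∈ K')
    (hπ0 : π' ≠ 0) (hπ1 : A.valuation π' < 1)
    (hdvr : ∀ c ∈ K', c ≠ 0 → ∃ n : ℤ, A.valuation c = A.valuation π' ^ n)
    (hC : IsModel (modelBase (M * q) W) (modelField (M * q) K') C)
    (hstar : ∀ x : Fb (M * q), x * algebraMap Kb (Fb (M * q)) π' ∈ C →
      x ∈ O1 M A hA → x ∈ O2 A hA hqM → x ∈ C) :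
    ModelHyp A hA hqM K' W π' C where
  hW := hW
  hπK := hπK
  hπ0 := hπ0
  hπ1 := hπ1
  hC := hC
  unif₁ := unif1 A hA K' hπ0 hπ1 hdvr
  unif₂ := unif2 A hA hqM K' hπ0 hπ1 hdvr
  star := hstar
  sKron_mem := sKron_mem hC fun x hx => ((hW x).mp hx).2
  tKron_mem := tKron_mem hC fun x hx => ((hW x).mp hx).2

/-- **B6.5(c), final form modulo `(★')`**: the two vertical components of the model `C`. -/
theorem twoComponents_of_star (hW : ∀ x, x ∈ W ↔ x ∈ A ∧ x ∈ K') {π' : Kb} (hπK : π' ∈ K')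
    (hπ0 : π' ≠ 0) (hπ1 : A.valuation π' < 1)
    (hdvr : ∀ c ∈ K', c ≠ 0 → ∃ n : ℤ, A.valuation c = A.valuation π' ^ n)
    (hC : IsModel (modelBase (M * q) W) (modelField (M * q) K') C)
    (hstar : ∀ x : Fb (M * q), x * algebraMap Kb (Fb (M * q)) π' ∈ C →
      x ∈ O1 M A hA → x ∈ O2 A hA hqM → x ∈ C) :
    SpecialFibre.TwoComponents
      (modelHyp_of_star A hA hqM hW hπK hπ0 hπ1 hdvr hC hstar).piC
      (modelHyp_of_star A hA hqM hW hπK hπ0 hπ1 hdvr hC hstar).P1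
      (modelHyp_of_star A hA hqM hW hπK hπ0 hπ1 hdvr hC hstar).P2 :=
  (modelHyp_of_star A hA hqM hW hπK hπ0 hπ1 hdvr hC hstar).twoComponents

end Level

end Fermat.Agent.BR.Inst.TwoCompGlue
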