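/-
Program B (BADRED), block B6, node B6.5(c)(C), part 2 (helper22): the two vertical components are
of height one and the local rings of the model at them are the two Gauss valuation rings.

Generic part (`StarData`, `BR/Inst/TwoCompStar`):
* `StarData.not_P₁_le_P₂`, `StarData.not_P₂_le_P₁`, `StarData.P₁_mem_minimalPrimes`;
* `StarData.height_P₁`, `StarData.height_P₂` (`B` noetherian): Krull's Hauptidealsatz;
* `StarData.restrict` : restriction of the data to an intermediate field `B → F' → F`;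
* `StarData.eq_locVS_P₁`, `StarData.eq_locVS_P₂` : `O_i = B_{P_i}` when `F = Frac B`, `B` noetherian
  and integrally closed.

Instantiation (`ModelHyp` of `BR/Inst/TwoCompInst`, with the value group hypothesis `hval` of the
frame, through helper4's `model_normal_of_inter`):
* `ModelHyp.height_P1`, `ModelHyp.height_P2`;
* `ModelHyp.mem_O1_iff`, `ModelHyp.mem_O2_iff` : for `x ∈ K'·F_{Mq}`:
  `x ∈ O_i ↔ ∃ a b ∈ C, b ∉ P_i, x b = a`   (`C_{P_i} = O_i ∩ K'·F_{Mq}`).
-/
import Mathlib
import Fermat.Agent.BR.Inst.TwoCompInst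

set_option autoImplicit false
set_option linter.unusedSectionVars false
set_option linter.style.haveILetI false
set_option synthInstance.maxHeartbeats 400000

noncomputable section

namespace Fermat.Agent.BR.Inst

open Fermat.Agent.BR.Inst.LocVal Fermat.Agent.BR.SpecialFibre Fermat.Agent.BR.KrullNormal

/-- nonunits of the restriction of a valuation subring to a subfield -/
theorem mem_nonunits_comap_field {F' F : Type*} [Field F'] [Field F] (f : F' →+* F)
    (O : ValuationSubring F) {x : F'} : x ∈ (O.comap f).nonunits ↔ f x ∈ O.nonunits := by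
  rw [ValuationSubring.mem_nonunits_iff_or, ValuationSubring.mem_nonunits_iff_or,
    ValuationSubring.mem_comap, map_inv₀, map_eq_zero]

namespace StarData

variable {B : Type*} [CommRing B] [IsDomain B] {F : Type*} [Field F] [Algebra B F]
variable {q : B} {O₁ O₂ : ValuationSubring F}

theorem not_P₂_le_P₁ (D : StarData q O₁ O₂) : ¬ D.P₂ ≤ D.P₁ := fun h => by
  obtain ⟨s, hs2, hs1⟩ := D.sep₁
  exact hs1 (h hs2)

theorem not_P₁_le_P₂ (D : StarData q O₁ O₂) : ¬ D.P₁ ≤ D.P₂ := D.symm.not_P₂_le_P₁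

theorem q_mem_P₁ (D : StarData q O₁ O₂) : q ∈ D.P₁ := D.q_mem₁

theorem q_mem_P₂ (D : StarData q O₁ O₂) : q ∈ D.P₂ := D.q_mem₂

/-- `P₁` is a minimal prime over `(q)`. -/
theorem P₁_mem_minimalPrimes (D : StarData q O₁ O₂) :
    D.P₁ ∈ (Ideal.span {q}).minimalPrimes := by
  refine ⟨⟨D.prime₁, ?_⟩, ?_⟩
  · rw [Ideal.span_le, Set.singleton_subset_iff]
    exact D.q_mem₁
  · rintro p ⟨hp, hqp⟩ hle
    have h1 : D.P₁ * D.P₂ ≤ p := by
      refine le_trans Ideal.mul_le_inf ?_
      rw [D.inf_eq]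
      exact hqp
    rcases (Ideal.IsPrime.mul_le hp).mp h1 with h | h
    · exact h
    · exact absurd (h.trans hle) D.not_P₂_le_P₁

theorem P₂_mem_minimalPrimes (D : StarData q O₁ O₂) :
    D.P₂ ∈ (Ideal.span {q}).minimalPrimes := D.symm.P₁_mem_minimalPrimes

/-- **`P₁` has height one** (Krull's principal ideal theorem). -/
theorem height_P₁ [IsNoetherianRing B] (D : StarData q O₁ O₂) : D.P₁.height = 1 := by
  have h1 : D.P₁.height ≤ 1 :=
    Ideal.height_le_one_of_isPrincipal_of_mem_minimalPrimes (Ideal.span {q}) D.P₁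
      D.P₁_mem_minimalPrimes
  have h0 : D.P₁.height ≠ 0 := by
    rw [Ne, Ideal.height_eq_zero_iff_eq_bot]
    intro hbot
    have := D.q_mem_P₁
    rw [hbot, Ideal.mem_bot] at this
    exact D.q_ne_zero this
  exact le_antisymm h1 (Order.one_le_iff_pos.mpr (pos_iff_ne_zero.mpr h0))

theorem height_P₂ [IsNoetherianRing B] (D : StarData q O₁ O₂) : D.P₂.height = 1 :=
  D.symm.height_P₁

/-- Restriction of the data to an intermediate field. -/
theorem restrict {F' : Type*} [Field F'] [Algebra B F'] [Algebra F' F] [IsScalarTower B F' F]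
    (D : StarData q O₁ O₂) :
    StarData q (O₁.comap (algebraMap F' F)) (O₂.comap (algebraMap F' F)) := by
  have hmap : ∀ b : B, algebraMap F' F (algebraMap B F' b) = algebraMap B F b := fun b =>
    (IsScalarTower.algebraMap_apply B F' F b).symm
  have hinj : Function.Injective (algebraMap F' F) := (algebraMap F' F).injective
  have hdiv : ∀ b : B, algebraMap F' F (algebraMap B F' b / algebraMap B F' q) =
      algebraMap B F b / algebraMap B F q := fun b => by rw [map_div₀, hmap, hmap]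
  refine
    { inj := fun a b hab => D.inj (by rw [← hmap, ← hmap, hab])
      q_ne_zero := D.q_ne_zero
      le₁ := fun b => by rw [ValuationSubring.mem_comap, hmap]; exact D.le₁ b
      le₂ := fun b => by rw [ValuationSubring.mem_comap, hmap]; exact D.le₂ b
      q_mem₁ := by rw [mem_nonunits_comap_field, hmap]; exact D.q_mem₁
      q_mem₂ := by rw [mem_nonunits_comap_field, hmap]; exact D.q_mem₂
      unif₁ := fun b hb => by
        rw [mem_nonunits_comap_field, hmap] at hb
        rw [ValuationSubring.mem_comap, hdiv]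
        exact D.unif₁ b hb
      unif₂ := fun b hb => by
        rw [mem_nonunits_comap_field, hmap] at hb
        rw [ValuationSubring.mem_comap, hdiv]
        exact D.unif₂ b hb
      sep₁ := by
        obtain ⟨s, hs2, hs1⟩ := D.sep₁
        refine ⟨s, ?_, ?_⟩
        · rw [mem_nonunits_comap_field, hmap]; exact hs2
        · rw [mem_nonunits_comap_field, hmap]; exact hs1
      sep₂ := by
        obtain ⟨t, ht1, ht2⟩ := D.sep₂
        refine ⟨t, ?_, ?_⟩
        · rw [mem_nonunits_comap_field, hmap]; exact ht1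
        · rw [mem_nonunits_comap_field, hmap]; exact ht2
      star := fun x ⟨b, hb⟩ h1 h2 => by
        obtain ⟨c, hc⟩ := D.star (algebraMap F' F x)
          ⟨b, by rw [← hmap q, ← map_mul, hb, hmap]⟩ h1 h2
        exact ⟨c, hinj (by rw [hmap, hc])⟩ }

/-- the centres do not change under restriction -/
theorem restrict_P₁ {F' : Type*} [Field F'] [Algebra B F'] [Algebra F' F] [IsScalarTower B F' F]
    (D : StarData q O₁ O₂) : (D.restrict (F' := F')).P₁ = D.P₁ := by
  ext b
  rw [mem_P₁_iff, mem_P₁_iff, mem_nonunits_comap_field,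
    ← IsScalarTower.algebraMap_apply B F' F b]

theorem restrict_P₂ {F' : Type*} [Field F'] [Algebra B F'] [Algebra F' F] [IsScalarTower B F' F]
    (D : StarData q O₁ O₂) : (D.restrict (F' := F')).P₂ = D.P₂ := by
  ext b
  rw [mem_P₂_iff, mem_P₂_iff, mem_nonunits_comap_field,
    ← IsScalarTower.algebraMap_apply B F' F b]

section Frac

variable [IsFractionRing B F] [IsNoetherianRing B] [IsIntegrallyClosed B]

/-- **`O₁ = B_{P₁}`**. -/
theorem eq_locVS_P₁ (D : StarData q O₁ O₂) : O₁ = locVS (F := F) D.P₁ D.height_P₁ :=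
  eq_locVS_centre O₁ D.le₁ (LocVal.ne_top_of_mem_nonunits D.q_mem₁ D.algebraMap_q_ne_zero)
    D.height_P₁

theorem eq_locVS_P₂ (D : StarData q O₁ O₂) : O₂ = locVS (F := F) D.P₂ D.height_P₂ :=
  D.symm.eq_locVS_P₁

/-- `x ∈ O₁` iff `x` is regular at `P₁`. -/
theorem mem_O₁_iff (D : StarData q O₁ O₂) {x : F} : x ∈ O₁ ↔ RegularAt D.P₁ x := by
  conv_lhs => rw [D.eq_locVS_P₁]
  exact mem_locVS_iff

theorem mem_O₂_iff (D : StarData q O₁ O₂) {x : F} : x ∈ O₂ ↔ RegularAt D.P₂ x :=
  D.symm.mem_O₁_iff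

end Frac

end StarData

namespace TwoCompInst

open ModularCurve AlgebraicCurve Fermat.Agent.X0 Fermat.Agent.Val Fermat.Agent.Good.Bridge
open Fermat.Agent.BR.TwoVal Fermat.Agent.BR.TwoValInst
open Fermat.Agent.BR.Inst.NormalGen Fermat.Agent.BR.Inst.NormalModel

variable {M q : ℕ} [NeZero M] [hq : Fact q.Prime]
variable {A : ValuationSubring Kb} {hA : A.LiesOverPrime q} {hqM : ¬ q ∣ M}
variable {K' : Subfield Kb} {W : Subring Kb} {π' : Kb} {C : Subring (Fb (M * q))}

namespace ModelHyp

/-- the model is noetherian (helper4's `model_normal_of_inter`) -/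
theorem isNoetherianRing (H : ModelHyp A hA hqM K' W π' C)
    (hval : ∀ x ∈ K', x ≠ 0 → ∃ n : ℤ, A.valuation x = A.valuation π' ^ n) :
    IsNoetherianRing ↥C :=
  (model_normal_of_inter (M * q) A K' W H.hW π' H.hπK H.hπ0 H.hπ1 hval H.hC).1

/-- the model is integrally closed -/
theorem isIntegrallyClosed (H : ModelHyp A hA hqM K' W π' C)
    (hval : ∀ x ∈ K', x ≠ 0 → ∃ n : ℤ, A.valuation x = A.valuation π' ^ n) :
    IsIntegrallyClosed ↥C :=
  (model_normal_of_inter (M * q) A K' W H.hW π' H.hπK H.hπ0 H.hπ1 hval H.hC).2.1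

/-- **`P1` has height one.** -/
theorem height_P1 (H : ModelHyp A hA hqM K' W π' C)
    (hval : ∀ x ∈ K', x ≠ 0 → ∃ n : ℤ, A.valuation x = A.valuation π' ^ n) :
    H.P1.height = 1 := by
  haveI := H.isNoetherianRing hval
  exact H.starData.height_P₁

/-- **`P2` has height one.** -/
theorem height_P2 (H : ModelHyp A hA hqM K' W π' C)
    (hval : ∀ x ∈ K', x ≠ 0 → ∃ n : ℤ, A.valuation x = A.valuation π' ^ n) :
    H.P2.height = 1 := by
  haveI := H.isNoetherianRing hval
  exact H.starData.height_P₂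

/-- **`C_{P1} = O₁ ∩ K'·F_{Mq}`**: an element of the function field of the model lies in the Gauss
valuation ring `O₁` iff it has a denominator in `C` outside `P1`. -/
theorem mem_O1_iff (H : ModelHyp A hA hqM K' W π' C)
    (hval : ∀ x ∈ K', x ≠ 0 → ∃ n : ℤ, A.valuation x = A.valuation π' ^ n)
    {x : Fb (M * q)} (hx : x ∈ modelField (M * q) K') :
    x ∈ O1 M A hA ↔ ∃ a b : ↥C, b ∉ H.P1 ∧ x * (b : Fb (M * q)) = (a : Fb (M * q)) := by
  have hn := model_normal_of_inter (M * q) A K' W H.hW π' H.hπK H.hπ0 H.hπ1 hval H.hC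
  haveI := hn.1
  haveI := hn.2.1
  letI : Algebra ↥C ↥(modelField (M * q) K') := algebraOfLE H.hC.le_field
  haveI : IsFractionRing ↥C ↥(modelField (M * q) K') := hn.2.2.1
  haveI : IsScalarTower ↥C ↥(modelField (M * q) K') (Fb (M * q)) :=
    IsScalarTower.of_algebraMap_eq fun _ => rfl
  have D' := H.starData.restrict (F' := ↥(modelField (M * q) K'))
  have hP : D'.P₁ = H.P1 := H.starData.restrict_P₁
  have h1 : x ∈ O1 M A hA ↔
      (⟨x, hx⟩ : ↥(modelField (M * q) K')) ∈
        (O1 M A hA).comap (algebraMap ↥(modelField (M * q) K') (Fb (M * q))) := Iff.rfl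
  rw [h1, D'.mem_O₁_iff, hP]
  constructor
  · rintro ⟨a, b, hb, hab⟩
    exact ⟨a, b, hb, congrArg Subtype.val hab⟩
  · rintro ⟨a, b, hb, hab⟩
    exact ⟨a, b, hb, Subtype.ext hab⟩

/-- **`C_{P2} = O₂ ∩ K'·F_{Mq}`**. -/
theorem mem_O2_iff (H : ModelHyp A hA hqM K' W π' C)
    (hval : ∀ x ∈ K', x ≠ 0 → ∃ n : ℤ, A.valuation x = A.valuation π' ^ n)
    {x : Fb (M * q)} (hx : x ∈ modelField (M * q) K') :
    x ∈ O2 A hA hqM ↔ ∃ a b : ↥C, b ∉ H.P2 ∧ x * (b : Fb (M * q)) = (a : Fb (M * q)) := by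
  have hn := model_normal_of_inter (M * q) A K' W H.hW π' H.hπK H.hπ0 H.hπ1 hval H.hC
  haveI := hn.1
  haveI := hn.2.1
  letI : Algebra ↥C ↥(modelField (M * q) K') := algebraOfLE H.hC.le_field
  haveI : IsFractionRing ↥C ↥(modelField (M * q) K') := hn.2.2.1
  haveI : IsScalarTower ↥C ↥(modelField (M * q) K') (Fb (M * q)) :=
    IsScalarTower.of_algebraMap_eq fun _ => rfl
  have D' := H.starData.restrict (F' := ↥(modelField (M * q) K'))
  have hP : D'.P₂ = H.P2 := H.starData.restrict_P₂
  have h1 : x ∈ O2 A hA hqM ↔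
      (⟨x, hx⟩ : ↥(modelField (M * q) K')) ∈
        (O2 A hA hqM).comap (algebraMap ↥(modelField (M * q) K') (Fb (M * q))) := Iff.rfl
  rw [h1, D'.mem_O₂_iff, hP]
  constructor
  · rintro ⟨a, b, hb, hab⟩
    exact ⟨a, b, hb, congrArg Subtype.val hab⟩
  · rintro ⟨a, b, hb, hab⟩
    exact ⟨a, b, hb, Subtype.ext hab⟩

end ModelHyp

end TwoCompInst

end Fermat.Agent.BR.Inst
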