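import Fermat.Agent.BR.Inst.SpecialIsoModel
import Fermat.Agent.BR.Inst.TwoCompGlue
import Fermat.Agent.BR.Inst.TwoCompInstLoc
import Fermat.Agent.BR.Inst.StarFK
import Fermat.Agent.BR.Inst.GoingDownFK
import Fermat.Agent.BR.Inst.Levels

/-!
# Program B, node B6.5-INST: everything known about ONE level of the tower, in one place

`M ≥ 1`, `q` prime, `q ∤ M`, `A` a valuation subring of `ℚ̄ = Kb` over `q`, and ONE coefficient
field: `K' : Subfield Kb`, `W = A ∩ K'`, uniformizer `π'`.  The hypotheses are collected in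
`LevelHyp A hA hqM K' W π'` (unfolded frame: `IsDVRField`, `FullRes`, and the saturation `(★')`),
the models are the canonical ones

* `CQ M q W K'  := modelOf (modelBase (M q) W) (modelField (M q) K')`  (level `M q`),
* `CMod M W K'  := modelOf (modelBase M W) (modelField M K')`          (level `M`),

and every per-level output of B6.5 (b), (c), (d), (e) is restated for them, with ONE name each
(`H.xxx` for `H : LevelHyp …`).  `(★')` itself is a theorem (`star_of_frame`: helper15's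
`StarFK.star_of_goingDown` fed with helper13's `GoingDownFK.int_aeval_mem_imp_dvd`), so
`levelHyp_of_frame` needs only the unfolded frame, and `levelHyp_tower` gives the hypotheses
UNCONDITIONALLY at every level `S` of helper27's tower (`Levels.KS`, `Levels.WS`, `Levels.unif`).
-/

set_option autoImplicit false
set_option linter.unusedSectionVars false
set_option linter.style.haveILetI false
set_option synthInstance.maxHeartbeats 400000

noncomputable section

namespace Fermat.Agent.BR.Inst.LevelsInst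

open ModularCurve ModularCurve.IgusaScheme AlgebraicCurve Fermat.Agent.X0 Fermat.Agent.Val
  Fermat.Agent.BR.TwoVal Fermat.Agent.BR.TwoValInst
  Fermat.Agent.Good.Bridge Fermat.Agent.BR.Inst.NormalGen Fermat.Agent.BR.Inst.NormalModel
  Fermat.Agent.BR.Inst.ChartInModel Fermat.Agent.BR.Inst.DegenModel
  Fermat.Agent.BR.Inst.TwoCompInst Fermat.Agent.BR.SpecialFibre

variable (M q : ℕ) [NeZero M] [hq : Fact q.Prime]

/-- the canonical model of level `M q` over `W = A ∩ K'` -/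
def CQ (W : Subring Kb) (K' : Subfield Kb) : Subring (Fb (M * q)) :=
  modelOf (modelBase (M * q) W) (modelField (M * q) K')

/-- the canonical model of level `M` over `W = A ∩ K'` -/
def CMod (W : Subring Kb) (K' : Subfield Kb) : Subring (Fb M) :=
  modelOf (modelBase M W) (modelField M K')

theorem isModel_CQ (W : Subring Kb) (K' : Subfield Kb) :
    IsModel (modelBase (M * q) W) (modelField (M * q) K') (CQ M q W K') :=
  isModel_modelOf _ _

theorem isModel_CMod (W : Subring Kb) (K' : Subfield Kb) :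
    IsModel (modelBase M W) (modelField M K') (CMod M W K') :=
  isModel_modelOf _ _

variable {M q}
variable (A : ValuationSubring Kb) (hA : A.LiesOverPrime q) (hqM : ¬ q ∣ M)

/-- **The hypotheses at one level**: `W = A ∩ K'`, `π'` a uniformizer of `K'` (`IsDVRField`),
full residue field (`FullRes`) and the saturation property `(★')` of the level `M q` model. -/
structure LevelHyp (K' : Subfield Kb) (W : Subring Kb) (π' : Kb) : Prop where
  hW : ∀ x, x ∈ W ↔ x ∈ A ∧ x ∈ K'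
  hπK : π' ∈ K'
  hπ0 : π' ≠ 0
  hπ1 : A.valuation π' < 1
  hdvr : ∀ c ∈ K', c ≠ 0 → ∃ n : ℤ, A.valuation c = A.valuation π' ^ n
  full : ∀ a ∈ A, ∃ a' ∈ W, a - a' ∈ A.nonunits
  star : ∀ x : Fb (M * q), x * algebraMap Kb (Fb (M * q)) π' ∈ CQ M q W K' →
    x ∈ O1 M A hA → x ∈ O2 A hA hqM → x ∈ CQ M q W K'


/-- **(★') holds for every model over `W = A ∩ K'`** (helper15's `StarFK.star_of_goingDown` fed
with helper13's `GoingDownFK.int_aeval_mem_imp_dvd`). -/
theorem star_of_frame {K' : Subfield Kb} {W : Subring Kb} {π' : Kb}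
    (hW : ∀ x, x ∈ W ↔ x ∈ A ∧ x ∈ K') (hπK : π' ∈ K') (hπ0 : π' ≠ 0)
    (hπ1 : A.valuation π' < 1)
    (hdvr : ∀ c ∈ K', c ≠ 0 → ∃ n : ℤ, A.valuation c = A.valuation π' ^ n)
    {C : Subring (Fb (M * q))} (hC : IsModel (modelBase (M * q) W) (modelField (M * q) K') C)
    {x : Fb (M * q)} (hx : x * algebraMap Kb (Fb (M * q)) π' ∈ C)
    (h1 : x ∈ O1 M A hA) (h2 : x ∈ O2 A hA hqM) : x ∈ C :=
  StarFK.star_of_goingDown A hA hqM K' W hW π' hπK hπ0 hπ1 hdvr hC
    (fun p _ hp hπp R y hy hyp =>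
      GoingDownFK.int_aeval_mem_imp_dvd hq.out hA hW hπK hπ0 hπ1 hdvr hC p hp _ hπp R y hy hyp)
    hx h1 h2

/-- **the hypotheses of a level from the unfolded frame alone** (`IsDVRField` + `FullRes`) -/
theorem levelHyp_of_frame {K' : Subfield Kb} {W : Subring Kb} {π' : Kb}
    (hW : ∀ x, x ∈ W ↔ x ∈ A ∧ x ∈ K') (hπK : π' ∈ K') (hπ0 : π' ≠ 0)
    (hπ1 : A.valuation π' < 1)
    (hdvr : ∀ c ∈ K', c ≠ 0 → ∃ n : ℤ, A.valuation c = A.valuation π' ^ n)
    (full : ∀ a ∈ A, ∃ a' ∈ W, a - a' ∈ A.nonunits) : LevelHyp A hA hqM K' W π' where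
  hW := hW
  hπK := hπK
  hπ0 := hπ0
  hπ1 := hπ1
  hdvr := hdvr
  full := full
  star := fun _ hx h1 h2 =>
    star_of_frame A hA hqM hW hπK hπ0 hπ1 hdvr (isModel_CQ M q W K') hx h1 h2

namespace LevelHyp

variable {A hA hqM}
variable {K' : Subfield Kb} {W : Subring Kb} {π' : Kb}

/-! ### constants -/

theorem hWA (H : LevelHyp A hA hqM K' W π') : ∀ a ∈ W, a ∈ A := fun a ha => ((H.hW a).mp ha).1

theorem hWK (H : LevelHyp A hA hqM K' W π') : ∀ a ∈ W, a ∈ K' := fun a ha => ((H.hW a).mp ha).2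

/-- `ℤ_(q) ⊆ W` -/
theorem hZW (H : LevelHyp A hA hqM K' W π') :
    ∀ r : ↥(GaloisRep.ratLocalizedAt q),
      algebraMap ℚ Kb ((r : ↥(GaloisRep.ratLocalizedAt q)) : ℚ) ∈ W := fun r =>
  (H.hW _).mpr ⟨algebraMap_zl_mem A hA r, by
    rw [eq_ratCast]; exact SubfieldClass.ratCast_mem K' _⟩

theorem pi_mem_W (H : LevelHyp A hA hqM K' W π') : π' ∈ W :=
  (H.hW _).mpr ⟨(A.valuation_le_one_iff _).mp H.hπ1.le, H.hπK⟩

/-- `W = A ∩ K'` is a discrete valuation ring -/
theorem isDiscreteValuationRing (H : LevelHyp A hA hqM K' W π') : IsDiscreteValuationRing ↥W :=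
  isDiscreteValuationRing_of_uniformizer A K' W H.hW π' H.hπK H.hπ0 H.hπ1 H.hdvr

/-- `FullRes` in the residue-map form: every element of the residue field of `A` is the residue
of a constant of the level `M q` model -/
theorem fullRes (H : LevelHyp A hA hqM K' W π') (c : IsLocalRing.ResidueField A) :
    ∃ a : A, algebraMap Kb (Fb (M * q)) a ∈ CQ M q W K' ∧ IsLocalRing.residue A a = c := by
  obtain ⟨a₀, rfl⟩ := IsLocalRing.residue_surjective c
  obtain ⟨a', ha'W, hsub⟩ := H.full a₀ a₀.2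
  refine ⟨⟨a', H.hWA a' ha'W⟩, const_mem_model (M * q) (isModel_CQ M q W K') H.hWK ha'W, ?_⟩
  rw [eq_comm, ← sub_eq_zero, ← map_sub, IsLocalRing.residue_eq_zero_iff]
  have : ((a₀ - ⟨a', H.hWA a' ha'W⟩ : A) : Kb) ∈ A.nonunits := hsub
  rw [ValuationSubring.mem_nonunits_iff_exists_mem_maximalIdeal] at this
  obtain ⟨ha, hmem⟩ := this
  exact hmem

/-! ### (b) the models are noetherian normal domains -/

theorem isNoetherianRing (H : LevelHyp A hA hqM K' W π') : IsNoetherianRing ↥(CQ M q W K') :=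
  (model_normal_of_inter (M * q) A K' W H.hW π' H.hπK H.hπ0 H.hπ1 H.hdvr
    (isModel_CQ M q W K')).1

theorem isIntegrallyClosed (H : LevelHyp A hA hqM K' W π') :
    IsIntegrallyClosed ↥(CQ M q W K') :=
  (model_normal_of_inter (M * q) A K' W H.hW π' H.hπK H.hπ0 H.hπ1 H.hdvr
    (isModel_CQ M q W K')).2.1

theorem isFractionRing (H : LevelHyp A hA hqM K' W π') :
    @IsFractionRing ↥(CQ M q W K') _ ↥(modelField (M * q) K') _
      (algebraOfLE (isModel_CQ M q W K').le_field) :=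
  (model_normal_of_inter (M * q) A K' W H.hW π' H.hπK H.hπ0 H.hπ1 H.hdvr
    (isModel_CQ M q W K')).2.2.1

theorem isNoetherianRingM (H : LevelHyp A hA hqM K' W π') : IsNoetherianRing ↥(CMod M W K') :=
  (model_normal_of_inter M A K' W H.hW π' H.hπK H.hπ0 H.hπ1 H.hdvr (isModel_CMod M W K')).1

theorem isIntegrallyClosedM (H : LevelHyp A hA hqM K' W π') :
    IsIntegrallyClosed ↥(CMod M W K') :=
  (model_normal_of_inter M A K' W H.hW π' H.hπK H.hπ0 H.hπ1 H.hdvr (isModel_CMod M W K')).2.1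

theorem isFractionRingM (H : LevelHyp A hA hqM K' W π') :
    @IsFractionRing ↥(CMod M W K') _ ↥(modelField M K') _
      (algebraOfLE (isModel_CMod M W K').le_field) :=
  (model_normal_of_inter M A K' W H.hW π' H.hπK H.hπ0 H.hπ1 H.hdvr
    (isModel_CMod M W K')).2.2.1

/-- every element of `K'·F_{Mq}` is a quotient of elements of the model -/
theorem exists_frac (H : LevelHyp A hA hqM K' W π') {x : Fb (M * q)}
    (hx : x ∈ modelField (M * q) K') :
    ∃ a b : ↥(CQ M q W K'), b ≠ 0 ∧ x * (b : Fb (M * q)) = (a : Fb (M * q)) := by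
  letI : Algebra ↥(CQ M q W K') ↥(modelField (M * q) K') :=
    algebraOfLE (isModel_CQ M q W K').le_field
  haveI : IsFractionRing ↥(CQ M q W K') ↥(modelField (M * q) K') := H.isFractionRing
  obtain ⟨a, b, hb, hab⟩ := IsFractionRing.div_surjective (A := ↥(CQ M q W K'))
    (⟨x, hx⟩ : ↥(modelField (M * q) K'))
  have hb0 : b ≠ 0 := nonZeroDivisors.ne_zero hb
  refine ⟨a, b, hb0, ?_⟩
  have hbF : algebraMap ↥(CQ M q W K') ↥(modelField (M * q) K') b ≠ 0 := by
    intro h
    apply hb0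
    exact Subtype.ext (congrArg (fun z : ↥(modelField (M * q) K') => (z : Fb (M * q))) h)
  have h2 := (div_eq_iff hbF).mp hab
  have h3 := congrArg (fun z : ↥(modelField (M * q) K') => (z : Fb (M * q))) h2
  exact h3.symm

/-! ### (c) the two components -/

/-- helper22's `ModelHyp` for the canonical model -/
theorem modelHyp (H : LevelHyp A hA hqM K' W π') :
    ModelHyp A hA hqM K' W π' (CQ M q W K') :=
  TwoCompGlue.modelHyp_of_star A hA hqM H.hW H.hπK H.hπ0 H.hπ1 H.hdvr (isModel_CQ M q W K')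
    H.star

/-- the uniformizer as an element of the model -/
def piC (H : LevelHyp A hA hqM K' W π') : ↥(CQ M q W K') := H.modelHyp.piC

/-- `P₁ = C ∩ 𝔪(w₁)` -/
def P1 (H : LevelHyp A hA hqM K' W π') : Ideal ↥(CQ M q W K') := H.modelHyp.P1

/-- `P₂ = C ∩ 𝔪(w₂)` -/
def P2 (H : LevelHyp A hA hqM K' W π') : Ideal ↥(CQ M q W K') := H.modelHyp.P2

instance prime_P1 (H : LevelHyp A hA hqM K' W π') : H.P1.IsPrime := H.modelHyp.prime_P1

instance prime_P2 (H : LevelHyp A hA hqM K' W π') : H.P2.IsPrime := H.modelHyp.prime_P2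

theorem coe_piC (H : LevelHyp A hA hqM K' W π') :
    ((H.piC : ↥(CQ M q W K')) : Fb (M * q)) = algebraMap Kb (Fb (M * q)) π' := rfl

theorem mem_P1_iff (H : LevelHyp A hA hqM K' W π') {x : ↥(CQ M q W K')} :
    x ∈ H.P1 ↔ (x : Fb (M * q)) ∈ (O1 M A hA).nonunits := Iff.rfl

theorem mem_P2_iff (H : LevelHyp A hA hqM K' W π') {x : ↥(CQ M q W K')} :
    x ∈ H.P2 ↔ (x : Fb (M * q)) ∈ (O2 A hA hqM).nonunits := Iff.rfl

theorem le_O1 (H : LevelHyp A hA hqM K' W π') : ∀ x ∈ CQ M q W K', x ∈ O1 M A hA :=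
  fun x hx => H.modelHyp.le_O1 ⟨x, hx⟩

theorem le_O2 (H : LevelHyp A hA hqM K' W π') : ∀ x ∈ CQ M q W K', x ∈ O2 A hA hqM :=
  fun x hx => H.modelHyp.le_O2 ⟨x, hx⟩

/-- **B6.5(c)**: the special fibre of the model has exactly the two components `P₁`, `P₂` -/
theorem twoComponents (H : LevelHyp A hA hqM K' W π') : TwoComponents H.piC H.P1 H.P2 :=
  H.modelHyp.twoComponents

theorem inf_eq (H : LevelHyp A hA hqM K' W π') : H.P1 ⊓ H.P2 = Ideal.span {H.piC} :=
  H.modelHyp.inf_eq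

theorem height_P1 (H : LevelHyp A hA hqM K' W π') : H.P1.height = 1 :=
  H.modelHyp.height_P1 H.hdvr

theorem height_P2 (H : LevelHyp A hA hqM K' W π') : H.P2.height = 1 :=
  H.modelHyp.height_P2 H.hdvr

theorem mem_O1_iff (H : LevelHyp A hA hqM K' W π') {x : Fb (M * q)}
    (hx : x ∈ modelField (M * q) K') :
    x ∈ O1 M A hA ↔
      ∃ a b : ↥(CQ M q W K'), b ∉ H.P1 ∧ x * (b : Fb (M * q)) = (a : Fb (M * q)) :=
  H.modelHyp.mem_O1_iff H.hdvr hx

theorem mem_O2_iff (H : LevelHyp A hA hqM K' W π') {x : Fb (M * q)}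
    (hx : x ∈ modelField (M * q) K') :
    x ∈ O2 A hA hqM ↔
      ∃ a b : ↥(CQ M q W K'), b ∉ H.P2 ∧ x * (b : Fb (M * q)) = (a : Fb (M * q)) :=
  H.modelHyp.mem_O2_iff H.hdvr hx

theorem tKron_mem (H : LevelHyp A hA hqM K' W π') : tKron M q ∈ CQ M q W K' :=
  H.modelHyp.tKron_mem

theorem sKron_mem (H : LevelHyp A hA hqM K' W π') : sKron M q ∈ CQ M q W K' :=
  H.modelHyp.sKron_mem

/-! ### (d) the components are Dedekind, with coordinate ring `C_k` -/

/-- helper22's centre `P₁` is helper6's kernel of `res₁` -/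
theorem P1_eq (H : LevelHyp A hA hqM K' W π') :
    H.P1 = SpecIso.P1 A hA hqM H.hWA (isModel_CQ M q W K') :=
  Ideal.ext fun x => (SpecIso.mem_P1 A hA hqM H.hWA (isModel_CQ M q W K') x).symm

/-- helper22's centre `P₂` is helper6's kernel of `res₂` -/
theorem P2_eq (H : LevelHyp A hA hqM K' W π') :
    H.P2 = SpecIso.P2 A hA hqM H.hWA (isModel_CQ M q W K') :=
  Ideal.ext fun x => (SpecIso.mem_P2 A hA hqM H.hWA (isModel_CQ M q W K') x).symm

/-- **B6.5(d)**: `C ⧸ P₁` is a Dedekind domain -/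
theorem isDedekindDomain_quot_P1 (H : LevelHyp A hA hqM K' W π') :
    IsDedekindDomain (↥(CQ M q W K') ⧸ H.P1) := by
  rw [H.P1_eq]
  exact SpecIso.isDedekindDomain_quot_P1 A hA hqM H.hWA (isModel_CQ M q W K')
    (isModel_CMod M W K') H.hWK H.hZW H.full

/-- **B6.5(d)**: `C ⧸ P₂` is a Dedekind domain -/
theorem isDedekindDomain_quot_P2 (H : LevelHyp A hA hqM K' W π') :
    IsDedekindDomain (↥(CQ M q W K') ⧸ H.P2) := by
  rw [H.P2_eq]
  exact SpecIso.isDedekindDomain_quot_P2 A hA hqM H.hWA (isModel_CQ M q W K')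
    (isModel_CMod M W K') H.hWK H.hZW H.full

/-- `C ⧸ P₁ ≃ C_k`, the integral closure of `k[j̃]` in `F̃_M` -/
def quotP1 (H : LevelHyp A hA hqM K' W π') :
    ↥(CQ M q W K') ⧸ SpecIso.P1 A hA hqM H.hWA (isModel_CQ M q W K') ≃+* ↥(SpecIso.Ck M A) :=
  SpecIso.quotP1 A hA hqM H.hWA (isModel_CQ M q W K') (isModel_CMod M W K') H.hWK H.hZW H.full

/-- `C ⧸ P₂ ≃ C_k` -/
def quotP2 (H : LevelHyp A hA hqM K' W π') :
    ↥(CQ M q W K') ⧸ SpecIso.P2 A hA hqM H.hWA (isModel_CQ M q W K') ≃+* ↥(SpecIso.Ck M A) :=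
  SpecIso.quotP2 A hA hqM H.hWA (isModel_CQ M q W K') (isModel_CMod M W K') H.hWK H.hZW H.full

/-! ### the reduction maps onto `C_k` -/

/-- `res₁ : C → C_k` -/
def red1 (H : LevelHyp A hA hqM K' W π') : ↥(CQ M q W K') →+* ↥(SpecIso.Ck M A) :=
  SpecIso.redOne A hA hqM (CQ M q W K')
    (SpecIso.model_isIntegral_AJ A H.hWA (isModel_CQ M q W K'))

/-- `res₂ : C → C_k` -/
def red2 (H : LevelHyp A hA hqM K' W π') : ↥(CQ M q W K') →+* ↥(SpecIso.Ck M A) :=
  SpecIso.redTwo A hA hqM (CQ M q W K')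
    (SpecIso.model_isIntegral_AJ A H.hWA (isModel_CQ M q W K'))

/-- `res_M : C_M → C_k` -/
def redM (H : LevelHyp A hA hqM K' W π') : ↥(CMod M W K') →+* ↥(SpecIso.Ck M A) :=
  SpecIso.redLvl A hA hqM (CMod M W K')
    (SpecIso.modelM_isIntegral_AJM A H.hWA (isModel_CMod M W K'))

theorem coe_coe_red1 (H : LevelHyp A hA hqM K' W π') (x : ↥(CQ M q W K')) :
    (((H.red1 x : ↥(SpecIso.Ck M A)) :
      ↥(modularFunctionFieldFullC (IsLocalRing.ResidueField A) M)) :
        LaurentSeries (IsLocalRing.ResidueField A)) = res1 M A hA ⟨x, H.le_O1 x x.2⟩ := rfl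

theorem coe_coe_red2 (H : LevelHyp A hA hqM K' W π') (x : ↥(CQ M q W K')) :
    (((H.red2 x : ↥(SpecIso.Ck M A)) :
      ↥(modularFunctionFieldFullC (IsLocalRing.ResidueField A) M)) :
        LaurentSeries (IsLocalRing.ResidueField A)) = res2 A hA hqM ⟨x, H.le_O2 x x.2⟩ := rfl

theorem red1_eq_zero_iff (H : LevelHyp A hA hqM K' W π') (x : ↥(CQ M q W K')) :
    H.red1 x = 0 ↔ x ∈ H.P1 :=
  SpecIso.redOne_eq_zero_iff A hA hqM _ _ x

theorem red2_eq_zero_iff (H : LevelHyp A hA hqM K' W π') (x : ↥(CQ M q W K')) :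
    H.red2 x = 0 ↔ x ∈ H.P2 :=
  SpecIso.redTwo_eq_zero_iff A hA hqM _ _ x

theorem ker_red1 (H : LevelHyp A hA hqM K' W π') : RingHom.ker H.red1 = H.P1 :=
  Ideal.ext fun x => by rw [RingHom.mem_ker, H.red1_eq_zero_iff]

theorem ker_red2 (H : LevelHyp A hA hqM K' W π') : RingHom.ker H.red2 = H.P2 :=
  Ideal.ext fun x => by rw [RingHom.mem_ker, H.red2_eq_zero_iff]

theorem red1_surjective (H : LevelHyp A hA hqM K' W π') : Function.Surjective H.red1 :=
  SpecIso.redOne_surjective A hA hqM _ _ (W : Set Kb) H.full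
    (SpecIso.alpha_GM_mem A hA (isModel_CQ M q W K') (isModel_CMod M W K') H.hWK H.hZW)

theorem red2_surjective (H : LevelHyp A hA hqM K' W π') : Function.Surjective H.red2 :=
  SpecIso.redTwo_surjective A hA hqM _ _ (W : Set Kb) H.full
    (SpecIso.beta_GM_mem A hA (isModel_CQ M q W K') (isModel_CMod M W K') H.hWK H.hZW)

theorem redM_surjective (H : LevelHyp A hA hqM K' W π') : Function.Surjective H.redM :=
  SpecIso.redLvl_surjective A hA hqM _ _ (W : Set Kb) H.full
    (SpecIso.GM_le_model (isModel_CMod M W K') H.hWK H.hZW)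

theorem redM_eq_zero_iff (H : LevelHyp A hA hqM K' W π') (x : ↥(CMod M W K')) :
    H.redM x = 0 ↔ (x : Fb M) ∈ (ResGen.OM M A hA).nonunits :=
  SpecIso.redLvl_eq_zero_iff A hA hqM _ _ x

/-! ### (e) the crossing points -/

/-- the input of the crossing lemma, for helper22's `P₁`, `P₂` -/
theorem crossingInput (H : LevelHyp A hA hqM K' W π') :
    CrossingFF.CrossingInput A hA hqM (CQ M q W K') (CMod M W K') H.P1 H.P2 := by
  rw [H.P1_eq, H.P2_eq]
  exact SpecIso.crossingInput A hA hqM H.hWA (isModel_CQ M q W K') (isModel_CMod M W K')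
    H.hWK H.hZW H.full

/-- **B6.5(e)**: transversal coordinates at every crossing point `n ⊇ P₁ + P₂` -/
theorem crossing_transversal (H : LevelHyp A hA hqM K' W π') (n : Ideal ↥(CQ M q W K'))
    [n.IsPrime] (hp1 : H.P1 ≤ n) (hp2 : H.P2 ≤ n) :
    ∃ u v : ↥(CQ M q W K'), u ∈ H.P1 ∧ v ∈ H.P2 ∧
      (∀ x ∈ n, ∃ s, s ∉ n ∧ s * x ∈ H.P1 ⊔ Ideal.span {v}) ∧
      (∀ x ∈ n, ∃ s, s ∉ n ∧ s * x ∈ H.P2 ⊔ Ideal.span {u}) := by
  haveI := H.isDedekindDomain_quot_P1
  haveI := H.isDedekindDomain_quot_P2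
  exact H.crossingInput.crossing_transversal n H.tKron_mem H.sKron_mem hp1 hp2

/-- **B6.5(e)**: `NodeData` in the local ring at every crossing point -/
theorem crossing_nodeData (H : LevelHyp A hA hqM K' W π') (n : Ideal ↥(CQ M q W K'))
    [n.IsPrime] (O : Type*) [CommRing O] [Algebra ↥(CQ M q W K') O] [IsLocalization.AtPrime O n]
    [IsLocalRing O] (hp1 : H.P1 ≤ n) (hp2 : H.P2 ≤ n) :
    ∃ u v : ↥(CQ M q W K'), u ∈ H.P1 ∧ v ∈ H.P2 ∧
      (∀ x ∈ n, ∃ s, s ∉ n ∧ s * x ∈ H.P1 ⊔ Ideal.span {v}) ∧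
      (∀ x ∈ n, ∃ s, s ∉ n ∧ s * x ∈ H.P2 ⊔ Ideal.span {u}) ∧
      NodeLemma.NodeData (algebraMap ↥(CQ M q W K') O H.piC) (algebraMap ↥(CQ M q W K') O u)
        (algebraMap ↥(CQ M q W K') O v) (H.P1.map (algebraMap ↥(CQ M q W K') O))
        (H.P2.map (algebraMap ↥(CQ M q W K') O)) := by
  haveI := H.isNoetherianRing
  haveI := H.isIntegrallyClosed
  haveI := H.isDedekindDomain_quot_P1
  haveI := H.isDedekindDomain_quot_P2
  exact H.crossingInput.crossing_nodeData n O H.twoComponents H.tKron_mem H.sKron_mem hp1 hp2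

/-! ### the degeneracy maps -/

/-- `α : C_M → C_{Mq}` -/
def alpha (_H : LevelHyp A hA hqM K' W π') : ↥(CMod M W K') →+* ↥(CQ M q W K') :=
  alphaModel M q (isModel_CMod M W K') (isModel_CQ M q W K')

/-- `β : C_M → C_{Mq}` -/
def beta (_H : LevelHyp A hA hqM K' W π') : ↥(CMod M W K') →+* ↥(CQ M q W K') :=
  betaModel M q hq.out (isModel_CMod M W K') (isModel_CQ M q W K')

end LevelHyp

/-! ### the levels of helper27's tower -/

section Tower

open Fermat.Agent.BR.Inst.Levels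

/-- **every level `S` of the tower satisfies the hypotheses**, unconditionally:
`K' = Levels.KS q S`, `W = Levels.WS A q S = A ∩ K'`, `π' = Levels.unif A hq hA S`. -/
theorem levelHyp_tower (S : Finset Kb) :
    LevelHyp A hA hqM (KS q S) (WS A q S) (unif A hq.out hA S) :=
  levelHyp_of_frame A hA hqM (fun _ => mem_WS_iff) (unif_mem_KS A hq.out hA S)
    (unif_ne_zero A hq.out hA S) (unif_lt_one A hq.out hA S)
    (fun _ hx hx0 => valuation_eq_zpow_unif A hq.out hA S hx hx0) (fullRes_WS A hq.out hA S)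

/-- the level `M q` model of level `S` is helper27's `CS` for the finite chart -/
theorem CQ_eq_CS (S : Finset Kb) :
    CQ M q (WS A q S) (KS q S) =
      CS (M * q) q (fun T => modelBase (M * q) (WS A q T)) S := rfl

/-- the level `M` model of level `S` is helper27's `CS` for the finite chart -/
theorem CMod_eq_CS (S : Finset Kb) :
    CMod M (WS A q S) (KS q S) = CS M q (fun T => modelBase M (WS A q T)) S := rfl

/-- `v q = v π'_S ^ e`, `e > 0` -/
theorem exists_ramification (S : Finset Kb) :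
    ∃ e : ℕ, 0 < e ∧ A.valuation (q : Kb) = A.valuation (unif A hq.out hA S) ^ e :=
  valuation_natCast_eq_pow_unif A hq.out hA S

end Tower

end Fermat.Agent.BR.Inst.LevelsInst
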