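import Fermat.Agent.BR.ModUnitChart
import Fermat.Agent.BR.Inst.TwoCompInstLoc
import Fermat.Agent.BR.SpecialFibre

/-!
# Program B, block B6.5 (f): the modular unit on the normal models of `X₀(Mq)`

`H : TwoCompInst.ModelHyp A hA hqM K' W π' C` (helper22): `C = {x ∈ K'·F_{Mq} | x integral over
W[j]}`, `W = A ∩ K'` with uniformizer `π'`; `H.P1`, `H.P2` the two vertical primes,
`H.twoComponents : SpecialFibre.TwoComponents H.piC H.P1 H.P2`.

* `TC H`, `TC' H : C` : the modular unit `T = Δ(s)/Δ(s^q)` and `T' = q^12/T` as elements of the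
  model; `TC_mul_TC'`, `TC_notMem_P1`, `TC'_notMem_P2`, `TC_mem_P2`, `TC'_mem_P1`;
* with `q = π'^e₀ ε`, `ε` a unit of `W` (`QUnif`): `TC'' H hq : C` with
  `TC * TC'' = piC ^ (12 * e₀)`, `TC'' ∉ P2`;
* `le_of_TC_mem` : a zero of `T` lies on the second component; `crossing_iff`: for a prime
  `n ⊇ P1`: `P2 ≤ n ↔ T ∈ n` (**crossing ⇔ `T̄₁` vanishes**);
* `unitData`, `exists_node` : `NodeThickness.UnitData` in the local ring at a crossing point and the
  node lemma with the bound `1 ≤ e ≤ 12 e₀`;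
* `addVal_eq` : `e · ord(T̄₁) = 12 e₀` in any discrete valuation ring quotient `O_n / P1`.
-/

set_option autoImplicit false
set_option linter.unusedSectionVars false
set_option linter.style.haveILetI false
set_option synthInstance.maxHeartbeats 400000

noncomputable section

namespace Fermat.Agent.BR.Inst.ModUnitNode

open ModularCurve AlgebraicCurve Fermat.Agent.X0 Fermat.Agent.Val Fermat.Agent.Good.Bridge
open Fermat.Agent.BR.TwoVal Fermat.Agent.BR.TwoValInst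
open Fermat.Agent.BR.Inst.NormalGen Fermat.Agent.BR.Inst.NormalModel
open Fermat.Agent.BR.Inst.TwoCompInst Fermat.Agent.BR.SpecialFibre Fermat.Agent.BR.ModUnit
open Fermat.Agent.BR.NodeLemma Fermat.Agent.BR.NodeThickness

variable {M q : ℕ} [NeZero M] [hq : Fact q.Prime]
variable {A : ValuationSubring Kb} {hA : A.LiesOverPrime q} {hqM : ¬ q ∣ M}
variable {K' : Subfield Kb} {W : Subring Kb} {π' : Kb} {C : Subring (Fb (M * q))}

/-- `T` as an element of the model. -/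
def TC (H : ModelHyp A hA hqM K' W π' C) : ↥C := ⟨TB M q, TB_mem_model M q W K' H.hC⟩

/-- `T' = q^12/T` as an element of the model. -/
def TC' (H : ModelHyp A hA hqM K' W π' C) : ↥C := ⟨TB' M q, TB'_mem_model M q W K' H.hC⟩

@[simp] theorem coe_TC (H : ModelHyp A hA hqM K' W π' C) : ((TC H : ↥C) : Fb (M * q)) = TB M q :=
  rfl

@[simp] theorem coe_TC' (H : ModelHyp A hA hqM K' W π' C) :
    ((TC' H : ↥C) : Fb (M * q)) = TB' M q := rfl

theorem TC_mul_TC' (H : ModelHyp A hA hqM K' W π' C) : TC H * TC' H = ((q : ℕ) : ↥C) ^ 12 :=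
  TB_mul_TB'_model M q C _ _

theorem TC_notMem_P1 (H : ModelHyp A hA hqM K' W π' C) : TC H ∉ H.P1 :=
  TB_not_mem_nonunits_O1 M q A hA

theorem TC'_notMem_P2 (H : ModelHyp A hA hqM K' W π' C) : TC' H ∉ H.P2 :=
  TB'_not_mem_nonunits_O2 M q A hA hqM

theorem TC_mem_P2 (H : ModelHyp A hA hqM K' W π' C) : TC H ∈ H.P2 :=
  TB_mem_nonunits_O2 M q A hA hqM

theorem TC'_mem_P1 (H : ModelHyp A hA hqM K' W π' C) : TC' H ∈ H.P1 :=
  TB'_mem_nonunits_O1 M q A hA

/-- `q = π'^e₀ ε` with `ε` a unit of `W` (always true in the discrete valuation ring `W`;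
`e₀ = 1`, `ε = 1` when `π' = q`). -/
structure QUnif (W : Subring Kb) (π' : Kb) (q e₀ : ℕ) (ε : Kb) : Prop where
  eq : (q : Kb) = π' ^ e₀ * ε
  mem : ε ∈ W
  inv_mem : ε⁻¹ ∈ W

theorem QUnif.self (W : Subring Kb) (q : ℕ) : QUnif W (q : Kb) q 1 1 :=
  ⟨by rw [pow_one, mul_one], W.one_mem, by rw [inv_one]; exact W.one_mem⟩

section Unif

variable {e₀ : ℕ} {ε : Kb}

/-- `ε⁻¹` as an element of the model -/
def epsInvC (H : ModelHyp A hA hqM K' W π' C) (hu : QUnif W π' q e₀ ε) : ↥C :=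
  ⟨algebraMap Kb (Fb (M * q)) ε⁻¹, H.const_mem hu.inv_mem⟩

/-- `ε` as an element of the model -/
def epsC (H : ModelHyp A hA hqM K' W π' C) (hu : QUnif W π' q e₀ ε) : ↥C :=
  ⟨algebraMap Kb (Fb (M * q)) ε, H.const_mem hu.mem⟩

theorem eps_ne_zero (H : ModelHyp A hA hqM K' W π' C) (hu : QUnif W π' q e₀ ε) : ε ≠ 0 := by
  rintro rfl
  have h := hu.eq
  rw [mul_zero] at h
  exact (Nat.cast_ne_zero.mpr hq.out.ne_zero) h

theorem epsC_mul_epsInvC (H : ModelHyp A hA hqM K' W π' C) (hu : QUnif W π' q e₀ ε) :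
    epsC H hu * epsInvC H hu = 1 := by
  apply Subtype.ext
  show algebraMap Kb (Fb (M * q)) ε * algebraMap Kb (Fb (M * q)) ε⁻¹ = 1
  rw [← map_mul, mul_inv_cancel₀ (eps_ne_zero H hu), map_one]

theorem natCast_eq (H : ModelHyp A hA hqM K' W π' C) (hu : QUnif W π' q e₀ ε) :
    ((q : ℕ) : ↥C) = H.piC ^ e₀ * epsC H hu := by
  apply Subtype.ext
  rw [Subring.coe_natCast, Subring.coe_mul, Subring.coe_pow]
  show ((q : ℕ) : Fb (M * q)) = algebraMap Kb (Fb (M * q)) π' ^ e₀ * algebraMap Kb (Fb (M * q)) ε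
  rw [← map_pow, ← map_mul, ← hu.eq, map_natCast]

/-- `T'' = T' ε^{-12}`: the cofactor of `T` with respect to the uniformizer of the model. -/
def TC'' (H : ModelHyp A hA hqM K' W π' C) (hu : QUnif W π' q e₀ ε) : ↥C :=
  TC' H * epsInvC H hu ^ 12

/-- `T T'' = π'^(12 e₀)`. -/
theorem TC_mul_TC'' (H : ModelHyp A hA hqM K' W π' C) (hu : QUnif W π' q e₀ ε) :
    TC H * TC'' H hu = H.piC ^ (12 * e₀) := by
  have h1 : epsC H hu ^ 12 * epsInvC H hu ^ 12 = 1 := by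
    rw [← mul_pow, epsC_mul_epsInvC, one_pow]
  calc TC H * TC'' H hu = (TC H * TC' H) * epsInvC H hu ^ 12 := by rw [TC'']; ring
    _ = (H.piC ^ e₀ * epsC H hu) ^ 12 * epsInvC H hu ^ 12 := by rw [TC_mul_TC', natCast_eq H hu]
    _ = H.piC ^ (12 * e₀) * (epsC H hu ^ 12 * epsInvC H hu ^ 12) := by ring
    _ = H.piC ^ (12 * e₀) := by rw [h1, mul_one]

theorem TC''_notMem_P2 (H : ModelHyp A hA hqM K' W π' C) (hu : QUnif W π' q e₀ ε) :
    TC'' H hu ∉ H.P2 := by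
  intro h
  rcases (H.prime_P2).mem_or_mem h with h1 | h1
  · exact TC'_notMem_P2 H h1
  · have h2 : epsInvC H hu ∈ H.P2 := (H.prime_P2).mem_of_pow_mem 12 h1
    have h3 : (1 : ↥C) ∈ H.P2 := by
      rw [← epsC_mul_epsInvC H hu]
      exact H.P2.mul_mem_left _ h2
    exact (H.prime_P2).ne_top ((Ideal.eq_top_iff_one _).mpr h3)

variable (hval : ∀ x ∈ K', x ≠ 0 → ∃ n : ℤ, A.valuation x = A.valuation π' ^ n)

include hval in
/-- **ADDITION A on the model**: a zero of `T` is a point of the second component. -/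
theorem le_of_TC_mem (H : ModelHyp A hA hqM K' W π' C) (hu : QUnif W π' q e₀ ε)
    (n : Ideal ↥C) [n.IsPrime] (hTn : TC H ∈ n) : H.P2 ≤ n := by
  haveI := H.isNoetherianRing hval
  haveI := H.isIntegrallyClosed hval
  exact H.twoComponents.le_of_mem n (TC_mul_TC'' H hu) (TC_notMem_P1 H) hTn

include hval in
/-- **crossing ⇔ `T̄₁` vanishes**: a point `n` of the first component lies on the second
component iff `T ∈ n`. -/
theorem crossing_iff (H : ModelHyp A hA hqM K' W π' C) (hu : QUnif W π' q e₀ ε)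
    (n : Ideal ↥C) [n.IsPrime] : H.P2 ≤ n ↔ TC H ∈ n :=
  ⟨fun h => h (TC_mem_P2 H), le_of_TC_mem hval H hu n⟩

section Local

variable (n : Ideal ↥C) [n.IsPrime] (O : Type*) [CommRing O] [Algebra ↥C O]
  [IsLocalization.AtPrime O n] [IsLocalRing O]

include hval in
/-- **The modular-unit data** in the local ring `O = C_n` of a crossing point. -/
theorem unitData (H : ModelHyp A hA hqM K' W π' C) (hu : QUnif W π' q e₀ ε)
    (hp1 : H.P1 ≤ n) (hp2 : H.P2 ≤ n) (hp1n : H.P1 ≠ n) (hp2n : H.P2 ≠ n) :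
    UnitData {p : Ideal O | p.IsPrime ∧ p.height = 1} (algebraMap ↥C O H.piC)
      (algebraMap ↥C O (TC H)) (H.P1.map (algebraMap ↥C O)) (H.P2.map (algebraMap ↥C O))
      (12 * e₀) := by
  haveI := H.isNoetherianRing hval
  haveI := H.isIntegrallyClosed hval
  exact H.twoComponents.unitData n O hp1 hp2 hp1n hp2n (TC_mul_TC'' H hu) (TC_notMem_P1 H)
    (TC''_notMem_P2 H hu)

include hval in
/-- **NODE LEMMA on the model of `X₀(Mq)`**: at a crossing point `n` with transversal `u ∈ P1`,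
`v ∈ P2` there are `u' ≡ u`, `v' ≡ v (mod π')` in `C_n` with `u' v' = π'^e · unit`,
`1 ≤ e ≤ 12 e₀`. -/
theorem exists_node (H : ModelHyp A hA hqM K' W π' C) (hu : QUnif W π' q e₀ ε) (he₀ : e₀ ≠ 0)
    (hp1 : H.P1 ≤ n) (hp2 : H.P2 ≤ n) (hp1n : H.P1 ≠ n) (hp2n : H.P2 ≠ n) {u v : ↥C}
    (hu1 : u ∈ H.P1) (hv2 : v ∈ H.P2)
    (hv1 : ∀ x ∈ n, ∃ s, s ∉ n ∧ s * x ∈ H.P1 ⊔ Ideal.span {v})
    (hu2 : ∀ x ∈ n, ∃ s, s ∉ n ∧ s * x ∈ H.P2 ⊔ Ideal.span {u}) :
    ∃ (e : ℕ) (u' v' η : O), 1 ≤ e ∧ e ≤ 12 * e₀ ∧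
      NodeData (algebraMap ↥C O H.piC) u' v' (H.P1.map (algebraMap ↥C O))
        (H.P2.map (algebraMap ↥C O)) ∧
      u' - algebraMap ↥C O u ∈ Ideal.span {algebraMap ↥C O H.piC} ∧
      v' - algebraMap ↥C O v ∈ Ideal.span {algebraMap ↥C O H.piC} ∧ IsUnit η ∧
      u' * v' = algebraMap ↥C O H.piC ^ e * η := by
  haveI := H.isNoetherianRing hval
  haveI := H.isIntegrallyClosed hval
  exact H.twoComponents.exists_node n O hp1 hp2 hp1n hp2n hu1 hv2 hv1 hu2
    (Nat.mul_ne_zero (by norm_num) he₀) (TC_mul_TC'' H hu) (TC_notMem_P1 H) (TC''_notMem_P2 H hu)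

include hval in
/-- **Exact thickness**: `e · ord(T̄₁) = 12 e₀` in a discrete valuation ring quotient
`D' = O_n / P1`. -/
theorem addVal_eq (H : ModelHyp A hA hqM K' W π' C) (hu : QUnif W π' q e₀ ε)
    (hp1 : H.P1 ≤ n) (hp2 : H.P2 ≤ n) (hp1n : H.P1 ≠ n) (hp2n : H.P2 ≠ n)
    {D' : Type*} [CommRing D'] [IsDomain D'] [IsDiscreteValuationRing D']
    {u' v' η : O} {e : ℕ}
    (hN : NodeData (algebraMap ↥C O H.piC) u' v' (H.P1.map (algebraMap ↥C O))
      (H.P2.map (algebraMap ↥C O)))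
    (hη : IsUnit η) (huv : u' * v' = algebraMap ↥C O H.piC ^ e * η)
    (ρ : O →+* D') (hρ : Function.Surjective ρ)
    (hker : RingHom.ker ρ = H.P1.map (algebraMap ↥C O)) :
    (e : ℕ∞) * IsDiscreteValuationRing.addVal D' (ρ (algebraMap ↥C O (TC H))) =
      ((12 * e₀ : ℕ) : ℕ∞) := by
  haveI : IsDomain O :=
    IsLocalization.isDomain_of_le_nonZeroDivisors O n.primeCompl_le_nonZeroDivisors
  exact (unitData hval n O H hu hp1 hp2 hp1n hp2n).addVal_eq hN hη huv ρ hρ hker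

end Local

end Unif

end Fermat.Agent.BR.Inst.ModUnitNode
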