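import Mathlib
import Fermat.Agent.BR.SpecialFibre
import Fermat.Agent.BR.S0.SmoothModel

/-!
# Program B (BADRED), node B6.6-CONS, the step BELOW `S0.SmoothModel`

`S0.SmoothModel A π O res Q T t C ϖ` (helper24, `BR/S0/SmoothModel.lean`) is the per-level input
of the smooth chart at a non-crossing point `Q` of a component `(O, res)`, in element form.  Here
its four non-formal fields `regular`, `vert`, `transversal`, `fullRes` are derived from the
structure of the special fibre of the normal model `C ⊆ F` (chart-agnostic: no `j`):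

* `SpecialFibre.TwoComponents ϖ P1 P2` on `C`, `P1 = C ∩ 𝔪_O`;
* an abstract Dedekind quotient: `red : C →+* D` ONTO, `ι : D →+* Ft` with `ι ∘ red = res`
  (node B6.5(d): `D = C_k`, the integral closure of `k[j̃]` in `F̃_M`);
* `Q` finite on `D` (`hQD`), not on the second component (`h2`), of degree one (`hdeg`);
* `t ∈ C` with `ord_Q (res t) = 1`;
* the constants of `C` fill the residue field (`hfull`, FullRes).

Main results: `pointIdeal`, `notMem_sq_of_ord_eq_one`, `exists_local_gen`,
`adicValuation_le_one_of_isIntegral`, `smoothModel_of_twoComponents`.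
-/

set_option autoImplicit false

namespace Fermat.Agent.BR.Inst.SmoothModelOf

open AlgebraicCurve WithZero Fermat.Agent.Red Fermat.Agent.X0 Fermat.Agent.BR
  Fermat.Agent.BR.Centre Fermat.Agent.BR.SpecialFibre Fermat.Agent.BR.S0

variable {k : Type*} [Field k] {Ft : Type*} [Field Ft] [Algebra k Ft]

/-! ### The point of a Dedekind chart of the component -/

section Dedekind

variable {D : Type*} [CommRing D] (ι : D →+* Ft) (Q : Place k Ft)

/-- the functions of the chart `D` vanishing at `Q` (`Q` finite on `D`) -/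
def pointIdeal (hQD : ∀ d : D, Q.adicValuation (ι d) ≤ 1) : Ideal D where
  carrier := {d | Q.adicValuation (ι d) < 1}
  add_mem' := by
    intro a b ha hb
    show Q.adicValuation (ι (a + b)) < 1
    rw [map_add]
    exact lt_of_le_of_lt (Q.adicValuation.map_add _ _) (max_lt ha hb)
  zero_mem' := by
    show Q.adicValuation (ι 0) < 1
    rw [map_zero, map_zero]
    exact zero_lt_one
  smul_mem' := by
    intro c x hx
    show Q.adicValuation (ι (c * x)) < 1
    rw [map_mul, map_mul]
    exact mul_lt_one_of_nonneg_of_lt_one_right (hQD c) zero_le hx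

variable {ι Q}

theorem mem_pointIdeal_iff {hQD : ∀ d : D, Q.adicValuation (ι d) ≤ 1} {d : D} :
    d ∈ pointIdeal ι Q hQD ↔ Q.adicValuation (ι d) < 1 := Iff.rfl

/-- the elements of the square of the point vanish to order `≥ 2` -/
theorem adicValuation_le_of_mem_sq {hQD : ∀ d : D, Q.adicValuation (ι d) ≤ 1} {d : D}
    (hd : d ∈ pointIdeal ι Q hQD ^ 2) : Q.adicValuation (ι d) ≤ exp (-2 : ℤ) := by
  rw [pow_two] at hd
  refine Submodule.mul_induction_on hd ?_ ?_
  · intro a ha b hb
    rw [map_mul, Q.adicValuation_le_exp_iff]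
    by_cases h0 : ι a * ι b = 0
    · exact Or.inl h0
    · right
      have ha0 : ι a ≠ 0 := left_ne_zero_of_mul h0
      have hb0 : ι b ≠ 0 := right_ne_zero_of_mul h0
      have h1 := ((adicValuation_lt_one_iff Q).mp ha).resolve_left ha0
      have h2 := ((adicValuation_lt_one_iff Q).mp hb).resolve_left hb0
      rw [Q.ord_mul ha0 hb0]
      omega
  · intro x y hx hy
    rw [map_add]
    exact le_trans (Q.adicValuation.map_add _ _) (max_le hx hy)

/-- an element of order one at `Q` is not in the square of the point -/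
theorem notMem_sq_of_ord_eq_one {hQD : ∀ d : D, Q.adicValuation (ι d) ≤ 1} {τ : D}
    (hτ : Q.ord (ι τ) = 1) : τ ∉ pointIdeal ι Q hQD ^ 2 := by
  intro hmem
  have h1 := adicValuation_le_of_mem_sq hmem
  rw [Q.adicValuation_le_exp_iff] at h1
  rcases h1 with h0 | h1
  · rw [h0, Place.ord_zero] at hτ
    exact zero_ne_one hτ
  · rw [hτ] at h1
    omega

theorem mem_pointIdeal_of_ord_eq_one {hQD : ∀ d : D, Q.adicValuation (ι d) ≤ 1} {τ : D}
    (hτ : Q.ord (ι τ) = 1) : τ ∈ pointIdeal ι Q hQD := by
  rw [mem_pointIdeal_iff, adicValuation_lt_one_iff]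
  right
  rw [hτ]
  exact one_pos

/-- **Local generator**: in a Dedekind chart an element of order one at `Q` generates the point
locally. -/
theorem exists_local_gen [IsDedekindDomain D] {hQD : ∀ d : D, Q.adicValuation (ι d) ≤ 1}
    {τ : D} (hτ : Q.ord (ι τ) = 1) :
    ∀ d ∈ pointIdeal ι Q hQD, ∃ s, s ∉ pointIdeal ι Q hQD ∧ τ ∣ s * d :=
  local_generator_of_notMem_sq (pointIdeal ι Q hQD) (mem_pointIdeal_of_ord_eq_one hτ)
    (notMem_sq_of_ord_eq_one hτ)

/-- `Q` is finite on `D` as soon as it is finite on a subring over which `D` is integral. -/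
theorem adicValuation_le_one_of_isIntegral {R₀ : Type*} [CommRing R₀] [Algebra R₀ D]
    (h0 : ∀ r : R₀, Q.adicValuation (ι (algebraMap R₀ D r)) ≤ 1) {d : D}
    (hd : IsIntegral R₀ d) : Q.adicValuation (ι d) ≤ 1 := by
  obtain ⟨p, hp, hpd⟩ := hd
  let φ : R₀ →+* Q.adicValuation.integer :=
    (ι.comp (algebraMap R₀ D)).codRestrict Q.adicValuation.integer fun r => h0 r
  have hint : IsIntegral Q.adicValuation.integer (ι d) := by
    refine ⟨p.map φ, hp.map _, ?_⟩
    rw [Polynomial.eval₂_map]
    have hcomp : (algebraMap Q.adicValuation.integer Ft).comp φ = ι.comp (algebraMap R₀ D) := by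
      ext r
      rfl
    rw [hcomp, ← Polynomial.hom_eval₂, hpd, map_zero]
  exact (Valuation.integer.integers Q.adicValuation).mem_of_integral hint

end Dedekind

/-! ### The smooth model -/

variable {K F : Type*} [Field K] [Field F] [Algebra K F]

/-- **The fields of `S0.SmoothModel` from the two-component structure of the special fibre** and
a Dedekind chart `D` of the component onto which the model reduces. -/
theorem smoothModel_of_twoComponents
    {A : ValuationSubring K} {π : A →+* k} {O : ValuationSubring F} {res : O →+* Ft}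
    {Q : Place k Ft} {T : Set (Place K F)} {t : F} {C : Subring F} {ϖ : K}
    (noeth : IsNoetherianRing C) (intClosed : IsIntegrallyClosed C) (le : ∀ x ∈ C, x ∈ O)
    {P1 P2 : Ideal C} (hP1 : ∀ x : C, (x : F) ∈ O.nonunits → x ∈ P1)
    (hϖ0 : ϖ ≠ 0) (hϖ1 : A.valuation ϖ < 1) (hϖC : algebraMap K F ϖ ∈ C)
    (hTC : TwoComponents (⟨algebraMap K F ϖ, hϖC⟩ : C) P1 P2)
    {D : Type*} [CommRing D] [IsDedekindDomain D] (ι : D →+* Ft) (red : C →+* D)
    (hred : ∀ x : C, ι (red x) = res ⟨x, le x x.2⟩) (hsurj : Function.Surjective red)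
    (hQD : ∀ d : D, Q.adicValuation (ι d) ≤ 1)
    (h2 : ∃ y ∈ P2, ¬ Q.adicValuation (res ⟨y, le y y.2⟩) < 1)
    (htC : t ∈ C) (ht1 : Q.ord (res ⟨t, le t htC⟩) = 1)
    (hdeg : Q.deg = 1)
    (hfull : ∀ c : k, ∃ a : A, algebraMap K F a ∈ C ∧ π a = c)
    (tube_centred : ∀ P ∈ T, ∃ h : IntegralAt A C P,
      ∀ x : C, x ∈ centre h ↔ Q.adicValuation (res ⟨x, le x x.2⟩) < 1)
    (tube_of_centred : ∀ P : Place K F, (∃ h : IntegralAt A C P,
      ∀ x : C, x ∈ centre h ↔ Q.adicValuation (res ⟨x, le x x.2⟩) < 1) → P ∈ T) :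
    SmoothModel A π O res Q T t C ϖ where
  noeth := noeth
  intClosed := intClosed
  le := le
  regular := fun x => by rw [← hred]; exact hQD _
  unif_ne := hϖ0
  unif_lt := hϖ1
  unif_mem := hϖC
  t_mem := htC
  t_van := by
    rw [adicValuation_lt_one_iff]
    right
    rw [ht1]
    exact one_pos
  vert := by
    intro x hx
    obtain ⟨y, hy2, hyQ⟩ := h2
    refine ⟨y, hyQ, ?_⟩
    have hmem : y * x ∈ P1 ⊓ P2 :=
      ⟨P1.mul_mem_left y (hP1 x hx), P2.mul_mem_right x hy2⟩
    rw [hTC.inf_eq] at hmem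
    exact Ideal.mem_span_singleton.mp hmem
  transversal := by
    intro x hx
    have ht1' : Q.ord (ι (red ⟨t, htC⟩)) = 1 := by rw [hred]; exact ht1
    have hxm : red x ∈ pointIdeal ι Q hQD := by
      rw [mem_pointIdeal_iff, hred]; exact hx
    obtain ⟨σ, hσ, γ, hγ⟩ := exists_local_gen ht1' (red x) hxm
    obtain ⟨s, rfl⟩ := hsurj σ
    obtain ⟨c, rfl⟩ := hsurj γ
    refine ⟨s, c, ?_, ?_⟩
    · intro hs
      apply hσ
      rw [mem_pointIdeal_iff, hred]
      exact hs
    · have h1 : res ⟨(s : F) * (x : F), le _ (C.mul_mem s.2 x.2)⟩ = ι (red (s * x)) :=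
        (hred (s * x)).symm
      have h3 : res ⟨(c : F) * t, le _ (C.mul_mem c.2 htC)⟩ = ι (red (c * ⟨t, htC⟩)) :=
        (hred (c * ⟨t, htC⟩)).symm
      rw [h1, h3]
      congr 1
      rw [map_mul, map_mul, hγ, mul_comm]
  fullRes := by
    intro x
    have hmem : res ⟨x, le x x.2⟩ ∈ Q.toValuationSubring := by
      rw [Place.mem_iff_ord_nonneg]
      have h1 : Q.adicValuation (res ⟨x, le x x.2⟩) ≤ 1 := by rw [← hred]; exact hQD _
      rcases (Q.adicValuation_le_one_iff).mp h1 with h0 | h0
      · rw [h0, Place.ord_zero]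
      · exact h0
    obtain ⟨c, hc⟩ := exists_isValueAt Q hdeg hmem
    obtain ⟨a, haC, hac⟩ := hfull c
    exact ⟨a, haC, by rw [hac]; exact hc⟩
  tube_centred := tube_centred
  tube_of_centred := tube_of_centred

end Fermat.Agent.BR.Inst.SmoothModelOf
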