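import Fermat.Agent.BR.CentreRed
import Fermat.Agent.Good.ChartBridge
import Fermat.Agent.Good.ResidueAlgebra

/-!
# Program B, B7.3 / B6.6 (instantiation): centres of the places of `X₀(N)` over `ℚ̄` on the
integral charts

`F̄_N = laurentBaseChange ℚ̄ (modularFunctionFieldFull N)`, `A` a valuation subring of `ℚ̄` over the
prime `ℓ`, `chartAlg N ℓ S ⊆ F_N` the integral closure of `ℤ_(ℓ)[S]` (Prelude `IgusaScheme`).

* `chartBar N ℓ S : Subring F̄_N` : the image of the chart algebra in `F̄_N`;
* `gal_smul_barEmb`, `gal_smul_of_mem_chartBar` : the arithmetic Galois action fixes it pointwise;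
* `integralAt_chartBar` : a place of degree one at which the generators `S` take values in `A` is
  integral on the whole chart (`IntegralAt A (chartBar N ℓ S) P`);
  `integralAt_chartBarFin_iff` : for the finite chart `S = {j}` this means `j(P) ∈ A`;
  `integralAt_chartBarInf_iff` : for the chart at infinity `S = {1/j}`, `(1/j)(P) ∈ A`;
* `integralAt_gal_smul_chartBar_iff`, `spHom_gal_smul_chartBar`, `centre_gal_smul_chartBar` :
  for `σ` in the inertia group of `A`, the places `σ • P` and `P` have the same specialisation and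
  the same centre on every chart (**`Compat` with `α = 1`** at the level of closed points of the
  integral model).
-/

set_option autoImplicit false
set_option linter.unusedSectionVars false

open IsLocalRing AlgebraicCurve ModularCurve ModularCurve.IgusaScheme

namespace Fermat.Agent.BR.Inst

open Fermat.Agent.Red Fermat.Agent.BR.Centre Fermat.Agent.Good.Bridge Fermat.Agent.Good.ResAlg

local notation "Qb" => AlgebraicClosure ℚ

variable (N : ℕ) [NeZero N] (ℓ : ℕ) [hℓ : Fact ℓ.Prime]

set_option quotPrecheck false in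
local notation "ℤℓ" => ↥(GaloisRep.ratLocalizedAt ℓ)

set_option quotPrecheck false in
local notation "F₀" => ↥(modularFunctionFieldFull N)

set_option quotPrecheck false in
local notation "Fbar" => ↥(laurentBaseChange Qb (modularFunctionFieldFull N))

/-- The image in `F̄_N` of the chart algebra `chartAlg N ℓ S` (integral closure of `ℤ_(ℓ)[S]` in
`F_N`). -/
noncomputable def chartBar (S : Set F₀) : Subring Fbar := (chartAlg N ℓ S).toSubring.map (barEmb N)

/-- The image in `F̄_N` of `ℤ_(ℓ)[S]`. -/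
noncomputable def adjoinBar (S : Set F₀) : Subring Fbar := (Algebra.adjoin ℤℓ S).toSubring.map (barEmb N)

variable {N ℓ}

theorem mem_chartBar_iff {S : Set F₀} {y : Fbar} :
    y ∈ chartBar N ℓ S ↔ ∃ x ∈ chartAlg N ℓ S, barEmb N x = y := by
  unfold chartBar
  rw [Subring.mem_map]
  rfl

theorem barEmb_mem_chartBar {S : Set F₀} {x : F₀} (hx : x ∈ chartAlg N ℓ S) :
    barEmb N x ∈ chartBar N ℓ S := mem_chartBar_iff.mpr ⟨x, hx, rfl⟩

theorem adjoinBar_le_chartBar (S : Set F₀) : adjoinBar N ℓ S ≤ chartBar N ℓ S := by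
  intro y hy
  obtain ⟨x, hx, rfl⟩ := Subring.mem_map.mp hy
  exact barEmb_mem_chartBar (adjoin_le_chartAlg N ℓ S hx)

/-! ### the Galois action -/

/-- The arithmetic Galois action fixes the functions with rational `q`-expansion coefficients. -/
theorem gal_smul_barEmb (σ : Qb ≃ₐ[ℚ] Qb) (x : F₀) :
    arithmeticGalois (modularFunctionFieldFull N) σ • barEmb N x = barEmb N x := by
  apply Subtype.ext
  rw [coe_arithmeticGalois_smul, coe_barEmb, coeffMap_coeffEmb]

theorem gal_smul_of_mem_chartBar (σ : Qb ≃ₐ[ℚ] Qb) {S : Set F₀} {y : Fbar}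
    (hy : y ∈ chartBar N ℓ S) : arithmeticGalois (modularFunctionFieldFull N) σ • y = y := by
  obtain ⟨x, _, rfl⟩ := mem_chartBar_iff.mp hy
  exact gal_smul_barEmb σ x

/-! ### integrality of a place on a chart -/

variable {A : ValuationSubring Qb}

/-- A place at which the generators take integral values is integral on `ℤ_(ℓ)[S]`. -/
theorem integralAt_adjoinBar (hA : A.LiesOverPrime ℓ) {P : Place Qb Fbar} {S : Set F₀}
    (hS : ∀ s ∈ S, ∃ c : Qb, c ∈ A ∧ IsValueAt P (barEmb N s) c) :
    IntegralAt A (adjoinBar N ℓ S) P := by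
  have key : ∀ x ∈ Algebra.adjoin ℤℓ S, ∃ c : Qb, c ∈ A ∧ IsValueAt P (barEmb N x) c := by
    intro x hx
    induction hx using Algebra.adjoin_induction with
    | mem s hs => exact hS s hs
    | algebraMap r =>
      refine ⟨algebraMap ℚ Qb (r : ℚ), ?_, ?_⟩
      · have := ratCast_mem_of_mem_ratLocalizedAt A hA r.2
        rwa [← eq_ratCast (algebraMap ℚ Qb)] at this
      · rw [barEmb_algebraMap_zl]
        exact isValueAt_algebraMap P _
    | add a b _ _ iha ihb =>
      obtain ⟨c, hcA, hc⟩ := iha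
      obtain ⟨d, hdA, hd⟩ := ihb
      refine ⟨c + d, A.add_mem _ _ hcA hdA, ?_⟩
      rw [map_add]
      exact hc.add hd
    | mul a b _ _ iha ihb =>
      obtain ⟨c, hcA, hc⟩ := iha
      obtain ⟨d, hdA, hd⟩ := ihb
      refine ⟨c * d, A.mul_mem _ _ hcA hdA, ?_⟩
      rw [map_mul]
      exact hc.mul hd
  intro y hy
  obtain ⟨x, hx, rfl⟩ := Subring.mem_map.mp hy
  exact key x hx

/-- The elements of the chart are integral over the image of `ℤ_(ℓ)[S]`. -/
theorem isIntegral_adjoinBar_of_mem_chartBar {S : Set F₀} {y : Fbar}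
    (hy : y ∈ chartBar N ℓ S) : IsIntegral (adjoinBar N ℓ S) y := by
  obtain ⟨x, hx, rfl⟩ := mem_chartBar_iff.mp hy
  have hx' : IsIntegral (Algebra.adjoin ℤℓ S) x := hx
  let φ : ↥(Algebra.adjoin ℤℓ S) →+* ↥(adjoinBar N ℓ S) :=
    ((barEmb N).comp (Algebra.adjoin ℤℓ S).toSubring.subtype).codRestrict (adjoinBar N ℓ S)
      (fun z => Subring.mem_map.mpr ⟨z, z.2, rfl⟩)
  exact hx'.map_of_comp_eq φ (barEmb N) (by ext z; rfl)

/-- **A place of degree one at which the generators of a chart take integral values is integral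
on the whole chart.** -/
theorem integralAt_chartBar (hA : A.LiesOverPrime ℓ) {P : Place Qb Fbar} (hdeg : P.deg = 1)
    {S : Set F₀} (hS : ∀ s ∈ S, ∃ c : Qb, c ∈ A ∧ IsValueAt P (barEmb N s) c) :
    IntegralAt A (chartBar N ℓ S) P :=
  fun _ hy => (integralAt_adjoinBar hA hS).of_isIntegral hdeg
    (isIntegral_adjoinBar_of_mem_chartBar hy)

theorem integralAt_chartBar_iff (hA : A.LiesOverPrime ℓ) {P : Place Qb Fbar} (hdeg : P.deg = 1)
    {S : Set F₀} :
    IntegralAt A (chartBar N ℓ S) P ↔ ∀ s ∈ S, ∃ c : Qb, c ∈ A ∧ IsValueAt P (barEmb N s) c :=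
  ⟨fun h s hs => h _ (barEmb_mem_chartBar (subset_chartAlg N ℓ S hs)),
    integralAt_chartBar hA hdeg⟩

/-- The finite chart: `P` is integral on `chartAlgFin` iff `j(P) ∈ A`. -/
theorem integralAt_chartBarFin_iff (hA : A.LiesOverPrime ℓ) {P : Place Qb Fbar}
    (hdeg : P.deg = 1) :
    IntegralAt A (chartBar N ℓ {jFull N}) P ↔
      ∃ c : Qb, c ∈ A ∧ IsValueAt P (barEmb N (jFull N)) c := by
  rw [integralAt_chartBar_iff hA hdeg]
  simp

/-- The chart at infinity: `P` is integral on `chartAlgInf` iff `(1/j)(P) ∈ A`. -/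
theorem integralAt_chartBarInf_iff (hA : A.LiesOverPrime ℓ) {P : Place Qb Fbar}
    (hdeg : P.deg = 1) :
    IntegralAt A (chartBar N ℓ {(jFull N)⁻¹}) P ↔
      ∃ c : Qb, c ∈ A ∧ IsValueAt P (barEmb N (jFull N)⁻¹) c := by
  rw [integralAt_chartBar_iff hA hdeg]
  simp

/-! ### inertia: same specialisation, same centre -/

variable {σ : Qb ≃ₐ[ℚ] Qb}

/-- For `σ` in the inertia group, `σ • P` is integral on a chart iff `P` is. -/
theorem integralAt_gal_smul_chartBar_iff (hσ : σ ∈ A.inertiaSubgroupIn ℚ) {S : Set F₀}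
    {P : Place Qb Fbar} :
    IntegralAt A (chartBar N ℓ S) (arithmeticGalois (modularFunctionFieldFull N) σ • P) ↔
      IntegralAt A (chartBar N ℓ S) P :=
  integralAt_smul_iff_of_fixed (inertiaLike_arithmeticGalois A hσ _)
    (fun _ hy => gal_smul_of_mem_chartBar σ hy)

/-- **`Compat` with `α = 1` on a chart**: for `σ` in the inertia group, `σ • P` and `P` have the
same specialisation on every chart. -/
theorem spHom_gal_smul_chartBar (hσ : σ ∈ A.inertiaSubgroupIn ℚ) {S : Set F₀}
    {P : Place Qb Fbar} (h : IntegralAt A (chartBar N ℓ S) P) :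
    spHom A (chartBar N ℓ S) (arithmeticGalois (modularFunctionFieldFull N) σ • P)
      ((integralAt_gal_smul_chartBar_iff hσ).mpr h) = spHom A (chartBar N ℓ S) P h :=
  spHom_smul_of_fixed (inertiaLike_arithmeticGalois A hσ _)
    (fun _ hy => gal_smul_of_mem_chartBar σ hy) h

/-- For `σ` in the inertia group, `σ • P` and `P` have the same centre on every chart. -/
theorem centre_gal_smul_chartBar (hσ : σ ∈ A.inertiaSubgroupIn ℚ) {S : Set F₀}
    {P : Place Qb Fbar} (h : IntegralAt A (chartBar N ℓ S) P) :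
    centre ((integralAt_gal_smul_chartBar_iff (N := N) (ℓ := ℓ) hσ).mpr h) = centre h :=
  centre_smul_of_fixed (inertiaLike_arithmeticGalois A hσ _)
    (fun _ hy => gal_smul_of_mem_chartBar σ hy) h

end Fermat.Agent.BR.Inst
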