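import Mathlib
import Fermat.Agent.BR.Inst.LevelsFamily
import Fermat.Agent.BR.Inst.LevelsInst
import Fermat.Agent.BR.Inst.ModUnitNode
import Fermat.Agent.BR.S0.Inst
import Fermat.Agent.BR.S0.CrossingLevel

/-!
# Program B (BADRED), block B6.6: the chart inputs of `twoCompDeliverable_of_atlas`

The inputs `chart`, `smooth₀`, `smooth₁` of `S0.Modular.twoCompDeliverable_of_atlas`
(`BR/S0/Inst`) from per-level models on the tower `Levels.CS (M*q) q base S`
(`BR/Inst/Levels`, `BR/Inst/LevelsFamily`).

* `inv_mem_of_residue_ne_zero`; `nodeChartOfLevels_constRed`, `smoothChartOfLevels_constRed` :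
  the charts over `A` for two (one) components given as `ConstRed`s, from the per-level models
  alone (every hypothesis on the residue maps, the family and `horiz` discharged);
* `chart_modular`, `smooth₀_modular`, `smooth₁_modular` : the three inputs, verbatim, from the
  per-level models on the tower;
* `exists_qUnif` : `q = ϖ_S ^ e₀ ε` with `ε` a unit of `W_S` (the hypothesis `QUnif` of
  `ModUnitNode`), at every level of the tower;
* `res_zero_TB_ne_zero`, `res_one_TB_eq_zero` : the modular unit on the two components;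
* `crossingModel_modular` : the global model at a crossing of the atlas, at every level of the
  tower, from the bridge `SmoothAssembly.LevelHyp` (unit data `T T'' = ϖ_S ^ (12 e₀)` discharged);
* `chart_modular_of_levelHyp` : the input `chart` from the bridge at every level.
-/

set_option autoImplicit false
set_option linter.unusedSectionVars false
set_option synthInstance.maxHeartbeats 400000

noncomputable section

namespace Fermat.Agent.BR.Inst.NodeInst

open AlgebraicCurve ModularCurve IsLocalRing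
open Fermat.Agent.Red Fermat.Agent.Val Fermat.Agent.X0 Fermat.Agent.BR.Centre
open Fermat.Agent.BR.Inst.Levels Fermat.Agent.BR.Inst.LevelsFamily Fermat.Agent.BR.S0
open Fermat.Agent.BR.S0.SmoothAssembly

/-- an element of `A` with nonzero residue is a unit -/
theorem inv_mem_of_residue_ne_zero {K : Type*} [Field K] (A : ValuationSubring K) (a : A)
    (h : IsLocalRing.residue A a ≠ 0) : (a : K)⁻¹ ∈ A := by
  have hu : IsUnit a := by
    by_contra hnu
    exact h ((IsLocalRing.residue_eq_zero_iff a).mpr ((mem_maximalIdeal a).mpr hnu))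
  have h1 : A.valuation (a : K) = 1 := (A.valuation_eq_one_iff a).mp hu
  rw [← A.valuation_le_one_iff, map_inv₀, h1, inv_one]

/-! ### The charts over `A` for components given as constant reductions -/

section Charts

variable {N : ℕ} [NeZero N] {A : ValuationSubring Kb} {q : ℕ}
  {base : Finset Kb → Subring (Fb N)} (hb : BaseFamily N A q base)

include hb in
/-- **The node chart over `A`** from the crossing models of all levels. -/
def nodeChartOfLevels_constRed (hq : q.Prime) (hA : A.LiesOverPrime q)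
    {Ft₁ Ft₂ : Type*} [Field Ft₁] [Algebra (ResidueField A) Ft₁] [Field Ft₂]
    [Algebra (ResidueField A) Ft₂]
    (C₁ : ConstRed (F := Fb N) (Ft := Ft₁) A (IsLocalRing.residue A))
    (C₂ : ConstRed (F := Fb N) (Ft := Ft₂) A (IsLocalRing.residue A))
    (Q₁ : Place (ResidueField A) Ft₁) (Q₂ : Place (ResidueField A) Ft₂)
    (T : Set (Place Kb (Fb N)))
    (M : ∀ S : Finset Kb, CrossingModel A (IsLocalRing.residue A) C₁.O C₂.O C₁.res C₂.res Q₁ Q₂ T
      (CS N q base S) (unif A hq hA S)) :
    NodeChart A C₁.O C₂.O C₁.res C₂.res Q₁ Q₂ T :=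
  nodeChartOfLevels hb hq hA M C₁.res_algebraMap
    (fun x hx => (constRed_res_eq_zero_iff C₁ x).mpr hx)
    (fun x hx => (constRed_res_eq_zero_iff C₂ x).mpr hx) (inv_mem_of_residue_ne_zero A)
    (constRed_algebraMap_mem_nonunits C₁)

include hb in
/-- **The smooth chart over `A`** from the smooth models of all levels. -/
def smoothChartOfLevels_constRed (hq : q.Prime) (hA : A.LiesOverPrime q)
    {Ft : Type*} [Field Ft] [Algebra (ResidueField A) Ft]
    (C : ConstRed (F := Fb N) (Ft := Ft) A (IsLocalRing.residue A))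
    (Q : Place (ResidueField A) Ft) (T : Set (Place Kb (Fb N))) (t : Fb N)
    (M : ∀ S : Finset Kb, SmoothModel A (IsLocalRing.residue A) C.O C.res Q T t
      (CS N q base S) (unif A hq hA S))
    (hord : ∀ h : t ∈ C.O, Q.ord (C.res ⟨t, h⟩) = 1) :
    SmoothChart A C.O C.res Q T :=
  smoothChartOfLevels hb hq hA M C.res_algebraMap (constRed_res_eq_zero_iff C)
    (inv_mem_of_residue_ne_zero A) (constRed_algebraMap_mem_nonunits C) hord

end Charts

/-! ### The modular instance -/

section Modular

open Fermat.Agent.BR.TwoVal Fermat.Agent.BR.ConstRedTwo Fermat.Agent.BR.ModUnit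
open Fermat.Agent.BR.S0.RedModular Fermat.Agent.BR.S0.PointDict Fermat.Agent.BR.S0.Modular
open Fermat.Agent.BR.S0.CrossingAssembly
open Fermat.Agent.BR.Inst.NormalModel Fermat.Agent.BR.Inst.LevelsInst
open Fermat.Agent.BR.Inst.ModUnitNode

variable {M q : ℕ} [NeZero M] [hq : Fact q.Prime]
variable {B : ValuationSubring Kb} {hB : B.LiesOverPrime q} {hqM : ¬ q ∣ M}

local notation "kB" => IsLocalRing.ResidueField B
local notation "FtM" => modularFunctionFieldFullC (IsLocalRing.ResidueField B) M

/-- the base rings `W'_S[j]` of the finite chart at level `M * q` -/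
abbrev baseFin (M q : ℕ) [NeZero M] [Fact q.Prime] (B : ValuationSubring Kb) :
    Finset Kb → Subring (Fb (M * q)) :=
  fun S => modelBase (M * q) (WS B q S)

variable {x : Fb (M * q)} (H : AtlasHyp (chartDataModular B hB hqM) x)

/-- **The input `chart` of `twoCompDeliverable_of_atlas`** from the crossing models of all levels
of the tower. -/
def chart_modular
    (hM : ∀ (e : Crossing (chartDataModular B hB hqM)) (S : Finset Kb),
      CrossingModel B (IsLocalRing.residue B) (compW B hB hqM 0).O (compW B hB hqM 1).O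
        (compW B hB hqM 0).res (compW B hB hqM 1).res (z₁ (chartDataModular B hB hqM) e)
        (z₂ (chartDataModular B hB hqM) e)
        {P | H.r P = ⟨0, z₁ (chartDataModular B hB hqM) e⟩}
        (CS (M * q) q (baseFin M q B) S) (unif B hq.out hB S)) :
    ∀ e, NodeChart B (compW B hB hqM 0).O (compW B hB hqM 1).O (compW B hB hqM 0).res
      (compW B hB hqM 1).res (z₁ (chartDataModular B hB hqM) e)
      (z₂ (chartDataModular B hB hqM) e)
      {P | H.r P = ⟨0, z₁ (chartDataModular B hB hqM) e⟩} :=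
  fun e => nodeChartOfLevels_constRed (baseFamily_fin (M * q) B hq.out hB) hq.out hB
    (compW B hB hqM 0) (compW B hB hqM 1) _ _ _ (hM e)

/-- **The input `smooth₀` of `twoCompDeliverable_of_atlas`** from the smooth models of all
levels of the tower. -/
def smooth₀_modular
    (t : ∀ Q : Place kB FtM, (∀ e, Q ≠ z₁ (chartDataModular B hB hqM) e) → Fb (M * q))
    (hM : ∀ (Q : Place kB FtM) (hQ : ∀ e, Q ≠ z₁ (chartDataModular B hB hqM) e)
      (S : Finset Kb), SmoothModel B (IsLocalRing.residue B) (compW B hB hqM 0).O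
        (compW B hB hqM 0).res Q {P | H.r P = ⟨0, Q⟩} (t Q hQ)
        (CS (M * q) q (baseFin M q B) S) (unif B hq.out hB S))
    (hord : ∀ (Q : Place kB FtM) (hQ : ∀ e, Q ≠ z₁ (chartDataModular B hB hqM) e)
      (h : t Q hQ ∈ (compW B hB hqM 0).O), Q.ord ((compW B hB hqM 0).res ⟨t Q hQ, h⟩) = 1) :
    ∀ Q : Place kB FtM, (∀ e, Q ≠ z₁ (chartDataModular B hB hqM) e) →
      SmoothChart B (compW B hB hqM 0).O (compW B hB hqM 0).res Q {P | H.r P = ⟨0, Q⟩} :=
  fun Q hQ => smoothChartOfLevels_constRed (baseFamily_fin (M * q) B hq.out hB) hq.out hB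
    (compW B hB hqM 0) Q _ (t Q hQ) (hM Q hQ) (hord Q hQ)

/-- **The input `smooth₁` of `twoCompDeliverable_of_atlas`** from the smooth models of all
levels of the tower. -/
def smooth₁_modular
    (t : ∀ Q : Place kB FtM, (∀ e, Q ≠ z₂ (chartDataModular B hB hqM) e) → Fb (M * q))
    (hM : ∀ (Q : Place kB FtM) (hQ : ∀ e, Q ≠ z₂ (chartDataModular B hB hqM) e)
      (S : Finset Kb), SmoothModel B (IsLocalRing.residue B) (compW B hB hqM 1).O
        (compW B hB hqM 1).res Q {P | H.r P = ⟨1, Q⟩} (t Q hQ)
        (CS (M * q) q (baseFin M q B) S) (unif B hq.out hB S))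
    (hord : ∀ (Q : Place kB FtM) (hQ : ∀ e, Q ≠ z₂ (chartDataModular B hB hqM) e)
      (h : t Q hQ ∈ (compW B hB hqM 1).O), Q.ord ((compW B hB hqM 1).res ⟨t Q hQ, h⟩) = 1) :
    ∀ Q : Place kB FtM, (∀ e, Q ≠ z₂ (chartDataModular B hB hqM) e) →
      SmoothChart B (compW B hB hqM 1).O (compW B hB hqM 1).res Q {P | H.r P = ⟨1, Q⟩} :=
  fun Q hQ => smoothChartOfLevels_constRed (baseFamily_fin (M * q) B hq.out hB) hq.out hB
    (compW B hB hqM 1) Q _ (t Q hQ) (hM Q hQ) (hord Q hQ)

/-! ### the unit data `q = ϖ_S ^ e₀ ε` at a level of the tower -/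

/-- `q = ϖ_S ^ e₀ ε` with `ε` a unit of `W_S`, `e₀ > 0`: the hypothesis `QUnif` of `ModUnitNode`
at the level `S` of the tower. -/
theorem exists_qUnif (B : ValuationSubring Kb) {q : ℕ} (hq : q.Prime) (hB : B.LiesOverPrime q)
    (S : Finset Kb) :
    ∃ (e₀ : ℕ) (ε : Kb), 0 < e₀ ∧ QUnif (WS B q S) (unif B hq hB S) q e₀ ε := by
  obtain ⟨e, he, hv⟩ := valuation_natCast_eq_pow_unif B hq hB S
  have hπ0 : unif B hq hB S ≠ 0 := unif_ne_zero B hq hB S
  have hπe0 : unif B hq hB S ^ e ≠ 0 := pow_ne_zero e hπ0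
  have hq0 : (q : Kb) ≠ 0 := Nat.cast_ne_zero.mpr hq.ne_zero
  have hπK : unif B hq hB S ^ e ∈ KS q S := pow_mem (unif_mem_KS B hq hB S) e
  have hqK : (q : Kb) ∈ KS q S := natCast_mem (KS q S) q
  have hvπ0 : B.valuation (unif B hq hB S) ^ e ≠ 0 := by
    rw [← map_pow]
    exact (map_ne_zero _).mpr hπe0
  refine ⟨e, (q : Kb) * (unif B hq hB S ^ e)⁻¹, he, ?_, ?_, ?_⟩
  · rw [mul_comm (q : Kb), ← mul_assoc, mul_inv_cancel₀ hπe0, one_mul]
  · refine mem_WS_iff.mpr ⟨?_, mul_mem hqK (inv_mem hπK)⟩
    rw [← B.valuation_le_one_iff, map_mul, map_inv₀, map_pow, hv, mul_inv_cancel₀ hvπ0]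
  · refine mem_WS_iff.mpr ⟨?_, inv_mem (mul_mem hqK (inv_mem hπK))⟩
    rw [← B.valuation_le_one_iff, map_inv₀, map_mul, map_inv₀, map_pow, hv,
      mul_inv_cancel₀ hvπ0, inv_one]

/-! ### the modular unit on the two components -/

/-- `T` does not vanish identically on the component `0`. -/
theorem res_zero_TB_ne_zero :
    (chartDataModular B hB hqM).res 0
      ⟨TB M q, (chartDataModular B hB hqM).hfin 0 (TB_mem_chartFin M q)⟩ ≠ 0 := by
  have := charP_res q B hB
  have h1 : (chartDataModular B hB hqM).res 0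
      ⟨TB M q, (chartDataModular B hB hqM).hfin 0 (TB_mem_chartFin M q)⟩ =
      Polynomial.aeval (jFullC kB M) (TbarPolyK kB q) := constRedW1_res_TB M q B hB hqM
  rw [h1]
  exact aeval_jFullC_ne_zero M q B hB hqM _ (TbarPolyK_natDegree kB q)

/-- `T` vanishes identically on the component `1`. -/
theorem res_one_TB_eq_zero :
    (chartDataModular B hB hqM).res 1
      ⟨TB M q, (chartDataModular B hB hqM).hfin 1 (TB_mem_chartFin M q)⟩ = 0 :=
  constRedW2_res_TB M q B hB hqM

/-! ### the chart at a crossing from the bridge at every level -/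

section Bridge

variable {Dk : Type*} [CommRing Dk] [IsDedekindDomain Dk]
  [Algebra Dk (modularFunctionFieldFullC (IsLocalRing.ResidueField B) M)]
  [IsFractionRing Dk (modularFunctionFieldFullC (IsLocalRing.ResidueField B) M)]
  [Algebra (IsLocalRing.ResidueField B) Dk]
  [IsScalarTower (IsLocalRing.ResidueField B) Dk
    (modularFunctionFieldFullC (IsLocalRing.ResidueField B) M)]

include H in
/-- **The global model at a crossing of the atlas, at the level `S` of the tower**, from the
bridge `SmoothAssembly.LevelHyp` at that level (unit data of the modular unit discharged). -/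
theorem crossingModel_modular (S : Finset Kb)
    {P₀ P₁ : Ideal (CS (M * q) q (baseFin M q B) S)}
    {red₀ red₁ : CS (M * q) q (baseFin M q B) S →+* Dk}
    (L : LevelHyp (chartDataModular B hB hqM) (CS (M * q) q (baseFin M q B) S)
      (unif B hq.out hB S) P₀ P₁ red₀ red₁)
    (hnf : ¬ IsField Dk)
    (hRC : chartFin (M := M) (q := q) ≤ CS (M * q) q (baseFin M q B) S)
    (hint : ∀ P : Place Kb (Fb (M * q)), IntegralAt B (chartFin (M := M) (q := q)) P →
      IntegralAt B (CS (M * q) q (baseFin M q B) S) P)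
    (e : Crossing (chartDataModular B hB hqM))
    (hQD₀ : ∀ d : Dk,
      (z₁ (chartDataModular B hB hqM) e).adicValuation (algebraMap Dk FtM d) ≤ 1)
    (hQD₁ : ∀ d : Dk,
      (z₂ (chartDataModular B hB hqM) e).adicValuation (algebraMap Dk FtM d) ≤ 1)
    (hdeg : (z₁ (chartDataModular B hB hqM) e).deg = 1) :
    CrossingModel B (IsLocalRing.residue B) (compW B hB hqM 0).O (compW B hB hqM 1).O
      (compW B hB hqM 0).res (compW B hB hqM 1).res (z₁ (chartDataModular B hB hqM) e)
      (z₂ (chartDataModular B hB hqM) e)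
      {P | H.r P = ⟨0, z₁ (chartDataModular B hB hqM) e⟩}
      (CS (M * q) q (baseFin M q B) S) (unif B hq.out hB S) := by
  obtain ⟨e₀, ε, -, hu⟩ := exists_qUnif B hq.out hB S
  have Hm : TwoCompInst.ModelHyp B hB hqM (KS q S) (WS B q S) (unif B hq.out hB S)
      (CS (M * q) q (baseFin M q B) S) := (levelHyp_tower B hB hqM S).modelHyp
  exact crossingModel_of_levelHyp (D := chartDataModular B hB hqM) H L hnf
    (fun v => (compW B hB hqM v).res_algebraMap)
    (constRed_res_eq_zero_iff (compW B hB hqM 0)) (constRed_res_eq_zero_iff (compW B hB hqM 1))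
    hRC hint e hQD₀ hQD₁ hdeg (TB_mem_chartFin M q) (T' := TC'' Hm hu) (m := 12 * e₀)
    (TC_mul_TC'' Hm hu) res_zero_TB_ne_zero res_one_TB_eq_zero

/-- **The input `chart` of `twoCompDeliverable_of_atlas`** from the bridge
`SmoothAssembly.LevelHyp` at every level of the tower. -/
def chart_modular_of_levelHyp
    {P₀ P₁ : ∀ S : Finset Kb, Ideal (CS (M * q) q (baseFin M q B) S)}
    {red₀ red₁ : ∀ S : Finset Kb, CS (M * q) q (baseFin M q B) S →+* Dk}
    (L : ∀ S, LevelHyp (chartDataModular B hB hqM) (CS (M * q) q (baseFin M q B) S)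
      (unif B hq.out hB S) (P₀ S) (P₁ S) (red₀ S) (red₁ S))
    (hnf : ¬ IsField Dk)
    (hRC : ∀ S, chartFin (M := M) (q := q) ≤ CS (M * q) q (baseFin M q B) S)
    (hint : ∀ (S : Finset Kb) (P : Place Kb (Fb (M * q))),
      IntegralAt B (chartFin (M := M) (q := q)) P →
      IntegralAt B (CS (M * q) q (baseFin M q B) S) P)
    (hQD₀ : ∀ (e : Crossing (chartDataModular B hB hqM)) (d : Dk),
      (z₁ (chartDataModular B hB hqM) e).adicValuation (algebraMap Dk FtM d) ≤ 1)
    (hQD₁ : ∀ (e : Crossing (chartDataModular B hB hqM)) (d : Dk),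
      (z₂ (chartDataModular B hB hqM) e).adicValuation (algebraMap Dk FtM d) ≤ 1)
    (hdeg : ∀ e : Crossing (chartDataModular B hB hqM),
      (z₁ (chartDataModular B hB hqM) e).deg = 1) :
    ∀ e, NodeChart B (compW B hB hqM 0).O (compW B hB hqM 1).O (compW B hB hqM 0).res
      (compW B hB hqM 1).res (z₁ (chartDataModular B hB hqM) e)
      (z₂ (chartDataModular B hB hqM) e)
      {P | H.r P = ⟨0, z₁ (chartDataModular B hB hqM) e⟩} :=
  chart_modular H fun e S =>
    crossingModel_modular H S (L S) hnf (hRC S) (hint S) e (hQD₀ e) (hQD₁ e) (hdeg e)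

end Bridge

end Modular

end Fermat.Agent.BR.Inst.NodeInst
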