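import Fermat.Agent.BR.Inst.Inf.SpecialIsoInf

/-!
# Program B, node B6.5(d), part 4: the Dedekind charts `C_k`, `C_k^∞` of the components as `Dk`

The consumers of B6.6 (`BR/S0/Thick`, `BR/S0/PointOfHom`, `BR/S0/SmoothAssembly`) take the
Dedekind chart of a component as a type `Dk` with
`[IsDedekindDomain Dk] [Algebra Dk Ft] [IsFractionRing Dk Ft] [Algebra k Dk] [IsScalarTower k Dk Ft]`,
`hnf : ¬ IsField Dk` and `hQD : ∀ d, Q.adicValuation (algebraMap Dk Ft d) ≤ 1`.  For
`Dk = ↥(Ck M A)` and `Dk = ↥(CkInf M A)` the algebra instances are found by instance search; here: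

* `isFractionRing_Ck`, `isFractionRing_CkInf` : `F̃_M` is the fraction field;
* `not_isField_Ck`, `not_isField_CkInf`;
* `adicValuation_le_one_Ck` : a place `Q` of `F̃_M` with `j̃` regular at `Q` is finite on `C_k`;
  `adicValuation_le_one_CkInf` : same with `1/j̃`.
-/

set_option autoImplicit false
set_option linter.unusedSectionVars false
set_option linter.style.haveILetI false

noncomputable section

set_option synthInstance.maxHeartbeats 400000

namespace Fermat.Agent.BR.Inst.SpecIso

section Generic

open IntermediateField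

open scoped algebraAdjoinAdjoin in
/-- `F` is algebraic over `K[x]` when it is finite over `K(x)`. -/
theorem isAlgebraic_adjoin_of_finite {K F : Type*} [Field K] [Field F] [Algebra K F]
    (x : F) [FiniteDimensional K⟮x⟯ F] :
    Algebra.IsAlgebraic ↥(Algebra.adjoin K {x}) F := by
  haveI : IsScalarTower ↥(Algebra.adjoin K {x}) ↥K⟮x⟯ F :=
    IsScalarTower.of_algebraMap_eq (fun _ => rfl)
  exact (IsFractionRing.comap_isAlgebraic_iff (A := ↥(Algebra.adjoin K {x})) (K := ↥K⟮x⟯)
    (C := F)).2 inferInstance

/-- The fraction field of the integral closure of `K[x]` in a finite extension `F` of `K(x)` is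
`F`. -/
theorem isFractionRing_integralClosure_adjoin {K F : Type*} [Field K] [Field F] [Algebra K F]
    (x : F) [FiniteDimensional K⟮x⟯ F] :
    IsFractionRing ↥(integralClosure ↥(Algebra.adjoin K {x}) F) F := by
  haveI := isAlgebraic_adjoin_of_finite (K := K) x
  exact integralClosure.isFractionRing_of_algebraic (fun y hy => Subtype.ext hy)

/-- `K[x]` is not a field for `x` transcendental. -/
theorem not_isField_adjoin_of_transcendental {K F : Type*} [Field K] [Field F] [Algebra K F]
    {x : F} (hx : Transcendental K x) : ¬ IsField ↥(Algebra.adjoin K {x}) := fun h =>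
  Polynomial.not_isField K
    ((Polynomial.algEquivOfTranscendental K x hx).toRingEquiv.toMulEquiv.isField h)

/-- The integral closure of `K[x]` (`x` transcendental) in `F` is not a field. -/
theorem not_isField_integralClosure_adjoin {K F : Type*} [Field K] [Field F] [Algebra K F]
    {x : F} (hx : Transcendental K x) :
    ¬ IsField ↥(integralClosure ↥(Algebra.adjoin K {x}) F) := fun h =>
  not_isField_adjoin_of_transcendental hx
    (isField_of_isIntegral_of_isField
      (R := ↥(Algebra.adjoin K {x})) (S := ↥(integralClosure ↥(Algebra.adjoin K {x}) F))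
      (fun a b hab => Subtype.ext (by have h1 := congrArg Subtype.val hab; exact h1)) h)

end Generic

open ModularCurve ModularCurve.IgusaScheme AlgebraicCurve Fermat.Agent.X0 Fermat.Agent.Val
  Fermat.Agent.BR.TwoVal Fermat.Agent.BR.ResGen Fermat.Agent.BR.TwoValInst
  Fermat.Agent.BR.Inst.SpecIsoInf

variable {M q : ℕ} [NeZero M] [hq : Fact q.Prime]
variable (A : ValuationSubring Kb) (hA : A.LiesOverPrime q) (hqM : ¬ q ∣ M)

local notation "kA" => IsLocalRing.ResidueField A

include hA hqM in
/-- `Frac C_k = F̃_M`. -/
theorem isFractionRing_Ck :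
    IsFractionRing ↥(Ck M A) ↥(modularFunctionFieldFullC kA M) := by
  have hsep := Val.isSepVarS_jFullC_residueField M hqM A hA
  haveI := hsep.finite
  exact isFractionRing_integralClosure_adjoin (Val.jFullC kA M)

include hA hqM in
/-- `Frac C_k^∞ = F̃_M`. -/
theorem isFractionRing_CkInf :
    IsFractionRing ↥(CkInf M A) ↥(modularFunctionFieldFullC kA M) := by
  have hsep := (Val.isSepVarS_jFullC_residueField M hqM A hA).inv
  haveI := hsep.finite
  exact isFractionRing_integralClosure_adjoin (Val.jFullC kA M)⁻¹

include hA hqM in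
theorem not_isField_Ck : ¬ IsField ↥(Ck M A) :=
  not_isField_integralClosure_adjoin
    (Val.isSepVarS_jFullC_residueField M hqM A hA).transcendental

include hA hqM in
theorem not_isField_CkInf : ¬ IsField ↥(CkInf M A) :=
  not_isField_integralClosure_adjoin
    (Val.isSepVarS_jFullC_residueField M hqM A hA).inv.transcendental

/-- a place of `F̃_M` at which `x` is regular is finite on the integral closure of `k[x]` -/
theorem adicValuation_le_one_of_mem_integralClosure_adjoin
    (Q : Place kA ↥(modularFunctionFieldFullC kA M)) {x : ↥(modularFunctionFieldFullC kA M)}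
    (hQ : Q.adicValuation x ≤ 1)
    (d : ↥(integralClosure ↥(Algebra.adjoin kA {x}) ↥(modularFunctionFieldFullC kA M))) :
    Q.adicValuation (algebraMap
      ↥(integralClosure ↥(Algebra.adjoin kA {x}) ↥(modularFunctionFieldFullC kA M))
      ↥(modularFunctionFieldFullC kA M) d) ≤ 1 := by
  have h0 : ∀ r : ↥(Algebra.adjoin kA {x}),
      Q.adicValuation (r : ↥(modularFunctionFieldFullC kA M)) ≤ 1 := by
    rintro ⟨r, hr⟩
    show Q.adicValuation r ≤ 1
    induction hr using Algebra.adjoin_induction with
    | mem z hz => rw [Set.mem_singleton_iff.1 hz]; exact hQ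
    | algebraMap c => exact Q.adicValuation_algebraMap_le_one c
    | add y z _ _ hy hz => exact le_trans (Q.adicValuation.map_add _ _) (max_le hy hz)
    | mul y z _ _ hy hz => rw [map_mul]; exact mul_le_one' hy hz
  obtain ⟨p, hp, hpd⟩ := d.2
  let φ : ↥(Algebra.adjoin kA {x}) →+* Q.adicValuation.integer :=
    (algebraMap ↥(Algebra.adjoin kA {x}) ↥(modularFunctionFieldFullC kA M)).codRestrict
      Q.adicValuation.integer h0
  have hint : IsIntegral Q.adicValuation.integer (d : ↥(modularFunctionFieldFullC kA M)) := by
    refine ⟨p.map φ, hp.map _, ?_⟩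
    rw [Polynomial.eval₂_map]
    exact hpd
  exact (Valuation.integer.integers Q.adicValuation).mem_of_integral hint

/-- a place of `F̃_M` at which `j̃` is regular is finite on `C_k` -/
theorem adicValuation_le_one_Ck (Q : Place kA ↥(modularFunctionFieldFullC kA M))
    (hQ : Q.adicValuation (Val.jFullC kA M) ≤ 1) (d : ↥(Ck M A)) :
    Q.adicValuation (algebraMap ↥(Ck M A) ↥(modularFunctionFieldFullC kA M) d) ≤ 1 :=
  adicValuation_le_one_of_mem_integralClosure_adjoin A Q hQ d

/-- a place of `F̃_M` at which `1/j̃` is regular is finite on `C_k^∞` -/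
theorem adicValuation_le_one_CkInf (Q : Place kA ↥(modularFunctionFieldFullC kA M))
    (hQ : Q.adicValuation (Val.jFullC kA M)⁻¹ ≤ 1) (d : ↥(CkInf M A)) :
    Q.adicValuation (algebraMap ↥(CkInf M A) ↥(modularFunctionFieldFullC kA M) d) ≤ 1 :=
  adicValuation_le_one_of_mem_integralClosure_adjoin A Q hQ d

end Fermat.Agent.BR.Inst.SpecIso
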