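/-
Program B (BADRED), node B6.6 smooth-kind instantiation, generic part (helper22).

* `exists_ord_eq_one_of_dedekind` : a Dedekind chart `D` of a function field `Ft` (fraction field
  `Ft`, in element form) on which the place `Q` is finite contains a function of order one at `Q`;
* `fullRes_of_hfull` : the field `fullRes` of `S0.SmoothModel` from `FullRes` of the constants;
* `smoothModel_zero_fin`, `smoothModel_one_fin` : `S0.SmoothModel` at a point `Q` of the component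
  `0` (resp. `1`) which is not a crossing, for the tube `{P | H.r P = ⟨i, Q⟩}` of the point
  dictionary, = helper28's `smoothModel_of_twoComponents` fed with helper24's
  `SmoothTube.tube_fields_zero_fin` / `tube_fields_one_fin` (level totality `htot` and the atlas
  hypotheses `H` stay named).
-/
import Mathlib
import Fermat.Agent.BR.Inst.SmoothModelOf
import Fermat.Agent.BR.S0.SmoothTube

set_option autoImplicit false
set_option linter.unusedSectionVars false

namespace Fermat.Agent.BR.Inst.SmoothInstGen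

open AlgebraicCurve WithZero Fermat.Agent.Red Fermat.Agent.X0 Fermat.Agent.BR
  Fermat.Agent.BR.Centre Fermat.Agent.BR.SpecialFibre Fermat.Agent.BR.S0
  Fermat.Agent.BR.Inst.SmoothModelOf Fermat.Agent.BR.S0.RedModular Fermat.Agent.BR.S0.PointDict

variable {k : Type*} [Field k] {Ft : Type*} [Field Ft] [Algebra k Ft]

/-! ### a function of order one in a Dedekind chart -/

section Dedekind

variable {D : Type*} [CommRing D] [IsDedekindDomain D] (ι : D →+* Ft) (Q : Place k Ft)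

/-- **A Dedekind chart on which `Q` is finite contains a function of order one at `Q`.** -/
theorem exists_ord_eq_one_of_dedekind (hinj : Function.Injective ι)
    (hfrac : ∀ y : Ft, ∃ a b : D, b ≠ 0 ∧ y * ι b = ι a)
    (hQD : ∀ d : D, Q.adicValuation (ι d) ≤ 1) : ∃ τ : D, Q.ord (ι τ) = 1 := by
  have hι0 : ∀ {d : D}, d ≠ 0 → ι d ≠ 0 := fun {d} hd h => hd (hinj (by rw [h, map_zero]))
  have hord0 : ∀ d : D, 0 ≤ Q.ord (ι d) := fun d => by
    rcases (Q.adicValuation_le_one_iff).mp (hQD d) with h0 | h0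
    · rw [h0, Place.ord_zero]
    · exact h0
  obtain ⟨u, hu⟩ : ∃ u : Ft, Q.ord u = 1 := by
    obtain ⟨ϖ, hϖ⟩ := IsDiscreteValuationRing.exists_irreducible Q.toValuationSubring
    exact ⟨ϖ, Q.ord_coe_irreducible hϖ⟩
  obtain ⟨a, b, hb, hab⟩ := hfrac u
  have hu0 : u ≠ 0 := by
    rintro rfl
    rw [Place.ord_zero] at hu
    exact zero_ne_one hu
  have ha0 : a ≠ 0 := by
    rintro rfl
    rw [map_zero] at hab
    exact mul_ne_zero hu0 (hι0 hb) hab
  have hab' : Q.ord (ι a) = 1 + Q.ord (ι b) := by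
    rw [← hab, Q.ord_mul hu0 (hι0 hb), hu]
  set m : Ideal D := pointIdeal ι Q hQD with hm
  have hmem : ∀ d : D, d ≠ 0 → (d ∈ m ↔ 0 < Q.ord (ι d)) := fun d hd => by
    rw [hm, mem_pointIdeal_iff, adicValuation_lt_one_iff, or_iff_right (hι0 hd)]
  have hm1 : m ≠ ⊤ := by
    intro h
    have h1 : (1 : D) ∈ m := by rw [h]; trivial
    rw [hmem 1 one_ne_zero, map_one, Place.ord_one] at h1
    exact lt_irrefl _ h1
  have hm0 : m ≠ ⊥ := by
    intro h
    have hz : ∀ d : D, d ≠ 0 → Q.ord (ι d) = 0 := fun d hd => by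
      have h1 : d ∉ m := by rw [h, Ideal.mem_bot]; exact hd
      rw [hmem d hd, not_lt] at h1
      exact le_antisymm h1 (hord0 d)
    rw [hz a ha0, hz b hb] at hab'
    omega
  obtain ⟨τ, hτ1, hτ2⟩ := Ideal.exists_mem_pow_notMem_pow_succ m hm0 hm1 1
  rw [pow_one] at hτ1
  have hτ0 : τ ≠ 0 := by
    rintro rfl
    exact hτ2 (Ideal.zero_mem _)
  have hgen := local_generator_of_notMem_sq m hτ1 hτ2
  have hn1 : 0 < Q.ord (ι τ) := (hmem τ hτ0).mp hτ1
  -- every order is a multiple of the order of `τ`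
  have key : ∀ (N : ℕ) (d : D), d ≠ 0 → Q.ord (ι d) ≤ N → Q.ord (ι τ) ∣ Q.ord (ι d) := by
    intro N
    induction N with
    | zero =>
      intro d hd hle
      have : Q.ord (ι d) = 0 := le_antisymm (by exact_mod_cast hle) (hord0 d)
      rw [this]
      exact dvd_zero _
    | succ N ih =>
      intro d hd hle
      by_cases hdm : d ∈ m
      · obtain ⟨s, hs, c, hc⟩ := hgen d hdm
        have hs0 : s ≠ 0 := by
          rintro rfl
          exact hs (Ideal.zero_mem _)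
        have hc0 : c ≠ 0 := by
          rintro rfl
          rw [mul_zero] at hc
          exact mul_ne_zero hs0 hd hc
        have hsord : Q.ord (ι s) = 0 := by
          have h1 := hs
          rw [hmem s hs0, not_lt] at h1
          exact le_antisymm h1 (hord0 s)
        have heq : Q.ord (ι d) = Q.ord (ι τ) + Q.ord (ι c) := by
          have h2 := congrArg (fun z => Q.ord (ι z)) hc
          simp only [map_mul] at h2
          rw [Q.ord_mul (hι0 hs0) (hι0 hd), Q.ord_mul (hι0 hτ0) (hι0 hc0), hsord, zero_add] at h2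
          exact h2
        have hcle : Q.ord (ι c) ≤ N := by
          have : Q.ord (ι d) ≤ (N : ℤ) + 1 := by exact_mod_cast hle
          omega
        rw [heq]
        exact dvd_add (dvd_refl _) (ih c hc0 hcle)
      · have h1 := hdm
        rw [hmem d hd, not_lt] at h1
        have : Q.ord (ι d) = 0 := le_antisymm h1 (hord0 d)
        rw [this]
        exact dvd_zero _
  have hda : Q.ord (ι τ) ∣ Q.ord (ι a) :=
    key (Q.ord (ι a)).toNat a ha0 (by rw [Int.toNat_of_nonneg (hord0 a)])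
  have hdb : Q.ord (ι τ) ∣ Q.ord (ι b) :=
    key (Q.ord (ι b)).toNat b hb (by rw [Int.toNat_of_nonneg (hord0 b)])
  have hd1 : Q.ord (ι τ) ∣ 1 := by
    have h3 : Q.ord (ι τ) ∣ Q.ord (ι a) - Q.ord (ι b) := dvd_sub hda hdb
    have h4 : Q.ord (ι a) - Q.ord (ι b) = 1 := by omega
    rwa [h4] at h3
  refine ⟨τ, ?_⟩
  exact Int.eq_one_of_dvd_one hn1.le hd1

end Dedekind

/-! ### the smooth model at a point which is not a crossing -/

variable {K F : Type*} [Field K] [Field F] [Algebra K F]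
  {A : ValuationSubring K} {π : A →+* k}

/-- The field `fullRes` of `S0.SmoothModel` from `FullRes` of the constants of the model. -/
theorem fullRes_of_hfull {O : ValuationSubring F} {res : O →+* Ft} {Q : Place k Ft}
    {C : Subring F} (le : ∀ x ∈ C, x ∈ O)
    (hQC : ∀ x : C, Q.adicValuation (res ⟨x, le x x.2⟩) ≤ 1) (hdeg : Q.deg = 1)
    (hfull : ∀ c : k, ∃ a : A, algebraMap K F a ∈ C ∧ π a = c) :
    ∀ x : C, ∃ (a : A) (_ : algebraMap K F (a : K) ∈ C),
      Q.adicValuation (res ⟨x, le x x.2⟩ - algebraMap k Ft (π a)) < 1 := by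
  intro x
  have hmem : res ⟨x, le x x.2⟩ ∈ Q.toValuationSubring := by
    rw [Place.mem_iff_ord_nonneg]
    rcases (Q.adicValuation_le_one_iff).mp (hQC x) with h0 | h0
    · rw [h0, Place.ord_zero]
    · exact h0
  obtain ⟨c, hc⟩ := exists_isValueAt Q hdeg hmem
  obtain ⟨a, haC, hac⟩ := hfull c
  exact ⟨a, haC, by rw [hac]; exact hc⟩

section Atlas

variable {D : ChartData A π Ft F} {x : F} (H : AtlasHyp D x) {C : Subring F} {ϖ : K}

include H

/-- **The smooth model at a point of the component `0` which is not a crossing** (finite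
chart). -/
theorem smoothModel_zero_fin (hRC : D.Rfin ≤ C) (hCO : ∀ v, C ≤ (D.O v).toSubring)
    (noeth : IsNoetherianRing C) (intClosed : IsIntegrallyClosed C)
    {P1 P2 : Ideal C} (hP1 : ∀ y : C, (y : F) ∈ (D.O 0).nonunits → y ∈ P1)
    (hϖ0 : ϖ ≠ 0) (hϖ1 : A.valuation ϖ < 1) (hϖC : algebraMap K F ϖ ∈ C)
    (hTC : TwoComponents (⟨algebraMap K F ϖ, hϖC⟩ : C) P1 P2)
    {Dk : Type*} [CommRing Dk] [IsDedekindDomain Dk] (ι : Dk →+* Ft) (red : C →+* Dk)
    (hred : ∀ y : C, ι (red y) = D.res 0 ⟨y, hCO 0 y.2⟩) (hsurj : Function.Surjective red)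
    {Q : Place k Ft} (hQ : ∀ e, Q ≠ z₁ D e) {c : k}
    (hx : IsValueAt Q (D.res 0 ⟨x, D.hfin 0 H.x_mem⟩) c)
    (hQD : ∀ d : Dk, Q.adicValuation (ι d) ≤ 1)
    (h2 : ∃ y ∈ P2, ¬ Q.adicValuation (D.res 0 ⟨y, hCO 0 y.2⟩) < 1)
    {t : F} (htC : t ∈ C) (ht1 : Q.ord (D.res 0 ⟨t, hCO 0 htC⟩) = 1) (hdeg : Q.deg = 1)
    (hfull : ∀ c : k, ∃ a : A, algebraMap K F a ∈ C ∧ π a = c)
    (hres : ∀ (a : K) (ha : a ∈ A) (h : algebraMap K F a ∈ D.O 0),
      D.res 0 ⟨algebraMap K F a, h⟩ = algebraMap k Ft (π ⟨a, ha⟩))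
    (htot : ∀ P : Place K F, IntegralAt A C P →
      ∃ (v : Fin 2) (Q' : Place k Ft), IsRedOf A π C (D.O v) (D.res v) (hCO v) P Q')
    (hint : ∀ P : Place K F, IntegralAt A D.Rfin P → IntegralAt A C P) :
    SmoothModel A π (D.O 0) (D.res 0) Q {P | H.r P = ⟨0, Q⟩} t C ϖ := by
  have le : ∀ y ∈ C, y ∈ D.O 0 := fun y hy => hCO 0 hy
  have hQC : ∀ y : C, Q.adicValuation (D.res 0 ⟨y, le y y.2⟩) ≤ 1 := fun y => by
    rw [← hred]; exact hQD _
  have hfull' := fullRes_of_hfull (π := π) le hQC hdeg hfull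
  obtain ⟨h1, h2'⟩ := SmoothTube.tube_fields_zero_fin H hRC (hCO := hCO) htot hint hQ hx le hres
    hfull'
  exact smoothModel_of_twoComponents noeth intClosed le hP1 hϖ0 hϖ1 hϖC hTC ι red hred hsurj hQD
    h2 htC ht1 hdeg hfull h1 h2'

/-- **The smooth model at a point of the component `1` which is not a crossing** (finite chart;
`P1`, `P2` are exchanged: `P2` is the trace of `𝔪(O 1)`). -/
theorem smoothModel_one_fin (hRC : D.Rfin ≤ C) (hCO : ∀ v, C ≤ (D.O v).toSubring)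
    (noeth : IsNoetherianRing C) (intClosed : IsIntegrallyClosed C)
    {P1 P2 : Ideal C} (hP2 : ∀ y : C, (y : F) ∈ (D.O 1).nonunits → y ∈ P2)
    (hϖ0 : ϖ ≠ 0) (hϖ1 : A.valuation ϖ < 1) (hϖC : algebraMap K F ϖ ∈ C)
    (hTC : TwoComponents (⟨algebraMap K F ϖ, hϖC⟩ : C) P2 P1)
    {Dk : Type*} [CommRing Dk] [IsDedekindDomain Dk] (ι : Dk →+* Ft) (red : C →+* Dk)
    (hred : ∀ y : C, ι (red y) = D.res 1 ⟨y, hCO 1 y.2⟩) (hsurj : Function.Surjective red)
    {Q : Place k Ft} (hQ : ∀ e, Q ≠ z₂ D e) {c : k}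
    (hx : IsValueAt Q (D.res 1 ⟨x, D.hfin 1 H.x_mem⟩) c)
    (hQD : ∀ d : Dk, Q.adicValuation (ι d) ≤ 1)
    (h2 : ∃ y ∈ P1, ¬ Q.adicValuation (D.res 1 ⟨y, hCO 1 y.2⟩) < 1)
    {t : F} (htC : t ∈ C) (ht1 : Q.ord (D.res 1 ⟨t, hCO 1 htC⟩) = 1) (hdeg : Q.deg = 1)
    (hfull : ∀ c : k, ∃ a : A, algebraMap K F a ∈ C ∧ π a = c)
    (hres : ∀ (a : K) (ha : a ∈ A) (h : algebraMap K F a ∈ D.O 1),
      D.res 1 ⟨algebraMap K F a, h⟩ = algebraMap k Ft (π ⟨a, ha⟩))
    (htot : ∀ P : Place K F, IntegralAt A C P →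
      ∃ (v : Fin 2) (Q' : Place k Ft), IsRedOf A π C (D.O v) (D.res v) (hCO v) P Q')
    (hint : ∀ P : Place K F, IntegralAt A D.Rfin P → IntegralAt A C P) :
    SmoothModel A π (D.O 1) (D.res 1) Q {P | H.r P = ⟨1, Q⟩} t C ϖ := by
  have le : ∀ y ∈ C, y ∈ D.O 1 := fun y hy => hCO 1 hy
  have hQC : ∀ y : C, Q.adicValuation (D.res 1 ⟨y, le y y.2⟩) ≤ 1 := fun y => by
    rw [← hred]; exact hQD _
  have hfull' := fullRes_of_hfull (π := π) le hQC hdeg hfull
  obtain ⟨h1, h2'⟩ := SmoothTube.tube_fields_one_fin H hRC (hCO := hCO) htot hint hQ hx le hres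
    hfull'
  exact smoothModel_of_twoComponents noeth intClosed le hP2 hϖ0 hϖ1 hϖC hTC ι red hred hsurj hQD
    h2 htC ht1 hdeg hfull h1 h2'

end Atlas

end Fermat.Agent.BR.Inst.SmoothInstGen
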