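/-
Program B (bad reduction), node B6.6-CONS, the point hypotheses `hQDf` / `hQDi` of the case split
for the modular tower (helper24).

`helper1`'s `SmoothLevelsGlue.smooth_zero_levels` / `smooth_one_levels` produce `smooth₀`,
`smooth₁` of `PointDict.AtlasHyp.toInput` at every point which is not a crossing from the levels
of the finite chart (Dedekind chart `Dkf`) and of the chart at infinity (Dedekind chart `Dki`),
with four hypotheses on the points:

* `hQDf` : where the residue of `x` on the component is regular, the place is finite on `Dkf`;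
* `hQDi` : where the residue of `1/x` on the component vanishes, the place is finite on `Dki`.

Here they are VERBATIM for the modular atlas: components `compW B hB hqM`, `x = jx M q = j`,
`Dkf = C_k = Ck M B` (integral closure of `k[j̃]` in `F̃_M`), `Dki = C_k^∞ = CkInf M B` (integral
closure of `k[1/j̃]`).  The residue of `j` is `j̃` on the component `0` and `j̃^q` on the
component `1` (`res_zero_jx`, `res_one_jx`), so the four statements follow from helper6's
`adicValuation_le_one_Ck` / `adicValuation_le_one_CkInf`.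
-/
import Mathlib
import Fermat.Agent.BR.S0.RedHyp
import Fermat.Agent.BR.S0.SmoothLevelsGlue
import Fermat.Agent.BR.Inst.SpecialIsoFrac

set_option autoImplicit false
set_option linter.unusedSectionVars false

noncomputable section

namespace Fermat.Agent.BR.Inst.CkPointModular

open ModularCurve ModularCurve.IgusaScheme AlgebraicCurve IsLocalRing
open Fermat.Agent.X0 Fermat.Agent.Val Fermat.Agent.Red Fermat.Agent.BR.Centre
open Fermat.Agent.BR.TwoVal Fermat.Agent.BR.TwoValInst Fermat.Agent.BR.ConstRedTwo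
open Fermat.Agent.BR.S0.RedModular Fermat.Agent.BR.S0.RedHyp Fermat.Agent.BR.S0.PointDict
open Fermat.Agent.BR.S0.SmoothLevelsGlue Fermat.Agent.BR.Inst.SpecIso
open Fermat.Agent.BR.Inst.SpecIsoInf

set_option synthInstance.maxHeartbeats 400000

variable {M q : ℕ} [NeZero M] [hqF : Fact q.Prime]
variable (B : ValuationSubring Kb) (hB : B.LiesOverPrime q) (hqM : ¬ q ∣ M)

local notation "kB" => IsLocalRing.ResidueField B
local notation "FtM" => modularFunctionFieldFullC (IsLocalRing.ResidueField B) M

/-! ### the residues of `j` and `1/j` on the two components -/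

/-- the residue of `j` on the component `0` is `j̃` -/
theorem res_zero_jx (h : jx M q ∈ (compW B hB hqM 0).O) :
    (compW B hB hqM 0).res ⟨jx M q, h⟩ = jFullC kB M := by
  have key : ∀ (y : Fb (M * q)) (hy : y ∈ (compW B hB hqM 0).O), y = jOne M q →
      (compW B hB hqM 0).res ⟨y, hy⟩ = jFullC kB M := by
    rintro y hy rfl
    exact Subtype.ext (res1_jOne B hB)
  exact key _ h jx_eq_jOne

/-- the residue of `j` on the component `1` is `j̃^q` -/
theorem res_one_jx (h : jx M q ∈ (compW B hB hqM 1).O) :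
    (compW B hB hqM 1).res ⟨jx M q, h⟩ = jFullC kB M ^ q := by
  have key : ∀ (y : Fb (M * q)) (hy : y ∈ (compW B hB hqM 1).O), y = jOne M q →
      (compW B hB hqM 1).res ⟨y, hy⟩ = jFullC kB M ^ q := by
    rintro y hy rfl
    exact Subtype.ext (res2_jOne B hB hqM)
  exact key _ h jx_eq_jOne

/-- the residue of `1/j` on a component is the inverse of the residue of `j` -/
theorem res_jx_inv (v : Fin 2) (h : jx M q ∈ (compW B hB hqM v).O)
    (h' : (jx M q)⁻¹ ∈ (compW B hB hqM v).O) :
    (compW B hB hqM v).res ⟨(jx M q)⁻¹, h'⟩ = ((compW B hB hqM v).res ⟨jx M q, h⟩)⁻¹ := by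
  have h1 : (compW B hB hqM v).res ⟨jx M q, h⟩ * (compW B hB hqM v).res ⟨(jx M q)⁻¹, h'⟩ = 1 := by
    rw [← map_mul, ← map_one (compW B hB hqM v).res]
    congr 1
    exact Subtype.ext (mul_inv_cancel₀ jx_ne_zero)
  exact eq_inv_of_mul_eq_one_right h1

/-- the residue of `1/j` on the component `0` is `1/j̃` -/
theorem res_zero_jx_inv (h' : (jx M q)⁻¹ ∈ (compW B hB hqM 0).O) :
    (compW B hB hqM 0).res ⟨(jx M q)⁻¹, h'⟩ = (jFullC kB M)⁻¹ := by
  have h : jx M q ∈ (compW B hB hqM 0).O := barEmb_jFull_mem B hB hqM 0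
  rw [res_jx_inv B hB hqM 0 h h', res_zero_jx B hB hqM h]

/-- the residue of `1/j` on the component `1` is `1/j̃^q` -/
theorem res_one_jx_inv (h' : (jx M q)⁻¹ ∈ (compW B hB hqM 1).O) :
    (compW B hB hqM 1).res ⟨(jx M q)⁻¹, h'⟩ = (jFullC kB M ^ q)⁻¹ := by
  have h : jx M q ∈ (compW B hB hqM 1).O := barEmb_jFull_mem B hB hqM 1
  rw [res_jx_inv B hB hqM 1 h h', res_one_jx B hB hqM h]

/-! ### the four point hypotheses of the case split -/

/-- **`hQDf`, component `0`**: a point at which the residue of `j` is regular is finite on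
`C_k`. -/
theorem hQDf_zero (Q : Place kB FtM) (h : jx M q ∈ (compW B hB hqM 0).O)
    (hQ : (compW B hB hqM 0).res ⟨jx M q, h⟩ ∈ Q.toValuationSubring) (d : ↥(Ck M B)) :
    Q.adicValuation (algebraMap ↥(Ck M B) FtM d) ≤ 1 := by
  rw [res_zero_jx B hB hqM h, mem_iff_adicValuation_le_one] at hQ
  exact adicValuation_le_one_Ck B Q hQ d

/-- **`hQDf`, component `1`**: a point at which the residue `j̃^q` of `j` is regular is finite on
`C_k`. -/
theorem hQDf_one (Q : Place kB FtM) (h : jx M q ∈ (compW B hB hqM 1).O)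
    (hQ : (compW B hB hqM 1).res ⟨jx M q, h⟩ ∈ Q.toValuationSubring) (d : ↥(Ck M B)) :
    Q.adicValuation (algebraMap ↥(Ck M B) FtM d) ≤ 1 := by
  rw [res_one_jx B hB hqM h] at hQ
  have h1 := mem_of_pow_mem hqF.out.ne_zero hQ
  rw [mem_iff_adicValuation_le_one] at h1
  exact adicValuation_le_one_Ck B Q h1 d

/-- **`hQDi`, component `0`**: a point at which the residue of `1/j` vanishes is finite on
`C_k^∞`. -/
theorem hQDi_zero (Q : Place kB FtM) (h' : (jx M q)⁻¹ ∈ (compW B hB hqM 0).O)
    (hQ : Q.adicValuation ((compW B hB hqM 0).res ⟨(jx M q)⁻¹, h'⟩) < 1) (d : ↥(CkInf M B)) :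
    Q.adicValuation (algebraMap ↥(CkInf M B) FtM d) ≤ 1 := by
  rw [res_zero_jx_inv B hB hqM h'] at hQ
  exact adicValuation_le_one_CkInf B Q hQ.le d

/-- **`hQDi`, component `1`**: a point at which the residue `1/j̃^q` of `1/j` vanishes is finite
on `C_k^∞`. -/
theorem hQDi_one (Q : Place kB FtM) (h' : (jx M q)⁻¹ ∈ (compW B hB hqM 1).O)
    (hQ : Q.adicValuation ((compW B hB hqM 1).res ⟨(jx M q)⁻¹, h'⟩) < 1) (d : ↥(CkInf M B)) :
    Q.adicValuation (algebraMap ↥(CkInf M B) FtM d) ≤ 1 := by
  rw [res_one_jx_inv B hB hqM h', ← inv_pow, map_pow] at hQ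
  have h1 : Q.adicValuation (jFullC kB M)⁻¹ ≤ 1 := by
    by_contra hcon
    rw [not_le] at hcon
    exact absurd hQ (not_lt.mpr (one_le_pow₀ hcon.le))
  exact adicValuation_le_one_CkInf B Q h1 d

end Fermat.Agent.BR.Inst.CkPointModular
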