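import Fermat.Agent.BR.TwoValInst
import Fermat.Agent.BR.Separate
import Fermat.Agent.Good.ChartBridge
import Fermat.Agent.Good.InstFinAll
import Fermat.Agent.Good.ResidueAlgebra
import Fermat.Agent.Val.FinrankModL

/-!
# Program B, node B6.5(d): the two components of the special fibre of `X₀(Mq)` are `X₀(M)_k`

`M` prime to the prime `q`, `A ⊆ ℚ̄` a valuation subring over `q`, `k` its residue field,
`F̃_M = modularFunctionFieldFullC k M ⊆ k((q))` (`= F̃_{Mq}`), `O₁, O₂, res₁, res₂` the two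
valuations of `F̄_{Mq}` over `q` (`BR/TwoValDefs`).

* `kJ M A = k[j̃]`, `Ck M A` : the integral closure of `k[j̃]` in `F̃_M` (the coordinate ring of the
  affine curve `X₀(M)_k ∖ {cusps}`); `isDedekindDomain_Ck`.
* `red1F, red2F, redMF` : `res₁, res₂, res_M` with values in `F̃_M`.
* `AJ M q A = A[j] ⊆ F̄_{Mq}`, `AJM M A = A[j] ⊆ F̄_M`; **integrality**: an element integral over
  `A[j]` lies in `O₁ ∩ O₂` and its residues are integral over `k[j̃]` (`isIntegral_red1F`, …).
* For a subring `R` of `F̄_{Mq}` integral over `A[j]` (the model `BK A K' (M*q)` of the frame):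
  `redOne R hR, redTwo R hR : R →+* Ck M A`, with kernels the non-units of `O₁`, `O₂`.
* **Lift lemma** `exists_lift` : every element of `Ck M A` is the residue of an element of the
  subring generated by a set `W` of constants with full residue field and the (images of the)
  elements of `chartAlgFin M q`.  Consequences `exists_alpha_sub_mem`, `exists_beta_sub_mem`
  (`(S1)`, `(S2)`), surjectivity of `redOne`, `redTwo`, and `quotOne, quotTwo : R ⧸ ker ≃+* Ck`.
-/

set_option autoImplicit false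
set_option linter.unusedSectionVars false
set_option linter.style.haveILetI false

noncomputable section

set_option synthInstance.maxHeartbeats 400000

namespace Fermat.Agent.BR.Inst.SpecIso

/-! ### Generic lemmas -/

section Generic

/-- An element of `F` integral over a subring `S` of a valuation subring `O` lies in `O`. -/
theorem mem_valuationSubring_of_isIntegral {F : Type*} [Field F] (O : ValuationSubring F)
    (S : Subring F) (hS : S ≤ O.toSubring) {x : F} (hx : IsIntegral S x) : x ∈ O := by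
  obtain ⟨p, hp, hroot⟩ := hx
  let φ : S →+* O := Subring.inclusion hS
  have h1 : IsIntegral O x := by
    refine ⟨p.map φ, hp.map φ, ?_⟩
    rw [Polynomial.eval₂_map]
    exact hroot
  obtain ⟨y, hy⟩ := (IsIntegrallyClosed.isIntegral_iff (R := O) (K := F)).mp h1
  rw [← hy]
  exact y.2

/-- Integrality over a subring passes to a bigger subring. -/
theorem isIntegral_mono {F : Type*} [CommRing F] {S S' : Subring F} (h : S ≤ S') {x : F}
    (hx : IsIntegral S x) : IsIntegral S' x := by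
  obtain ⟨p, hp, hroot⟩ := hx
  refine ⟨p.map (Subring.inclusion h), hp.map _, ?_⟩
  rw [Polynomial.eval₂_map]
  exact hroot

/-- Transfer of integrality along a residue map: `O` a valuation subring of `F`, `ψ : O → T` a ring
homomorphism, `S ⊆ O` a subring whose image lies in the subalgebra `R'` of `T`.  If `x ∈ O` is
integral over `S` then `ψ x` is integral over `R'`. -/
theorem isIntegral_map_of_isIntegral {F k T : Type*} [Field F] [CommRing k] [CommRing T]
    [Algebra k T] (O : ValuationSubring F) (ψ : O →+* T) (S : Subring F) (hS : S ≤ O.toSubring)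
    (R' : Subalgebra k T) (hψ : ∀ s (hs : s ∈ S), ψ ⟨s, hS hs⟩ ∈ R') {x : F}
    (hx : IsIntegral S x) (hxO : x ∈ O) : IsIntegral R' (ψ ⟨x, hxO⟩) := by
  obtain ⟨p, hp, hroot⟩ := hx
  let φ : S →+* O := Subring.inclusion hS
  let φ' : S →+* R' := (ψ.comp φ).codRestrict R' (fun s => hψ s s.2)
  refine ⟨p.map φ', hp.map φ', ?_⟩
  rw [Polynomial.eval₂_map]
  have h1 : (algebraMap (↥R') T).comp φ' = ψ.comp φ := by
    ext s
    rfl
  rw [h1, ← Polynomial.hom_eval₂]
  have h2 : Polynomial.eval₂ φ (⟨x, hxO⟩ : O) p = 0 := by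
    apply Subtype.ext
    have := Polynomial.hom_eval₂ p φ O.subtype (⟨x, hxO⟩ : O)
    rw [ValuationSubring.subtype_apply] at this
    rw [this]
    exact hroot
  rw [h2, map_zero]

/-- A ring homomorphism on a valuation subring maps the subring generated by `G ⊆ O` into a
subring `R'` as soon as it does so on `G`. -/
theorem map_mem_of_mem_closure {F T : Type*} [Field F] [CommRing T] (O : ValuationSubring F)
    (ψ : O →+* T) (G : Set F) (hG : ∀ g ∈ G, g ∈ O) (R' : Subring T)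
    (hψ : ∀ g (hg : g ∈ G), ψ ⟨g, hG g hg⟩ ∈ R') (s : F) (hs : s ∈ Subring.closure G)
    (h : s ∈ O) : ψ ⟨s, h⟩ ∈ R' := by
  have hle : Subring.closure G ≤ (R'.comap ψ).map O.subtype := by
    refine Subring.closure_le.2 ?_
    intro g hg
    exact ⟨⟨g, hG g hg⟩, hψ g hg, rfl⟩
  obtain ⟨y, hy, hys⟩ := hle hs
  have : y = ⟨s, h⟩ := Subtype.ext hys
  rw [← this]
  exact hy

end Generic

open ModularCurve ModularCurve.IgusaScheme AlgebraicCurve Fermat.Agent.X0 Fermat.Agent.Val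
  Fermat.Agent.BR.TwoVal Fermat.Agent.BR.ResGen Fermat.Agent.BR.TwoValInst
  Fermat.Agent.Good.Bridge

variable {M q : ℕ} [NeZero M] [hq : Fact q.Prime]
variable (A : ValuationSubring Kb) (hA : A.LiesOverPrime q) (hqM : ¬ q ∣ M)

local notation "kA" => IsLocalRing.ResidueField A

/-! ### The residue maps with values in `F̃_M` -/

include hqM in
theorem resM_mem_fullC (c : OM M A hA) :
    resM M A hA c ∈ modularFunctionFieldFullC kA M :=
  Val.gaussResQbar_mem A M hA hqM c

include hqM in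
theorem res1_mem_fullC (x : O1 M A hA) :
    res1 M A hA x ∈ modularFunctionFieldFullC kA M := by
  obtain ⟨c, hc⟩ := exists_resM_eq_res1 A hA hqM x
  rw [hc]
  exact resM_mem_fullC A hA hqM c

theorem res2_mem_fullC (x : O2 A hA hqM) :
    res2 A hA hqM x ∈ modularFunctionFieldFullC kA M :=
  res1_mem_fullC A hA hqM _

/-- `res_M` with values in `F̃_M` (the residue map of `Val.constRedBar`). -/
def redMF : OM M A hA →+* ↥(modularFunctionFieldFullC kA M) :=
  (constRedBar M hqM A hA).res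

/-- `res₁` with values in `F̃_M`. -/
def red1F : O1 M A hA →+* ↥(modularFunctionFieldFullC kA M) :=
  (res1 M A hA).codRestrict (modularFunctionFieldFullC kA M).toSubring
    (res1_mem_fullC A hA hqM)

/-- `res₂` with values in `F̃_M`. -/
def red2F : O2 A hA hqM →+* ↥(modularFunctionFieldFullC kA M) :=
  (res2 A hA hqM).codRestrict (modularFunctionFieldFullC kA M).toSubring
    (res2_mem_fullC A hA hqM)

@[simp] theorem coe_redMF (x : OM M A hA) :
    ((redMF A hA hqM x : ↥(modularFunctionFieldFullC kA M)) : LaurentSeries kA) =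
      resM M A hA x := rfl

@[simp] theorem coe_red1F (x : O1 M A hA) :
    ((red1F A hA hqM x : ↥(modularFunctionFieldFullC kA M)) : LaurentSeries kA) =
      res1 M A hA x := rfl

@[simp] theorem coe_red2F (x : O2 A hA hqM) :
    ((red2F A hA hqM x : ↥(modularFunctionFieldFullC kA M)) : LaurentSeries kA) =
      res2 A hA hqM x := rfl

theorem red2F_apply (x : O2 A hA hqM) :
    red2F A hA hqM x = red1F A hA hqM (WqO A hA hqM x) := rfl

theorem redMF_eq_zero_iff (x : OM M A hA) :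
    redMF A hA hqM x = 0 ↔ (x : Fb M) ∈ (OM M A hA).nonunits := by
  rw [mem_nonunits_OM_iff A hA x.2, ← coe_redMF A hA hqM]
  constructor
  · intro h; rw [h]; rfl
  · intro h; exact Subtype.ext h

theorem red1F_eq_zero_iff (x : O1 M A hA) :
    red1F A hA hqM x = 0 ↔ (x : Fb (M * q)) ∈ (O1 M A hA).nonunits := by
  rw [mem_nonunits_O1_iff A hA x.2, ← coe_red1F A hA hqM]
  constructor
  · intro h; rw [h]; rfl
  · intro h; exact Subtype.ext h

theorem red2F_eq_zero_iff (x : O2 A hA hqM) :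
    red2F A hA hqM x = 0 ↔ (x : Fb (M * q)) ∈ (O2 A hA hqM).nonunits := by
  rw [mem_nonunits_O2_iff A hA hqM x.2, ← coe_red2F A hA hqM]
  constructor
  · intro h; rw [h]; rfl
  · intro h; exact Subtype.ext h

/-- `red₁ ∘ α = red_M`. -/
theorem red1F_alpha (x : Fb M) (hx : x ∈ OM M A hA) :
    red1F A hA hqM ⟨heckeAlphaBar Kb M q x, (alpha_mem_O1_iff A hA x).2 hx⟩ =
      redMF A hA hqM ⟨x, hx⟩ :=
  Subtype.ext (res1_alpha A hA x hx)

/-- `red₂ ∘ β = red_M`. -/
theorem red2F_beta (x : Fb M) (hx : x ∈ OM M A hA) :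
    red2F A hA hqM ⟨heckeBetaBar Kb M q x, (beta_mem_O2_iff A hA hqM x).2 hx⟩ =
      redMF A hA hqM ⟨x, hx⟩ :=
  Subtype.ext (res2_beta A hA hqM x hx)

/-! ### `k[j̃]`, its integral closure, and `A[j]` -/

variable (M) in
/-- `k[j̃] ⊆ F̃_M`. -/
abbrev kJ : Subalgebra kA ↥(modularFunctionFieldFullC kA M) :=
  Algebra.adjoin kA {Val.jFullC kA M}

variable (M) in
/-- `C_k`: the integral closure of `k[j̃]` in `F̃_M` (the coordinate ring of the affine part of
each of the two components of the special fibre). -/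
abbrev Ck : Subalgebra ↥(kJ M A) ↥(modularFunctionFieldFullC kA M) :=
  integralClosure ↥(kJ M A) ↥(modularFunctionFieldFullC kA M)

variable (M q) in
/-- `A[j] ⊆ F̄_{Mq}`: the subring generated by the constants of `A` and `j`. -/
def AJ : Subring (Fb (M * q)) :=
  Subring.closure ((algebraMap Kb (Fb (M * q))) '' (A : Set Kb) ∪ {jOne M q})

variable (M) in
/-- `A[j] ⊆ F̄_M`. -/
def AJM : Subring (Fb M) :=
  Subring.closure ((algebraMap Kb (Fb M)) '' (A : Set Kb) ∪ {jBarD M 1 (one_dvd M)})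

theorem algebraMap_mem_OM {a : Kb} (ha : a ∈ A) : algebraMap Kb (Fb M) a ∈ OM M A hA :=
  (ValTwo.algebraMap_mem_gauss_iff hq.out A hA M a).2 ha

theorem algebraMap_mem_O1 {a : Kb} (ha : a ∈ A) : algebraMap Kb (Fb (M * q)) a ∈ O1 M A hA :=
  (Separate.algebraMap_mem_O1_iff A hA a).2 ha

theorem algebraMap_mem_O2 {a : Kb} (ha : a ∈ A) : algebraMap Kb (Fb (M * q)) a ∈ O2 A hA hqM :=
  (Separate.algebraMap_mem_O2_iff hqM A hA a).2 ha

theorem redMF_algebraMap {a : Kb} (ha : a ∈ A) :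
    redMF A hA hqM ⟨algebraMap Kb (Fb M) a, algebraMap_mem_OM A hA ha⟩ =
      algebraMap kA ↥(modularFunctionFieldFullC kA M) (IsLocalRing.residue A ⟨a, ha⟩) :=
  (constRedBar M hqM A hA).res_algebraMap a ha _

theorem red1F_algebraMap {a : Kb} (ha : a ∈ A) :
    red1F A hA hqM ⟨algebraMap Kb (Fb (M * q)) a, algebraMap_mem_O1 A hA ha⟩ =
      algebraMap kA ↥(modularFunctionFieldFullC kA M) (IsLocalRing.residue A ⟨a, ha⟩) := by
  apply Subtype.ext
  rw [coe_red1F]
  have h := ValTwo.resOne_algebraMap (M := M) hq.out A hA ⟨a, ha⟩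
  rw [← Separate.res1_eq_resOne] at h
  rw [h]
  show _ = algebraMap kA (LaurentSeries kA) _
  rw [Val.algebraMap_laurentSeries_eq_C]

theorem red2F_algebraMap {a : Kb} (ha : a ∈ A) :
    red2F A hA hqM ⟨algebraMap Kb (Fb (M * q)) a, algebraMap_mem_O2 A hA hqM ha⟩ =
      algebraMap kA ↥(modularFunctionFieldFullC kA M) (IsLocalRing.residue A ⟨a, ha⟩) := by
  rw [red2F_apply, ← red1F_algebraMap A hA hqM ha]
  congr 1
  exact Subtype.ext (AlgEquiv.commutes _ _)

theorem jM_mem_OM : jBarD M 1 (one_dvd M) ∈ OM M A hA :=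
  jBarD_mem_gaussValQbar A M hq.out.ne_zero hA 1 (one_dvd M)

theorem redMF_jM :
    redMF A hA hqM ⟨jBarD M 1 (one_dvd M), jM_mem_OM A hA⟩ = Val.jFullC kA M := by
  apply Subtype.ext
  rw [coe_redMF]
  have h := gaussResQbar_jBarD A M hq.out.ne_zero hA 1 (one_dvd M)
  rw [jqNModC_one] at h
  exact h

theorem red1F_jOne :
    red1F A hA hqM ⟨jOne M q, jOne_mem_O1 A hA⟩ = Val.jFullC kA M :=
  Subtype.ext (res1_jOne A hA)

theorem red2F_jOne :
    red2F A hA hqM ⟨jOne M q, jOne_mem_O2 A hA hqM⟩ = Val.jFullC kA M ^ q :=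
  Subtype.ext (res2_jOne A hA hqM)

theorem AJM_le_OM : AJM M A ≤ (OM M A hA).toSubring := by
  refine Subring.closure_le.2 ?_
  rintro x (⟨a, ha, rfl⟩ | hx)
  · exact algebraMap_mem_OM A hA ha
  · rw [Set.mem_singleton_iff.1 hx]
    exact jM_mem_OM A hA

theorem AJ_le_O1 : AJ M q A ≤ (O1 M A hA).toSubring := by
  refine Subring.closure_le.2 ?_
  rintro x (⟨a, ha, rfl⟩ | hx)
  · exact algebraMap_mem_O1 A hA ha
  · rw [Set.mem_singleton_iff.1 hx]
    exact jOne_mem_O1 A hA

theorem AJ_le_O2 : AJ M q A ≤ (O2 A hA hqM).toSubring := by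
  refine Subring.closure_le.2 ?_
  rintro x (⟨a, ha, rfl⟩ | hx)
  · exact algebraMap_mem_O2 A hA hqM ha
  · rw [Set.mem_singleton_iff.1 hx]
    exact jOne_mem_O2 A hA hqM

theorem redMF_AJM_mem (s : Fb M) (hs : s ∈ AJM M A) :
    redMF A hA hqM ⟨s, AJM_le_OM A hA hs⟩ ∈ kJ M A := by
  refine map_mem_of_mem_closure (OM M A hA) (redMF A hA hqM) _ ?_ (kJ M A).toSubring ?_ s hs _
  · rintro x (⟨a, ha, rfl⟩ | hx)
    · exact algebraMap_mem_OM A hA ha
    · rw [Set.mem_singleton_iff.1 hx]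
      exact jM_mem_OM A hA
  · rintro x (⟨a, ha, rfl⟩ | hx)
    · rw [redMF_algebraMap A hA hqM ha]
      exact Subalgebra.algebraMap_mem _ _
    · have hx' : x = jBarD M 1 (one_dvd M) := Set.mem_singleton_iff.1 hx
      subst hx'
      rw [redMF_jM]
      have hj : Val.jFullC kA M ∈ kJ M A := Algebra.subset_adjoin (Set.mem_singleton _)
      exact hj

theorem red1F_AJ_mem (s : Fb (M * q)) (hs : s ∈ AJ M q A) :
    red1F A hA hqM ⟨s, AJ_le_O1 A hA hs⟩ ∈ kJ M A := by
  refine map_mem_of_mem_closure (O1 M A hA) (red1F A hA hqM) _ ?_ (kJ M A).toSubring ?_ s hs _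
  · rintro x (⟨a, ha, rfl⟩ | hx)
    · exact algebraMap_mem_O1 A hA ha
    · rw [Set.mem_singleton_iff.1 hx]
      exact jOne_mem_O1 A hA
  · rintro x (⟨a, ha, rfl⟩ | hx)
    · rw [red1F_algebraMap A hA hqM ha]
      exact Subalgebra.algebraMap_mem _ _
    · have hx' : x = jOne M q := Set.mem_singleton_iff.1 hx
      subst hx'
      rw [red1F_jOne]
      have hj : Val.jFullC kA M ∈ kJ M A := Algebra.subset_adjoin (Set.mem_singleton _)
      exact hj

theorem red2F_AJ_mem (s : Fb (M * q)) (hs : s ∈ AJ M q A) :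
    red2F A hA hqM ⟨s, AJ_le_O2 A hA hqM hs⟩ ∈ kJ M A := by
  refine map_mem_of_mem_closure (O2 A hA hqM) (red2F A hA hqM) _ ?_ (kJ M A).toSubring ?_ s hs _
  · rintro x (⟨a, ha, rfl⟩ | hx)
    · exact algebraMap_mem_O2 A hA hqM ha
    · rw [Set.mem_singleton_iff.1 hx]
      exact jOne_mem_O2 A hA hqM
  · rintro x (⟨a, ha, rfl⟩ | hx)
    · rw [red2F_algebraMap A hA hqM ha]
      exact Subalgebra.algebraMap_mem _ _
    · have hx' : x = jOne M q := Set.mem_singleton_iff.1 hx
      subst hx'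
      rw [red2F_jOne]
      have hj : Val.jFullC kA M ∈ kJ M A := Algebra.subset_adjoin (Set.mem_singleton _)
      exact Subalgebra.pow_mem (kJ M A) hj q

/-! ### (D1) integrality -/

theorem mem_OM_of_isIntegral {x : Fb M} (hx : IsIntegral ↥(AJM M A) x) : x ∈ OM M A hA :=
  mem_valuationSubring_of_isIntegral _ _ (AJM_le_OM A hA) hx

theorem mem_O1_of_isIntegral {x : Fb (M * q)} (hx : IsIntegral ↥(AJ M q A) x) :
    x ∈ O1 M A hA :=
  mem_valuationSubring_of_isIntegral _ _ (AJ_le_O1 A hA) hx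

theorem mem_O2_of_isIntegral {x : Fb (M * q)} (hx : IsIntegral ↥(AJ M q A) x) :
    x ∈ O2 A hA hqM :=
  mem_valuationSubring_of_isIntegral _ _ (AJ_le_O2 A hA hqM) hx

/-- **(D1)** at level `M`. -/
theorem isIntegral_redMF {x : Fb M} (hx : IsIntegral ↥(AJM M A) x) :
    IsIntegral ↥(kJ M A) (redMF A hA hqM ⟨x, mem_OM_of_isIntegral A hA hx⟩) :=
  isIntegral_map_of_isIntegral (OM M A hA) (redMF A hA hqM) (AJM M A) (AJM_le_OM A hA)
    (kJ M A) (redMF_AJM_mem A hA hqM) hx _

/-- **(D1)** for `w₁`. -/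
theorem isIntegral_red1F {x : Fb (M * q)} (hx : IsIntegral ↥(AJ M q A) x) :
    IsIntegral ↥(kJ M A) (red1F A hA hqM ⟨x, mem_O1_of_isIntegral A hA hx⟩) :=
  isIntegral_map_of_isIntegral (O1 M A hA) (red1F A hA hqM) (AJ M q A) (AJ_le_O1 A hA)
    (kJ M A) (red1F_AJ_mem A hA hqM) hx _

/-- **(D1)** for `w₂`. -/
theorem isIntegral_red2F {x : Fb (M * q)} (hx : IsIntegral ↥(AJ M q A) x) :
    IsIntegral ↥(kJ M A) (red2F A hA hqM ⟨x, mem_O2_of_isIntegral A hA hqM hx⟩) :=
  isIntegral_map_of_isIntegral (O2 A hA hqM) (red2F A hA hqM) (AJ M q A) (AJ_le_O2 A hA hqM)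
    (kJ M A) (red2F_AJ_mem A hA hqM) hx _

/-! ### (D3) the lift lemma -/

section Lift

variable (M q) in
/-- The subring of `F̄_M` generated by a set `W` of constants and the elements of the finite chart
`chartAlgFin M q` (it is contained in the model `BK A K' M` of the frame for `W = A ∩ K'`). -/
def GM (W : Set Kb) : Subring (Fb M) :=
  Subring.closure (algebraMap Kb (Fb M) '' W ∪ chartBar M q {jFull M})

theorem algebraMap_mem_GM {W : Set Kb} {a : Kb} (ha : a ∈ W) :
    algebraMap Kb (Fb M) a ∈ GM M q W :=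
  Subring.subset_closure (Or.inl ⟨a, ha, rfl⟩)

theorem barEmb_mem_GM {W : Set Kb} {b : ↥(modularFunctionFieldFull M)}
    (hb : b ∈ chartAlgFin M q) : barEmb M b ∈ GM M q W :=
  Subring.subset_closure (Or.inr ⟨b, hb, rfl⟩)

variable (W : Set Kb) (hW : ∀ a ∈ A, ∃ a' ∈ W, a - a' ∈ A.nonunits)

include hW in
/-- full residue field, residue form -/
theorem exists_residue_eq (c : kA) :
    ∃ a' ∈ W, ∃ ha' : a' ∈ A, IsLocalRing.residue A ⟨a', ha'⟩ = c := by
  obtain ⟨a, rfl⟩ := IsLocalRing.residue_surjective c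
  obtain ⟨a', ha'W, hd⟩ := hW a a.2
  have hdA : (a : Kb) - a' ∈ A := A.nonunits_le hd
  have ha'A : a' ∈ A := by
    have : a' = (a : Kb) - ((a : Kb) - a') := by ring
    rw [this]
    exact sub_mem a.2 hdA
  refine ⟨a', ha'W, ha'A, ?_⟩
  have h1 : (a - ⟨a', ha'A⟩ : A) ∈ IsLocalRing.maximalIdeal A := by
    rw [← ValuationSubring.coe_mem_nonunits_iff]
    exact hd
  have h2 := (IsLocalRing.residue_eq_zero_iff _).2 h1
  rw [map_sub, sub_eq_zero] at h2
  exact h2.symm

include hW in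
/-- **Lift lemma.** Every element of `F̃_M` integral over `k[j̃]` is the residue of an element of the
subring generated by `W` (constants with full residue field) and the finite chart at level `M`. -/
theorem exists_lift (y : ↥(modularFunctionFieldFullC kA M)) (hy : IsIntegral ↥(kJ M A) y) :
    ∃ g ∈ GM M q W, ∃ hg : g ∈ OM M A hA, redMF A hA hqM ⟨g, hg⟩ = y := by
  haveI : CharP kA q := Val.charP_residueField_of_liesOverPrime A hA
  haveI : IsAlgClosed kA := Val.residueField_isAlgClosed A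
  letI : Algebra ↥(GaloisRep.ratLocalizedAt q) kA := Fermat.Agent.Good.ResAlg.zlAlgebra A hA
  have hnorm := Fermat.Agent.Good.isIntegrallyClosed_tensor_fin_all M q hqM kA
  have hspan := mem_span_fin M hqM A hA hnorm y hy
  refine Submodule.span_induction
    (p := fun y _ => ∃ g ∈ GM M q W, ∃ hg : g ∈ OM M A hA, redMF A hA hqM ⟨g, hg⟩ = y)
    ?_ ?_ ?_ ?_ hspan
  · rintro _ ⟨_, ⟨b, hb, rfl⟩, rfl⟩
    have hO : barEmb M b ∈ (constRedBar M hqM A hA).O :=
      barEmb_mem_O M hqM A hA (Fermat.Agent.Igusa.hSFin M q) ⟨b, hb⟩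
    exact ⟨barEmb M b, barEmb_mem_GM hb, hO, ((constRedBar M hqM A hA).resF_of_mem hO).symm⟩
  · refine ⟨0, Subring.zero_mem _, (OM M A hA).zero_mem, ?_⟩
    have : (⟨0, (OM M A hA).zero_mem⟩ : OM M A hA) = 0 := rfl
    rw [this, map_zero]
  · rintro y1 y2 _ _ ⟨g1, hg1, h1, rfl⟩ ⟨g2, hg2, h2, rfl⟩
    refine ⟨g1 + g2, Subring.add_mem _ hg1 hg2, (OM M A hA).add_mem _ _ h1 h2, ?_⟩
    have : (⟨g1 + g2, (OM M A hA).add_mem _ _ h1 h2⟩ : OM M A hA) = ⟨g1, h1⟩ + ⟨g2, h2⟩ := rfl
    rw [this, map_add]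
  · rintro c y _ ⟨g, hg, h, rfl⟩
    obtain ⟨a', ha'W, ha'A, rfl⟩ := exists_residue_eq A W hW c
    refine ⟨algebraMap Kb (Fb M) a' * g, Subring.mul_mem _ (algebraMap_mem_GM ha'W) hg,
      (OM M A hA).mul_mem _ _ (algebraMap_mem_OM A hA ha'A) h, ?_⟩
    have : (⟨algebraMap Kb (Fb M) a' * g,
        (OM M A hA).mul_mem _ _ (algebraMap_mem_OM A hA ha'A) h⟩ : OM M A hA) =
        ⟨algebraMap Kb (Fb M) a', algebraMap_mem_OM A hA ha'A⟩ * ⟨g, h⟩ := rfl
    rw [this, map_mul, redMF_algebraMap A hA hqM ha'A, Algebra.smul_def]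

include hW hqM in
/-- **(S1)** every element integral over `A[j]` is congruent modulo `𝔪₁` to `α g`, `g` in the
level-`M` model. -/
theorem exists_alpha_sub_mem {x : Fb (M * q)} (hx : IsIntegral ↥(AJ M q A) x) :
    ∃ g ∈ GM M q W, g ∈ OM M A hA ∧
      x - heckeAlphaBar Kb M q g ∈ (O1 M A hA).nonunits := by
  have hxO := mem_O1_of_isIntegral A hA hx
  obtain ⟨g, hgG, hg, hred⟩ := exists_lift A hA hqM W hW _ (isIntegral_red1F A hA hqM hx)
  refine ⟨g, hgG, hg, ?_⟩
  have hα : heckeAlphaBar Kb M q g ∈ O1 M A hA := (alpha_mem_O1_iff A hA g).2 hg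
  have h1 : red1F A hA hqM (⟨x, hxO⟩ - ⟨heckeAlphaBar Kb M q g, hα⟩) = 0 := by
    rw [map_sub, red1F_alpha A hA hqM g hg, hred, sub_self]
  exact (red1F_eq_zero_iff A hA hqM _).1 h1

include hW hqM in
/-- **(S2)** every element integral over `A[j]` is congruent modulo `𝔪₂` to `β g`, `g` in the
level-`M` model. -/
theorem exists_beta_sub_mem {x : Fb (M * q)} (hx : IsIntegral ↥(AJ M q A) x) :
    ∃ g ∈ GM M q W, g ∈ OM M A hA ∧
      x - heckeBetaBar Kb M q g ∈ (O2 A hA hqM).nonunits := by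
  have hxO := mem_O2_of_isIntegral A hA hqM hx
  obtain ⟨g, hgG, hg, hred⟩ := exists_lift A hA hqM W hW _ (isIntegral_red2F A hA hqM hx)
  refine ⟨g, hgG, hg, ?_⟩
  have hβ : heckeBetaBar Kb M q g ∈ O2 A hA hqM := (beta_mem_O2_iff A hA hqM g).2 hg
  have h1 : red2F A hA hqM (⟨x, hxO⟩ - ⟨heckeBetaBar Kb M q g, hβ⟩) = 0 := by
    rw [map_sub, red2F_beta A hA hqM g hg, hred, sub_self]
  exact (red2F_eq_zero_iff A hA hqM _).1 h1

end Lift

/-! ### (D2) the reduction maps of a model `R` -/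

section Model

variable (R : Subring (Fb (M * q))) (hR : ∀ x ∈ R, IsIntegral ↥(AJ M q A) x)

include hR in
theorem model_le_O1 : R ≤ (O1 M A hA).toSubring :=
  fun x hx => mem_O1_of_isIntegral A hA (hR x hx)

include hR in
theorem model_le_O2 : R ≤ (O2 A hA hqM).toSubring :=
  fun x hx => mem_O2_of_isIntegral A hA hqM (hR x hx)

/-- `res₁ : R → C_k`. -/
def redOne : ↥R →+* ↥(Ck M A) :=
  ((red1F A hA hqM).comp (Subring.inclusion (model_le_O1 A hA R hR))).codRestrict (Ck M A)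
    fun x => isIntegral_red1F A hA hqM (hR x x.2)

/-- `res₂ : R → C_k`. -/
def redTwo : ↥R →+* ↥(Ck M A) :=
  ((red2F A hA hqM).comp (Subring.inclusion (model_le_O2 A hA hqM R hR))).codRestrict (Ck M A)
    fun x => isIntegral_red2F A hA hqM (hR x x.2)

theorem coe_redOne (x : ↥R) :
    ((redOne A hA hqM R hR x : ↥(Ck M A)) : ↥(modularFunctionFieldFullC kA M)) =
      red1F A hA hqM ⟨x, model_le_O1 A hA R hR x.2⟩ := rfl

theorem coe_redTwo (x : ↥R) :
    ((redTwo A hA hqM R hR x : ↥(Ck M A)) : ↥(modularFunctionFieldFullC kA M)) =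
      red2F A hA hqM ⟨x, model_le_O2 A hA hqM R hR x.2⟩ := rfl

theorem coe_coe_redOne (x : ↥R) :
    (((redOne A hA hqM R hR x : ↥(Ck M A)) : ↥(modularFunctionFieldFullC kA M)) :
      LaurentSeries kA) = res1 M A hA ⟨x, model_le_O1 A hA R hR x.2⟩ := rfl

theorem coe_coe_redTwo (x : ↥R) :
    (((redTwo A hA hqM R hR x : ↥(Ck M A)) : ↥(modularFunctionFieldFullC kA M)) :
      LaurentSeries kA) = res2 A hA hqM ⟨x, model_le_O2 A hA hqM R hR x.2⟩ := rfl

theorem redOne_eq_zero_iff (x : ↥R) :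
    redOne A hA hqM R hR x = 0 ↔ (x : Fb (M * q)) ∈ (O1 M A hA).nonunits := by
  rw [← red1F_eq_zero_iff A hA hqM ⟨x, model_le_O1 A hA R hR x.2⟩, ← coe_redOne A hA hqM R hR]
  constructor
  · intro h; rw [h]; rfl
  · intro h; exact Subtype.ext h

theorem redTwo_eq_zero_iff (x : ↥R) :
    redTwo A hA hqM R hR x = 0 ↔ (x : Fb (M * q)) ∈ (O2 A hA hqM).nonunits := by
  rw [← red2F_eq_zero_iff A hA hqM ⟨x, model_le_O2 A hA hqM R hR x.2⟩, ← coe_redTwo A hA hqM R hR]
  constructor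
  · intro h; rw [h]; rfl
  · intro h; exact Subtype.ext h

theorem mem_ker_redOne (x : ↥R) :
    x ∈ RingHom.ker (redOne A hA hqM R hR) ↔ (x : Fb (M * q)) ∈ (O1 M A hA).nonunits := by
  rw [RingHom.mem_ker, redOne_eq_zero_iff]

theorem mem_ker_redTwo (x : ↥R) :
    x ∈ RingHom.ker (redTwo A hA hqM R hR) ↔ (x : Fb (M * q)) ∈ (O2 A hA hqM).nonunits := by
  rw [RingHom.mem_ker, redTwo_eq_zero_iff]

variable (W : Set Kb) (hW : ∀ a ∈ A, ∃ a' ∈ W, a - a' ∈ A.nonunits)

include hW in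
/-- **`res₁ : R → C_k` is surjective** when `R` contains the constants of `W` (full residue
field) and the image under `α` of the finite chart at level `M`. -/
theorem redOne_surjective
    (hα : ∀ g ∈ GM M q W, g ∈ OM M A hA → heckeAlphaBar Kb M q g ∈ R) :
    Function.Surjective (redOne A hA hqM R hR) := by
  intro y
  obtain ⟨g, hgG, hg, hred⟩ := exists_lift A hA hqM W hW (y : ↥(modularFunctionFieldFullC kA M))
    y.2
  refine ⟨⟨heckeAlphaBar Kb M q g, hα g hgG hg⟩, Subtype.ext ?_⟩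
  rw [coe_redOne, ← hred]
  exact red1F_alpha A hA hqM g hg

include hW in
/-- **`res₂ : R → C_k` is surjective** when `R` contains the image under `β` of the level-`M`
model. -/
theorem redTwo_surjective
    (hβ : ∀ g ∈ GM M q W, g ∈ OM M A hA → heckeBetaBar Kb M q g ∈ R) :
    Function.Surjective (redTwo A hA hqM R hR) := by
  intro y
  obtain ⟨g, hgG, hg, hred⟩ := exists_lift A hA hqM W hW (y : ↥(modularFunctionFieldFullC kA M))
    y.2
  refine ⟨⟨heckeBetaBar Kb M q g, hβ g hgG hg⟩, Subtype.ext ?_⟩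
  rw [coe_redTwo, ← hred]
  exact red2F_beta A hA hqM g hg

/-- **(D4)** `R ⧸ P₁ ≃ C_k`. -/
def quotOne (hα : ∀ g ∈ GM M q W, g ∈ OM M A hA → heckeAlphaBar Kb M q g ∈ R) :
    ↥R ⧸ RingHom.ker (redOne A hA hqM R hR) ≃+* ↥(Ck M A) :=
  RingHom.quotientKerEquivOfSurjective (redOne_surjective A hA hqM R hR W hW hα)

/-- **(D4)** `R ⧸ P₂ ≃ C_k`. -/
def quotTwo (hβ : ∀ g ∈ GM M q W, g ∈ OM M A hA → heckeBetaBar Kb M q g ∈ R) :
    ↥R ⧸ RingHom.ker (redTwo A hA hqM R hR) ≃+* ↥(Ck M A) :=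
  RingHom.quotientKerEquivOfSurjective (redTwo_surjective A hA hqM R hR W hW hβ)

end Model

/-! ### The level-`M` model -/

section ModelM

variable (RM : Subring (Fb M)) (hRM : ∀ x ∈ RM, IsIntegral ↥(AJM M A) x)

include hRM in
theorem modelM_le_OM : RM ≤ (OM M A hA).toSubring :=
  fun x hx => mem_OM_of_isIntegral A hA (hRM x hx)

/-- `res_M : R_M → C_k`. -/
def redLvl : ↥RM →+* ↥(Ck M A) :=
  ((redMF A hA hqM).comp (Subring.inclusion (modelM_le_OM A hA RM hRM))).codRestrict (Ck M A)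
    fun x => isIntegral_redMF A hA hqM (hRM x x.2)

theorem coe_redLvl (x : ↥RM) :
    ((redLvl A hA hqM RM hRM x : ↥(Ck M A)) : ↥(modularFunctionFieldFullC kA M)) =
      redMF A hA hqM ⟨x, modelM_le_OM A hA RM hRM x.2⟩ := rfl

theorem redLvl_eq_zero_iff (x : ↥RM) :
    redLvl A hA hqM RM hRM x = 0 ↔ (x : Fb M) ∈ (OM M A hA).nonunits := by
  rw [← redMF_eq_zero_iff A hA hqM ⟨x, modelM_le_OM A hA RM hRM x.2⟩, ← coe_redLvl A hA hqM RM hRM]
  constructor
  · intro h; rw [h]; rfl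
  · intro h; exact Subtype.ext h

variable (W : Set Kb) (hW : ∀ a ∈ A, ∃ a' ∈ W, a - a' ∈ A.nonunits)

include hW in
theorem redLvl_surjective (hG : GM M q W ≤ RM) :
    Function.Surjective (redLvl A hA hqM RM hRM) := by
  intro y
  obtain ⟨g, hgG, hg, hred⟩ := exists_lift A hA hqM W hW (y : ↥(modularFunctionFieldFullC kA M))
    y.2
  exact ⟨⟨g, hG hgG⟩, Subtype.ext (by rw [coe_redLvl, ← hred])⟩

end ModelM

end Fermat.Agent.BR.Inst.SpecIso
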