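import Mathlib
import Fermat.Agent.BR.Inst.Levels
import Fermat.Agent.BR.Inst.Inf.NormalInf

/-!
# Program B (BADRED), block B6.5: the level-data assembly at infinity

The base family `S ↦ W'_S[1/j]` of the chart at infinity (the cusps) is a `Levels.BaseFamily`, so
that everything in `BR/Inst/Levels` and `BR/Inst/LevelsFamily` (models `CS`, local rings `RS`,
`smoothChartOfLevels`, ...) applies verbatim with `base S = modelBaseInf N (WS A q S)`.
-/

set_option autoImplicit false
set_option linter.unusedSectionVars false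
set_option synthInstance.maxHeartbeats 400000

noncomputable section

namespace Fermat.Agent.BR.Inst.LevelsInf

open Fermat.Agent.X0 Fermat.Agent.BR.Inst.NormalGen Fermat.Agent.BR.Inst.NormalModel
open Fermat.Agent.BR.Inst.ChartInModel Fermat.Agent.BR.Inst.Levels Fermat.Agent.BR.Inst.Inf

variable (N : ℕ) [NeZero N] (A : ValuationSubring Kb)

/-- the chart at infinity: `R₀(S) = W'_S[1/j]` -/
theorem baseFamily_inf {q : ℕ} (hq : q.Prime) (hA : A.LiesOverPrime q) :
    BaseFamily N A q (fun S => modelBaseInf N (WS A q S)) := by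
  have key : ∀ S : Finset Kb,
      IsNoetherianRing ↥(modelOf (modelBaseInf N (WS A q S)) (FS N q S)) ∧
      IsIntegrallyClosed ↥(modelOf (modelBaseInf N (WS A q S)) (FS N q S)) ∧
      ∀ x : Fb N, x ∈ FS N q S →
        ∃ a b : ↥(modelOf (modelBaseInf N (WS A q S)) (FS N q S)), b ≠ 0 ∧
          x * (b : Fb N) = (a : Fb N) := by
    intro S
    obtain ⟨π', hπK, hπ0, hπ1, hval, -⟩ := exists_uniformizer_KS A hq hA S
    have hC := isModel_modelOf (modelBaseInf N (WS A q S)) (FS N q S)
    obtain ⟨h1, h2, h3, -⟩ := model_normal_inf_of_inter N A (KS q S) (WS A q S)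
      (fun _ => mem_WS_iff) π' hπK hπ0 hπ1 hval hC
    refine ⟨h1, h2, fun x hx => ?_⟩
    obtain ⟨⟨a, s⟩, has⟩ := @IsLocalization.surj
      ↥(modelOf (modelBaseInf N (WS A q S)) (FS N q S)) _
      (nonZeroDivisors ↥(modelOf (modelBaseInf N (WS A q S)) (FS N q S))) ↥(FS N q S) _
      (algebraOfLE hC.le_field) h3 (⟨x, hx⟩ : ↥(FS N q S))
    refine ⟨a, s.1, nonZeroDivisors.ne_zero s.2, ?_⟩
    exact congrArg (fun z : ↥(FS N q S) => (z : Fb N)) has
  refine ⟨fun h => ?_, fun S a ha => const_mem_modelBaseInf N (WS A q S) ha, fun S => ?_,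
    fun S => (key S).1, fun S => (key S).2.1, fun S => (key S).2.2⟩
  · unfold modelBaseInf modelBaseGen
    apply Subring.closure_mono
    apply Set.union_subset_union_left
    exact Set.image_mono (WS_mono q h)
  · exact modelBaseInf_le_modelField N (fun x hx => (mem_WS_iff.1 hx).2)

end Fermat.Agent.BR.Inst.LevelsInf
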