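import Mathlib

/-!
# Program B, node B6.5(b), generic part: integral closures of `D[t]` inside a big field

Everything here is Mathlib-only and phrased for subrings / subfields of one ambient field `Ω`
(in the application `Ω = Fb N`, the function field of `X₀(N)` over `ℚ̄`).

* `isDiscreteValuationRing_of_uniformizer`: `W = A ∩ K'` (`A` a valuation subring of `Ω`,
  `K'` a subfield whose value group is generated by `v(π)`) is a discrete valuation ring;
* `adjoin_transcendental_normal`: for a principal ideal domain `D ⊆ Ω` and `t` transcendental over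
  `D`, the ring `D[t]` is noetherian and integrally closed;
* `integralClosure_normal`: `A` noetherian integrally closed domain, `L ⊇ A` a field of
  characteristic zero generated over `A` by finitely many algebraic elements: the integral closure
  of `A` in `L` is a finite `A`-module, noetherian, integrally closed, with fraction field `L`;
* `SubringModel`: the same for `C = {x ∈ F | x integral over R}`, `R ≤ F` a subring and a subfield
  of `Ω` (instances on the subtypes `↥C`, `↥F` via inclusions).
-/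

set_option autoImplicit false

noncomputable section

namespace Fermat.Agent.BR.Inst.NormalGen

/-! ### 1. `A ∩ K'` is a discrete valuation ring when the value group of `K'` is cyclic -/

section DVR

variable {Ω : Type*} [Field Ω] (A : ValuationSubring Ω) (K' : Subfield Ω) (W : Subring Ω)

theorem isDiscreteValuationRing_of_uniformizer
    (hW : ∀ x, x ∈ W ↔ x ∈ A ∧ x ∈ K') (π : Ω) (hπK : π ∈ K') (hπ0 : π ≠ 0)
    (hπ : A.valuation π < 1)
    (hval : ∀ x ∈ K', x ≠ 0 → ∃ n : ℤ, A.valuation x = A.valuation π ^ n) :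
    IsDiscreteValuationRing ↥W := by
  have hγ0 : 0 < A.valuation π := by
    rw [pos_iff_ne_zero]
    exact (A.valuation.ne_zero_iff).mpr hπ0
  have hπA : π ∈ A := (A.valuation_le_one_iff π).mp hπ.le
  have hπW : π ∈ W := (hW π).mpr ⟨hπA, hπK⟩
  -- the basic factorisation
  have key : ∀ x : ↥W, x ≠ 0 → ∃ n : ℕ, ∃ u : (↥W)ˣ, x = (⟨π, hπW⟩ : ↥W) ^ n * u := by
    intro x hx
    have hx0 : (x : Ω) ≠ 0 := fun h => hx (Subtype.ext h)
    have hxA : (x : Ω) ∈ A := ((hW x).mp x.2).1
    have hxK : (x : Ω) ∈ K' := ((hW x).mp x.2).2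
    obtain ⟨n, hn⟩ := hval x hxK hx0
    have hn0 : 0 ≤ n := by
      by_contra hlt
      rw [not_le] at hlt
      have h1 : A.valuation π ^ (0 : ℤ) < A.valuation π ^ n :=
        zpow_right_strictAnti₀ hγ0 hπ hlt
      rw [zpow_zero, ← hn] at h1
      exact absurd ((A.valuation_le_one_iff _).mpr hxA) (not_le.mpr h1)
    obtain ⟨m, rfl⟩ := Int.eq_ofNat_of_zero_le hn0
    rw [zpow_natCast] at hn
    have hπm0 : π ^ m ≠ 0 := pow_ne_zero _ hπ0
    set u0 : Ω := (x : Ω) / π ^ m with hu0
    have hu0K : u0 ∈ K' := K'.div_mem hxK (K'.pow_mem hπK m)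
    have hu0v : A.valuation u0 = 1 := by
      rw [hu0, map_div₀, map_pow, hn]
      exact div_self (pow_ne_zero _ hγ0.ne')
    have hu0A : u0 ∈ A := (A.valuation_le_one_iff _).mp hu0v.le
    have hu0ne : u0 ≠ 0 := div_ne_zero hx0 hπm0
    have hu0iA : u0⁻¹ ∈ A := by
      apply (A.valuation_le_one_iff _).mp
      rw [map_inv₀, hu0v, inv_one]
    have hu0iK : u0⁻¹ ∈ K' := K'.inv_mem hu0K
    refine ⟨m, ⟨⟨u0, (hW _).mpr ⟨hu0A, hu0K⟩⟩, ⟨u0⁻¹, (hW _).mpr ⟨hu0iA, hu0iK⟩⟩,
      Subtype.ext (mul_inv_cancel₀ hu0ne), Subtype.ext (inv_mul_cancel₀ hu0ne)⟩, ?_⟩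
    apply Subtype.ext
    show (x : Ω) = π ^ m * u0
    rw [hu0, mul_div_cancel₀ _ hπm0]
  have hnotunit : ¬ IsUnit (⟨π, hπW⟩ : ↥W) := by
    rintro ⟨u, hu⟩
    have h1 : ((u⁻¹ : (↥W)ˣ) : ↥W) * ⟨π, hπW⟩ = 1 := by rw [← hu]; exact u.inv_mul
    have h2 : ((((u⁻¹ : (↥W)ˣ) : ↥W)) : Ω) * π = 1 := congrArg Subtype.val h1
    have h3 : A.valuation ((((u⁻¹ : (↥W)ˣ) : ↥W)) : Ω) * A.valuation π = 1 := by
      rw [← map_mul, h2, map_one]
    have h4 : A.valuation ((((u⁻¹ : (↥W)ˣ) : ↥W)) : Ω) ≤ 1 :=
      (A.valuation_le_one_iff _).mpr ((hW _).mp (((u⁻¹ : (↥W)ˣ) : ↥W)).2).1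
    have h5 : A.valuation ((((u⁻¹ : (↥W)ˣ) : ↥W)) : Ω) * A.valuation π < 1 :=
      mul_lt_one_of_nonneg_of_lt_one_right h4 zero_le hπ
    exact absurd h3 h5.ne
  have hval_pow : ∀ (n : ℕ) (u : (↥W)ˣ),
      A.valuation (((⟨π, hπW⟩ : ↥W) ^ n * u : ↥W) : Ω) = A.valuation π ^ n := by
    intro n u
    have hu1 : A.valuation ((u : ↥W) : Ω) = 1 := by
      have h1 : A.valuation ((u : ↥W) : Ω) ≤ 1 :=
        (A.valuation_le_one_iff _).mpr ((hW _).mp (u : ↥W).2).1
      have h2 : A.valuation ((((u⁻¹ : (↥W)ˣ) : ↥W)) : Ω) ≤ 1 :=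
        (A.valuation_le_one_iff _).mpr ((hW _).mp (((u⁻¹ : (↥W)ˣ) : ↥W)).2).1
      have h3 : ((u : ↥W) : Ω) * ((((u⁻¹ : (↥W)ˣ) : ↥W)) : Ω) = 1 :=
        congrArg Subtype.val u.mul_inv
      have h4 : A.valuation ((u : ↥W) : Ω) * A.valuation ((((u⁻¹ : (↥W)ˣ) : ↥W)) : Ω) = 1 := by
        rw [← map_mul, h3, map_one]
      by_contra hne
      have hlt : A.valuation ((u : ↥W) : Ω) < 1 := lt_of_le_of_ne h1 hne
      have := mul_lt_one_of_nonneg_of_lt_one_left zero_le hlt h2
      exact absurd h4 this.ne
    show A.valuation (π ^ n * ((u : ↥W) : Ω)) = _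
    rw [map_mul, map_pow, hu1, mul_one]
  have hirr : Irreducible (⟨π, hπW⟩ : ↥W) := by
    refine ⟨hnotunit, ?_⟩
    intro a b hab
    have hϖ0 : (⟨π, hπW⟩ : ↥W) ≠ 0 := fun h => hπ0 (congrArg Subtype.val h)
    have ha0 : a ≠ 0 := by rintro rfl; rw [zero_mul] at hab; exact hϖ0 hab
    have hb0 : b ≠ 0 := by rintro rfl; rw [mul_zero] at hab; exact hϖ0 hab
    obtain ⟨m, u, rfl⟩ := key a ha0
    obtain ⟨n, u', rfl⟩ := key b hb0
    have h1 : A.valuation π ^ ((1 : ℕ) : ℤ) = A.valuation π ^ ((m + n : ℕ) : ℤ) := by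
      rw [zpow_natCast, zpow_natCast, pow_one, pow_add, ← hval_pow m u, ← hval_pow n u', ← map_mul]
      exact congrArg (fun z : ↥W => A.valuation (z : Ω)) hab
    have h2 : ((1 : ℕ) : ℤ) = ((m + n : ℕ) : ℤ) :=
      zpow_right_injective₀ hγ0 hπ.ne h1
    have h3 : m + n = 1 := by exact_mod_cast h2.symm
    rcases Nat.eq_zero_or_pos m with hm | hm
    · left; subst hm; rw [pow_zero, one_mul]; exact u.isUnit
    · right
      have hn : n = 0 := by omega
      subst hn; rw [pow_zero, one_mul]; exact u'.isUnit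
  refine IsDiscreteValuationRing.ofHasUnitMulPowIrreducibleFactorization
    ⟨⟨π, hπW⟩, hirr, ?_⟩
  intro x hx
  obtain ⟨n, u, rfl⟩ := key x hx
  exact ⟨n, u, rfl⟩

end DVR

/-! ### 2. `D[t]` for `t` transcendental -/

section Poly

open Polynomial

variable {D Ω : Type*} [CommRing D] [Field Ω] [Algebra D Ω] (t : Ω)

theorem isNoetherianRing_adjoin_transcendental [IsNoetherianRing D]
    (ht : Transcendental D t) : IsNoetherianRing ↥(Algebra.adjoin D {t}) :=
  isNoetherianRing_of_ringEquiv _ (Polynomial.algEquivOfTranscendental D t ht).toRingEquiv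

theorem isIntegrallyClosed_adjoin_transcendental [IsDomain D] [IsPrincipalIdealRing D]
    (ht : Transcendental D t) : IsIntegrallyClosed ↥(Algebra.adjoin D {t}) :=
  IsIntegrallyClosed.of_equiv (Polynomial.algEquivOfTranscendental D t ht).toRingEquiv

end Poly

section PolySub

variable {Ω : Type*} [Field Ω] (D : Subring Ω) (t : Ω)

/-- `Subring.closure (D ∪ {t})` is (the underlying subring of) `D[t]`. -/
theorem closure_union_singleton_eq :
    Subring.closure ((D : Set Ω) ∪ {t}) = (Algebra.adjoin ↥D {t}).toSubring := by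
  rw [Algebra.adjoin_eq_ring_closure]
  congr 2
  ext x
  constructor
  · intro hx
    exact ⟨⟨x, hx⟩, rfl⟩
  · rintro ⟨y, rfl⟩
    exact y.2

end PolySub

/-! ### 3. Integral closure in a finitely generated algebraic extension -/

section IC

variable {A L : Type*} [CommRing A] [IsDomain A] [Field L] [Algebra A L]
  [FaithfulSMul A L]

/-- `L` is finite over `Frac A` as soon as it is generated (as a field) over `A` by finitely many
algebraic elements. -/
theorem finiteDimensional_fractionRing_of_closure (S : Set L) (hfin : S.Finite)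
    (hS : ∀ s ∈ S, IsAlgebraic A s)
    (hgen : Subfield.closure (Set.range (algebraMap A L) ∪ S) = ⊤) :
    letI := FractionRing.liftAlgebra A L
    FiniteDimensional (FractionRing A) L := by
  let := FractionRing.liftAlgebra A L
  have hint : ∀ s ∈ S, IsIntegral (FractionRing A) s := fun s hs =>
    ((hS s hs).extendScalars (FaithfulSMul.algebraMap_injective A (FractionRing A))).isIntegral
  have : Finite S := hfin.to_subtype
  have hfd : FiniteDimensional (FractionRing A) (IntermediateField.adjoin (FractionRing A) S) :=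
    IntermediateField.finiteDimensional_adjoin hint
  have htop : IntermediateField.adjoin (FractionRing A) S = ⊤ := by
    apply IntermediateField.toSubfield_injective
    rw [IntermediateField.top_toSubfield, eq_top_iff, ← hgen, Subfield.closure_le]
    rintro x (⟨a, rfl⟩ | hx)
    · rw [IsScalarTower.algebraMap_apply A (FractionRing A) L]
      exact (IntermediateField.adjoin (FractionRing A) S).algebraMap_mem _
    · exact IntermediateField.subset_adjoin _ _ hx
  rw [htop] at hfd
  exact (IntermediateField.topEquiv : (⊤ : IntermediateField (FractionRing A) L) ≃ₐ[_] L)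
    |>.toLinearEquiv.finiteDimensional

variable [CharZero L] [IsNoetherianRing A] [IsIntegrallyClosed A]

/-- The integral closure of a noetherian integrally closed domain `A` in a field `L` of
characteristic zero, finitely generated and algebraic over `A`: finite over `A`, noetherian,
integrally closed, with fraction field `L`. -/
theorem integralClosure_normal (S : Set L) (hfin : S.Finite)
    (hS : ∀ s ∈ S, IsAlgebraic A s)
    (hgen : Subfield.closure (Set.range (algebraMap A L) ∪ S) = ⊤) :
    Module.Finite A (integralClosure A L) ∧ IsNoetherianRing (integralClosure A L) ∧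
      IsIntegrallyClosed (integralClosure A L) ∧ IsFractionRing (integralClosure A L) L := by
  let := FractionRing.liftAlgebra A L
  have hfd : FiniteDimensional (FractionRing A) L :=
    finiteDimensional_fractionRing_of_closure S hfin hS hgen
  have hchar : CharZero (FractionRing A) := (algebraMap (FractionRing A) L).charZero
  refine ⟨IsIntegralClosure.finite A (FractionRing A) L (integralClosure A L),
    IsIntegralClosure.isNoetherianRing A (FractionRing A) L (integralClosure A L),
    integralClosure.isIntegrallyClosedOfFiniteExtension (FractionRing A),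
    IsIntegralClosure.isFractionRing_of_finite_extension A (FractionRing A) L
      (integralClosure A L)⟩

end IC

/-! ### 4. The subring model -/

section SubringModel

variable {Ω : Type*} [Field Ω]

/-- the inclusion of a subring into a subfield containing it, as an algebra structure -/
@[reducible] def algebraOfLE {C : Subring Ω} {F : Subfield Ω} (h : C ≤ F.toSubring) :
    Algebra ↥C ↥F := (Subring.inclusion h).toAlgebra

/-- the inclusion of a subring into a bigger subring, as an algebra structure -/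
@[reducible] def algebraOfLE' {R C : Subring Ω} (h : R ≤ C) : Algebra ↥R ↥C :=
  (Subring.inclusion h).toAlgebra

theorem algebraOfLE_apply {C : Subring Ω} {F : Subfield Ω} (h : C ≤ F.toSubring) (x : ↥C) :
    ((@algebraMap ↥C ↥F _ _ (algebraOfLE h) x : ↥F) : Ω) = (x : Ω) := rfl

theorem algebraOfLE'_apply {R C : Subring Ω} (h : R ≤ C) (x : ↥R) :
    ((@algebraMap ↥R ↥C _ _ (algebraOfLE' h) x : ↥C) : Ω) = (x : Ω) := rfl

variable (R : Subring Ω) (F : Subfield Ω) (C : Subring Ω)

/-- `C = {x ∈ F | x integral over R}` -/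
def IsModel : Prop := ∀ x, x ∈ C ↔ x ∈ F ∧ IsIntegral ↥R x

variable {R F C}

theorem IsModel.le_field (hC : IsModel R F C) : C ≤ F.toSubring := fun x hx => ((hC x).mp hx).1

theorem IsModel.base_le (hC : IsModel R F C) (hRF : R ≤ F.toSubring) : R ≤ C := fun x hx =>
  (hC x).mpr ⟨hRF hx, by
    have : IsIntegral ↥R (algebraMap ↥R Ω ⟨x, hx⟩) := isIntegral_algebraMap
    exact this⟩

/-- the structure theorem for the model `C`: if `R` is a noetherian integrally closed domain and
`F` is generated as a field by `R` and finitely many elements algebraic over `R`, then `C` is a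
noetherian integrally closed domain, finite over `R`, with fraction field `F`. -/
theorem IsModel.normal [CharZero Ω] (hC : IsModel R F C) (hRF : R ≤ F.toSubring)
    [IsNoetherianRing ↥R] [IsIntegrallyClosed ↥R]
    (S : Set Ω) (hfin : S.Finite) (hS : ∀ s ∈ S, IsAlgebraic ↥R s)
    (hgen : F = Subfield.closure ((R : Set Ω) ∪ S)) :
    IsNoetherianRing ↥C ∧ IsIntegrallyClosed ↥C ∧
      @IsFractionRing ↥C _ ↥F _ (algebraOfLE hC.le_field) ∧
      @Module.Finite ↥R ↥C _ _ (algebraOfLE' (hC.base_le hRF)).toModule := by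
  let algRF : Algebra ↥R ↥F := algebraOfLE hRF
  let algCF : Algebra ↥C ↥F := algebraOfLE hC.le_field
  let algRC : Algebra ↥R ↥C := algebraOfLE' (hC.base_le hRF)
  have : CharZero ↥F := (F.subtype).charZero
  have : IsScalarTower ↥R ↥F Ω := IsScalarTower.of_algebraMap_eq (fun _ => rfl)
  have : IsScalarTower ↥R ↥C ↥F := IsScalarTower.of_algebraMap_eq (fun _ => rfl)
  have : FaithfulSMul ↥R ↥F := by
    rw [faithfulSMul_iff_algebraMap_injective]
    intro x y h
    exact Subtype.ext (congrArg (fun z : ↥F => (z : Ω)) h)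
  have hinjF : Function.Injective (algebraMap ↥F Ω) := F.subtype.injective
  have hint_iff : ∀ x : ↥F, IsIntegral ↥R x ↔ IsIntegral ↥R (x : Ω) := fun x =>
    (isIntegral_algebraMap_iff (R := ↥R) (A := ↥F) (B := Ω) hinjF).symm
  have hicl : IsIntegralClosure ↥C ↥R ↥F :=
    { algebraMap_injective := by
        intro x y h
        exact Subtype.ext (congrArg (fun z : ↥F => (z : Ω)) h)
      isIntegral_iff := by
        intro x
        rw [hint_iff]
        constructor
        · intro hx
          exact ⟨⟨(x : Ω), (hC _).mpr ⟨x.2, hx⟩⟩, rfl⟩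
        · rintro ⟨y, rfl⟩
          exact ((hC _).mp y.2).2 }
  -- generation
  have hS' : ∀ s ∈ S, s ∈ F := fun s hs => by
    rw [hgen]; exact Subfield.subset_closure (Or.inr hs)
  let S' : Set ↥F := {x | (x : Ω) ∈ S}
  have hfin' : S'.Finite := by
    apply Set.Finite.of_injOn (f := fun x : ↥F => (x : Ω)) (t := S) (fun x hx => hx)
      (fun x _ y _ h => Subtype.ext h) hfin
  have hSalg : ∀ s ∈ S', IsAlgebraic ↥R s := fun s hs =>
    (isAlgebraic_algebraMap_iff (R := ↥R) (S := ↥F) (A := Ω) hinjF).mp (hS _ hs)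
  have hgen' : Subfield.closure (Set.range (algebraMap ↥R ↥F) ∪ S') = ⊤ := by
    rw [eq_top_iff]
    rintro ⟨x, hx⟩ -
    have hx' := hx
    rw [hgen] at hx'
    -- map along the inclusion
    have key : Subfield.closure ((R : Set Ω) ∪ S) ≤
        (Subfield.closure (Set.range (algebraMap ↥R ↥F) ∪ S')).map F.subtype := by
      rw [Subfield.closure_le]
      rintro y (hy | hy)
      · exact ⟨⟨y, hRF hy⟩, Subfield.subset_closure (Or.inl ⟨⟨y, hy⟩, rfl⟩), rfl⟩
      · exact ⟨⟨y, hS' y hy⟩, Subfield.subset_closure (Or.inr hy), rfl⟩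
    obtain ⟨z, hz, hzx⟩ := key hx'
    have : z = ⟨x, hx⟩ := Subtype.ext hzx
    rw [← this]
    exact hz
  obtain ⟨h1, h2, h3, h4⟩ := integralClosure_normal (A := ↥R) (L := ↥F) S' hfin' hSalg hgen'
  let := FractionRing.liftAlgebra ↥R ↥F
  have hfd : FiniteDimensional (FractionRing ↥R) ↥F :=
    finiteDimensional_fractionRing_of_closure S' hfin' hSalg hgen'
  have hchar : CharZero (FractionRing ↥R) := (algebraMap (FractionRing ↥R) ↥F).charZero
  have hfr : IsFractionRing ↥C ↥F :=
    IsIntegralClosure.isFractionRing_of_finite_extension ↥R (FractionRing ↥R) ↥F ↥C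
  refine ⟨IsIntegralClosure.isNoetherianRing ↥R (FractionRing ↥R) ↥F ↥C, ?_, hfr,
    IsIntegralClosure.finite ↥R (FractionRing ↥R) ↥F ↥C⟩
  rw [isIntegrallyClosed_iff ↥F]
  intro x hx
  have hCint : Algebra.IsIntegral ↥R ↥C := IsIntegralClosure.isIntegral_algebra ↥R ↥F
  have hxR : IsIntegral ↥R x := isIntegral_trans x hx
  exact (IsIntegralClosure.isIntegral_iff (A := ↥C)).mp hxR

end SubringModel

/-! ### 5. Fraction field of a subring; algebraicity over subfields of it -/

section More

variable {Ω : Type*} [Field Ω]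

/-- the subfield generated by a subring is its fraction field -/
theorem isFractionRing_closure (R : Subring Ω) :
    @IsFractionRing ↥R _ ↥(Subfield.closure (R : Set Ω)) _
      (algebraOfLE (F := Subfield.closure (R : Set Ω)) Subfield.subset_closure) := by
  let : Algebra ↥R ↥(Subfield.closure (R : Set Ω)) :=
    algebraOfLE (F := Subfield.closure (R : Set Ω)) Subfield.subset_closure
  have : FaithfulSMul ↥R ↥(Subfield.closure (R : Set Ω)) := by
    rw [faithfulSMul_iff_algebraMap_injective]
    intro x y h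
    exact Subtype.ext (congrArg (fun z : ↥(Subfield.closure (R : Set Ω)) => (z : Ω)) h)
  refine IsFractionRing.of_field ↥R ↥(Subfield.closure (R : Set Ω)) ?_
  rintro ⟨z, hz⟩
  obtain ⟨y, hy, w, hw, rfl⟩ := Subfield.mem_closure_iff.mp hz
  rw [Subring.closure_eq] at hy hw
  exact ⟨⟨y, hy⟩, ⟨w, hw⟩, Subtype.ext rfl⟩

/-- algebraic over a subfield of the fraction field of `R` implies algebraic over `R` -/
theorem isAlgebraic_of_subfield (R : Subring Ω) (E : Subfield Ω)
    (hE : E ≤ Subfield.closure (R : Set Ω)) {s : Ω} (hs : IsAlgebraic ↥E s) :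
    IsAlgebraic ↥R s := by
  let a1 : Algebra ↥R ↥(Subfield.closure (R : Set Ω)) :=
    algebraOfLE (F := Subfield.closure (R : Set Ω)) Subfield.subset_closure
  let a2 : Algebra ↥E ↥(Subfield.closure (R : Set Ω)) := (Subfield.inclusion hE).toAlgebra
  have : IsScalarTower ↥R ↥(Subfield.closure (R : Set Ω)) Ω :=
    IsScalarTower.of_algebraMap_eq (fun _ => rfl)
  have : IsScalarTower ↥E ↥(Subfield.closure (R : Set Ω)) Ω :=
    IsScalarTower.of_algebraMap_eq (fun _ => rfl)
  have := isFractionRing_closure R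
  have h1 : IsAlgebraic ↥(Subfield.closure (R : Set Ω)) s :=
    hs.extendScalars (Subfield.inclusion hE).injective
  exact (IsFractionRing.isAlgebraic_iff ↥R ↥(Subfield.closure (R : Set Ω)) Ω).mpr h1

end More

end Fermat.Agent.BR.Inst.NormalGen
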