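import Fermat.Agent.BR.Inst.StarFK
import Fermat.Agent.BR.Inst.GoingDownFK

/-!
# Program B, node B6.5c-(★'): the star property of the normal model, FINAL

`star_of_isModel` : for `W = A ∩ K'` a discrete valuation ring of uniformizer `π'` and any
`C` with `IsModel (modelBase (M q) W) (modelField (M q) K') C`:

  `x π' ∈ C`, `x ∈ O₁`, `x ∈ O₂`  ⟹  `x ∈ C`.

This is `StarFK.star_of_goingDown` (Krull + exhaustion in the frame) fed with helper13's going-down
`GoingDownFK.int_aeval_mem_imp_dvd`.  Shape = `TwoCompInst.ModelHyp.star` /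
`TwoCompGlue.modelHyp_of_star`'s `hstar`, verbatim.
-/

set_option autoImplicit false
set_option linter.unusedSectionVars false

noncomputable section

namespace Fermat.Agent.BR.Inst.StarFKFinal

open ModularCurve Fermat.Agent.X0 Fermat.Agent.Val Fermat.Agent.BR.TwoVal
  Fermat.Agent.Good.Bridge Fermat.Agent.BR.Inst.NormalModel Fermat.Agent.BR.Inst.NormalGen

variable {M q : ℕ} [NeZero M] [hq : Fact q.Prime]

/-- **(★') in the frame.** -/
theorem star_of_isModel (A : ValuationSubring Kb) (hA : A.LiesOverPrime q) (hqM : ¬ q ∣ M)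
    {K' : Subfield Kb} {W : Subring Kb} (hW : ∀ x, x ∈ W ↔ x ∈ A ∧ x ∈ K')
    {π' : Kb} (hπK : π' ∈ K') (hπ0 : π' ≠ 0) (hπ1 : A.valuation π' < 1)
    (hdvr : ∀ c ∈ K', c ≠ 0 → ∃ n : ℤ, A.valuation c = A.valuation π' ^ n)
    {C : Subring (Fb (M * q))} (hC : IsModel (modelBase (M * q) W) (modelField (M * q) K') C) :
    ∀ x : Fb (M * q), x * algebraMap Kb (Fb (M * q)) π' ∈ C → x ∈ O1 M A hA →
      x ∈ O2 A hA hqM → x ∈ C := by
  intro x hx h1 h2
  refine StarFK.star_of_goingDown A hA hqM K' W hW π' hπK hπ0 hπ1 hdvr hC ?_ hx h1 h2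
  intro p hp hht hπp
  exact GoingDownFK.int_aeval_mem_imp_dvd hq.out hA hW hπK hπ0 hπ1 hdvr hC p hht _ hπp

end Fermat.Agent.BR.Inst.StarFKFinal
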