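import Fermat.Agent.BR.Inst.NormalModel

/-!
# Program B, node B6.5(b∞): the normal model for a general generator `t`, and at infinity

Same as `BR/Inst/NormalModel.lean` with `j` replaced by a generator `t : Fb N` such that
`t` is transcendental over `ℚ̄`, `t ∈ K'·F_N` and `j ∈ Frac W[t]`:

* `modelBaseT N W t := Subring.closure (const '' W ∪ {t})`  (`= W[t]`),
* `modelT_normal` : every `C` with `IsModel (modelBaseT N W t) (modelField N K') C` is a
  noetherian integrally closed domain, finite over `W[t]`, with fraction field `K'·F_N`.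

The chart at infinity is `t = j⁻¹` : `modelBaseInf N W`, `model_normal_inf`,
`model_normal_inf_of_inter`.
-/

set_option autoImplicit false
set_option linter.unusedSectionVars false
set_option synthInstance.maxHeartbeats 400000

noncomputable section

namespace Fermat.Agent.BR.Inst.NormalModelInf

open ModularCurve ModularCurve.IgusaScheme IntermediateField Fermat.Agent.X0
open Fermat.Agent.Good.Bridge Fermat.Agent.Igusa
open Fermat.Agent.BR.Inst.NormalGen Fermat.Agent.BR.Inst.NormalModel

variable (N : ℕ) [NeZero N]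

section General

variable (W : Subring Kb) (K' : Subfield Kb) (t : Fb N)

/-- `R = W[t]` as a subring of `F̄_N` -/
def modelBaseT : Subring (Fb N) :=
  Subring.closure ((algebraMap Kb (Fb N)) '' (W : Set Kb) ∪ {t})

theorem const_mem_modelBaseT {a : Kb} (ha : a ∈ W) :
    algebraMap Kb (Fb N) a ∈ modelBaseT N W t :=
  Subring.subset_closure (Or.inl ⟨a, ha, rfl⟩)

theorem gen_mem_modelBaseT : t ∈ modelBaseT N W t :=
  Subring.subset_closure (Or.inr rfl)

theorem modelBaseT_eq_adjoin :
    modelBaseT N W t = (Algebra.adjoin ↥W ({t} : Set (Fb N))).toSubring := by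
  rw [Algebra.adjoin_eq_ring_closure, modelBaseT]
  congr 2
  ext x
  constructor
  · rintro ⟨a, ha, rfl⟩
    exact ⟨⟨a, ha⟩, rfl⟩
  · rintro ⟨a, rfl⟩
    exact ⟨a, a.2, rfl⟩

variable {t}

theorem transcendental_sub (ht : Transcendental Kb t) : Transcendental ↥W t := by
  have : IsScalarTower ↥W Kb (Fb N) := IsScalarTower.of_algebraMap_eq (fun _ => rfl)
  exact ht.restrictScalars (R := ↥W) (S := Kb) (fun x y h => Subtype.ext h)

variable (t) in
/-- the ring isomorphism `W[t] ≃ modelBaseT` (identity on elements) -/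
def adjoinEquivModelBaseT :
    ↥(Algebra.adjoin ↥W ({t} : Set (Fb N))) ≃+* ↥(modelBaseT N W t) where
  toFun x := ⟨x.1, by rw [modelBaseT_eq_adjoin]; exact x.2⟩
  invFun x := ⟨x.1, by
    show x.1 ∈ (Algebra.adjoin ↥W ({t} : Set (Fb N))).toSubring
    rw [← modelBaseT_eq_adjoin]; exact x.2⟩
  left_inv _ := rfl
  right_inv _ := rfl
  map_mul' _ _ := rfl
  map_add' _ _ := rfl

theorem isNoetherianRing_modelBaseT [IsNoetherianRing ↥W] (ht : Transcendental Kb t) :
    IsNoetherianRing ↥(modelBaseT N W t) :=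
  have := isNoetherianRing_adjoin_transcendental (D := ↥W) t (transcendental_sub N W ht)
  isNoetherianRing_of_ringEquiv _ (adjoinEquivModelBaseT N W t)

theorem isIntegrallyClosed_modelBaseT [IsPrincipalIdealRing ↥W] (ht : Transcendental Kb t) :
    IsIntegrallyClosed ↥(modelBaseT N W t) :=
  have := isIntegrallyClosed_adjoin_transcendental (D := ↥W) t (transcendental_sub N W ht)
  IsIntegrallyClosed.of_equiv (adjoinEquivModelBaseT N W t)

variable {W K'}

theorem modelBaseT_le_modelField (hWK : ∀ x ∈ W, x ∈ K') (htF : t ∈ modelField N K') :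
    modelBaseT N W t ≤ (modelField N K').toSubring := by
  rw [modelBaseT, Subring.closure_le]
  rintro x (⟨a, ha, rfl⟩ | hx)
  · exact const_mem_modelField N K' (hWK a ha)
  · rw [Set.mem_singleton_iff] at hx
    subst hx
    exact htF

theorem modelField_eq_closure_T (hWK : ∀ x ∈ W, x ∈ K')
    (hfrac : ∀ x ∈ K', ∃ a ∈ W, ∃ b ∈ W, b ≠ 0 ∧ x * b = a) (htF : t ∈ modelField N K') :
    modelField N K' = Subfield.closure ((modelBaseT N W t : Set (Fb N)) ∪ jGens N) := by
  apply le_antisymm
  · rw [modelField, Subfield.closure_le]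
    rintro x (⟨c, hc, rfl⟩ | ⟨y, rfl⟩)
    · obtain ⟨a, ha, b, hb, hb0, hab⟩ := hfrac c hc
      have hc' : c = a / b := by rw [eq_div_iff hb0]; exact hab
      rw [hc', map_div₀]
      exact (Subfield.closure _).div_mem
        (Subfield.subset_closure (Or.inl (const_mem_modelBaseT N W t ha)))
        (Subfield.subset_closure (Or.inl (const_mem_modelBaseT N W t hb)))
    · exact barEmb_mem_of_jGens N _ (fun z hz => Subfield.subset_closure (Or.inr hz)) y
  · rw [Subfield.closure_le]
    rintro x (hx | hx)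
    · exact modelBaseT_le_modelField N hWK htF hx
    · obtain ⟨y, rfl⟩ := jGens_subset_range N hx
      exact barEmb_mem_modelField N K' y

theorem isAlgebraic_modelBaseT_of_mem_jGens
    (hj : jBar N ∈ Subfield.closure (modelBaseT N W t : Set (Fb N))) {s : Fb N}
    (hs : s ∈ jGens N) : IsAlgebraic ↥(modelBaseT N W t) s := by
  obtain ⟨y, rfl⟩ := jGens_subset_range N hs
  exact isAlgebraic_of_subfield (modelBaseT N W t) (qjBar N) (qjBar_le N _ hj)
    (isAlgebraic_qjBar_barEmb N y)

/-- **B6.5(b), general generator**: for `t` transcendental over `ℚ̄`, `t ∈ K'·F_N`,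
`j ∈ Frac W[t]`, the model `C = {x ∈ K'·F_N | x integral over W[t]}` is a noetherian integrally
closed domain, finite over `W[t]`, with fraction field `K'·F_N`. -/
theorem modelT_normal [IsPrincipalIdealRing ↥W] (hWK : ∀ x ∈ W, x ∈ K')
    (hfrac : ∀ x ∈ K', ∃ a ∈ W, ∃ b ∈ W, b ≠ 0 ∧ x * b = a)
    (ht : Transcendental Kb t) (htF : t ∈ modelField N K')
    (hj : jBar N ∈ Subfield.closure (modelBaseT N W t : Set (Fb N)))
    {C : Subring (Fb N)} (hC : IsModel (modelBaseT N W t) (modelField N K') C) :
    IsNoetherianRing ↥C ∧ IsIntegrallyClosed ↥C ∧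
      @IsFractionRing ↥C _ ↥(modelField N K') _ (algebraOfLE hC.le_field) ∧
      @Module.Finite ↥(modelBaseT N W t) ↥C _ _
        (algebraOfLE' (hC.base_le (modelBaseT_le_modelField N hWK htF))).toModule := by
  have h1 := isNoetherianRing_modelBaseT N W ht
  have h2 := isIntegrallyClosed_modelBaseT N W ht
  exact hC.normal (modelBaseT_le_modelField N hWK htF) (jGens N) (finite_jGens N)
    (fun s hs => isAlgebraic_modelBaseT_of_mem_jGens N hj hs)
    (modelField_eq_closure_T N hWK hfrac htF)

end General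

/-! ### the chart at infinity: `t = j⁻¹` -/

section Inf

variable (W : Subring Kb) (K' : Subfield Kb)

/-- `W[1/j]` as a subring of `F̄_N` -/
def modelBaseInf : Subring (Fb N) := modelBaseT N W (jBar N)⁻¹

theorem modelBaseInf_def : modelBaseInf N W =
    Subring.closure ((algebraMap Kb (Fb N)) '' (W : Set Kb) ∪ {(jBar N)⁻¹}) := rfl

theorem jBar_inv_mem_modelBaseInf : (jBar N)⁻¹ ∈ modelBaseInf N W :=
  gen_mem_modelBaseT N W _

theorem const_mem_modelBaseInf {a : Kb} (ha : a ∈ W) :
    algebraMap Kb (Fb N) a ∈ modelBaseInf N W :=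
  const_mem_modelBaseT N W _ ha

theorem transcendental_jBar_inv' : Transcendental Kb (jBar N)⁻¹ := by
  intro h
  have h2 : IsAlgebraic Kb ((jBar N)⁻¹)⁻¹ := h.inv
  rw [inv_inv] at h2
  exact jBar_transcendental N h2

theorem jBar_inv_mem_modelField : (jBar N)⁻¹ ∈ modelField N K' :=
  (modelField N K').inv_mem (jBar_mem_modelField N K')

theorem jBar_mem_closure_modelBaseInf :
    jBar N ∈ Subfield.closure (modelBaseInf N W : Set (Fb N)) := by
  have h : (jBar N)⁻¹ ∈ Subfield.closure (modelBaseInf N W : Set (Fb N)) :=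
    Subfield.subset_closure (jBar_inv_mem_modelBaseInf N W)
  have h2 := (Subfield.closure (modelBaseInf N W : Set (Fb N))).inv_mem h
  rwa [inv_inv] at h2

theorem isNoetherianRing_modelBaseInf [IsNoetherianRing ↥W] :
    IsNoetherianRing ↥(modelBaseInf N W) :=
  isNoetherianRing_modelBaseT N W (transcendental_jBar_inv' N)

theorem isIntegrallyClosed_modelBaseInf [IsPrincipalIdealRing ↥W] :
    IsIntegrallyClosed ↥(modelBaseInf N W) :=
  isIntegrallyClosed_modelBaseT N W (transcendental_jBar_inv' N)

variable {W K'}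

theorem modelBaseInf_le_modelField (hWK : ∀ x ∈ W, x ∈ K') :
    modelBaseInf N W ≤ (modelField N K').toSubring :=
  modelBaseT_le_modelField N hWK (jBar_inv_mem_modelField N K')

/-- **B6.5(b∞)**: the model at infinity `C = {x ∈ K'·F_N | x integral over W[1/j]}` is a
noetherian integrally closed domain, finite over `W[1/j]`, with fraction field `K'·F_N`. -/
theorem model_normal_inf [IsPrincipalIdealRing ↥W] (hWK : ∀ x ∈ W, x ∈ K')
    (hfrac : ∀ x ∈ K', ∃ a ∈ W, ∃ b ∈ W, b ≠ 0 ∧ x * b = a)
    {C : Subring (Fb N)} (hC : IsModel (modelBaseInf N W) (modelField N K') C) :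
    IsNoetherianRing ↥C ∧ IsIntegrallyClosed ↥C ∧
      @IsFractionRing ↥C _ ↥(modelField N K') _ (algebraOfLE hC.le_field) ∧
      @Module.Finite ↥(modelBaseInf N W) ↥C _ _
        (algebraOfLE' (hC.base_le (modelBaseInf_le_modelField N hWK))).toModule :=
  modelT_normal N hWK hfrac (transcendental_jBar_inv' N) (jBar_inv_mem_modelField N K')
    (jBar_mem_closure_modelBaseInf N W) hC

/-- the case `W = A ∩ K'`, `K'` of cyclic value group -/
theorem model_normal_inf_of_inter (A : ValuationSubring Kb) (K' : Subfield Kb) (W : Subring Kb)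
    (hW : ∀ x, x ∈ W ↔ x ∈ A ∧ x ∈ K')
    (π : Kb) (hπK : π ∈ K') (hπ0 : π ≠ 0) (hπ : A.valuation π < 1)
    (hval : ∀ x ∈ K', x ≠ 0 → ∃ n : ℤ, A.valuation x = A.valuation π ^ n)
    {C : Subring (Fb N)} (hC : IsModel (modelBaseInf N W) (modelField N K') C) :
    IsNoetherianRing ↥C ∧ IsIntegrallyClosed ↥C ∧
      @IsFractionRing ↥C _ ↥(modelField N K') _ (algebraOfLE hC.le_field) ∧
      @Module.Finite ↥(modelBaseInf N W) ↥C _ _
        (algebraOfLE' (hC.base_le
          (modelBaseInf_le_modelField N (fun x hx => ((hW x).mp hx).2)))).toModule := by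
  have hdvr : IsDiscreteValuationRing ↥W :=
    isDiscreteValuationRing_of_uniformizer A K' W hW π hπK hπ0 hπ hval
  exact model_normal_inf N (fun x hx => ((hW x).mp hx).2) (exists_frac_of_inter A K' W hW) hC

end Inf

end Fermat.Agent.BR.Inst.NormalModelInf
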