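import Fermat.Agent.BR.Inst.SpecialIso

/-!
# Program B, node B6.5(d), part 2: the components of the special fibre are Dedekind

* `isDedekindDomain_integralClosure_adjoin` : for `x` transcendental over a field `K` and `F` a
  finite separable extension of `K(x)`, the integral closure of `K[x]` in `F` is a Dedekind domain
  (any characteristic).
* `isDedekindDomain_of_ringEquiv` : transport along a ring isomorphism.
* `isDedekindDomain_Ck` : `C_k = Ck M A`, the integral closure of `k[j̃]` in `F̃_M`, is a Dedekind
  domain.
* `isDedekindDomain_quotOne`, `isDedekindDomain_quotTwo` : `R ⧸ P₁`, `R ⧸ P₂` are Dedekind domains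
  for a model `R` of level `M q` (= the instances `[IsDedekindDomain (B ⧸ p₁)]` of
  `BR/SpecialFibre` and `BR/Inst/CrossingFF`).
-/

set_option autoImplicit false
set_option linter.unusedSectionVars false
set_option linter.style.haveILetI false

noncomputable section

set_option synthInstance.maxHeartbeats 400000

namespace Fermat.Agent.BR.Inst.SpecIso

section Generic

open IntermediateField

/-- `K[x]` is a principal ideal domain for `x` transcendental over `K`. -/
theorem isPrincipalIdealRing_adjoin_of_transcendental {K F : Type*} [Field K] [Field F]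
    [Algebra K F] {x : F} (hx : Transcendental K x) :
    IsPrincipalIdealRing ↥(Algebra.adjoin K {x}) :=
  IsPrincipalIdealRing.of_surjective
    (Polynomial.algEquivOfTranscendental K x hx : Polynomial K →+* ↥(Algebra.adjoin K {x}))
    (Polynomial.algEquivOfTranscendental K x hx).surjective

open scoped algebraAdjoinAdjoin in
/-- The integral closure of `K[x]` in a finite separable extension `F` of `K(x)` is a Dedekind
domain. -/
theorem isDedekindDomain_integralClosure_adjoin {K F : Type*} [Field K] [Field F] [Algebra K F]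
    {x : F} (hx : Transcendental K x) [FiniteDimensional K⟮x⟯ F] [Algebra.IsSeparable K⟮x⟯ F] :
    IsDedekindDomain ↥(integralClosure ↥(Algebra.adjoin K {x}) F) := by
  haveI := isPrincipalIdealRing_adjoin_of_transcendental hx
  haveI : IsScalarTower ↥(Algebra.adjoin K {x}) ↥K⟮x⟯ F :=
    IsScalarTower.of_algebraMap_eq (fun _ => rfl)
  exact integralClosure.isDedekindDomain ↥(Algebra.adjoin K {x}) ↥K⟮x⟯ F

/-- Dedekind domains are stable under ring isomorphisms. -/
theorem isDedekindDomain_of_ringEquiv {R S : Type*} [CommRing R] [CommRing S] (e : R ≃+* S)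
    [IsDedekindDomain S] : IsDedekindDomain R := by
  haveI : IsDomain R := e.toMulEquiv.isDomain S
  haveI : IsNoetherianRing R := isNoetherianRing_of_ringEquiv S e.symm
  haveI : Ring.DimensionLEOne R := Ring.DimensionLEOne.of_ringEquiv e
  haveI : IsIntegrallyClosed R := IsIntegrallyClosed.of_equiv e.symm
  exact { }

end Generic

open ModularCurve ModularCurve.IgusaScheme AlgebraicCurve Fermat.Agent.X0 Fermat.Agent.Val
  Fermat.Agent.BR.TwoVal Fermat.Agent.BR.ResGen Fermat.Agent.BR.TwoValInst

variable {M q : ℕ} [NeZero M] [hq : Fact q.Prime]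
variable (A : ValuationSubring Kb) (hA : A.LiesOverPrime q) (hqM : ¬ q ∣ M)

local notation "kA" => IsLocalRing.ResidueField A

include hA hqM in
/-- **(D5)** `C_k` is a Dedekind domain. -/
theorem isDedekindDomain_Ck : IsDedekindDomain ↥(Ck M A) := by
  have hsep := Val.isSepVarS_jFullC_residueField M hqM A hA
  haveI := hsep.finite
  haveI := hsep.separable
  exact isDedekindDomain_integralClosure_adjoin hsep.transcendental

section Model

variable (R : Subring (Fb (M * q))) (hR : ∀ x ∈ R, IsIntegral ↥(AJ M q A) x)
variable (W : Set Kb) (hW : ∀ a ∈ A, ∃ a' ∈ W, a - a' ∈ A.nonunits)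

include hW in
/-- **`R ⧸ P₁` is a Dedekind domain.** -/
theorem isDedekindDomain_quotOne
    (hα : ∀ g ∈ GM M q W, g ∈ OM M A hA → heckeAlphaBar Kb M q g ∈ R) :
    IsDedekindDomain (↥R ⧸ RingHom.ker (redOne A hA hqM R hR)) := by
  haveI := isDedekindDomain_Ck A hA hqM
  exact isDedekindDomain_of_ringEquiv (S := ↥(Ck M A)) (quotOne A hA hqM R hR W hW hα)

include hW in
/-- **`R ⧸ P₂` is a Dedekind domain.** -/
theorem isDedekindDomain_quotTwo
    (hβ : ∀ g ∈ GM M q W, g ∈ OM M A hA → heckeBetaBar Kb M q g ∈ R) :
    IsDedekindDomain (↥R ⧸ RingHom.ker (redTwo A hA hqM R hR)) := by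
  haveI := isDedekindDomain_Ck A hA hqM
  exact isDedekindDomain_of_ringEquiv (S := ↥(Ck M A)) (quotTwo A hA hqM R hR W hW hβ)

end Model

end Fermat.Agent.BR.Inst.SpecIso
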