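/-
Program B (bad reduction), node B6.6-CONS, the smooth charts of the modular atlas (helper24).

`smooth₀_modular`, `smooth₁_modular` : the fields `smooth₀`, `smooth₁` of `Final.ModularData`
VERBATIM — a `SmoothChart` at every point of either component of the model of `X₀(qM)` at `q`
which is not a crossing, with tube `{P | H.r P = ⟨v, Q⟩}`.  Composition of

* helper1's case split `SmoothLevelsGlue.smooth_zero_levels` / `smooth_one_levels`;
* the bridges `GeomModular.levelHyp_fin` (helper29) on the finite chart and
  `SmoothInstInf.levelHyp_modular_inf_tower` (helper1) on the chart at infinity, at every level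
  `LevelsInst.levelHyp_tower B hB hqM S` (helper4) of the tower of helper27's `Levels`;
* `hRC` / `hint` of helper23's `ChartInLevels`;
* the Dedekind charts `C_k`, `C_k^∞` of helper6's `SpecialIsoFrac`;
* the point hypotheses of `CkPointModular`.

`smooth_zero_atlas`, `smooth_one_atlas` : the same for an arbitrary proof `H` of the atlas
hypotheses.
-/
import Mathlib
import Fermat.Agent.BR.Inst.CkPointModular
import Fermat.Agent.BR.S0.GeomModular
import Fermat.Agent.BR.Inst.Inf.SmoothInstInf
import Fermat.Agent.BR.Inst.ChartInLevels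
import Fermat.Agent.FF.PlacesCoord

set_option autoImplicit false
set_option linter.unusedSectionVars false
set_option linter.style.haveILetI false

noncomputable section

namespace Fermat.Agent.BR.Inst.SmoothModularAll

open ModularCurve ModularCurve.IgusaScheme AlgebraicCurve IsLocalRing
open Fermat.Agent.X0 Fermat.Agent.Val Fermat.Agent.Red Fermat.Agent.BR.Centre
open Fermat.Agent.BR.TwoVal Fermat.Agent.BR.TwoValInst Fermat.Agent.BR.ConstRedTwo
open Fermat.Agent.BR.SpecialFibre Fermat.Agent.BR.S0
open Fermat.Agent.BR.S0.RedModular Fermat.Agent.BR.S0.RedHyp Fermat.Agent.BR.S0.PointDict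
open Fermat.Agent.BR.S0.SmoothLevelsGlue Fermat.Agent.BR.Inst.SpecIso
open Fermat.Agent.BR.Inst.SpecIsoInf Fermat.Agent.BR.Inst.CkPointModular
open Fermat.Agent.BR.Inst.Levels Fermat.Agent.BR.Inst.LevelsInf Fermat.Agent.BR.Inst.NormalModel
open Fermat.Agent.BR.Inst.ChartInLevels Fermat.Agent.BR.S0.GeomModular
open Fermat.Agent.BR.Inst.Inf.SmoothInstInf Fermat.Agent.BR.Inst.LevelsInst

set_option synthInstance.maxHeartbeats 400000

variable {M q : ℕ} [NeZero M] [hqF : Fact q.Prime]
variable (B : ValuationSubring Kb) (hB : B.LiesOverPrime q) (hqM : ¬ q ∣ M)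

local notation "kB" => IsLocalRing.ResidueField B
local notation "FtM" => modularFunctionFieldFullC (IsLocalRing.ResidueField B) M

include hB hqM in
/-- every point of `F̃_M / k` has degree one (`k` is algebraically closed) -/
theorem place_deg_eq_one_Ft (Q : Place kB FtM) : Q.deg = 1 := by
  have : IsAlgClosed kB := Fermat.Agent.Val.residueField_isAlgClosed_algebraicClosure_rat B
  exact Fermat.Agent.FF.place_deg_eq_one
    (Fermat.Agent.Val.isSepVarS_jFullC_residueField M hqM B hB) Q

set_option maxHeartbeats 3200000 in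
/-- **The smooth chart at a non-crossing point of the component `0`**, for any proof `H` of the
atlas hypotheses. -/
def smooth_zero_atlas (H : AtlasHyp (chartDataModular B hB hqM) (jx M q))
    (Q : Place kB FtM) (hQ : ∀ e, Q ≠ z₁ (chartDataModular B hB hqM) e) :
    SmoothChart B (compW B hB hqM 0).O (compW B hB hqM 0).res Q {P | H.r P = ⟨0, Q⟩} := by
  haveI := isDedekindDomain_Ck B hB hqM
  haveI := isFractionRing_Ck B hB hqM
  haveI := isDedekindDomain_CkInf B hB hqM
  haveI := isFractionRing_CkInf B hB hqM
  exact smooth_zero_levels (Dkf := ↥(Ck M B)) (Dki := ↥(CkInf M B))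
    (Cr := compW B hB hqM) (Rfin := chartFin) (Rinf := chartInf)
    (hfin := chartFin_le B hB hqM) (hinf := chartInf_le B hB hqM) (x := jx M q) H
    (baseFamily_fin (M * q) B hqF.out hB) (baseFamily_inf (M * q) B hqF.out hB) hqF.out hB
    (fun S => levelHyp_fin (levelHyp_tower B hB hqM S))
    (fun S => levelHyp_modular_inf_tower B hB hqM S)
    (not_isField_Ck B hB hqM) (not_isField_CkInf B hB hqM)
    (fun S => chartFin_le_CS B hB S) (fun S => chartInf_le_CS_inf B hB S)
    (fun S => integralAt_CS_of_chartFin B S) (fun S => integralAt_CS_inf_of_chartInf B S)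
    (place_deg_eq_one_Ft B hB hqM)
    (fun Q hQ d => hQDf_zero B hB hqM Q _ hQ d)
    (fun Q hQ d => hQDi_zero B hB hqM Q _ hQ d) Q hQ

set_option maxHeartbeats 3200000 in
/-- **The smooth chart at a non-crossing point of the component `1`**, for any proof `H` of the
atlas hypotheses. -/
def smooth_one_atlas (H : AtlasHyp (chartDataModular B hB hqM) (jx M q))
    (Q : Place kB FtM) (hQ : ∀ e, Q ≠ z₂ (chartDataModular B hB hqM) e) :
    SmoothChart B (compW B hB hqM 1).O (compW B hB hqM 1).res Q {P | H.r P = ⟨1, Q⟩} := by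
  haveI := isDedekindDomain_Ck B hB hqM
  haveI := isFractionRing_Ck B hB hqM
  haveI := isDedekindDomain_CkInf B hB hqM
  haveI := isFractionRing_CkInf B hB hqM
  exact smooth_one_levels (Dkf := ↥(Ck M B)) (Dki := ↥(CkInf M B))
    (Cr := compW B hB hqM) (Rfin := chartFin) (Rinf := chartInf)
    (hfin := chartFin_le B hB hqM) (hinf := chartInf_le B hB hqM) (x := jx M q) H
    (baseFamily_fin (M * q) B hqF.out hB) (baseFamily_inf (M * q) B hqF.out hB) hqF.out hB
    (fun S => levelHyp_fin (levelHyp_tower B hB hqM S))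
    (fun S => levelHyp_modular_inf_tower B hB hqM S)
    (not_isField_Ck B hB hqM) (not_isField_CkInf B hB hqM)
    (fun S => chartFin_le_CS B hB S) (fun S => chartInf_le_CS_inf B hB S)
    (fun S => integralAt_CS_of_chartFin B S) (fun S => integralAt_CS_inf_of_chartInf B S)
    (place_deg_eq_one_Ft B hB hqM)
    (fun Q hQ d => hQDf_one B hB hqM Q _ hQ d)
    (fun Q hQ d => hQDi_one B hB hqM Q _ hQ d) Q hQ

/-- **The field `smooth₀` of `Final.ModularData`.** -/
def smooth₀_modular (G : GeomInputs B hB hqM) :
    ∀ Q : Place kB FtM, (∀ e, Q ≠ z₁ (chartDataModular B hB hqM) e) →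
      SmoothChart B (compW B hB hqM 0).O (compW B hB hqM 0).res Q
        {P | (atlasHyp_modular B hB hqM G).r P = ⟨0, Q⟩} :=
  smooth_zero_atlas B hB hqM (atlasHyp_modular B hB hqM G)

/-- **The field `smooth₁` of `Final.ModularData`.** -/
def smooth₁_modular (G : GeomInputs B hB hqM) :
    ∀ Q : Place kB FtM, (∀ e, Q ≠ z₂ (chartDataModular B hB hqM) e) →
      SmoothChart B (compW B hB hqM 1).O (compW B hB hqM 1).res Q
        {P | (atlasHyp_modular B hB hqM G).r P = ⟨1, Q⟩} :=
  smooth_one_atlas B hB hqM (atlasHyp_modular B hB hqM G)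

end Fermat.Agent.BR.Inst.SmoothModularAll
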