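/-
Program B (bad reduction), level-data assembly, node (c) (helper8): the level data
`S0.AnnulusLevels` (`BR/S0/AnnulusLevels`, consumed by `BR/S0/AnnulusDescent` and
`BR/S0/AnnulusCover`) of the tube of a crossing point from the GLOBAL normal models at the
levels.  Twin of `S0.NodeLevels.ofModels` (`BR/S0/CrossingModel`): same per-level input
`S0.CrossingModel`, same local rings `(M i).loc = locSub (C i) (M i).point`.

* `trace R O hle : Ideal R` : the trace on `R` of the maximal ideal of a valuation ring `O ⊇ R`;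
* `AnnulusModels` : the hypotheses (coefficient fields, the two components of the models, the
  node data at a base level, `surj₁`, `surj₂` : the reductions of the models do not grow with the
  level, the family facts);
* `AnnulusModels.nodeData` : the SAME `u`, `v` are node coordinates at every level
  (`NodeLemma.NodeData` in `(M i).loc`);
* `AnnulusModels.nodeLevel`, `AnnulusModels.levels : S0.AnnulusLevels A T ι`.
-/
import Mathlib
import Fermat.Agent.BR.S0.CrossingModel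
import Fermat.Agent.BR.S0.AnnulusLevels
import Fermat.Agent.BR.S0.AnnulusN2
import Fermat.Agent.BR.NodeLemma

set_option autoImplicit false
set_option linter.style.haveILetI false
set_option linter.unusedSectionVars false

namespace Fermat.Agent.BR.Inst.LevelsAnnulus

open AlgebraicCurve IsLocalRing Fermat.Agent.Red Fermat.Agent.BR Fermat.Agent.BR.Centre
  Fermat.Agent.BR.Inst.LocSub Fermat.Agent.BR.S0

/-! ### Non-units of a valuation ring -/

section Nonunits

variable {F : Type*} [Field F] (O : ValuationSubring F)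

theorem nonunits_add {x y : F} (hx : x ∈ O.nonunits) (hy : y ∈ O.nonunits) :
    x + y ∈ O.nonunits := by
  rw [O.mem_nonunits_iff] at hx hy ⊢
  exact lt_of_le_of_lt (O.valuation.map_add _ _) (max_lt hx hy)

theorem nonunits_neg {x : F} (hx : x ∈ O.nonunits) : -x ∈ O.nonunits := by
  rw [O.mem_nonunits_iff] at hx ⊢
  rwa [Valuation.map_neg]

theorem nonunits_sub {x y : F} (hx : x ∈ O.nonunits) (hy : y ∈ O.nonunits) :
    x - y ∈ O.nonunits := by
  rw [sub_eq_add_neg]
  exact nonunits_add O hx (nonunits_neg O hy)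

theorem nonunits_mul_mem {x y : F} (hx : x ∈ O.nonunits) (hy : y ∈ O) : x * y ∈ O.nonunits := by
  rw [O.mem_nonunits_iff] at hx ⊢
  rw [map_mul]
  exact mul_lt_one_of_nonneg_of_lt_one_left zero_le hx ((O.valuation_le_one_iff _).mpr hy)

theorem mem_mul_nonunits {x y : F} (hx : x ∈ O) (hy : y ∈ O.nonunits) : x * y ∈ O.nonunits := by
  rw [mul_comm]
  exact nonunits_mul_mem O hy hx

theorem mem_of_mem_nonunits {x : F} (hx : x ∈ O.nonunits) : x ∈ O := by
  rw [O.mem_nonunits_iff] at hx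
  exact (O.valuation_le_one_iff _).mp hx.le

theorem zero_mem_nonunits : (0 : F) ∈ O.nonunits := by
  rw [O.mem_nonunits_iff, map_zero]
  exact zero_lt_one

theorem mem_nonunits_or_of_mul {x y : F} (hx : x ∈ O) (hy : y ∈ O) (hxy : x * y ∈ O.nonunits) :
    x ∈ O.nonunits ∨ y ∈ O.nonunits := by
  rw [O.mem_nonunits_iff] at hxy ⊢
  rw [O.mem_nonunits_iff]
  by_contra hcon
  push Not at hcon
  have h1 : O.valuation x = 1 := le_antisymm ((O.valuation_le_one_iff _).mpr hx) hcon.1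
  have h2 : O.valuation y = 1 := le_antisymm ((O.valuation_le_one_iff _).mpr hy) hcon.2
  rw [map_mul, h1, h2, one_mul] at hxy
  exact lt_irrefl _ hxy

theorem one_notMem_nonunits : (1 : F) ∉ O.nonunits := by
  rw [O.mem_nonunits_iff, map_one]
  exact lt_irrefl _

/-- The trace on a subring `R ⊆ O` of the maximal ideal of the valuation ring `O`. -/
def trace (R : Subring F) (hle : ∀ x ∈ R, x ∈ O) : Ideal R where
  carrier := {x | (x : F) ∈ O.nonunits}
  add_mem' := fun {a b} ha hb => by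
    show ((a + b : R) : F) ∈ O.nonunits
    rw [Subring.coe_add]
    exact nonunits_add O ha hb
  zero_mem' := by
    show ((0 : R) : F) ∈ O.nonunits
    rw [Subring.coe_zero]
    exact zero_mem_nonunits O
  smul_mem' := fun c x hx => by
    show ((c * x : R) : F) ∈ O.nonunits
    rw [Subring.coe_mul]
    exact mem_mul_nonunits O (hle c c.2) hx

theorem mem_trace_iff {R : Subring F} {hle : ∀ x ∈ R, x ∈ O} (x : R) :
    x ∈ trace O R hle ↔ (x : F) ∈ O.nonunits := Iff.rfl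

theorem trace_isPrime (R : Subring F) (hle : ∀ x ∈ R, x ∈ O) : (trace O R hle).IsPrime := by
  refine ⟨?_, ?_⟩
  · intro h
    have h1 : (1 : R) ∈ trace O R hle := by rw [h]; trivial
    rw [mem_trace_iff, Subring.coe_one] at h1
    exact one_notMem_nonunits O h1
  · intro x y hxy
    rw [mem_trace_iff, Subring.coe_mul] at hxy
    exact mem_nonunits_or_of_mul O (hle x x.2) (hle y y.2) hxy

/-- The elements of the trace of `𝔪_O` on a subring `R ⊆ O` are non-units of `R`. -/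
theorem not_isUnit_of_mem_nonunits {R : Subring F} (hle : ∀ x ∈ R, x ∈ O) {x : R}
    (hx : (x : F) ∈ O.nonunits) : ¬ IsUnit x := by
  intro hu
  obtain ⟨y, hy⟩ := hu.exists_right_inv
  have h1 : (x : F) * (y : F) = 1 := by
    rw [← Subring.coe_mul, hy, Subring.coe_one]
  have h2 := nonunits_mul_mem O hx (hle y y.2)
  rw [h1] at h2
  exact one_notMem_nonunits O h2

end Nonunits

variable {K F k : Type*} [Field K] [Field F] [Algebra K F] [Field k]
  {Ft₁ Ft₂ : Type*} [Field Ft₁] [Algebra k Ft₁] [Field Ft₂] [Algebra k Ft₂]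

/-! ### One model: the traces of `𝔪_{O₁}`, `𝔪_{O₂}` on the local ring, and the node data in
element form -/

section Base

variable {A : ValuationSubring K} {π : A →+* k} {O₁ O₂ : ValuationSubring F}
  {res₁ : O₁ →+* Ft₁} {res₂ : O₂ →+* Ft₂} {Q₁ : Place k Ft₁} {Q₂ : Place k Ft₂}
  {T : Set (Place K F)} {C : Subring F} {ϖ : K}
  (M : CrossingModel A π O₁ O₂ res₁ res₂ Q₁ Q₂ T C ϖ)

/-- elements of the model outside the point are units of `O₁` -/
theorem valuation₁_eq_one_of_notMem (hres0₁ : ∀ x : O₁, (x : F) ∈ O₁.nonunits → res₁ x = 0)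
    {b : C} (hb : b ∉ M.point) : O₁.valuation (b : F) = 1 := by
  apply le_antisymm ((O₁.valuation_le_one_iff _).mpr (M.le₁ b b.2))
  by_contra hlt
  rw [not_le] at hlt
  exact hb (M.mem_point_of_nonunits₁ hres0₁ b (O₁.mem_nonunits_iff.mpr hlt))

/-- elements of the model outside the point are units of `O₂` -/
theorem valuation₂_eq_one_of_notMem (hres0₂ : ∀ x : O₂, (x : F) ∈ O₂.nonunits → res₂ x = 0)
    {b : C} (hb : b ∉ M.point) : O₂.valuation (b : F) = 1 := by
  apply le_antisymm ((O₂.valuation_le_one_iff _).mpr (M.le₂ b b.2))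
  by_contra hlt
  rw [not_le] at hlt
  exact hb (M.mem_point_of_nonunits₂ hres0₂ b (O₂.mem_nonunits_iff.mpr hlt))

/-- The extension of the first component to the local ring is the trace of `𝔪_{O₁}`. -/
theorem map_eq_trace₁ (hres0₁ : ∀ x : O₁, (x : F) ∈ O₁.nonunits → res₁ x = 0) {P1 : Ideal C}
    (hP1 : ∀ x : C, x ∈ P1 ↔ (x : F) ∈ O₁.nonunits) :
    P1.map (algebraMap C M.loc) = trace O₁ M.loc (M.loc_le₁ hres0₁) := by
  ext x
  rw [mem_trace_iff, IsLocalization.mem_map_algebraMap_iff M.point.primeCompl M.loc]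
  constructor
  · rintro ⟨⟨⟨a, ha⟩, ⟨s, hs⟩⟩, hxs⟩
    have h1 : (x : F) * (s : F) = (a : F) := congrArg Subtype.val hxs
    have hs1 : O₁.valuation (s : F) = 1 := valuation₁_eq_one_of_notMem M hres0₁ hs
    have h2 : O₁.valuation (x : F) = O₁.valuation (a : F) := by
      rw [← h1, map_mul, hs1, mul_one]
    rw [O₁.mem_nonunits_iff, h2, ← O₁.mem_nonunits_iff]
    exact (hP1 a).mp ha
  · intro hx
    obtain ⟨a, b, hb, hab⟩ := M.mem_loc_iff.mp x.2
    refine ⟨⟨⟨a, ?_⟩, ⟨b, hb⟩⟩, Subtype.ext hab⟩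
    rw [hP1, ← hab]
    exact nonunits_mul_mem O₁ hx (M.le₁ b b.2)

/-- The extension of the second component to the local ring is the trace of `𝔪_{O₂}`. -/
theorem map_eq_trace₂ (hres0₂ : ∀ x : O₂, (x : F) ∈ O₂.nonunits → res₂ x = 0) {P2 : Ideal C}
    (hP2 : ∀ x : C, x ∈ P2 ↔ (x : F) ∈ O₂.nonunits) :
    P2.map (algebraMap C M.loc) = trace O₂ M.loc (M.loc_le₂ hres0₂) := by
  ext x
  rw [mem_trace_iff, IsLocalization.mem_map_algebraMap_iff M.point.primeCompl M.loc]
  constructor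
  · rintro ⟨⟨⟨a, ha⟩, ⟨s, hs⟩⟩, hxs⟩
    have h1 : (x : F) * (s : F) = (a : F) := congrArg Subtype.val hxs
    have hs1 : O₂.valuation (s : F) = 1 := valuation₂_eq_one_of_notMem M hres0₂ hs
    have h2 : O₂.valuation (x : F) = O₂.valuation (a : F) := by
      rw [← h1, map_mul, hs1, mul_one]
    rw [O₂.mem_nonunits_iff, h2, ← O₂.mem_nonunits_iff]
    exact (hP2 a).mp ha
  · intro hx
    obtain ⟨a, b, hb, hab⟩ := M.mem_loc_iff.mp x.2
    refine ⟨⟨⟨a, ?_⟩, ⟨b, hb⟩⟩, Subtype.ext hab⟩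
    rw [hP2, ← hab]
    exact nonunits_mul_mem O₂ hx (M.le₂ b b.2)

/-- `𝔪 = p1 + (v)` in element form, from `NodeLemma.NodeData` in the local ring (the output of
`SpecialFibre.TwoComponents.nodeData` / `exists_node` with `O := M.loc`). -/
theorem max1_of_nodeData (hres0₁ : ∀ x : O₁, (x : F) ∈ O₁.nonunits → res₁ x = 0)
    {P1 P2 : Ideal C} (hP1 : ∀ x : C, x ∈ P1 ↔ (x : F) ∈ O₁.nonunits) {q u' v' : M.loc}
    (hN : haveI := M.isLocalRing_loc
      NodeLemma.NodeData q u' v' (P1.map (algebraMap C M.loc)) (P2.map (algebraMap C M.loc)))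
    (x : M.loc) (hx : ¬ IsUnit x) :
    ∃ a b : M.loc, (a : F) ∈ O₁.nonunits ∧ (x : F) = (a : F) + (b : F) * (v' : F) := by
  haveI := M.isLocalRing_loc
  have hx' : x ∈ maximalIdeal M.loc := (mem_maximalIdeal x).mpr hx
  rw [hN.max1] at hx'
  obtain ⟨a, ha, t, ht, rfl⟩ := Submodule.mem_sup.mp hx'
  obtain ⟨b, rfl⟩ := Ideal.mem_span_singleton'.mp ht
  rw [map_eq_trace₁ M hres0₁ hP1] at ha
  exact ⟨a, b, ha, rfl⟩

/-- `𝔪 = p2 + (u)` in element form, from `NodeLemma.NodeData` in the local ring. -/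
theorem max2_of_nodeData (hres0₂ : ∀ x : O₂, (x : F) ∈ O₂.nonunits → res₂ x = 0)
    {P1 P2 : Ideal C} (hP2 : ∀ x : C, x ∈ P2 ↔ (x : F) ∈ O₂.nonunits) {q u' v' : M.loc}
    (hN : haveI := M.isLocalRing_loc
      NodeLemma.NodeData q u' v' (P1.map (algebraMap C M.loc)) (P2.map (algebraMap C M.loc)))
    (x : M.loc) (hx : ¬ IsUnit x) :
    ∃ a b : M.loc, (a : F) ∈ O₂.nonunits ∧ (x : F) = (a : F) + (b : F) * (u' : F) := by
  haveI := M.isLocalRing_loc
  have hx' : x ∈ maximalIdeal M.loc := (mem_maximalIdeal x).mpr hx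
  rw [hN.max2] at hx'
  obtain ⟨a, ha, t, ht, rfl⟩ := Submodule.mem_sup.mp hx'
  obtain ⟨b, rfl⟩ := Ideal.mem_span_singleton'.mp ht
  rw [map_eq_trace₂ M hres0₂ hP2] at ha
  exact ⟨a, b, ha, rfl⟩

/-- the first coordinate lies on the first component -/
theorem u_mem₁_of_nodeData (hres0₁ : ∀ x : O₁, (x : F) ∈ O₁.nonunits → res₁ x = 0)
    {P1 P2 : Ideal C} (hP1 : ∀ x : C, x ∈ P1 ↔ (x : F) ∈ O₁.nonunits) {q u' v' : M.loc}
    (hN : haveI := M.isLocalRing_loc
      NodeLemma.NodeData q u' v' (P1.map (algebraMap C M.loc)) (P2.map (algebraMap C M.loc))) :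
    (u' : F) ∈ O₁.nonunits := by
  haveI := M.isLocalRing_loc
  have := hN.hu
  rwa [map_eq_trace₁ M hres0₁ hP1] at this

/-- the second coordinate lies on the second component -/
theorem v_mem₂_of_nodeData (hres0₂ : ∀ x : O₂, (x : F) ∈ O₂.nonunits → res₂ x = 0)
    {P1 P2 : Ideal C} (hP2 : ∀ x : C, x ∈ P2 ↔ (x : F) ∈ O₂.nonunits) {q u' v' : M.loc}
    (hN : haveI := M.isLocalRing_loc
      NodeLemma.NodeData q u' v' (P1.map (algebraMap C M.loc)) (P2.map (algebraMap C M.loc))) :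
    (v' : F) ∈ O₂.nonunits := by
  haveI := M.isLocalRing_loc
  have := hN.hv
  rwa [map_eq_trace₂ M hres0₂ hP2] at this

/-- the second coordinate does not vanish on the first component, when the components are
distinct -/
theorem v_notMem₁_of_nodeData (hres0₁ : ∀ x : O₁, (x : F) ∈ O₁.nonunits → res₁ x = 0)
    (hres0₂ : ∀ x : O₂, (x : F) ∈ O₂.nonunits → res₂ x = 0)
    {P1 P2 : Ideal C} (hP1 : ∀ x : C, x ∈ P1 ↔ (x : F) ∈ O₁.nonunits)
    (hP2 : ∀ x : C, x ∈ P2 ↔ (x : F) ∈ O₂.nonunits) (hle : ¬ P2 ≤ P1) {q u' v' : M.loc}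
    (hN : haveI := M.isLocalRing_loc
      NodeLemma.NodeData q u' v' (P1.map (algebraMap C M.loc)) (P2.map (algebraMap C M.loc))) :
    (v' : F) ∉ O₁.nonunits := by
  haveI := M.isLocalRing_loc
  intro hv
  apply hle
  intro x hx
  have hx2 : (x : F) ∈ O₂.nonunits := (hP2 x).mp hx
  have hnu : ¬ IsUnit (⟨(x : F), M.le_loc x.2⟩ : M.loc) :=
    not_isUnit_of_mem_nonunits O₂ (M.loc_le₂ hres0₂) hx2
  obtain ⟨a, b, ha, hab⟩ := max1_of_nodeData M hres0₁ hP1 hN _ hnu
  rw [hP1]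
  show (x : F) ∈ O₁.nonunits
  rw [show (x : F) = (a : F) + (b : F) * (v' : F) from hab]
  exact nonunits_add O₁ ha (mem_mul_nonunits O₁ (M.loc_le₁ hres0₁ _ b.2) hv)

/-- the first coordinate does not vanish on the second component, when the components are
distinct -/
theorem u_notMem₂_of_nodeData (hres0₁ : ∀ x : O₁, (x : F) ∈ O₁.nonunits → res₁ x = 0)
    (hres0₂ : ∀ x : O₂, (x : F) ∈ O₂.nonunits → res₂ x = 0)
    {P1 P2 : Ideal C} (hP1 : ∀ x : C, x ∈ P1 ↔ (x : F) ∈ O₁.nonunits)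
    (hP2 : ∀ x : C, x ∈ P2 ↔ (x : F) ∈ O₂.nonunits) (hle : ¬ P1 ≤ P2) {q u' v' : M.loc}
    (hN : haveI := M.isLocalRing_loc
      NodeLemma.NodeData q u' v' (P1.map (algebraMap C M.loc)) (P2.map (algebraMap C M.loc))) :
    (u' : F) ∉ O₂.nonunits := by
  haveI := M.isLocalRing_loc
  intro hu
  apply hle
  intro x hx
  have hx1 : (x : F) ∈ O₁.nonunits := (hP1 x).mp hx
  have hnu : ¬ IsUnit (⟨(x : F), M.le_loc x.2⟩ : M.loc) :=
    not_isUnit_of_mem_nonunits O₁ (M.loc_le₁ hres0₁) hx1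
  obtain ⟨a, b, ha, hab⟩ := max2_of_nodeData M hres0₂ hP2 hN _ hnu
  rw [hP2]
  show (x : F) ∈ O₂.nonunits
  rw [show (x : F) = (a : F) + (b : F) * (u' : F) from hab]
  exact nonunits_add O₂ ha (mem_mul_nonunits O₂ (M.loc_le₂ hres0₂ _ b.2) hu)

end Base

/-! ### The hypotheses -/

/-- A directed family of global normal models `C i` (over `A ∩ K' i`, uniformizer `ϖ i`) at a
crossing point, with the node data `u`, `v`, `u * v = thick • ε₀` at a base level `i₀`. -/
structure AnnulusModels (A : ValuationSubring K) (π : A →+* k) (O₁ O₂ : ValuationSubring F)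
    (res₁ : O₁ →+* Ft₁) (res₂ : O₂ →+* Ft₂) (Q₁ : Place k Ft₁) (Q₂ : Place k Ft₂)
    (T : Set (Place K F)) {ι : Type*} (C : ι → Subring F) (ϖ : ι → K) (K' : ι → Subfield K)
    (P1 P2 : ∀ i, Ideal (C i)) (i₀ : ι) (u v ε₀ : F) (thick : K) : Prop where
  /-- the global models (the input of `S0.NodeLevels.ofModels`) -/
  model : ∀ i, CrossingModel A π O₁ O₂ res₁ res₂ Q₁ Q₂ T (C i) (ϖ i)
  hres₁ : ∀ (a : K) (ha : a ∈ A) (h : algebraMap K F a ∈ O₁),
    res₁ ⟨algebraMap K F a, h⟩ = algebraMap k Ft₁ (π ⟨a, ha⟩)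
  hres0₁ : ∀ x : O₁, (x : F) ∈ O₁.nonunits → res₁ x = 0
  hres0₂ : ∀ x : O₂, (x : F) ∈ O₂.nonunits → res₂ x = 0
  hπ : ∀ a : A, π a ≠ 0 → (a : K)⁻¹ ∈ A
  /-- the places over the horizontal height-one primes (shape (L5), as in
  `S0.NodeLevels.ofModels`) -/
  horiz : ∀ i, ∀ p : Ideal (model i).loc, p.IsPrime → p.height = 1 →
    (⟨algebraMap K F (ϖ i), (model i).le_loc (model i).unif_mem⟩ : (model i).loc) ∉ p →
    ∃ P : Place K F, CentredAt A (model i).loc P ∧ ∀ y : (model i).loc, evalAt P (y : F) = 0 ↔ y ∈ p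
  /-- the uniformizer lies in the coefficient field -/
  unif_memK : ∀ i, ϖ i ∈ K' i
  /-- `ϖ i` is a uniformizer of `A ∩ K' i` -/
  unif_max : ∀ i, ∀ c ∈ K' i, A.valuation c < 1 → A.valuation c ≤ A.valuation (ϖ i)
  /-- the constants `A ∩ K' i` lie in the model -/
  const_mem : ∀ i, ∀ c ∈ K' i, c ∈ A → algebraMap K F c ∈ C i
  /-- the constants of the local ring lie in the coefficient field -/
  const_field : ∀ i (c : K), algebraMap K F c ∈ (model i).loc → c ∈ K' i
  hP1 : ∀ i (x : C i), x ∈ P1 i ↔ (x : F) ∈ O₁.nonunits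
  hP2 : ∀ i (x : C i), x ∈ P2 i ↔ (x : F) ∈ O₂.nonunits
  /-- the special fibre of the model has the two components `P1`, `P2` -/
  two : ∀ i, SpecialFibre.TwoComponents (⟨algebraMap K F (ϖ i), (model i).unif_mem⟩ : C i)
    (P1 i) (P2 i)
  directed : ∀ i j, ∃ l, C i ≤ C l ∧ C j ≤ C l ∧ K' i ≤ K' l ∧ K' j ≤ K' l
  frac : ∀ y : F, ∃ i, ∃ a b : C i, b ≠ 0 ∧ y * (b : F) = (a : F)
  constK : ∀ c : K, ∃ i, c ∈ K' i
  finite_div : ∀ y : F, y ≠ 0 → {P : Place K F | P.ord y ≠ 0}.Finite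
  /-- the base level is the smallest one -/
  base_le : ∀ i, C i₀ ≤ C i
  base_leK : ∀ i, K' i₀ ≤ K' i
  /-- the first reduction of the models does not grow with the level -/
  surj₁ : ∀ i (x : C i), ∃ x₀ : C i₀, (x : F) - (x₀ : F) ∈ O₁.nonunits
  /-- the second reduction of the models does not grow with the level -/
  surj₂ : ∀ i (x : C i), ∃ x₀ : C i₀, (x : F) - (x₀ : F) ∈ O₂.nonunits
  thick_ne : thick ≠ 0
  thick_lt : A.valuation thick < 1
  thick_mem : thick ∈ K' i₀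
  uv : u * v = thick • ε₀
  u_mem : u ∈ (model i₀).loc
  v_mem : v ∈ (model i₀).loc
  ε₀_mem : ε₀ ∈ (model i₀).loc
  ε₀_inv_mem : ε₀⁻¹ ∈ (model i₀).loc
  u_mem₁ : u ∈ O₁.nonunits
  v_mem₂ : v ∈ O₂.nonunits
  v_notMem₁ : v ∉ O₁.nonunits
  u_notMem₂ : u ∉ O₂.nonunits
  /-- `𝔪 = p1 + (v)` at the base level -/
  max1 : ∀ x : (model i₀).loc, ¬ IsUnit x →
    ∃ a b : (model i₀).loc, (a : F) ∈ O₁.nonunits ∧ (x : F) = (a : F) + (b : F) * v
  /-- `𝔪 = p2 + (u)` at the base level -/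
  max2 : ∀ x : (model i₀).loc, ¬ IsUnit x →
    ∃ a b : (model i₀).loc, (a : F) ∈ O₂.nonunits ∧ (x : F) = (a : F) + (b : F) * u

namespace AnnulusModels

variable {A : ValuationSubring K} {π : A →+* k} {O₁ O₂ : ValuationSubring F}
  {res₁ : O₁ →+* Ft₁} {res₂ : O₂ →+* Ft₂} {Q₁ : Place k Ft₁} {Q₂ : Place k Ft₂}
  {T : Set (Place K F)} {ι : Type*} {C : ι → Subring F} {ϖ : ι → K} {K' : ι → Subfield K}
  {P1 P2 : ∀ i, Ideal (C i)} {i₀ : ι} {u v ε₀ : F} {thick : K}
  (H : AnnulusModels A π O₁ O₂ res₁ res₂ Q₁ Q₂ T C ϖ K' P1 P2 i₀ u v ε₀ thick)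

/-- the local ring of the level -/
abbrev R (i : ι) : Subring F := (H.model i).loc

theorem R_le₁ (i : ι) : ∀ z ∈ H.R i, z ∈ O₁ := (H.model i).loc_le₁ H.hres0₁

theorem R_le₂ (i : ι) : ∀ z ∈ H.R i, z ∈ O₂ := (H.model i).loc_le₂ H.hres0₂

theorem base_le_R (i : ι) : H.R i₀ ≤ H.R i := (H.model i₀).loc_mono (H.model i) (H.base_le i)

theorem C_le_R (i : ι) : C i ≤ H.R i := (H.model i).le_loc

theorem unif_memR (i : ι) : algebraMap K F (ϖ i) ∈ H.R i := H.C_le_R i (H.model i).unif_mem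

theorem u_memR (i : ι) : u ∈ H.R i := H.base_le_R i H.u_mem

theorem v_memR (i : ι) : v ∈ H.R i := H.base_le_R i H.v_mem

include H in
theorem unif_mem₁ (i : ι) : algebraMap K F (ϖ i) ∈ O₁.nonunits :=
  (H.hP1 i _).mp (H.two i).q_mem1

include H in
theorem unif_mem₂ (i : ι) : algebraMap K F (ϖ i) ∈ O₂.nonunits :=
  (H.hP2 i _).mp (H.two i).q_mem2

/-- the first vertical prime of the level -/
abbrev p1 (i : ι) : Ideal (H.R i) := trace O₁ (H.R i) (H.R_le₁ i)

/-- the second vertical prime of the level -/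
abbrev p2 (i : ι) : Ideal (H.R i) := trace O₂ (H.R i) (H.R_le₂ i)

/-- elements outside the point are units of `O₁` -/
theorem valuation₁_eq_one (i : ι) {b : C i} (hb : b ∉ (H.model i).point) :
    O₁.valuation (b : F) = 1 := by
  apply le_antisymm ((O₁.valuation_le_one_iff _).mpr ((H.model i).le₁ b b.2))
  by_contra hlt
  rw [not_le] at hlt
  exact hb ((H.model i).mem_point_of_nonunits₁ H.hres0₁ b (O₁.mem_nonunits_iff.mpr hlt))

/-- elements outside the point are units of `O₂` -/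
theorem valuation₂_eq_one (i : ι) {b : C i} (hb : b ∉ (H.model i).point) :
    O₂.valuation (b : F) = 1 := by
  apply le_antisymm ((O₂.valuation_le_one_iff _).mpr ((H.model i).le₂ b b.2))
  by_contra hlt
  rw [not_le] at hlt
  exact hb ((H.model i).mem_point_of_nonunits₂ H.hres0₂ b (O₂.mem_nonunits_iff.mpr hlt))

/-- The point of a bigger model restricts to the point of the base model. -/
theorem mem_point_base_iff (i : ι) (x : C i₀) :
    (⟨(x : F), H.base_le i x.2⟩ : C i) ∈ (H.model i).point ↔ x ∈ (H.model i₀).point := by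
  rw [(H.model i).mem_point_iff, (H.model i₀).mem_point_iff]

/-- A numerator in the point of a level is, modulo `𝔪_{O₁}`, a non-unit of the base local ring. -/
theorem exists_base₁ (i : ι) {a : C i} (ha : a ∈ (H.model i).point) :
    ∃ a₀ : H.R i₀, ¬ IsUnit a₀ ∧ (a : F) - (a₀ : F) ∈ O₁.nonunits := by
  obtain ⟨a₀, ha₀⟩ := H.surj₁ i a
  have ha₀p : a₀ ∈ (H.model i₀).point := by
    rw [← H.mem_point_base_iff i]
    have h1 : (⟨(a₀ : F), H.base_le i a₀.2⟩ : C i) =
        a - ⟨(a : F) - (a₀ : F), (C i).sub_mem a.2 (H.base_le i a₀.2)⟩ := by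
      apply Subtype.ext
      show (a₀ : F) = (a : F) - ((a : F) - (a₀ : F))
      ring
    rw [h1]
    exact Ideal.sub_mem _ ha ((H.model i).mem_point_of_nonunits₁ H.hres0₁ _ ha₀)
  refine ⟨⟨(a₀ : F), (H.model i₀).le_loc a₀.2⟩, ?_, ha₀⟩
  rw [Inst.LocSub.isUnit_coe_iff (n := (H.model i₀).point) a₀]
  exact not_not.mpr ha₀p

/-- A numerator in the point of a level is, modulo `𝔪_{O₂}`, a non-unit of the base local ring. -/
theorem exists_base₂ (i : ι) {a : C i} (ha : a ∈ (H.model i).point) :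
    ∃ a₀ : H.R i₀, ¬ IsUnit a₀ ∧ (a : F) - (a₀ : F) ∈ O₂.nonunits := by
  obtain ⟨a₀, ha₀⟩ := H.surj₂ i a
  have ha₀p : a₀ ∈ (H.model i₀).point := by
    rw [← H.mem_point_base_iff i]
    have h1 : (⟨(a₀ : F), H.base_le i a₀.2⟩ : C i) =
        a - ⟨(a : F) - (a₀ : F), (C i).sub_mem a.2 (H.base_le i a₀.2)⟩ := by
      apply Subtype.ext
      show (a₀ : F) = (a : F) - ((a : F) - (a₀ : F))
      ring
    rw [h1]
    exact Ideal.sub_mem _ ha ((H.model i).mem_point_of_nonunits₂ H.hres0₂ _ ha₀)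
  refine ⟨⟨(a₀ : F), (H.model i₀).le_loc a₀.2⟩, ?_, ha₀⟩
  rw [Inst.LocSub.isUnit_coe_iff (n := (H.model i₀).point) a₀]
  exact not_not.mpr ha₀p

/-- **`𝔪 = p1 + (v)` at every level**, with the SAME `v`. -/
theorem max1_level (i : ι) (x : H.R i) (hx : ¬ IsUnit x) :
    ∃ a b : H.R i, (a : F) ∈ O₁.nonunits ∧ (x : F) = (a : F) + (b : F) * v := by
  obtain ⟨a, b, hb, hab⟩ := (H.model i).mem_loc_iff.mp x.2
  have ha : a ∈ (H.model i).point := (H.model i).num_mem_point hx hb hab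
  obtain ⟨a₀, hnu, ha₀⟩ := H.exists_base₁ i ha
  obtain ⟨a', b', ha', hab'⟩ := H.max1 a₀ hnu
  have hb0 : (b : F) ≠ 0 := (H.model i).coe_ne_zero_of_notMem hb
  have hbinv : ((b : F))⁻¹ ∈ H.R i := inv_mem_locSub hb
  have hxe : (x : F) = (a : F) * ((b : F))⁻¹ := by
    rw [← hab, mul_assoc, mul_inv_cancel₀ hb0, mul_one]
  refine ⟨⟨(((a : F) - (a₀ : F)) + (a' : F)) * ((b : F))⁻¹, ?_⟩, ⟨(b' : F) * ((b : F))⁻¹, ?_⟩,
    ?_, ?_⟩
  · exact (H.R i).mul_mem ((H.R i).add_mem ((H.R i).sub_mem (H.C_le_R i a.2)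
      (H.base_le_R i a₀.2)) (H.base_le_R i a'.2)) hbinv
  · exact (H.R i).mul_mem (H.base_le_R i b'.2) hbinv
  · exact nonunits_mul_mem O₁ (nonunits_add O₁ ha₀ ha') (H.R_le₁ i _ hbinv)
  · show (x : F) = (((a : F) - (a₀ : F)) + (a' : F)) * ((b : F))⁻¹ + (b' : F) * ((b : F))⁻¹ * v
    rw [hxe]
    linear_combination ((b : F))⁻¹ * hab'

/-- **`𝔪 = p2 + (u)` at every level**, with the SAME `u`. -/
theorem max2_level (i : ι) (x : H.R i) (hx : ¬ IsUnit x) :
    ∃ a b : H.R i, (a : F) ∈ O₂.nonunits ∧ (x : F) = (a : F) + (b : F) * u := by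
  obtain ⟨a, b, hb, hab⟩ := (H.model i).mem_loc_iff.mp x.2
  have ha : a ∈ (H.model i).point := (H.model i).num_mem_point hx hb hab
  obtain ⟨a₀, hnu, ha₀⟩ := H.exists_base₂ i ha
  obtain ⟨a', b', ha', hab'⟩ := H.max2 a₀ hnu
  have hb0 : (b : F) ≠ 0 := (H.model i).coe_ne_zero_of_notMem hb
  have hbinv : ((b : F))⁻¹ ∈ H.R i := inv_mem_locSub hb
  have hxe : (x : F) = (a : F) * ((b : F))⁻¹ := by
    rw [← hab, mul_assoc, mul_inv_cancel₀ hb0, mul_one]
  refine ⟨⟨(((a : F) - (a₀ : F)) + (a' : F)) * ((b : F))⁻¹, ?_⟩, ⟨(b' : F) * ((b : F))⁻¹, ?_⟩,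
    ?_, ?_⟩
  · exact (H.R i).mul_mem ((H.R i).add_mem ((H.R i).sub_mem (H.C_le_R i a.2)
      (H.base_le_R i a₀.2)) (H.base_le_R i a'.2)) hbinv
  · exact (H.R i).mul_mem (H.base_le_R i b'.2) hbinv
  · exact nonunits_mul_mem O₂ (nonunits_add O₂ ha₀ ha') (H.R_le₂ i _ hbinv)
  · show (x : F) = (((a : F) - (a₀ : F)) + (a' : F)) * ((b : F))⁻¹ + (b' : F) * ((b : F))⁻¹ * u
    rw [hxe]
    linear_combination ((b : F))⁻¹ * hab'

/-- **`p1 ⊓ p2 = (ϖ)` at every level** (element form). -/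
theorem inter_level (i : ι) (x : H.R i) (h1 : (x : F) ∈ O₁.nonunits)
    (h2 : (x : F) ∈ O₂.nonunits) : ∃ y : H.R i, (x : F) = algebraMap K F (ϖ i) * (y : F) := by
  obtain ⟨a, b, hb, hab⟩ := (H.model i).mem_loc_iff.mp x.2
  have hb0 : (b : F) ≠ 0 := (H.model i).coe_ne_zero_of_notMem hb
  have hbinv : ((b : F))⁻¹ ∈ H.R i := inv_mem_locSub hb
  have ha1 : a ∈ P1 i := by
    rw [H.hP1, ← hab]
    exact nonunits_mul_mem O₁ h1 ((H.model i).le₁ b b.2)
  have ha2 : a ∈ P2 i := by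
    rw [H.hP2, ← hab]
    exact nonunits_mul_mem O₂ h2 ((H.model i).le₂ b b.2)
  have ha : a ∈ P1 i ⊓ P2 i := ⟨ha1, ha2⟩
  haveI := (H.model i).noeth
  haveI := (H.model i).intClosed
  rw [(H.two i).inf_eq, Ideal.mem_span_singleton'] at ha
  obtain ⟨c, hc⟩ := ha
  have hc' : (c : F) * algebraMap K F (ϖ i) = (a : F) := congrArg Subtype.val hc
  refine ⟨⟨(c : F) * ((b : F))⁻¹, (H.R i).mul_mem (H.C_le_R i c.2) hbinv⟩, ?_⟩
  show (x : F) = algebraMap K F (ϖ i) * ((c : F) * ((b : F))⁻¹)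
  have hxe : (x : F) = (a : F) * ((b : F))⁻¹ := by
    rw [← hab, mul_assoc, mul_inv_cancel₀ hb0, mul_one]
  rw [hxe, ← hc']
  ring

/-- the uniformizer, as an element of the local ring of the level -/
abbrev ϖR (i : ι) : H.R i := ⟨algebraMap K F (ϖ i), H.unif_memR i⟩

/-- the first coordinate, as an element of the local ring of the level -/
abbrev uR (i : ι) : H.R i := ⟨u, H.u_memR i⟩

/-- the second coordinate, as an element of the local ring of the level -/
abbrev vR (i : ι) : H.R i := ⟨v, H.v_memR i⟩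

/-- **The SAME `u`, `v` are node coordinates at every level.** -/
theorem nodeData (i : ι) :
    haveI := (H.model i).isLocalRing_loc
    NodeLemma.NodeData (H.ϖR i) (H.uR i) (H.vR i) (H.p1 i) (H.p2 i) := by
  haveI := (H.model i).isLocalRing_loc
  refine ⟨?_, H.u_mem₁, H.v_mem₂, ?_, ?_⟩
  · ext x
    rw [Ideal.mem_inf, Ideal.mem_span_singleton']
    constructor
    · rintro ⟨h1, h2⟩
      obtain ⟨y, hy⟩ := H.inter_level i x h1 h2
      refine ⟨y, Subtype.ext ?_⟩
      show (y : F) * algebraMap K F (ϖ i) = (x : F)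
      rw [hy, mul_comm]
    · rintro ⟨y, rfl⟩
      exact ⟨Ideal.mul_mem_left _ _ (H.unif_mem₁ i), Ideal.mul_mem_left _ _ (H.unif_mem₂ i)⟩
  · apply le_antisymm
    · intro x hx
      obtain ⟨a, b, ha, hab⟩ := H.max1_level i x ((mem_maximalIdeal x).mp hx)
      refine Submodule.mem_sup.mpr ⟨a, ha, b * H.vR i, ?_, ?_⟩
      · exact Ideal.mul_mem_left _ _ (Ideal.mem_span_singleton_self _)
      · exact Subtype.ext hab.symm
    · refine sup_le (fun x hx => ?_) ?_
      · exact (mem_maximalIdeal x).mpr (not_isUnit_of_mem_nonunits O₁ (H.R_le₁ i) hx)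
      · rw [Ideal.span_singleton_le_iff_mem]
        exact (mem_maximalIdeal _).mpr (not_isUnit_of_mem_nonunits O₂ (H.R_le₂ i) H.v_mem₂)
  · apply le_antisymm
    · intro x hx
      obtain ⟨a, b, ha, hab⟩ := H.max2_level i x ((mem_maximalIdeal x).mp hx)
      refine Submodule.mem_sup.mpr ⟨a, ha, b * H.uR i, ?_, ?_⟩
      · exact Ideal.mul_mem_left _ _ (Ideal.mem_span_singleton_self _)
      · exact Subtype.ext hab.symm
    · refine sup_le (fun x hx => ?_) ?_
      · exact (mem_maximalIdeal x).mpr (not_isUnit_of_mem_nonunits O₂ (H.R_le₂ i) hx)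
      · rw [Ideal.span_singleton_le_iff_mem]
        exact (mem_maximalIdeal _).mpr (not_isUnit_of_mem_nonunits O₁ (H.R_le₁ i) H.u_mem₁)

/-- **`𝔪 = (ϖ, u, v)` at every level.** -/
theorem nonunit_mem_level (i : ι) (x : H.R i) (hx : ¬ IsUnit x) :
    x ∈ Ideal.span {H.ϖR i, H.uR i, H.vR i} := by
  haveI := (H.model i).isLocalRing_loc
  rw [← (H.nodeData i).maximalIdeal_eq]
  exact (mem_maximalIdeal x).mpr hx

/-- **The vertical height-one primes of a level are `p1` and `p2`.** -/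
theorem vertical_level (i : ι) (Q : Ideal (H.R i)) (hQ : Q.IsPrime) (hht : Q.height = 1)
    (hϖ : H.ϖR i ∈ Q) : Q = H.p1 i ∨ Q = H.p2 i := by
  haveI := hQ
  have hpu : (Q.under (C i)).IsPrime := Ideal.IsPrime.under (C i) Q
  have hhtu : (Q.under (C i)).height = 1 := by
    rw [show Q.under (C i) = Ideal.under (C i) (Q : Ideal (locSub (C i) (H.model i).point))
      from rfl, Inst.LocSub.height_under]
    exact hht
  have hϖu : (⟨algebraMap K F (ϖ i), (H.model i).unif_mem⟩ : C i) ∈ Q.under (C i) := hϖ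
  rcases (H.two i).vertical _ hpu hhtu hϖu with h | h
  · left
    ext x
    rw [mem_trace_iff]
    exact forall_mem_iff_nonunits (Q : Ideal (locSub (C i) (H.model i).point)) O₁
      (fun x => (H.model i).le₁ x x.2) ((H.model i).mem_point_of_nonunits₁ H.hres0₁)
      (by rw [h]; exact H.hP1 i) x
  · right
    ext x
    rw [mem_trace_iff]
    exact forall_mem_iff_nonunits (Q : Ideal (locSub (C i) (H.model i).point)) O₂
      (fun x => (H.model i).le₂ x x.2) ((H.model i).mem_point_of_nonunits₂ H.hres0₂)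
      (by rw [h]; exact H.hP2 i) x

/-- **The constants of the local ring of a level are `A ∩ K' i`.** -/
theorem const_iff (i : ι) (c : K) : algebraMap K F c ∈ H.R i ↔ c ∈ K' i ∧ c ∈ A := by
  constructor
  · intro hc
    have hcK := H.const_field i c hc
    refine ⟨hcK, ?_⟩
    by_contra hcA
    have hlt : 1 < A.valuation c := by
      rw [← not_le]
      intro hle
      exact hcA ((A.valuation_le_one_iff c).mp hle)
    have hc0 : c ≠ 0 := by
      rintro rfl
      rw [map_zero] at hlt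
      exact not_lt.mpr zero_le_one hlt
    have hinv : A.valuation c⁻¹ < 1 := by
      rw [map_inv₀]
      exact inv_lt_one_of_one_lt₀ hlt
    have hle := H.unif_max i c⁻¹ ((K' i).inv_mem hcK) hinv
    have hwA : c⁻¹ / ϖ i ∈ A := AnnulusN2.div_mem_of_valuation_le A (H.model i).unif_ne hle
    have hwK : c⁻¹ / ϖ i ∈ K' i := (K' i).div_mem ((K' i).inv_mem hcK) (H.unif_memK i)
    have hwC := H.const_mem i _ hwK hwA
    have h1 : algebraMap K F c⁻¹ ∈ O₁.nonunits := by
      have e : algebraMap K F c⁻¹ = algebraMap K F (ϖ i) * algebraMap K F (c⁻¹ / ϖ i) := by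
        rw [← map_mul, mul_div_cancel₀ _ (H.model i).unif_ne]
      rw [e]
      exact nonunits_mul_mem O₁ (H.unif_mem₁ i) ((H.model i).le₁ _ hwC)
    have h2 := nonunits_mul_mem O₁ h1 (H.R_le₁ i _ hc)
    rw [← map_mul, inv_mul_cancel₀ hc0, map_one] at h2
    exact one_notMem_nonunits O₁ h2
  · rintro ⟨hcK, hcA⟩
    exact H.C_le_R i (H.const_mem i c hcK hcA)

/-- **The horizontal height-one primes of a level are the kernels of the evaluations at the
places of the tube.** -/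
theorem horiz_level (i : ι) (Q : Ideal (H.R i)) (hQ : Q.IsPrime) (hht : Q.height = 1)
    (hϖ : H.ϖR i ∉ Q) : ∃ P ∈ T, ∀ x : H.R i, x ∈ Q ↔ evalAt P (x : F) = 0 := by
  obtain ⟨P, hcen, hev⟩ := H.horiz i Q hQ hht hϖ
  exact ⟨P, (H.model i).mem_tube_of_centredAt hcen, fun x => (hev x).symm⟩

/-- **(N2) at every level** (helper5's class-group lemma `AnnulusN2.n2_of_fields`). -/
theorem n2_level (i : ι) (z : F) (hz : z ≠ 0)
    (hfrac : ∃ a b : H.R i, b ≠ 0 ∧ z * (b : F) = (a : F))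
    (hhor : ∀ Q : Ideal (H.R i), Q.IsPrime → Q.height = 1 → H.ϖR i ∉ Q →
      ∃ s t : H.R i, s ∉ Q ∧ t ∉ Q ∧ z * (s : F) = (t : F)) :
    ∃ (d : K) (β : ℤ) (ε : F), d ≠ 0 ∧ ε ∈ H.R i ∧ ε⁻¹ ∈ H.R i ∧
      z = algebraMap K F d * u ^ β * ε := by
  haveI := (H.model i).isLocalRing_loc
  haveI := (H.model i).isNoetherianRing_loc
  haveI := (H.model i).isIntegrallyClosed_loc
  exact AnnulusN2.n2_of_fields A H.thick_ne H.thick_lt H.uv (H.R i) (K' i) (ϖ i) (H.const_iff i)
    (H.unif_memK i) (H.model i).unif_ne (H.model i).unif_lt (H.unif_max i)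
    (H.base_leK i H.thick_mem) (H.ϖR i) (H.uR i) (H.vR i) rfl rfl rfl
    (H.base_le_R i H.ε₀_mem) (H.base_le_R i H.ε₀_inv_mem) (H.nodeData i).maximalIdeal_eq
    (H.p1 i) (H.p2 i) (trace_isPrime O₁ _ _) (trace_isPrime O₂ _ _) (H.unif_mem₁ i)
    (H.unif_mem₂ i) H.u_mem₁ H.v_mem₂ H.v_notMem₁ H.u_notMem₂
    (fun y => by
      obtain ⟨c, h, hnu⟩ := (H.model i).loc_residue H.hres₁ H.hπ y
      exact ⟨c, c.2, h, hnu⟩) z hz hfrac hhor

/-- **One level** of the annulus level data. -/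
noncomputable def nodeLevel (i : ι) : NodeLevel A T u v ε₀ thick where
  R := H.R i
  K' := K' i
  ϖ := ϖ i
  noeth := (H.model i).isNoetherianRing_loc
  intClosed := (H.model i).isIntegrallyClosed_loc
  isLocal := (H.model i).isLocalRing_loc
  const_mem := fun c hc hcA => H.C_le_R i (H.const_mem i c hc hcA)
  unif_mem := H.unif_memK i
  unif_ne := (H.model i).unif_ne
  unif_lt := (H.model i).unif_lt
  unif_max := H.unif_max i
  thick_mem := H.base_leK i H.thick_mem
  unif_memR := H.unif_memR i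
  u_mem := H.u_memR i
  v_mem := H.v_memR i
  ε₀_mem := H.base_le_R i H.ε₀_mem
  ε₀_inv_mem := H.base_le_R i H.ε₀_inv_mem
  nonunit_mem := H.nonunit_mem_level i
  p1 := H.p1 i
  p2 := H.p2 i
  prime1 := trace_isPrime O₁ _ _
  prime2 := trace_isPrime O₂ _ _
  unif_mem_p1 := H.unif_mem₁ i
  unif_mem_p2 := H.unif_mem₂ i
  u_mem_p1 := H.u_mem₁
  v_mem_p2 := H.v_mem₂
  v_notMem_p1 := H.v_notMem₁
  u_notMem_p2 := H.u_notMem₂
  vertical := H.vertical_level i
  residue := (H.model i).loc_residue H.hres₁ H.hπ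
  centred := fun _ hP => (H.model i).loc_centred hP
  horiz := H.horiz_level i
  n2 := H.n2_level i

/-- **The level data of the tube of a crossing point from the global models.** -/
noncomputable def levels : AnnulusLevels A T ι where
  u := u
  v := v
  ε₀ := ε₀
  thick := thick
  thick_ne := H.thick_ne
  thick_lt := H.thick_lt
  uv := H.uv
  level := H.nodeLevel
  directed := fun i j => by
    obtain ⟨l, hil, hjl, hKil, hKjl⟩ := H.directed i j
    exact ⟨l, (H.model i).loc_mono (H.model l) hil, (H.model j).loc_mono (H.model l) hjl,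
      hKil, hKjl⟩
  frac := fun y => by
    obtain ⟨i, a, b, hb, hab⟩ := H.frac y
    refine ⟨i, ⟨a, H.C_le_R i a.2⟩, ⟨b, H.C_le_R i b.2⟩, ?_, hab⟩
    intro h0
    apply hb
    apply Subtype.ext
    exact congrArg (fun x : H.R i => (x : F)) h0
  const := H.constK
  finite_div := H.finite_div

end AnnulusModels

end Fermat.Agent.BR.Inst.LevelsAnnulus
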