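/-
Program B (bad reduction), level-data assembly, node (c), FINAL form (helper8): the level data
`S0.AnnulusLevels` of the tube of a crossing point from the GLOBAL normal models at the levels.

Supersedes the structure of `BR/Inst/LevelsAnnulus` (whose generic lemmas are reused):
* the hypothesis `const_field` is DROPPED: the engine field `n2` of `S0.NodeLevel` comes from
  `S0.AnnulusN2Level.nodeLevelOfFields` (helper5), which needs the constants in one direction only;
* two outputs: `AnnulusModels.levels` (`L.u = u`, `L.v = v`) and `AnnulusModels.levelsSwap`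
  (`L.u = v`, `L.v = u`, `p1 ↔ p2`): with `O₁` = component `0` = source, `O₂` = component `1` =
  target and `u ∈ 𝔪(O₁)`, `v ∈ 𝔪(O₂)` (the names of `BR/Inst/CrossingFF`), the annulus parameter
  of the circle contract (a unit on the source component) is `L.u = v`, i.e. `levelsSwap`.

Per-level input: `model : ∀ i, S0.CrossingModel A π O₁ O₂ res₁ res₂ Q₁ Q₂ T (C i) (ϖ i)` and the
hypotheses `hres₁ hres0₁ hres0₂ hπ horiz` of `S0.NodeLevels.ofModels`, verbatim.
-/
import Mathlib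
import Fermat.Agent.BR.Inst.LevelsAnnulus
import Fermat.Agent.BR.S0.AnnulusN2Level

set_option autoImplicit false
set_option linter.style.haveILetI false
set_option linter.unusedSectionVars false

namespace Fermat.Agent.BR.Inst.LevelsAnnulusCore

open AlgebraicCurve IsLocalRing Fermat.Agent.Red Fermat.Agent.BR Fermat.Agent.BR.Centre
  Fermat.Agent.BR.Inst.LocSub Fermat.Agent.BR.S0
open Fermat.Agent.BR.Inst.LevelsAnnulus (nonunits_add nonunits_neg nonunits_sub nonunits_mul_mem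
  mem_mul_nonunits mem_of_mem_nonunits zero_mem_nonunits one_notMem_nonunits trace mem_trace_iff
  trace_isPrime not_isUnit_of_mem_nonunits)

variable {K F k : Type*} [Field K] [Field F] [Algebra K F] [Field k]
  {Ft₁ Ft₂ : Type*} [Field Ft₁] [Algebra k Ft₁] [Field Ft₂] [Algebra k Ft₂]

/-- The local ring of a model lies in every subfield containing the model. -/
theorem loc_le_subfield {A : ValuationSubring K} {π : A →+* k} {O₁ O₂ : ValuationSubring F}
    {res₁ : O₁ →+* Ft₁} {res₂ : O₂ →+* Ft₂} {Q₁ : Place k Ft₁} {Q₂ : Place k Ft₂}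
    {T : Set (Place K F)} {C : Subring F} {ϖ : K}
    (M : CrossingModel A π O₁ O₂ res₁ res₂ Q₁ Q₂ T C ϖ) (E : Subfield F)
    (hE : ∀ x ∈ C, x ∈ E) : ∀ x ∈ M.loc, x ∈ E := by
  intro x hx
  obtain ⟨a, b, hb, hab⟩ := M.mem_loc_iff.mp hx
  have hb0 := M.coe_ne_zero_of_notMem hb
  rw [eq_div_of_mul_eq hb0 hab]
  exact E.div_mem (hE a a.2) (hE b b.2)

/-! ### The hypotheses -/

/-- A directed family of global normal models `C i` (over `A ∩ K' i`, uniformizer `ϖ i`) at a
crossing point, with the node data `u`, `v`, `u * v = thick • ε₀` at a base level `i₀`. -/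
structure AnnulusModels (A : ValuationSubring K) (π : A →+* k) (O₁ O₂ : ValuationSubring F)
    (res₁ : O₁ →+* Ft₁) (res₂ : O₂ →+* Ft₂) (Q₁ : Place k Ft₁) (Q₂ : Place k Ft₂)
    (T : Set (Place K F)) {ι : Type*} (C : ι → Subring F) (ϖ : ι → K) (K' : ι → Subfield K)
    (P1 P2 : ∀ i, Ideal (C i)) (i₀ : ι) (u v ε₀ : F) (thick : K) : Prop where
  /-- the global models (the input of `S0.NodeLevels.ofModels`) -/
  model : ∀ i, CrossingModel A π O₁ O₂ res₁ res₂ Q₁ Q₂ T (C i) (ϖ i)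
  hres₁ : ∀ (a : K) (ha : a ∈ A) (h : algebraMap K F a ∈ O₁),
    res₁ ⟨algebraMap K F a, h⟩ = algebraMap k Ft₁ (π ⟨a, ha⟩)
  hres0₁ : ∀ x : O₁, (x : F) ∈ O₁.nonunits → res₁ x = 0
  hres0₂ : ∀ x : O₂, (x : F) ∈ O₂.nonunits → res₂ x = 0
  hπ : ∀ a : A, π a ≠ 0 → (a : K)⁻¹ ∈ A
  /-- the places over the horizontal height-one primes (shape (L5), as in
  `S0.NodeLevels.ofModels`) -/
  horiz : ∀ i, ∀ p : Ideal (model i).loc, p.IsPrime → p.height = 1 →
    (⟨algebraMap K F (ϖ i), (model i).le_loc (model i).unif_mem⟩ : (model i).loc) ∉ p →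
    ∃ P : Place K F, CentredAt A (model i).loc P ∧ ∀ y : (model i).loc, evalAt P (y : F) = 0 ↔ y ∈ p
  /-- the uniformizer lies in the coefficient field -/
  unif_memK : ∀ i, ϖ i ∈ K' i
  /-- `ϖ i` is a uniformizer of `A ∩ K' i` -/
  unif_max : ∀ i, ∀ c ∈ K' i, A.valuation c < 1 → A.valuation c ≤ A.valuation (ϖ i)
  /-- the constants `A ∩ K' i` lie in the model -/
  const_mem : ∀ i, ∀ c ∈ K' i, c ∈ A → algebraMap K F c ∈ C i
  hP1 : ∀ i (x : C i), x ∈ P1 i ↔ (x : F) ∈ O₁.nonunits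
  hP2 : ∀ i (x : C i), x ∈ P2 i ↔ (x : F) ∈ O₂.nonunits
  /-- the special fibre of the model has the two components `P1`, `P2` -/
  two : ∀ i, SpecialFibre.TwoComponents (⟨algebraMap K F (ϖ i), (model i).unif_mem⟩ : C i)
    (P1 i) (P2 i)
  directed : ∀ i j, ∃ l, C i ≤ C l ∧ C j ≤ C l ∧ K' i ≤ K' l ∧ K' j ≤ K' l
  frac : ∀ y : F, ∃ i, ∃ a b : C i, b ≠ 0 ∧ y * (b : F) = (a : F)
  constK : ∀ c : K, ∃ i, c ∈ K' i
  finite_div : ∀ y : F, y ≠ 0 → {P : Place K F | P.ord y ≠ 0}.Finite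
  /-- the base level is the smallest one -/
  base_le : ∀ i, C i₀ ≤ C i
  base_leK : ∀ i, K' i₀ ≤ K' i
  /-- the first reduction of the models does not grow with the level -/
  surj₁ : ∀ i (x : C i), ∃ x₀ : C i₀, (x : F) - (x₀ : F) ∈ O₁.nonunits
  /-- the second reduction of the models does not grow with the level -/
  surj₂ : ∀ i (x : C i), ∃ x₀ : C i₀, (x : F) - (x₀ : F) ∈ O₂.nonunits
  thick_ne : thick ≠ 0
  thick_lt : A.valuation thick < 1
  thick_mem : thick ∈ K' i₀
  uv : u * v = thick • ε₀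
  u_mem : u ∈ (model i₀).loc
  v_mem : v ∈ (model i₀).loc
  ε₀_mem : ε₀ ∈ (model i₀).loc
  ε₀_inv_mem : ε₀⁻¹ ∈ (model i₀).loc
  u_mem₁ : u ∈ O₁.nonunits
  v_mem₂ : v ∈ O₂.nonunits
  v_notMem₁ : v ∉ O₁.nonunits
  u_notMem₂ : u ∉ O₂.nonunits
  /-- `𝔪 = p1 + (v)` at the base level -/
  max1 : ∀ x : (model i₀).loc, ¬ IsUnit x →
    ∃ a b : (model i₀).loc, (a : F) ∈ O₁.nonunits ∧ (x : F) = (a : F) + (b : F) * v
  /-- `𝔪 = p2 + (u)` at the base level -/
  max2 : ∀ x : (model i₀).loc, ¬ IsUnit x →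
    ∃ a b : (model i₀).loc, (a : F) ∈ O₂.nonunits ∧ (x : F) = (a : F) + (b : F) * u

namespace AnnulusModels

variable {A : ValuationSubring K} {π : A →+* k} {O₁ O₂ : ValuationSubring F}
  {res₁ : O₁ →+* Ft₁} {res₂ : O₂ →+* Ft₂} {Q₁ : Place k Ft₁} {Q₂ : Place k Ft₂}
  {T : Set (Place K F)} {ι : Type*} {C : ι → Subring F} {ϖ : ι → K} {K' : ι → Subfield K}
  {P1 P2 : ∀ i, Ideal (C i)} {i₀ : ι} {u v ε₀ : F} {thick : K}
  (H : AnnulusModels A π O₁ O₂ res₁ res₂ Q₁ Q₂ T C ϖ K' P1 P2 i₀ u v ε₀ thick)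

/-- the local ring of the level -/
abbrev R (i : ι) : Subring F := (H.model i).loc

theorem R_le₁ (i : ι) : ∀ z ∈ H.R i, z ∈ O₁ := (H.model i).loc_le₁ H.hres0₁

theorem R_le₂ (i : ι) : ∀ z ∈ H.R i, z ∈ O₂ := (H.model i).loc_le₂ H.hres0₂

theorem base_le_R (i : ι) : H.R i₀ ≤ H.R i := (H.model i₀).loc_mono (H.model i) (H.base_le i)

theorem C_le_R (i : ι) : C i ≤ H.R i := (H.model i).le_loc

theorem unif_memR (i : ι) : algebraMap K F (ϖ i) ∈ H.R i := H.C_le_R i (H.model i).unif_mem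

theorem u_memR (i : ι) : u ∈ H.R i := H.base_le_R i H.u_mem

theorem v_memR (i : ι) : v ∈ H.R i := H.base_le_R i H.v_mem

include H in
theorem unif_mem₁ (i : ι) : algebraMap K F (ϖ i) ∈ O₁.nonunits :=
  (H.hP1 i _).mp (H.two i).q_mem1

include H in
theorem unif_mem₂ (i : ι) : algebraMap K F (ϖ i) ∈ O₂.nonunits :=
  (H.hP2 i _).mp (H.two i).q_mem2

/-- the first vertical prime of the level -/
abbrev p1 (i : ι) : Ideal (H.R i) := trace O₁ (H.R i) (H.R_le₁ i)

/-- the second vertical prime of the level -/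
abbrev p2 (i : ι) : Ideal (H.R i) := trace O₂ (H.R i) (H.R_le₂ i)

/-- elements outside the point are units of `O₁` -/
theorem valuation₁_eq_one (i : ι) {b : C i} (hb : b ∉ (H.model i).point) :
    O₁.valuation (b : F) = 1 := by
  apply le_antisymm ((O₁.valuation_le_one_iff _).mpr ((H.model i).le₁ b b.2))
  by_contra hlt
  rw [not_le] at hlt
  exact hb ((H.model i).mem_point_of_nonunits₁ H.hres0₁ b (O₁.mem_nonunits_iff.mpr hlt))

/-- elements outside the point are units of `O₂` -/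
theorem valuation₂_eq_one (i : ι) {b : C i} (hb : b ∉ (H.model i).point) :
    O₂.valuation (b : F) = 1 := by
  apply le_antisymm ((O₂.valuation_le_one_iff _).mpr ((H.model i).le₂ b b.2))
  by_contra hlt
  rw [not_le] at hlt
  exact hb ((H.model i).mem_point_of_nonunits₂ H.hres0₂ b (O₂.mem_nonunits_iff.mpr hlt))

/-- The point of a bigger model restricts to the point of the base model. -/
theorem mem_point_base_iff (i : ι) (x : C i₀) :
    (⟨(x : F), H.base_le i x.2⟩ : C i) ∈ (H.model i).point ↔ x ∈ (H.model i₀).point := by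
  rw [(H.model i).mem_point_iff, (H.model i₀).mem_point_iff]

/-- A numerator in the point of a level is, modulo `𝔪_{O₁}`, a non-unit of the base local ring. -/
theorem exists_base₁ (i : ι) {a : C i} (ha : a ∈ (H.model i).point) :
    ∃ a₀ : H.R i₀, ¬ IsUnit a₀ ∧ (a : F) - (a₀ : F) ∈ O₁.nonunits := by
  obtain ⟨a₀, ha₀⟩ := H.surj₁ i a
  have ha₀p : a₀ ∈ (H.model i₀).point := by
    rw [← H.mem_point_base_iff i]
    have h1 : (⟨(a₀ : F), H.base_le i a₀.2⟩ : C i) =
        a - ⟨(a : F) - (a₀ : F), (C i).sub_mem a.2 (H.base_le i a₀.2)⟩ := by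
      apply Subtype.ext
      show (a₀ : F) = (a : F) - ((a : F) - (a₀ : F))
      ring
    rw [h1]
    exact Ideal.sub_mem _ ha ((H.model i).mem_point_of_nonunits₁ H.hres0₁ _ ha₀)
  refine ⟨⟨(a₀ : F), (H.model i₀).le_loc a₀.2⟩, ?_, ha₀⟩
  rw [Inst.LocSub.isUnit_coe_iff (n := (H.model i₀).point) a₀]
  exact not_not.mpr ha₀p

/-- A numerator in the point of a level is, modulo `𝔪_{O₂}`, a non-unit of the base local ring. -/
theorem exists_base₂ (i : ι) {a : C i} (ha : a ∈ (H.model i).point) :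
    ∃ a₀ : H.R i₀, ¬ IsUnit a₀ ∧ (a : F) - (a₀ : F) ∈ O₂.nonunits := by
  obtain ⟨a₀, ha₀⟩ := H.surj₂ i a
  have ha₀p : a₀ ∈ (H.model i₀).point := by
    rw [← H.mem_point_base_iff i]
    have h1 : (⟨(a₀ : F), H.base_le i a₀.2⟩ : C i) =
        a - ⟨(a : F) - (a₀ : F), (C i).sub_mem a.2 (H.base_le i a₀.2)⟩ := by
      apply Subtype.ext
      show (a₀ : F) = (a : F) - ((a : F) - (a₀ : F))
      ring
    rw [h1]
    exact Ideal.sub_mem _ ha ((H.model i).mem_point_of_nonunits₂ H.hres0₂ _ ha₀)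
  refine ⟨⟨(a₀ : F), (H.model i₀).le_loc a₀.2⟩, ?_, ha₀⟩
  rw [Inst.LocSub.isUnit_coe_iff (n := (H.model i₀).point) a₀]
  exact not_not.mpr ha₀p

/-- **`𝔪 = p1 + (v)` at every level**, with the SAME `v`. -/
theorem max1_level (i : ι) (x : H.R i) (hx : ¬ IsUnit x) :
    ∃ a b : H.R i, (a : F) ∈ O₁.nonunits ∧ (x : F) = (a : F) + (b : F) * v := by
  obtain ⟨a, b, hb, hab⟩ := (H.model i).mem_loc_iff.mp x.2
  have ha : a ∈ (H.model i).point := (H.model i).num_mem_point hx hb hab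
  obtain ⟨a₀, hnu, ha₀⟩ := H.exists_base₁ i ha
  obtain ⟨a', b', ha', hab'⟩ := H.max1 a₀ hnu
  have hb0 : (b : F) ≠ 0 := (H.model i).coe_ne_zero_of_notMem hb
  have hbinv : ((b : F))⁻¹ ∈ H.R i := inv_mem_locSub hb
  have hxe : (x : F) = (a : F) * ((b : F))⁻¹ := by
    rw [← hab, mul_assoc, mul_inv_cancel₀ hb0, mul_one]
  refine ⟨⟨(((a : F) - (a₀ : F)) + (a' : F)) * ((b : F))⁻¹, ?_⟩, ⟨(b' : F) * ((b : F))⁻¹, ?_⟩,
    ?_, ?_⟩
  · exact (H.R i).mul_mem ((H.R i).add_mem ((H.R i).sub_mem (H.C_le_R i a.2)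
      (H.base_le_R i a₀.2)) (H.base_le_R i a'.2)) hbinv
  · exact (H.R i).mul_mem (H.base_le_R i b'.2) hbinv
  · exact nonunits_mul_mem O₁ (nonunits_add O₁ ha₀ ha') (H.R_le₁ i _ hbinv)
  · show (x : F) = (((a : F) - (a₀ : F)) + (a' : F)) * ((b : F))⁻¹ + (b' : F) * ((b : F))⁻¹ * v
    rw [hxe]
    linear_combination ((b : F))⁻¹ * hab'

/-- **`𝔪 = p2 + (u)` at every level**, with the SAME `u`. -/
theorem max2_level (i : ι) (x : H.R i) (hx : ¬ IsUnit x) :
    ∃ a b : H.R i, (a : F) ∈ O₂.nonunits ∧ (x : F) = (a : F) + (b : F) * u := by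
  obtain ⟨a, b, hb, hab⟩ := (H.model i).mem_loc_iff.mp x.2
  have ha : a ∈ (H.model i).point := (H.model i).num_mem_point hx hb hab
  obtain ⟨a₀, hnu, ha₀⟩ := H.exists_base₂ i ha
  obtain ⟨a', b', ha', hab'⟩ := H.max2 a₀ hnu
  have hb0 : (b : F) ≠ 0 := (H.model i).coe_ne_zero_of_notMem hb
  have hbinv : ((b : F))⁻¹ ∈ H.R i := inv_mem_locSub hb
  have hxe : (x : F) = (a : F) * ((b : F))⁻¹ := by
    rw [← hab, mul_assoc, mul_inv_cancel₀ hb0, mul_one]
  refine ⟨⟨(((a : F) - (a₀ : F)) + (a' : F)) * ((b : F))⁻¹, ?_⟩, ⟨(b' : F) * ((b : F))⁻¹, ?_⟩,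
    ?_, ?_⟩
  · exact (H.R i).mul_mem ((H.R i).add_mem ((H.R i).sub_mem (H.C_le_R i a.2)
      (H.base_le_R i a₀.2)) (H.base_le_R i a'.2)) hbinv
  · exact (H.R i).mul_mem (H.base_le_R i b'.2) hbinv
  · exact nonunits_mul_mem O₂ (nonunits_add O₂ ha₀ ha') (H.R_le₂ i _ hbinv)
  · show (x : F) = (((a : F) - (a₀ : F)) + (a' : F)) * ((b : F))⁻¹ + (b' : F) * ((b : F))⁻¹ * u
    rw [hxe]
    linear_combination ((b : F))⁻¹ * hab'

/-- **`p1 ⊓ p2 = (ϖ)` at every level** (element form). -/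
theorem inter_level (i : ι) (x : H.R i) (h1 : (x : F) ∈ O₁.nonunits)
    (h2 : (x : F) ∈ O₂.nonunits) : ∃ y : H.R i, (x : F) = algebraMap K F (ϖ i) * (y : F) := by
  obtain ⟨a, b, hb, hab⟩ := (H.model i).mem_loc_iff.mp x.2
  have hb0 : (b : F) ≠ 0 := (H.model i).coe_ne_zero_of_notMem hb
  have hbinv : ((b : F))⁻¹ ∈ H.R i := inv_mem_locSub hb
  have ha1 : a ∈ P1 i := by
    rw [H.hP1, ← hab]
    exact nonunits_mul_mem O₁ h1 ((H.model i).le₁ b b.2)
  have ha2 : a ∈ P2 i := by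
    rw [H.hP2, ← hab]
    exact nonunits_mul_mem O₂ h2 ((H.model i).le₂ b b.2)
  have ha : a ∈ P1 i ⊓ P2 i := ⟨ha1, ha2⟩
  haveI := (H.model i).noeth
  haveI := (H.model i).intClosed
  rw [(H.two i).inf_eq, Ideal.mem_span_singleton'] at ha
  obtain ⟨c, hc⟩ := ha
  have hc' : (c : F) * algebraMap K F (ϖ i) = (a : F) := congrArg Subtype.val hc
  refine ⟨⟨(c : F) * ((b : F))⁻¹, (H.R i).mul_mem (H.C_le_R i c.2) hbinv⟩, ?_⟩
  show (x : F) = algebraMap K F (ϖ i) * ((c : F) * ((b : F))⁻¹)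
  have hxe : (x : F) = (a : F) * ((b : F))⁻¹ := by
    rw [← hab, mul_assoc, mul_inv_cancel₀ hb0, mul_one]
  rw [hxe, ← hc']
  ring

/-- the uniformizer, as an element of the local ring of the level -/
abbrev ϖR (i : ι) : H.R i := ⟨algebraMap K F (ϖ i), H.unif_memR i⟩

/-- the first coordinate, as an element of the local ring of the level -/
abbrev uR (i : ι) : H.R i := ⟨u, H.u_memR i⟩

/-- the second coordinate, as an element of the local ring of the level -/
abbrev vR (i : ι) : H.R i := ⟨v, H.v_memR i⟩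

/-- **The SAME `u`, `v` are node coordinates at every level.** -/
theorem nodeData (i : ι) :
    haveI := (H.model i).isLocalRing_loc
    NodeLemma.NodeData (H.ϖR i) (H.uR i) (H.vR i) (H.p1 i) (H.p2 i) := by
  haveI := (H.model i).isLocalRing_loc
  refine ⟨?_, H.u_mem₁, H.v_mem₂, ?_, ?_⟩
  · ext x
    rw [Ideal.mem_inf, Ideal.mem_span_singleton']
    constructor
    · rintro ⟨h1, h2⟩
      obtain ⟨y, hy⟩ := H.inter_level i x h1 h2
      refine ⟨y, Subtype.ext ?_⟩
      show (y : F) * algebraMap K F (ϖ i) = (x : F)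
      rw [hy, mul_comm]
    · rintro ⟨y, rfl⟩
      exact ⟨Ideal.mul_mem_left _ _ (H.unif_mem₁ i), Ideal.mul_mem_left _ _ (H.unif_mem₂ i)⟩
  · apply le_antisymm
    · intro x hx
      obtain ⟨a, b, ha, hab⟩ := H.max1_level i x ((mem_maximalIdeal x).mp hx)
      refine Submodule.mem_sup.mpr ⟨a, ha, b * H.vR i, ?_, ?_⟩
      · exact Ideal.mul_mem_left _ _ (Ideal.mem_span_singleton_self _)
      · exact Subtype.ext hab.symm
    · refine sup_le (fun x hx => ?_) ?_
      · exact (mem_maximalIdeal x).mpr (not_isUnit_of_mem_nonunits O₁ (H.R_le₁ i) hx)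
      · rw [Ideal.span_singleton_le_iff_mem]
        exact (mem_maximalIdeal _).mpr (not_isUnit_of_mem_nonunits O₂ (H.R_le₂ i) H.v_mem₂)
  · apply le_antisymm
    · intro x hx
      obtain ⟨a, b, ha, hab⟩ := H.max2_level i x ((mem_maximalIdeal x).mp hx)
      refine Submodule.mem_sup.mpr ⟨a, ha, b * H.uR i, ?_, ?_⟩
      · exact Ideal.mul_mem_left _ _ (Ideal.mem_span_singleton_self _)
      · exact Subtype.ext hab.symm
    · refine sup_le (fun x hx => ?_) ?_
      · exact (mem_maximalIdeal x).mpr (not_isUnit_of_mem_nonunits O₂ (H.R_le₂ i) hx)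
      · rw [Ideal.span_singleton_le_iff_mem]
        exact (mem_maximalIdeal _).mpr (not_isUnit_of_mem_nonunits O₁ (H.R_le₁ i) H.u_mem₁)

/-- **`𝔪 = (ϖ, u, v)` at every level.** -/
theorem nonunit_mem_level (i : ι) (x : H.R i) (hx : ¬ IsUnit x) :
    x ∈ Ideal.span {H.ϖR i, H.uR i, H.vR i} := by
  haveI := (H.model i).isLocalRing_loc
  rw [← (H.nodeData i).maximalIdeal_eq]
  exact (mem_maximalIdeal x).mpr hx

/-- **The vertical height-one primes of a level are `p1` and `p2`.** -/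
theorem vertical_level (i : ι) (Q : Ideal (H.R i)) (hQ : Q.IsPrime) (hht : Q.height = 1)
    (hϖ : H.ϖR i ∈ Q) : Q = H.p1 i ∨ Q = H.p2 i := by
  haveI := hQ
  have hpu : (Q.under (C i)).IsPrime := Ideal.IsPrime.under (C i) Q
  have hhtu : (Q.under (C i)).height = 1 := by
    rw [show Q.under (C i) = Ideal.under (C i) (Q : Ideal (locSub (C i) (H.model i).point))
      from rfl, Inst.LocSub.height_under]
    exact hht
  have hϖu : (⟨algebraMap K F (ϖ i), (H.model i).unif_mem⟩ : C i) ∈ Q.under (C i) := hϖ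
  rcases (H.two i).vertical _ hpu hhtu hϖu with h | h
  · left
    ext x
    rw [mem_trace_iff]
    exact forall_mem_iff_nonunits (Q : Ideal (locSub (C i) (H.model i).point)) O₁
      (fun x => (H.model i).le₁ x x.2) ((H.model i).mem_point_of_nonunits₁ H.hres0₁)
      (by rw [h]; exact H.hP1 i) x
  · right
    ext x
    rw [mem_trace_iff]
    exact forall_mem_iff_nonunits (Q : Ideal (locSub (C i) (H.model i).point)) O₂
      (fun x => (H.model i).le₂ x x.2) ((H.model i).mem_point_of_nonunits₂ H.hres0₂)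
      (by rw [h]; exact H.hP2 i) x

/-- **The horizontal height-one primes of a level are the kernels of the evaluations at the
places of the tube.** -/
theorem horiz_level (i : ι) (Q : Ideal (H.R i)) (hQ : Q.IsPrime) (hht : Q.height = 1)
    (hϖ : H.ϖR i ∉ Q) : ∃ P ∈ T, ∀ x : H.R i, x ∈ Q ↔ evalAt P (x : F) = 0 := by
  obtain ⟨P, hcen, hev⟩ := H.horiz i Q hQ hht hϖ
  exact ⟨P, (H.model i).mem_tube_of_centredAt hcen, fun x => (hev x).symm⟩

/-- **One level** of the annulus level data (`n2` by `AnnulusN2Level.nodeLevelOfFields`). -/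
noncomputable def nodeLevel (i : ι) : NodeLevel A T u v ε₀ thick :=
  AnnulusN2Level.nodeLevelOfFields A T H.thick_ne H.thick_lt H.uv (H.R i) (K' i) (ϖ i)
    (H.model i).isNoetherianRing_loc (H.model i).isIntegrallyClosed_loc (H.model i).isLocalRing_loc
    (fun c hc hcA => H.C_le_R i (H.const_mem i c hc hcA)) (H.unif_memK i) (H.model i).unif_ne
    (H.model i).unif_lt (H.unif_max i) (H.base_leK i H.thick_mem) (H.unif_memR i) (H.u_memR i)
    (H.v_memR i) (H.base_le_R i H.ε₀_mem) (H.base_le_R i H.ε₀_inv_mem) (H.nonunit_mem_level i)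
    (H.p1 i) (H.p2 i) (trace_isPrime O₁ _ _) (trace_isPrime O₂ _ _) (H.unif_mem₁ i)
    (H.unif_mem₂ i) H.u_mem₁ H.v_mem₂ H.v_notMem₁ H.u_notMem₂ (H.vertical_level i)
    ((H.model i).loc_residue H.hres₁ H.hπ) (fun _ hP => (H.model i).loc_centred hP)
    (H.horiz_level i)

theorem nodeLevel_R (i : ι) : (H.nodeLevel i).R = H.R i := rfl

theorem nodeLevel_K' (i : ι) : (H.nodeLevel i).K' = K' i := rfl

theorem nodeLevel_ϖ (i : ι) : (H.nodeLevel i).ϖ = ϖ i := rfl

include H in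
theorem uv_swap : v * u = thick • ε₀ := by rw [mul_comm]; exact H.uv

/-- **One level, coordinates exchanged**: `L.u := v`, `L.v := u`, `p1 ↔ p2`. -/
noncomputable def nodeLevelSwap (i : ι) : NodeLevel A T v u ε₀ thick :=
  AnnulusN2Level.nodeLevelOfFields A T H.thick_ne H.thick_lt H.uv_swap (H.R i) (K' i) (ϖ i)
    (H.model i).isNoetherianRing_loc (H.model i).isIntegrallyClosed_loc (H.model i).isLocalRing_loc
    (fun c hc hcA => H.C_le_R i (H.const_mem i c hc hcA)) (H.unif_memK i) (H.model i).unif_ne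
    (H.model i).unif_lt (H.unif_max i) (H.base_leK i H.thick_mem) (H.unif_memR i) (H.v_memR i)
    (H.u_memR i) (H.base_le_R i H.ε₀_mem) (H.base_le_R i H.ε₀_inv_mem)
    (fun x hx => by
      have h := H.nonunit_mem_level i x hx
      rwa [show ({H.ϖR i, H.uR i, H.vR i} : Set (H.R i)) = {H.ϖR i, H.vR i, H.uR i} from by
        rw [Set.pair_comm (H.uR i) (H.vR i)]] at h)
    (H.p2 i) (H.p1 i) (trace_isPrime O₂ _ _) (trace_isPrime O₁ _ _) (H.unif_mem₂ i)
    (H.unif_mem₁ i) H.v_mem₂ H.u_mem₁ H.u_notMem₂ H.v_notMem₁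
    (fun Q hQ hht hϖ => (H.vertical_level i Q hQ hht hϖ).symm)
    ((H.model i).loc_residue H.hres₁ H.hπ) (fun _ hP => (H.model i).loc_centred hP)
    (H.horiz_level i)

theorem nodeLevelSwap_R (i : ι) : (H.nodeLevelSwap i).R = H.R i := rfl

theorem nodeLevelSwap_K' (i : ι) : (H.nodeLevelSwap i).K' = K' i := rfl

theorem nodeLevelSwap_ϖ (i : ι) : (H.nodeLevelSwap i).ϖ = ϖ i := rfl

/-- **The level data of the tube of a crossing point from the global models.** -/
noncomputable def levels : AnnulusLevels A T ι where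
  u := u
  v := v
  ε₀ := ε₀
  thick := thick
  thick_ne := H.thick_ne
  thick_lt := H.thick_lt
  uv := H.uv
  level := H.nodeLevel
  directed := fun i j => by
    obtain ⟨l, hil, hjl, hKil, hKjl⟩ := H.directed i j
    exact ⟨l, (H.model i).loc_mono (H.model l) hil, (H.model j).loc_mono (H.model l) hjl,
      hKil, hKjl⟩
  frac := fun y => by
    obtain ⟨i, a, b, hb, hab⟩ := H.frac y
    refine ⟨i, ⟨a, H.C_le_R i a.2⟩, ⟨b, H.C_le_R i b.2⟩, ?_, hab⟩
    intro h0
    apply hb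
    apply Subtype.ext
    exact congrArg (fun x : H.R i => (x : F)) h0
  const := H.constK
  finite_div := H.finite_div

theorem levels_u : H.levels.u = u := rfl

theorem levels_v : H.levels.v = v := rfl

theorem levels_thick : H.levels.thick = thick := rfl

theorem levels_level (i : ι) : H.levels.level i = H.nodeLevel i := rfl

/-- **The level data with the coordinates exchanged**: `L.u = v`, `L.v = u`. -/
noncomputable def levelsSwap : AnnulusLevels A T ι where
  u := v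
  v := u
  ε₀ := ε₀
  thick := thick
  thick_ne := H.thick_ne
  thick_lt := H.thick_lt
  uv := H.uv_swap
  level := H.nodeLevelSwap
  directed := fun i j => by
    obtain ⟨l, hil, hjl, hKil, hKjl⟩ := H.directed i j
    exact ⟨l, (H.model i).loc_mono (H.model l) hil, (H.model j).loc_mono (H.model l) hjl,
      hKil, hKjl⟩
  frac := fun y => by
    obtain ⟨i, a, b, hb, hab⟩ := H.frac y
    refine ⟨i, ⟨a, H.C_le_R i a.2⟩, ⟨b, H.C_le_R i b.2⟩, ?_, hab⟩
    intro h0
    apply hb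
    apply Subtype.ext
    exact congrArg (fun x : H.R i => (x : F)) h0
  const := H.constK
  finite_div := H.finite_div

theorem levelsSwap_u : H.levelsSwap.u = v := rfl

theorem levelsSwap_v : H.levelsSwap.v = u := rfl

theorem levelsSwap_thick : H.levelsSwap.thick = thick := rfl

theorem levelsSwap_level (i : ι) : H.levelsSwap.level i = H.nodeLevelSwap i := rfl

include H in
/-- The coordinates lie in every subfield of `F` containing the base model (for the inertia
invariance (h1): `E := modelField N K₀`). -/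
theorem u_mem_subfield (E : Subfield F) (hE : ∀ x ∈ C i₀, x ∈ E) : u ∈ E :=
  loc_le_subfield (H.model i₀) E hE u H.u_mem

include H in
theorem v_mem_subfield (E : Subfield F) (hE : ∀ x ∈ C i₀, x ∈ E) : v ∈ E :=
  loc_le_subfield (H.model i₀) E hE v H.v_mem

end AnnulusModels

end Fermat.Agent.BR.Inst.LevelsAnnulusCore
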