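/-
Program B (bad reduction), level-data assembly, node (c), base node (helper8): the BASE-LEVEL
fields of `LevelsAnnulusCore.AnnulusModels` (`thick_ne … max2`) for the modular curve `X₀(Mq)`.

`H : LevelsInst.LevelHyp A hA hqM K' W π'` one level (`C = CQ M q W K'` the normal model over
`W = A ∩ K'`), `Mo : S0.CrossingModel A π O₁ O₂ res₁ res₂ Q₁ Q₂ T C π'` the model at a crossing
point (`O₁`, `O₂` the two component valuation rings, `H.P_i = C ∩ 𝔪(O_i)`).  Then helper28's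
transversal coordinates (`LevelHyp.crossing_transversal`), corrected by helper2's node lemma with
the modular unit (`ModUnitNode.exists_node`), give `u`, `v`, `ε₀` in the local ring `Mo.loc` with
`u * v = π' ^ e • ε₀`, `1 ≤ e ≤ 12 e₀`, and all the base fields.

* `BaseNode A Mo K' u v ε₀ thick` : the base fields, bundled (abstract);
* `qUnif_of_valuation` : `ModUnitNode.QUnif W π' q e₀ (q / π' ^ e₀)` from `|q| = |π'| ^ e₀`;
* `exists_baseNode` : `∃ u v ε₀ e, 1 ≤ e ∧ e ≤ 12 * e₀ ∧ BaseNode A Mo K' u v ε₀ (π' ^ e)`;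
* `exists_baseNode_tower` : the same at a level `S` of the tower (`Levels.KS`, `Levels.WS`,
  `Levels.unif`), unconditionally.
-/
import Mathlib
import Fermat.Agent.BR.Inst.LevelsAnnulusCore
import Fermat.Agent.BR.Inst.LevelsInst
import Fermat.Agent.BR.Inst.ModUnitNode

set_option autoImplicit false
set_option linter.style.haveILetI false
set_option linter.unusedSectionVars false
set_option synthInstance.maxHeartbeats 400000

namespace Fermat.Agent.BR.Inst.AnnulusBaseNode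

open AlgebraicCurve IsLocalRing Fermat.Agent.Red Fermat.Agent.X0 Fermat.Agent.BR
  Fermat.Agent.BR.Centre Fermat.Agent.BR.Inst.LocSub Fermat.Agent.BR.S0
  Fermat.Agent.BR.Inst.LevelsAnnulus

/-! ### The base fields, bundled -/

section Abstract

variable {K F k : Type*} [Field K] [Field F] [Algebra K F] [Field k]
  {Ft₁ Ft₂ : Type*} [Field Ft₁] [Algebra k Ft₁] [Field Ft₂] [Algebra k Ft₂]

/-- The base-level node fields of `LevelsAnnulusCore.AnnulusModels`, for the model `Mo` of the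
base level with coefficient field `K'`. -/
structure BaseNode (A : ValuationSubring K) {π : A →+* k} {O₁ O₂ : ValuationSubring F}
    {res₁ : O₁ →+* Ft₁} {res₂ : O₂ →+* Ft₂} {Q₁ : Place k Ft₁} {Q₂ : Place k Ft₂}
    {T : Set (Place K F)} {C : Subring F} {ϖ : K}
    (Mo : CrossingModel A π O₁ O₂ res₁ res₂ Q₁ Q₂ T C ϖ) (K' : Subfield K) (u v ε₀ : F)
    (thick : K) : Prop where
  thick_ne : thick ≠ 0
  thick_lt : A.valuation thick < 1
  thick_mem : thick ∈ K'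
  uv : u * v = thick • ε₀
  u_mem : u ∈ Mo.loc
  v_mem : v ∈ Mo.loc
  ε₀_mem : ε₀ ∈ Mo.loc
  ε₀_inv_mem : ε₀⁻¹ ∈ Mo.loc
  u_mem₁ : u ∈ O₁.nonunits
  v_mem₂ : v ∈ O₂.nonunits
  v_notMem₁ : v ∉ O₁.nonunits
  u_notMem₂ : u ∉ O₂.nonunits
  max1 : ∀ x : Mo.loc, ¬ IsUnit x →
    ∃ a b : Mo.loc, (a : F) ∈ O₁.nonunits ∧ (x : F) = (a : F) + (b : F) * v
  max2 : ∀ x : Mo.loc, ¬ IsUnit x →
    ∃ a b : Mo.loc, (a : F) ∈ O₂.nonunits ∧ (x : F) = (a : F) + (b : F) * u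

variable {A : ValuationSubring K} {π : A →+* k} {O₁ O₂ : ValuationSubring F}
  {res₁ : O₁ →+* Ft₁} {res₂ : O₂ →+* Ft₂} {Q₁ : Place k Ft₁} {Q₂ : Place k Ft₂}
  {T : Set (Place K F)} {C : Subring F} {ϖ : K}

/-- **The base node from `NodeLemma.NodeData` in the local ring** (abstract form): the output of
`SpecialFibre.TwoComponents.exists_node` with `O := Mo.loc`. -/
theorem baseNode_of_nodeData (Mo : CrossingModel A π O₁ O₂ res₁ res₂ Q₁ Q₂ T C ϖ)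
    (hres0₁ : ∀ x : O₁, (x : F) ∈ O₁.nonunits → res₁ x = 0)
    (hres0₂ : ∀ x : O₂, (x : F) ∈ O₂.nonunits → res₂ x = 0)
    {P1 P2 : Ideal C} (hP1 : ∀ x : C, x ∈ P1 ↔ (x : F) ∈ O₁.nonunits)
    (hP2 : ∀ x : C, x ∈ P2 ↔ (x : F) ∈ O₂.nonunits) (h12 : ¬ P1 ≤ P2) (h21 : ¬ P2 ≤ P1)
    (K' : Subfield K) (hϖK : ϖ ∈ K') {e : ℕ} (he : 1 ≤ e) {u' v' η : Mo.loc}
    (hN : haveI := Mo.isLocalRing_loc
      NodeLemma.NodeData (algebraMap C Mo.loc ⟨algebraMap K F ϖ, Mo.unif_mem⟩) u' v'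
        (P1.map (algebraMap C Mo.loc)) (P2.map (algebraMap C Mo.loc)))
    (hη : IsUnit η)
    (huv : u' * v' = algebraMap C Mo.loc ⟨algebraMap K F ϖ, Mo.unif_mem⟩ ^ e * η) :
    BaseNode A Mo K' (u' : F) (v' : F) (η : F) (ϖ ^ e) where
  thick_ne := pow_ne_zero _ Mo.unif_ne
  thick_lt := by
    rw [map_pow]
    exact pow_lt_one₀ zero_le Mo.unif_lt (Nat.one_le_iff_ne_zero.mp he)
  thick_mem := pow_mem hϖK e
  uv := by
    have h1 := congrArg (fun x : Mo.loc => (x : F)) huv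
    simp only [Subring.coe_mul, SubmonoidClass.coe_pow] at h1
    rw [h1, Algebra.smul_def, map_pow]
    rfl
  u_mem := u'.2
  v_mem := v'.2
  ε₀_mem := η.2
  ε₀_inv_mem := by
    obtain ⟨w, hw⟩ := hη.exists_right_inv
    have h1 : (η : F) * (w : F) = 1 := by
      rw [← Subring.coe_mul, hw, Subring.coe_one]
    rw [← eq_inv_of_mul_eq_one_right h1]
    exact w.2
  u_mem₁ := u_mem₁_of_nodeData Mo hres0₁ hP1 hN
  v_mem₂ := v_mem₂_of_nodeData Mo hres0₂ hP2 hN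
  v_notMem₁ := v_notMem₁_of_nodeData Mo hres0₁ hres0₂ hP1 hP2 h21 hN
  u_notMem₂ := u_notMem₂_of_nodeData Mo hres0₁ hres0₂ hP1 hP2 h12 hN
  max1 := max1_of_nodeData Mo hres0₁ hP1 hN
  max2 := max2_of_nodeData Mo hres0₂ hP2 hN

end Abstract

/-! ### The modular instance -/

section Modular

open ModularCurve Fermat.Agent.Val Fermat.Agent.BR.TwoVal Fermat.Agent.BR.TwoValInst
  Fermat.Agent.BR.Inst.NormalModel Fermat.Agent.BR.Inst.LevelsInst
  Fermat.Agent.BR.Inst.ModUnitNode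

variable {M q : ℕ} [NeZero M] [hq : Fact q.Prime]
variable {A : ValuationSubring Kb} {hA : A.LiesOverPrime q} {hqM : ¬ q ∣ M}
variable {K' : Subfield Kb} {W : Subring Kb} {π' : Kb}

/-- `q = π' ^ e₀ · ε` with `ε := q / π' ^ e₀` a unit of `W = A ∩ K'`, as soon as
`|q| = |π'| ^ e₀`. -/
theorem qUnif_of_valuation (H : LevelHyp A hA hqM K' W π') {e₀ : ℕ}
    (he : A.valuation (q : Kb) = A.valuation π' ^ e₀) :
    QUnif W π' q e₀ ((q : Kb) / π' ^ e₀) := by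
  have hπe : π' ^ e₀ ≠ 0 := pow_ne_zero _ H.hπ0
  have hval : A.valuation ((q : Kb) / π' ^ e₀) = 1 := by
    rw [map_div₀, map_pow, he]
    exact div_self (pow_ne_zero _ ((map_ne_zero _).mpr H.hπ0))
  have hK : ((q : Kb) / π' ^ e₀) ∈ K' := K'.div_mem (natCast_mem K' q) (pow_mem H.hπK e₀)
  refine ⟨?_, ?_, ?_⟩
  · rw [mul_div_cancel₀ _ hπe]
  · exact (H.hW _).mpr ⟨(A.valuation_le_one_iff _).mp hval.le, hK⟩
  · refine (H.hW _).mpr ⟨(A.valuation_le_one_iff _).mp ?_, K'.inv_mem hK⟩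
    rw [map_inv₀, hval, inv_one]

variable {k : Type*} [Field k] {Ft₁ Ft₂ : Type*} [Field Ft₁] [Algebra k Ft₁] [Field Ft₂]
  [Algebra k Ft₂] {π : A →+* k} {O₁ O₂ : ValuationSubring (Fb (M * q))}
  {res₁ : O₁ →+* Ft₁} {res₂ : O₂ →+* Ft₂} {Q₁ : Place k Ft₁} {Q₂ : Place k Ft₂}
  {T : Set (Place Kb (Fb (M * q)))}

/-- **The base node of the modular curve** at a crossing point of one level: transversal
coordinates `u`, `v` in the local ring with `u * v = π' ^ e • ε₀`, `ε₀` a unit, `1 ≤ e ≤ 12 e₀`,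
and all the base fields of `LevelsAnnulusCore.AnnulusModels`. -/
theorem exists_baseNode (H : LevelHyp A hA hqM K' W π') {e₀ : ℕ} {ε : Kb}
    (hu : QUnif W π' q e₀ ε) (he₀ : e₀ ≠ 0)
    (Mo : CrossingModel A π O₁ O₂ res₁ res₂ Q₁ Q₂ T (CQ M q W K') π')
    (hres0₁ : ∀ x : O₁, (x : Fb (M * q)) ∈ O₁.nonunits → res₁ x = 0)
    (hres0₂ : ∀ x : O₂, (x : Fb (M * q)) ∈ O₂.nonunits → res₂ x = 0)
    (hP1 : ∀ x : ↥(CQ M q W K'), x ∈ H.P1 ↔ (x : Fb (M * q)) ∈ O₁.nonunits)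
    (hP2 : ∀ x : ↥(CQ M q W K'), x ∈ H.P2 ↔ (x : Fb (M * q)) ∈ O₂.nonunits) :
    ∃ (u v ε₀ : Fb (M * q)) (e : ℕ), 1 ≤ e ∧ e ≤ 12 * e₀ ∧
      BaseNode A Mo K' u v ε₀ (π' ^ e) := by
  haveI := Mo.isLocalRing_loc
  have hp1 : H.P1 ≤ Mo.point := fun x hx =>
    Mo.mem_point_of_nonunits₁ hres0₁ x ((hP1 x).mp hx)
  have hp2 : H.P2 ≤ Mo.point := fun x hx =>
    Mo.mem_point_of_nonunits₂ hres0₂ x ((hP2 x).mp hx)
  have h21 : ¬ H.P2 ≤ H.P1 := H.crossingInput.not_P2_le_P1 H.sKron_mem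
  have h12 : ¬ H.P1 ≤ H.P2 := H.crossingInput.not_P1_le_P2 H.tKron_mem
  have hp1n : H.P1 ≠ Mo.point := fun he => h21 (he ▸ hp2)
  have hp2n : H.P2 ≠ Mo.point := fun he => h12 (he ▸ hp1)
  obtain ⟨u₀, v₀, hu1, hv2, hv1, hu2⟩ := H.crossing_transversal Mo.point hp1 hp2
  obtain ⟨e, u', v', η, he1, he2, hN, -, -, hη, huv⟩ :=
    ModUnitNode.exists_node H.hdvr Mo.point Mo.loc H.modelHyp hu he₀ hp1 hp2 hp1n hp2n hu1 hv2
      hv1 hu2
  exact ⟨(u' : Fb (M * q)), (v' : Fb (M * q)), (η : Fb (M * q)), e, he1, he2,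
    baseNode_of_nodeData Mo hres0₁ hres0₂ hP1 hP2 h12 h21 K' H.hπK he1 hN hη huv⟩

end Modular

/-! ### The levels of the tower -/

section Tower

open ModularCurve Fermat.Agent.Val Fermat.Agent.BR.TwoVal Fermat.Agent.BR.TwoValInst
  Fermat.Agent.BR.Inst.NormalModel Fermat.Agent.BR.Inst.LevelsInst
  Fermat.Agent.BR.Inst.ModUnitNode Fermat.Agent.BR.Inst.Levels

variable {M q : ℕ} [NeZero M] [hq : Fact q.Prime]
variable (A : ValuationSubring Kb) (hA : A.LiesOverPrime q) (hqM : ¬ q ∣ M)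

include hqM in
/-- `q = π'_S ^ e₀ · unit` at every level `S` of the tower. -/
theorem exists_qUnif_tower (S : Finset Kb) :
    ∃ (e₀ : ℕ) (ε : Kb), e₀ ≠ 0 ∧ QUnif (WS A q S) (unif A hq.out hA S) q e₀ ε := by
  obtain ⟨e₀, he₀, he⟩ := exists_ramification A hA S
  exact ⟨e₀, _, he₀.ne', qUnif_of_valuation (levelHyp_tower A hA hqM S) he⟩

variable {k : Type*} [Field k] {Ft₁ Ft₂ : Type*} [Field Ft₁] [Algebra k Ft₁] [Field Ft₂]
  [Algebra k Ft₂] {π : A →+* k} {O₁ O₂ : ValuationSubring (Fb (M * q))}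
  {res₁ : O₁ →+* Ft₁} {res₂ : O₂ →+* Ft₂} {Q₁ : Place k Ft₁} {Q₂ : Place k Ft₂}
  {T : Set (Place Kb (Fb (M * q)))}

/-- **The base node at a level `S` of the tower** (used at `S = ∅`), for any crossing model over
the level-`S` model `CS (M q) q (W'_T[j])_T S` with uniformizer `unif S`. -/
theorem exists_baseNode_tower (S : Finset Kb)
    (Mo : CrossingModel A π O₁ O₂ res₁ res₂ Q₁ Q₂ T
      (CS (M * q) q (fun T => modelBase (M * q) (WS A q T)) S) (unif A hq.out hA S))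
    (hres0₁ : ∀ x : O₁, (x : Fb (M * q)) ∈ O₁.nonunits → res₁ x = 0)
    (hres0₂ : ∀ x : O₂, (x : Fb (M * q)) ∈ O₂.nonunits → res₂ x = 0)
    (hP1 : ∀ x : ↥(CS (M * q) q (fun T => modelBase (M * q) (WS A q T)) S),
      (x : Fb (M * q)) ∈ (O1 M A hA).nonunits ↔ (x : Fb (M * q)) ∈ O₁.nonunits)
    (hP2 : ∀ x : ↥(CS (M * q) q (fun T => modelBase (M * q) (WS A q T)) S),
      (x : Fb (M * q)) ∈ (O2 A hA hqM).nonunits ↔ (x : Fb (M * q)) ∈ O₂.nonunits) :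
    ∃ (u v ε₀ : Fb (M * q)) (e : ℕ), 1 ≤ e ∧
      BaseNode A Mo (KS q S) u v ε₀ (unif A hq.out hA S ^ e) := by
  obtain ⟨e₀, ε, he₀, hu⟩ := exists_qUnif_tower A hA hqM S
  obtain ⟨u, v, ε₀, e, he1, -, hB⟩ :=
    exists_baseNode (levelHyp_tower A hA hqM S) hu he₀ Mo hres0₁ hres0₂ hP1 hP2
  exact ⟨u, v, ε₀, e, he1, hB⟩

end Tower

end Fermat.Agent.BR.Inst.AnnulusBaseNode
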