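/-
Program B (bad reduction), the per-crossing INSTANCE for the modular tower (helper19; ruling
helper17 msg 9676): the fields `L`, `X`, `u_mem` of `Final.ModularData` (`BR/Final/Data`).

* `BaseNode M₀ P₀ P₁ : Prop` : the output of the node lemma in the local ring `M₀.loc` of the
  base level, as a named proposition (to be proved by `BR/Inst/AnnulusBaseNode`, helper8);
* `exists_crossingFamily_tower` : the bundle `S0.CrossingFamily` over helper27's tower
  `S ↦ CS N q base S` (base level `S = ∅`), family hypotheses discharged (`LevelsFamily`);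
* `exists_crossingFamily_modular` : the same for `D = chartDataModular B hB hqM` at a crossing `e`;
  inputs: the crossing models (`NodeInst.crossingModel_modular`, helper27), the bridge
  `SmoothAssembly.LevelHyp` at every level (`SmoothInst.levelHyp_modular`, helper22) and
  `BaseNode` at `S = ∅`;
* `annulusLevels_modular`, `branchData_modular`, `u_mem_base_modular` : the fields `L`, `X`, `u_mem`
  of `Final.ModularData`, verbatim (index type `Finset Kb`).
-/
import Mathlib
import Fermat.Agent.BR.S0.CrossingFamilyAssembly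
import Fermat.Agent.BR.Inst.LevelsFamily
import Fermat.Agent.BR.Final.Data

set_option autoImplicit false
set_option synthInstance.maxHeartbeats 400000
set_option linter.unusedSectionVars false
set_option linter.style.haveILetI false

namespace Fermat.Agent.BR.Inst.AnnulusInst

open AlgebraicCurve ModularCurve IsLocalRing Polynomial
open Fermat.Agent.Red Fermat.Agent.Val Fermat.Agent.X0 Fermat.Agent.BR.SS Fermat.Agent.BR.Refine
open Fermat.Agent.BR.Centre Fermat.Agent.BR.ConstRedTwo Fermat.Agent.BR.ModUnit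
open Fermat.Agent.BR.S0 Fermat.Agent.BR.S0.RedModular Fermat.Agent.BR.S0.PointDict
open Fermat.Agent.BR.S0.Modular Fermat.Agent.BR.S0.RedHyp
open Fermat.Agent.BR.S0.AnnulusChartOfLevels Fermat.Agent.BR.S0.SmoothAssembly
open Fermat.Agent.BR.S0.CrossingFamilyAssembly
open Fermat.Agent.BR.UnramCycloTower Fermat.Agent.BR.Inst.Levels Fermat.Agent.BR.Inst.LevelsFamily
open Fermat.Agent.BR.Inst.NormalModel

/-! ### The output of the node lemma at the base level, as a named proposition -/

section Generic

variable {K F k : Type*} [Field K] [Field F] [Algebra K F] [Field k]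
  {Ft₁ Ft₂ : Type*} [Field Ft₁] [Algebra k Ft₁] [Field Ft₂] [Algebra k Ft₂]
  {A : ValuationSubring K} {π : A →+* k} {O₁ O₂ : ValuationSubring F}
  {res₁ : O₁ →+* Ft₁} {res₂ : O₂ →+* Ft₂} {Q₁ Q₂' : Place k Ft₁} {Q₂ : Place k Ft₂}
  {T : Set (Place K F)} {C : Subring F} {ϖ : K}

/-- **The output of the node lemma** (`SpecialFibre.TwoComponents.exists_node`,
`ModUnitNode.exists_node`) in the local ring `O := M₀.loc` of the model `C` at the crossing point,
for the two components `P₀`, `P₁` of the special fibre of `C`: coordinates `u' ∈ P₀ O`,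
`v' ∈ P₁ O` with `𝔪 = P₀ O + (v') = P₁ O + (u')`, `P₀ O ∩ P₁ O = (ϖ)`, `u' v' = ϖ ^ n η`, `η` a
unit, `n ≥ 1`, and `P_v O ≠ 𝔪` (`SpecialFibre.map_ne_maximalIdeal_of_ne`). -/
def BaseNode (M₀ : CrossingModel A π O₁ O₂ res₁ res₂ Q₁ Q₂ T C ϖ) (P₀ P₁ : Ideal C) : Prop :=
  ∀ _ : IsLocalRing M₀.loc, ∃ (n : ℕ) (u' v' η : M₀.loc), 1 ≤ n ∧
    NodeLemma.NodeData (algebraMap C M₀.loc ⟨algebraMap K F ϖ, M₀.unif_mem⟩) u' v'
      (P₀.map (algebraMap C M₀.loc)) (P₁.map (algebraMap C M₀.loc)) ∧
    IsUnit η ∧
    u' * v' = algebraMap C M₀.loc ⟨algebraMap K F ϖ, M₀.unif_mem⟩ ^ n * η ∧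
    P₀.map (algebraMap C M₀.loc) ≠ maximalIdeal M₀.loc ∧
    P₁.map (algebraMap C M₀.loc) ≠ maximalIdeal M₀.loc

end Generic

/-! ### The tower-generic form -/

section Tower

variable {N : ℕ} [NeZero N] {A : ValuationSubring Kb} {q : ℕ}
  {base : Finset Kb → Subring (Fb N)} (hb : BaseFamily N A q base)
  {k Ft : Type*} [Field k] [Field Ft] [Algebra k Ft] {π : A →+* k}
  {Dk : Type*} [CommRing Dk] [IsDedekindDomain Dk] [Algebra Dk Ft] [IsFractionRing Dk Ft]
  [Algebra k Dk] [IsScalarTower k Dk Ft]
  {D : ChartData A π Ft (Fb N)} {Q₁ Q₂ : Place k Ft} {T : Set (Place Kb (Fb N))}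

include hb in
/-- **The bundle `CrossingFamily` over the tower of levels** `S ↦ CS N q base S`, base level
`S = ∅`: the family hypotheses (`base`, `dir`, `frac`, `const`, `horiz`, `finite_div`) are
discharged (helper27's `LevelsFamily`); the inputs are the crossing models, the named facts
`SmoothAssembly.LevelHyp` at every level and the output of the node lemma at the base level. -/
theorem exists_crossingFamily_tower (hq : q.Prime) (hA : A.LiesOverPrime q)
    {P₀ P₁ : ∀ S, Ideal (CS N q base S)} {red₀ red₁ : ∀ S, CS N q base S →+* Dk}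
    (M : ∀ S : Finset Kb, CrossingModel A π (D.O 0) (D.O 1) (D.res 0) (D.res 1) Q₁ Q₂ T
      (CS N q base S) (unif A hq hA S))
    (L : ∀ S : Finset Kb, LevelHyp D (CS N q base S) (unif A hq hA S) (P₀ S) (P₁ S) (red₀ S)
      (red₁ S))
    (hπ0 : ∀ a : A, A.valuation (a : Kb) < 1 → π a = 0)
    (hres : ∀ v (a : Kb) (ha : a ∈ A) (h : algebraMap Kb (Fb N) a ∈ D.O v),
      D.res v ⟨algebraMap Kb (Fb N) a, h⟩ = algebraMap k Ft (π ⟨a, ha⟩))
    (hres0₀ : ∀ y : D.O 0, D.res 0 y = 0 ↔ (y : Fb N) ∈ (D.O 0).nonunits)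
    (hres0₁ : ∀ y : D.O 1, D.res 1 y = 0 ↔ (y : Fb N) ∈ (D.O 1).nonunits)
    (hAO : ∀ v (c : Kb), algebraMap Kb (Fb N) c ∈ D.O v ↔ c ∈ A)
    (hnode : BaseNode (M ∅) (P₀ ∅) (P₁ ∅)) :
    ∃ (u v ε₀ : Fb N) (thick : Kb),
      CrossingFamily A π (D.O 0) (D.O 1) (D.res 0) (D.res 1) Q₁ Q₂ T (CS N q base)
        (fun S => unif A hq hA S) ∅ u v ε₀ thick := by
  have hnon : ∀ c : Kb, A.valuation c < 1 → algebraMap Kb (Fb N) c ∈ (D.O 0).nonunits := by
    intro c hc
    have hcA : c ∈ A := (A.valuation_le_one_iff c).mp hc.le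
    have h1 : algebraMap Kb (Fb N) c ∈ D.O 0 := (hAO 0 c).mpr hcA
    have h2 := hres 0 c hcA h1
    rw [hπ0 ⟨c, hcA⟩ hc, map_zero] at h2
    exact (hres0₀ _).mp h2
  haveI := (M ∅).isLocalRing_loc
  exact exists_crossingFamily_of_node M L hπ0 hres hres0₀ hres0₁ hAO ∅
    (fun S => CS_mono hb (Finset.empty_subset S)) (CS_directed hb) (CS_frac hb) (CS_const hb)
    (fun S p hp hp1 hϖp => CrossingModel.horiz_level hb hq hA S (M S)
      (fun y hy => (hres0₀ y).mpr hy) hnon p hp hp1 hϖp)
    (fun y _ => finite_ord_support (jBar_isSepVar N) y) (hnode (M ∅).isLocalRing_loc)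

end Tower

/-! ### The modular instance -/

section Modular

variable (M q : ℕ) [NeZero M] [hq : Fact q.Prime]
variable (B : ValuationSubring (AlgebraicClosure ℚ)) (hB : B.LiesOverPrime q) (hqM : ¬ q ∣ M)

local notation "kB" => IsLocalRing.ResidueField B
local notation "FtM" => modularFunctionFieldFullC (IsLocalRing.ResidueField B) M

/-- the base rings `W_S[j]` of the finite chart -/
noncomputable abbrev baseFin (S : Finset Kb) : Subring (Fb (M * q)) :=
  modelBase (M * q) (WS B q S)

variable {M q B hB hqM}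
variable {x : Fb (M * q)} (H : AtlasHyp (chartDataModular B hB hqM) x)
  {Dk : Type*} [CommRing Dk] [IsDedekindDomain Dk]
  [Algebra Dk (modularFunctionFieldFullC (IsLocalRing.ResidueField B) M)]
  [IsFractionRing Dk (modularFunctionFieldFullC (IsLocalRing.ResidueField B) M)]
  [Algebra (IsLocalRing.ResidueField B) Dk]
  [IsScalarTower (IsLocalRing.ResidueField B) Dk
    (modularFunctionFieldFullC (IsLocalRing.ResidueField B) M)]
  {P₀ P₁ : ∀ S, Ideal (CS (M * q) q (baseFin M q B) S)}
  {red₀ red₁ : ∀ S, CS (M * q) q (baseFin M q B) S →+* Dk}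

set_option maxHeartbeats 2000000 in
include H in
/-- **The bundle `CrossingFamily` at a crossing `e` of `X₀(qM)` at `q`** over the tower of levels,
from the crossing models (`NodeInst.crossingModel_modular`), the bridge `LevelHyp` at every level
(`SmoothInst.levelHyp_modular`) and the node at the base level (`AnnulusBaseNode`). -/
theorem exists_crossingFamily_modular (e : Crossing (chartDataModular B hB hqM))
    (Mod : ∀ S : Finset Kb, CrossingModel B (residue B) (compW B hB hqM 0).O (compW B hB hqM 1).O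
      (compW B hB hqM 0).res (compW B hB hqM 1).res (z₁ (chartDataModular B hB hqM) e)
      (z₂ (chartDataModular B hB hqM) e)
      {P | H.r P = ⟨0, z₁ (chartDataModular B hB hqM) e⟩}
      (CS (M * q) q (baseFin M q B) S) (unif B hq.out hB S))
    (L : ∀ S : Finset Kb, LevelHyp (chartDataModular B hB hqM) (CS (M * q) q (baseFin M q B) S)
      (unif B hq.out hB S) (P₀ S) (P₁ S) (red₀ S) (red₁ S))
    (hnode : BaseNode (Mod ∅) (P₀ ∅) (P₁ ∅)) :
    ∃ (u v ε₀ : Fb (M * q)) (thick : Kb),
      CrossingFamily B (residue B) (compW B hB hqM 0).O (compW B hB hqM 1).O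
        (compW B hB hqM 0).res (compW B hB hqM 1).res (z₁ (chartDataModular B hB hqM) e)
        (z₂ (chartDataModular B hB hqM) e)
        {P | H.r P = ⟨0, z₁ (chartDataModular B hB hqM) e⟩}
        (CS (M * q) q (baseFin M q B)) (fun S => unif B hq.out hB S) ∅ u v ε₀ thick :=
  exists_crossingFamily_tower (D := chartDataModular B hB hqM)
    (baseFamily_fin (M * q) B hq.out hB) hq.out hB Mod L H.pi_zero
    (fun v => (compW B hB hqM v).res_algebraMap)
    (constRed_res_eq_zero_iff (compW B hB hqM 0)) (constRed_res_eq_zero_iff (compW B hB hqM 1))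
    (fun v => (compW B hB hqM v).algebraMap_mem_iff) hnode

/-! ### The three fields `L`, `X`, `u_mem` of `Final.ModularData` -/

set_option maxHeartbeats 4000000 in
/-- **The field `L` of `Final.ModularData`**: the level data of the tube of a crossing. -/
noncomputable def annulusLevels_modular [IsAlgClosed (ResidueField B)]
    (Mod : ∀ (e : Crossing (chartDataModular B hB hqM)) (S : Finset Kb),
      CrossingModel B (residue B) (compW B hB hqM 0).O (compW B hB hqM 1).O
        (compW B hB hqM 0).res (compW B hB hqM 1).res (z₁ (chartDataModular B hB hqM) e)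
        (z₂ (chartDataModular B hB hqM) e)
        {P | H.r P = ⟨0, z₁ (chartDataModular B hB hqM) e⟩}
        (CS (M * q) q (baseFin M q B) S) (unif B hq.out hB S))
    (L : ∀ S : Finset Kb, LevelHyp (chartDataModular B hB hqM) (CS (M * q) q (baseFin M q B) S)
      (unif B hq.out hB S) (P₀ S) (P₁ S) (red₀ S) (red₁ S))
    (hnode : ∀ e, BaseNode (Mod e ∅) (P₀ ∅) (P₁ ∅))
    (hne : Nonempty (Crossing (chartDataModular B hB hqM)))
    (smooth₀ : ∀ Q : Place kB FtM, (∀ e, Q ≠ z₁ (chartDataModular B hB hqM) e) →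
      SmoothChart B (compW B hB hqM 0).O (compW B hB hqM 0).res Q {P | H.r P = ⟨0, Q⟩})
    (smooth₁ : ∀ Q : Place kB FtM, (∀ e, Q ≠ z₂ (chartDataModular B hB hqM) e) →
      SmoothChart B (compW B hB hqM 1).O (compW B hB hqM 1).res Q {P | H.r P = ⟨1, Q⟩})
    (chart : ∀ e, NodeChart B (compW B hB hqM 0).O (compW B hB hqM 1).O (compW B hB hqM 0).res
      (compW B hB hqM 1).res (z₁ (chartDataModular B hB hqM) e)
      (z₂ (chartDataModular B hB hqM) e)
      {P | H.r P = ⟨0, z₁ (chartDataModular B hB hqM) e⟩})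
    (e : Crossing (chartDataModular B hB hqM)) :
    AnnulusLevels (F := Fb (M * q)) B
      (tube (modularInput H hne smooth₀ smooth₁ chart).toSetup e) (Finset Kb) :=
  levelsOfExists (exists_crossingFamily_modular H e (Mod e) L (hnode e))

set_option maxHeartbeats 4000000 in
/-- **The field `X` of `Final.ModularData`**: the branch data of the levels. -/
theorem branchData_modular [IsAlgClosed (ResidueField B)]
    (Mod : ∀ (e : Crossing (chartDataModular B hB hqM)) (S : Finset Kb),
      CrossingModel B (residue B) (compW B hB hqM 0).O (compW B hB hqM 1).O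
        (compW B hB hqM 0).res (compW B hB hqM 1).res (z₁ (chartDataModular B hB hqM) e)
        (z₂ (chartDataModular B hB hqM) e)
        {P | H.r P = ⟨0, z₁ (chartDataModular B hB hqM) e⟩}
        (CS (M * q) q (baseFin M q B) S) (unif B hq.out hB S))
    (L : ∀ S : Finset Kb, LevelHyp (chartDataModular B hB hqM) (CS (M * q) q (baseFin M q B) S)
      (unif B hq.out hB S) (P₀ S) (P₁ S) (red₀ S) (red₁ S))
    (hnode : ∀ e, BaseNode (Mod e ∅) (P₀ ∅) (P₁ ∅))
    (hne : Nonempty (Crossing (chartDataModular B hB hqM)))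
    (smooth₀ : ∀ Q : Place kB FtM, (∀ e, Q ≠ z₁ (chartDataModular B hB hqM) e) →
      SmoothChart B (compW B hB hqM 0).O (compW B hB hqM 0).res Q {P | H.r P = ⟨0, Q⟩})
    (smooth₁ : ∀ Q : Place kB FtM, (∀ e, Q ≠ z₂ (chartDataModular B hB hqM) e) →
      SmoothChart B (compW B hB hqM 1).O (compW B hB hqM 1).res Q {P | H.r P = ⟨1, Q⟩})
    (chart : ∀ e, NodeChart B (compW B hB hqM 0).O (compW B hB hqM 1).O (compW B hB hqM 0).res
      (compW B hB hqM 1).res (z₁ (chartDataModular B hB hqM) e)
      (z₂ (chartDataModular B hB hqM) e)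
      {P | H.r P = ⟨0, z₁ (chartDataModular B hB hqM) e⟩})
    (e : Crossing (chartDataModular B hB hqM)) :
    BranchData (modularInput H hne smooth₀ smooth₁ chart).toSetup e
      (annulusLevels_modular H Mod L hnode hne smooth₀ smooth₁ chart e) :=
  branchData_levelsOfExists (S₀ := (modularInput H hne smooth₀ smooth₁ chart).toSetup) (e := e)
    (exists_crossingFamily_modular H e (Mod e) L (hnode e)) (Mod e ∅)
    (red₀ ∅) (L ∅).hred₀ (L ∅).surj₀ (red₁ ∅) (L ∅).hred₁ (L ∅).surj₁
    (fun w => TwoCompInput.fin2_eq_zero_or_one w)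

set_option maxHeartbeats 4000000 in
/-- **The field `u_mem` of `Final.ModularData`**: the annulus parameter lies in the function field
of the base level. -/
theorem u_mem_base_modular [IsAlgClosed (ResidueField B)]
    (Mod : ∀ (e : Crossing (chartDataModular B hB hqM)) (S : Finset Kb),
      CrossingModel B (residue B) (compW B hB hqM 0).O (compW B hB hqM 1).O
        (compW B hB hqM 0).res (compW B hB hqM 1).res (z₁ (chartDataModular B hB hqM) e)
        (z₂ (chartDataModular B hB hqM) e)
        {P | H.r P = ⟨0, z₁ (chartDataModular B hB hqM) e⟩}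
        (CS (M * q) q (baseFin M q B) S) (unif B hq.out hB S))
    (L : ∀ S : Finset Kb, LevelHyp (chartDataModular B hB hqM) (CS (M * q) q (baseFin M q B) S)
      (unif B hq.out hB S) (P₀ S) (P₁ S) (red₀ S) (red₁ S))
    (hnode : ∀ e, BaseNode (Mod e ∅) (P₀ ∅) (P₁ ∅))
    (hne : Nonempty (Crossing (chartDataModular B hB hqM)))
    (smooth₀ : ∀ Q : Place kB FtM, (∀ e, Q ≠ z₁ (chartDataModular B hB hqM) e) →
      SmoothChart B (compW B hB hqM 0).O (compW B hB hqM 0).res Q {P | H.r P = ⟨0, Q⟩})
    (smooth₁ : ∀ Q : Place kB FtM, (∀ e, Q ≠ z₂ (chartDataModular B hB hqM) e) →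
      SmoothChart B (compW B hB hqM 1).O (compW B hB hqM 1).res Q {P | H.r P = ⟨1, Q⟩})
    (chart : ∀ e, NodeChart B (compW B hB hqM 0).O (compW B hB hqM 1).O (compW B hB hqM 0).res
      (compW B hB hqM 1).res (z₁ (chartDataModular B hB hqM) e)
      (z₂ (chartDataModular B hB hqM) e)
      {P | H.r P = ⟨0, z₁ (chartDataModular B hB hqM) e⟩})
    (e : Crossing (chartDataModular B hB hqM)) :
    (annulusLevels_modular H Mod L hnode hne smooth₀ smooth₁ chart e).u ∈
      modelField (M * q) (coeffField q (∅ : Finset Kb)).toSubfield :=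
  levelsOfExists_u_mem (exists_crossingFamily_modular H e (Mod e) L (hnode e))
    (modelField (M * q) (coeffField q (∅ : Finset Kb)).toSubfield)
    (fun _ hx => CS_le_FS (N := M * q) (q := q) (base := baseFin M q B) ∅ hx)

end Modular

end Fermat.Agent.BR.Inst.AnnulusInst
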