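/-
Program B (bad reduction), annulus instance, auxiliary inputs (helper8) for
`BR/S0/CrossingFamilyAssembly` (`exists_crossingFamily_at_crossing`, helper19):

* `exists_node_raw` : the hypothesis `hnode` of `exists_crossingFamily_of_node` /
  `exists_crossingFamily_at_crossing`, VERBATIM, for one level `H : LevelsInst.LevelHyp …` of the
  modular curve `X₀(Mq)` and any crossing model `Mo` over the canonical model `CQ M q W K'`:
  `∃ n u' v' η, 1 ≤ n ∧ NodeData (ϖ) u' v' (P1·O) (P2·O) ∧ IsUnit η ∧ u' v' = ϖ ^ n η ∧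
  P1·O ≠ 𝔪 ∧ P2·O ≠ 𝔪` in `O := Mo.loc`
  (helper28's `crossing_transversal` + helper2's `ModUnitNode.exists_node`);
* `exists_node_tower` : the same at every level `S` of the tower, unconditionally (used at `S = ∅`);
* `finite_div_modular` : the field `finite_div` / the hypothesis `hfin`.
-/
import Mathlib
import Fermat.Agent.BR.Inst.AnnulusBaseNode

set_option autoImplicit false
set_option linter.style.haveILetI false
set_option linter.unusedSectionVars false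
set_option synthInstance.maxHeartbeats 400000

namespace Fermat.Agent.BR.Inst.AnnulusInstAux

open AlgebraicCurve IsLocalRing Fermat.Agent.Red Fermat.Agent.X0 Fermat.Agent.BR
  Fermat.Agent.BR.Centre Fermat.Agent.BR.Inst.LocSub Fermat.Agent.BR.S0
open ModularCurve Fermat.Agent.Val Fermat.Agent.BR.TwoVal Fermat.Agent.BR.TwoValInst
  Fermat.Agent.BR.Inst.NormalModel Fermat.Agent.BR.Inst.LevelsInst
  Fermat.Agent.BR.Inst.ModUnitNode Fermat.Agent.BR.Inst.Levels
  Fermat.Agent.BR.Inst.AnnulusBaseNode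

/-- Zeros and poles of a function on `X₀(N)` over `ℚ̄`: finite support. -/
theorem finite_div_modular (N : ℕ) [NeZero N] (y : Fb N) (_ : y ≠ 0) :
    {P : Place Kb (Fb N) | P.ord y ≠ 0}.Finite :=
  finite_ord_support (jBar_isSepVar N) y

section Modular

variable {M q : ℕ} [NeZero M] [hq : Fact q.Prime]
variable {A : ValuationSubring Kb} {hA : A.LiesOverPrime q} {hqM : ¬ q ∣ M}
variable {K' : Subfield Kb} {W : Subring Kb} {π' : Kb}
variable {k : Type*} [Field k] {Ft₁ Ft₂ : Type*} [Field Ft₁] [Algebra k Ft₁] [Field Ft₂]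
  [Algebra k Ft₂] {π : A →+* k} {O₁ O₂ : ValuationSubring (Fb (M * q))}
  {res₁ : O₁ →+* Ft₁} {res₂ : O₂ →+* Ft₂} {Q₁ : Place k Ft₁} {Q₂ : Place k Ft₂}
  {T : Set (Place Kb (Fb (M * q)))}

/-- **The output of the node lemma in the local ring of a crossing model**, in the shape of the
hypothesis `hnode` of `S0.CrossingFamilyAssembly.exists_crossingFamily_of_node`. -/
theorem exists_node_raw (H : LevelHyp A hA hqM K' W π') {e₀ : ℕ} {ε : Kb}
    (hu : QUnif W π' q e₀ ε) (he₀ : e₀ ≠ 0)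
    (Mo : CrossingModel A π O₁ O₂ res₁ res₂ Q₁ Q₂ T (CQ M q W K') π') [hloc : IsLocalRing Mo.loc]
    (hres0₁ : ∀ x : O₁, (x : Fb (M * q)) ∈ O₁.nonunits → res₁ x = 0)
    (hres0₂ : ∀ x : O₂, (x : Fb (M * q)) ∈ O₂.nonunits → res₂ x = 0)
    (hP1 : ∀ x : ↥(CQ M q W K'), x ∈ H.P1 ↔ (x : Fb (M * q)) ∈ O₁.nonunits)
    (hP2 : ∀ x : ↥(CQ M q W K'), x ∈ H.P2 ↔ (x : Fb (M * q)) ∈ O₂.nonunits) :
    ∃ (n : ℕ) (u' v' η : Mo.loc), 1 ≤ n ∧
      NodeLemma.NodeData
        (algebraMap ↥(CQ M q W K') Mo.loc ⟨algebraMap Kb (Fb (M * q)) π', Mo.unif_mem⟩) u' v'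
        (H.P1.map (algebraMap ↥(CQ M q W K') Mo.loc))
        (H.P2.map (algebraMap ↥(CQ M q W K') Mo.loc)) ∧
      IsUnit η ∧
      u' * v' =
        algebraMap ↥(CQ M q W K') Mo.loc ⟨algebraMap Kb (Fb (M * q)) π', Mo.unif_mem⟩ ^ n * η ∧
      H.P1.map (algebraMap ↥(CQ M q W K') Mo.loc) ≠ maximalIdeal Mo.loc ∧
      H.P2.map (algebraMap ↥(CQ M q W K') Mo.loc) ≠ maximalIdeal Mo.loc := by
  have hp1 : H.P1 ≤ Mo.point := fun x hx =>
    Mo.mem_point_of_nonunits₁ hres0₁ x ((hP1 x).mp hx)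
  have hp2 : H.P2 ≤ Mo.point := fun x hx =>
    Mo.mem_point_of_nonunits₂ hres0₂ x ((hP2 x).mp hx)
  have h21 : ¬ H.P2 ≤ H.P1 := H.crossingInput.not_P2_le_P1 H.sKron_mem
  have h12 : ¬ H.P1 ≤ H.P2 := H.crossingInput.not_P1_le_P2 H.tKron_mem
  have hp1n : H.P1 ≠ Mo.point := fun he => h21 (he ▸ hp2)
  have hp2n : H.P2 ≠ Mo.point := fun he => h12 (he ▸ hp1)
  obtain ⟨u₀, v₀, hu1, hv2, hv1, hu2⟩ := H.crossing_transversal Mo.point hp1 hp2
  obtain ⟨e, u', v', η, he1, -, hN, -, -, hη, huv⟩ :=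
    ModUnitNode.exists_node H.hdvr Mo.point Mo.loc H.modelHyp hu he₀ hp1 hp2 hp1n hp2n hu1 hv2
      hv1 hu2
  exact ⟨e, u', v', η, he1, hN, hη, huv,
    SpecialFibre.map_ne_maximalIdeal_of_ne Mo.point Mo.loc H.prime_P1 hp1 hp1n,
    SpecialFibre.map_ne_maximalIdeal_of_ne Mo.point Mo.loc H.prime_P2 hp2 hp2n⟩

end Modular

section Tower

variable {M q : ℕ} [NeZero M] [hq : Fact q.Prime]
variable (A : ValuationSubring Kb) (hA : A.LiesOverPrime q) (hqM : ¬ q ∣ M)
variable {k : Type*} [Field k] {Ft₁ Ft₂ : Type*} [Field Ft₁] [Algebra k Ft₁] [Field Ft₂]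
  [Algebra k Ft₂] {π : A →+* k} {O₁ O₂ : ValuationSubring (Fb (M * q))}
  {res₁ : O₁ →+* Ft₁} {res₂ : O₂ →+* Ft₂} {Q₁ : Place k Ft₁} {Q₂ : Place k Ft₂}
  {T : Set (Place Kb (Fb (M * q)))}

/-- **The output of the node lemma at a level `S` of the tower** (used at the base level
`S = ∅`), unconditionally, for any crossing model over helper27's model `CS (M q) q (W'_T[j])_T S`
with uniformizer `unif S`; `P_j := (levelHyp_tower A hA hqM S).P_j`
(`= SmoothInst.P1S/P2S A hA hqM S`). -/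
theorem exists_node_tower (S : Finset Kb)
    (Mo : CrossingModel A π O₁ O₂ res₁ res₂ Q₁ Q₂ T
      (CS (M * q) q (fun T => modelBase (M * q) (WS A q T)) S) (unif A hq.out hA S))
    [hloc : IsLocalRing Mo.loc]
    (hres0₁ : ∀ x : O₁, (x : Fb (M * q)) ∈ O₁.nonunits → res₁ x = 0)
    (hres0₂ : ∀ x : O₂, (x : Fb (M * q)) ∈ O₂.nonunits → res₂ x = 0)
    (hP1 : ∀ x : ↥(CS (M * q) q (fun T => modelBase (M * q) (WS A q T)) S),
      x ∈ (levelHyp_tower A hA hqM S).P1 ↔ (x : Fb (M * q)) ∈ O₁.nonunits)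
    (hP2 : ∀ x : ↥(CS (M * q) q (fun T => modelBase (M * q) (WS A q T)) S),
      x ∈ (levelHyp_tower A hA hqM S).P2 ↔ (x : Fb (M * q)) ∈ O₂.nonunits) :
    ∃ (n : ℕ) (u' v' η : Mo.loc), 1 ≤ n ∧
      NodeLemma.NodeData
        (algebraMap ↥(CS (M * q) q (fun T => modelBase (M * q) (WS A q T)) S) Mo.loc
          ⟨algebraMap Kb (Fb (M * q)) (unif A hq.out hA S), Mo.unif_mem⟩) u' v'
        ((levelHyp_tower A hA hqM S).P1.map
          (algebraMap ↥(CS (M * q) q (fun T => modelBase (M * q) (WS A q T)) S) Mo.loc))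
        ((levelHyp_tower A hA hqM S).P2.map
          (algebraMap ↥(CS (M * q) q (fun T => modelBase (M * q) (WS A q T)) S) Mo.loc)) ∧
      IsUnit η ∧
      u' * v' =
        algebraMap ↥(CS (M * q) q (fun T => modelBase (M * q) (WS A q T)) S) Mo.loc
          ⟨algebraMap Kb (Fb (M * q)) (unif A hq.out hA S), Mo.unif_mem⟩ ^ n * η ∧
      (levelHyp_tower A hA hqM S).P1.map
        (algebraMap ↥(CS (M * q) q (fun T => modelBase (M * q) (WS A q T)) S) Mo.loc) ≠
          maximalIdeal Mo.loc ∧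
      (levelHyp_tower A hA hqM S).P2.map
        (algebraMap ↥(CS (M * q) q (fun T => modelBase (M * q) (WS A q T)) S) Mo.loc) ≠
          maximalIdeal Mo.loc := by
  obtain ⟨e₀, ε, he₀, hu⟩ := exists_qUnif_tower A hA hqM S
  exact exists_node_raw (levelHyp_tower A hA hqM S) hu he₀ Mo (hloc := hloc) hres0₁ hres0₂ hP1 hP2

end Tower

end Fermat.Agent.BR.Inst.AnnulusInstAux
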