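/-
Program B (bad reduction), node B6.6 (b) of the gap audit (helper23): the two per-level inputs
`hRC`, `hint` of `S0.SmoothAssembly` / `S0.CrossingAssembly` for the levels of the tower.

For a valuation subring `B` of `ℚ̄` over `q`, a subring `W ⊆ B` containing `ℤ_(q)` and a model
`C = {x ∈ K'·F_{Mq} | x integral over W[j]}` (`IsModel (modelBase (M*q) W) (modelField (M*q) K') C`):

* `chartFin_le_model` : the finite `ℤ_(q)`-chart `chartFin` lies in `C`            (= `hRC`);
* `integralAt_model_of_chartFin` : a place integral on `chartFin` is integral on `C` (= `hint`;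
  helper29's `RedHyp.integralAt_of_isIntegral_AJ`);
* `chartFin_le_CS`, `integralAt_CS_of_chartFin` : the same for the level `S` of helper27's tower,
  `C = Levels.CS (M*q) q (fun T => modelBase (M*q) (WS B q T)) S`;
* `chartInf_le_modelInf`, `integralAt_modelInf_of_chartInf`, `chartInf_le_CS_inf`,
  `integralAt_CS_inf_of_chartInf` : the twins for the chart at infinity, models over `W[1/j]`
  (`Inf.modelBaseInf`).
-/
import Mathlib
import Fermat.Agent.BR.Inst.Levels
import Fermat.Agent.BR.Inst.LevelsInf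
import Fermat.Agent.BR.Inst.ChartInModel
import Fermat.Agent.BR.S0.RedHypLevels

set_option autoImplicit false
set_option linter.unusedSectionVars false
set_option synthInstance.maxHeartbeats 400000

namespace Fermat.Agent.BR.Inst.ChartInLevels

open ModularCurve ModularCurve.IgusaScheme AlgebraicCurve
open Fermat.Agent.X0 Fermat.Agent.Val Fermat.Agent.Red Fermat.Agent.BR.Centre
open Fermat.Agent.BR.TwoVal Fermat.Agent.BR.TwoValInst
open Fermat.Agent.Good.Bridge Fermat.Agent.BR.Inst Fermat.Agent.BR.Inst.NormalGen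
open Fermat.Agent.BR.Inst.NormalModel Fermat.Agent.BR.Inst.ChartInModel
open Fermat.Agent.BR.Inst.Levels Fermat.Agent.BR.S0.RedModular Fermat.Agent.BR.S0.RedHyp

variable {M q : ℕ} [NeZero M] [hq : Fact q.Prime]
variable (B : ValuationSubring Kb) (hB : B.LiesOverPrime q)

/-! ### the finite chart -/

section Fin

variable {W : Subring Kb} {K' : Subfield Kb} {C : Subring (Fb (M * q))}

/-- **`hRC`**: the finite `ℤ_(q)`-chart lies in every model over `W ⊇ ℤ_(q)`. -/
theorem chartFin_le_model
    (hZW : ∀ r : ↥(GaloisRep.ratLocalizedAt q),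
      algebraMap ℚ Kb ((r : ↥(GaloisRep.ratLocalizedAt q)) : ℚ) ∈ W)
    (hC : IsModel (modelBase (M * q) W) (modelField (M * q) K') C) :
    chartFin (M := M) (q := q) ≤ C := by
  intro y hy
  obtain ⟨x, hx, rfl⟩ := mem_chartBar_iff.mp hy
  exact barEmb_mem_model_of_mem_chartAlgFin (M * q) q hZW hC hx

/-- `W[j] ⊆ B[j]` for `W ⊆ B`. -/
theorem modelBase_le_AJ (hWB : ∀ x ∈ W, x ∈ B) :
    modelBase (M * q) W ≤ SpecIso.AJ M q B := by
  refine Subring.closure_le.2 ?_
  rintro y (⟨a, ha, rfl⟩ | hy)
  · exact Subring.subset_closure (Or.inl ⟨a, hWB a ha, rfl⟩)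
  · refine Subring.subset_closure (Or.inr ?_)
    rw [Set.mem_singleton_iff] at hy ⊢
    rw [hy, ← barEmb_jFull, barEmb_jFull_eq_jOne]

/-- **`hint`**: a place integral on the finite `ℤ_(q)`-chart is integral on every model over
`W ⊆ B`. -/
theorem integralAt_model_of_chartFin (hWB : ∀ x ∈ W, x ∈ B)
    (hC : IsModel (modelBase (M * q) W) (modelField (M * q) K') C)
    (P : Place Kb (Fb (M * q))) (hP : IntegralAt B (chartFin (M := M) (q := q)) P) :
    IntegralAt B C P :=
  integralAt_of_isIntegral_AJ B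
    (fun y hy => isIntegral_of_le (modelBase_le_AJ B hWB) ((hC y).mp hy).2) P hP

end Fin

section FinTower

include hB in
/-- `ℤ_(q) ⊆ W_S`. -/
theorem zl_mem_WS (S : Finset Kb) (r : ↥(GaloisRep.ratLocalizedAt q)) :
    algebraMap ℚ Kb ((r : ↥(GaloisRep.ratLocalizedAt q)) : ℚ) ∈ WS B q S :=
  mem_WS_iff.mpr ⟨algebraMap_zl_mem B hB r, by
    rw [eq_ratCast]; exact SubfieldClass.ratCast_mem (KS q S) _⟩

include hB in
/-- **`hRC` at the level `S` of the tower**. -/
theorem chartFin_le_CS (S : Finset Kb) :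
    chartFin (M := M) (q := q) ≤
      CS (M * q) q (fun T => modelBase (M * q) (WS B q T)) S :=
  chartFin_le_model (zl_mem_WS B hB S)
    (isModel_CS (N := M * q) (q := q) (base := fun T => modelBase (M * q) (WS B q T)) S)

/-- **`hint` at the level `S` of the tower**. -/
theorem integralAt_CS_of_chartFin (S : Finset Kb) (P : Place Kb (Fb (M * q)))
    (hP : IntegralAt B (chartFin (M := M) (q := q)) P) :
    IntegralAt B (CS (M * q) q (fun T => modelBase (M * q) (WS B q T)) S) P :=
  integralAt_model_of_chartFin B (fun _ hx => (mem_WS_iff.mp hx).1)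
    (isModel_CS (N := M * q) (q := q) (base := fun T => modelBase (M * q) (WS B q T)) S) P hP

end FinTower

/-! ### the chart at infinity -/

section Inf

variable {W : Subring Kb} {K' : Subfield Kb} {C : Subring (Fb (M * q))}

/-- **`hRC` at infinity**: the `ℤ_(q)`-chart at infinity lies in every model over `W[1/j]`,
`W ⊇ ℤ_(q)`. -/
theorem chartInf_le_modelInf
    (hZW : ∀ r : ↥(GaloisRep.ratLocalizedAt q),
      algebraMap ℚ Kb ((r : ↥(GaloisRep.ratLocalizedAt q)) : ℚ) ∈ W)
    (hC : IsModel (Inf.modelBaseInf (M * q) W) (modelField (M * q) K') C) :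
    chartInf (M := M) (q := q) ≤ C := by
  intro y hy
  obtain ⟨x, hx, rfl⟩ := mem_chartBar_iff.mp hy
  exact barEmb_mem_model_of_mem_chartAlgInf (M * q) q hZW hC hx

/-- `W[1/j] ⊆ B[1/j]` for `W ⊆ B`. -/
theorem modelBaseInf_le_AJinf (hWB : ∀ x ∈ W, x ∈ B) :
    Inf.modelBaseInf (M * q) W ≤ SpecIsoInf.AJinf M q B := by
  rw [Inf.modelBaseInf_eq]
  refine Subring.closure_le.2 ?_
  rintro y (⟨a, ha, rfl⟩ | hy)
  · exact Subring.subset_closure (Or.inl ⟨a, hWB a ha, rfl⟩)
  · refine Subring.subset_closure (Or.inr ?_)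
    rw [Set.mem_singleton_iff] at hy ⊢
    rw [hy, ← barEmb_jFull, barEmb_jFull_eq_jOne]

/-- **`hint` at infinity**: a place integral on the `ℤ_(q)`-chart at infinity is integral on every
model over `W[1/j]`, `W ⊆ B`. -/
theorem integralAt_modelInf_of_chartInf (hWB : ∀ x ∈ W, x ∈ B)
    (hC : IsModel (Inf.modelBaseInf (M * q) W) (modelField (M * q) K') C)
    (P : Place Kb (Fb (M * q))) (hP : IntegralAt B (chartInf (M := M) (q := q)) P) :
    IntegralAt B C P :=
  integralAt_of_isIntegral_AJinf B
    (fun y hy => isIntegral_of_le (modelBaseInf_le_AJinf B hWB) ((hC y).mp hy).2) P hP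

include hB in
/-- **`hRC` at infinity, level `S` of the tower**. -/
theorem chartInf_le_CS_inf (S : Finset Kb) :
    chartInf (M := M) (q := q) ≤
      CS (M * q) q (fun T => Inf.modelBaseInf (M * q) (WS B q T)) S :=
  chartInf_le_modelInf (zl_mem_WS B hB S)
    (isModel_CS (N := M * q) (q := q)
      (base := fun T => Inf.modelBaseInf (M * q) (WS B q T)) S)

/-- **`hint` at infinity, level `S` of the tower**. -/
theorem integralAt_CS_inf_of_chartInf (S : Finset Kb) (P : Place Kb (Fb (M * q)))
    (hP : IntegralAt B (chartInf (M := M) (q := q)) P) :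
    IntegralAt B (CS (M * q) q (fun T => Inf.modelBaseInf (M * q) (WS B q T)) S) P :=
  integralAt_modelInf_of_chartInf B (fun _ hx => (mem_WS_iff.mp hx).1)
    (isModel_CS (N := M * q) (q := q)
      (base := fun T => Inf.modelBaseInf (M * q) (WS B q T)) S) P hP

end Inf

end Fermat.Agent.BR.Inst.ChartInLevels
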