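import Mathlib
import Fermat.Agent.BR.Inst.NodeInst
import Fermat.Agent.BR.S0.GeomModular
import Fermat.Agent.BR.Inst.ChartInLevels
import Fermat.Agent.BR.Inst.CkPointModular

/-!
# Program B (BADRED), block B6.6: the input `chart` of `twoCompDeliverable_of_atlas`, closed form

Every named input of `NodeInst.chart_modular_of_levelHyp` discharged for the modular tower:

* the bridge `L S := GeomModular.levelHyp_fin (LevelsInst.levelHyp_tower B hB hqM S)` with the
  Dedekind chart `Dk := C_k = Ck M B`;
* `hnf := SpecIso.not_isField_Ck`, `hRC`/`hint` := `ChartInLevels.chartFin_le_CS` /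
  `integralAt_CS_of_chartFin`;
* the point hypotheses at a crossing: `hQD_zero_crossing`, `hQD_one_crossing` (the residue of `j`
  is regular at both points of a crossing, since `j` lies in the finite chart),
  `residue_place_deg_eq_one` (the residue field of `B` is algebraically closed).

Results: `crossingModel_modular_final` (the global model at a crossing at every level of the
tower, no hypothesis), `chart_modular_final H : ∀ e, NodeChart …` (the field `chart`, for any atlas
hypotheses `H`), `chart_modular_geom G` (for `H := RedHyp.atlasHyp_modular B hB hqM G`).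
-/

set_option autoImplicit false
set_option linter.unusedSectionVars false
set_option synthInstance.maxHeartbeats 400000

noncomputable section

namespace Fermat.Agent.BR.Inst.NodeInstFinal

open AlgebraicCurve ModularCurve IsLocalRing
open Fermat.Agent.Red Fermat.Agent.Val Fermat.Agent.X0 Fermat.Agent.BR.Centre
open Fermat.Agent.BR.Inst.Levels Fermat.Agent.BR.S0 Fermat.Agent.BR.ConstRedTwo
open Fermat.Agent.BR.S0.RedModular Fermat.Agent.BR.S0.PointDict Fermat.Agent.BR.S0.RedHyp
open Fermat.Agent.BR.Inst.SpecIso Fermat.Agent.BR.Inst.LevelsInst Fermat.Agent.BR.Inst.NodeInst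
open Fermat.Agent.BR.Inst.ChartInLevels Fermat.Agent.BR.Inst.CkPointModular

variable {M q : ℕ} [NeZero M] [hq : Fact q.Prime]
variable (B : ValuationSubring Kb) (hB : B.LiesOverPrime q) (hqM : ¬ q ∣ M)

local notation "kB" => IsLocalRing.ResidueField B
local notation "FtM" => modularFunctionFieldFullC (IsLocalRing.ResidueField B) M

include hB hqM in
/-- every place of `F̃_M` over the residue field of `B` has degree one -/
theorem residue_place_deg_eq_one (Q : Place kB FtM) : Q.deg = 1 := by
  have : IsAlgClosed kB := Val.residueField_isAlgClosed B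
  exact Fermat.Agent.FF.place_deg_eq_one (Val.isSepVarS_jFullC_residueField M hqM B hB) Q

/-- the point of the component `0` at a crossing is finite on `C_k` -/
theorem hQD_zero_crossing (e : Crossing (chartDataModular B hB hqM)) (d : ↥(Ck M B)) :
    (z₁ (chartDataModular B hB hqM) e).adicValuation (algebraMap ↥(Ck M B) FtM d) ≤ 1 := by
  obtain ⟨c, h1, -⟩ := glued (chartDataModular B hB hqM) e (jx M q) jx_mem_chartFin
  exact hQDf_zero B hB hqM _ _ h1.mem d

/-- the point of the component `1` at a crossing is finite on `C_k` -/
theorem hQD_one_crossing (e : Crossing (chartDataModular B hB hqM)) (d : ↥(Ck M B)) :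
    (z₂ (chartDataModular B hB hqM) e).adicValuation (algebraMap ↥(Ck M B) FtM d) ≤ 1 := by
  obtain ⟨c, -, h2⟩ := glued (chartDataModular B hB hqM) e (jx M q) jx_mem_chartFin
  exact hQDf_one B hB hqM _ _ h2.mem d

variable {x : Fb (M * q)} (H : AtlasHyp (chartDataModular B hB hqM) x)

include H in
set_option maxHeartbeats 1600000 in
/-- **The global model at a crossing of the atlas, at every level of the tower**, without
hypothesis. -/
theorem crossingModel_modular_final (S : Finset Kb) (e : Crossing (chartDataModular B hB hqM)) :
    CrossingModel B (IsLocalRing.residue B) (compW B hB hqM 0).O (compW B hB hqM 1).O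
      (compW B hB hqM 0).res (compW B hB hqM 1).res (z₁ (chartDataModular B hB hqM) e)
      (z₂ (chartDataModular B hB hqM) e)
      {P | H.r P = ⟨0, z₁ (chartDataModular B hB hqM) e⟩}
      (CS (M * q) q (baseFin M q B) S) (unif B hq.out hB S) := by
  have := isDedekindDomain_Ck B hB hqM
  have := isFractionRing_Ck B hB hqM
  have : IsScalarTower kB ↥(Ck M B) FtM := IsScalarTower.of_algebraMap_eq (fun _ => rfl)
  exact crossingModel_modular (Dk := ↥(Ck M B)) H S
    (GeomModular.levelHyp_fin (levelHyp_tower B hB hqM S)) (not_isField_Ck B hB hqM)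
    (chartFin_le_CS B hB S) (integralAt_CS_of_chartFin B S) e (hQD_zero_crossing B hB hqM e)
    (hQD_one_crossing B hB hqM e) (residue_place_deg_eq_one B hB hqM _)

/-- **The input `chart` of `twoCompDeliverable_of_atlas`** for the modular tower, without
hypothesis. -/
def chart_modular_final :
    ∀ e, NodeChart B (compW B hB hqM 0).O (compW B hB hqM 1).O (compW B hB hqM 0).res
      (compW B hB hqM 1).res (z₁ (chartDataModular B hB hqM) e)
      (z₂ (chartDataModular B hB hqM) e)
      {P | H.r P = ⟨0, z₁ (chartDataModular B hB hqM) e⟩} :=
  chart_modular H fun e S => crossingModel_modular_final B hB hqM H S e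

/-- **The input `chart`** for the atlas hypotheses of `RedHyp.atlasHyp_modular`. -/
def chart_modular_geom (G : GeomInputs B hB hqM) :
    ∀ e, NodeChart B (compW B hB hqM 0).O (compW B hB hqM 1).O (compW B hB hqM 0).res
      (compW B hB hqM 1).res (z₁ (chartDataModular B hB hqM) e)
      (z₂ (chartDataModular B hB hqM) e)
      {P | (atlasHyp_modular B hB hqM G).r P = ⟨0, z₁ (chartDataModular B hB hqM) e⟩} :=
  chart_modular_final B hB hqM (atlasHyp_modular B hB hqM G)

end Fermat.Agent.BR.Inst.NodeInstFinal
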