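import Fermat.Agent.BR.CrossingQuot
import Fermat.Agent.BR.KronTwisted

/-!
# Program B (BADRED), node B6.5(e): crossing points of the two-component model, FRAME-FREE
instantiation

Level `M * q`, `A ⊂ ℚ̄` a valuation subring over `q` (`q ∤ M`), `k` its residue field,
`w₁ = O1 M A hA`, `w₂ = O2 A hA hqM` the two valuations of `F̄_{Mq}` over `q`.

The model is an ABSTRACT pair of subrings `R ⊆ Fb (M * q)` (in helper23's FRAME:
`BK A K' (M * q)`) and `RM ⊆ Fb M` (`BK A K' M`), with ideals `P1 P2` of `R` cut out by the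
maximal ideals of `w₁`, `w₂`.  The hypotheses are bundled in `CrossingInput`:

* `le_OM`, `alpha_mem`, `beta_mem` : `RM ⊆ O_M`, `α RM ⊆ R`, `β RM ⊆ R`;
* `mem_P1`, `mem_P2` : `x ∈ P_i ↔ x ∈ 𝔪(w_i)`;
* `S1`, `S2` : `RM → R ⧸ P1` (via `α`), `RM → R ⧸ P2` (via `β`) are onto (node B6.5(d));
* `untwist` : every `g ∈ RM` has a Frobenius untwist `g' ∈ RM`, `res_M g = σ (res_M g')`
  (from the lift lemma of B6.5(d) and `KronTwisted.exists_untwist_full`: `untwist_of_lift`).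

Results: `K1`, `K2` (the twisted Kronecker congruences in `R`), `crossing_transversal`
(`u ∈ P1`, `v ∈ P2` with `n = P1 + (v) = P2 + (u)` locally at a crossing point `n`) and
`crossing_nodeData` (`NodeLemma.NodeData` in `R_n`).
-/

set_option autoImplicit false
set_option linter.style.haveILetI false

noncomputable section

namespace Fermat.Agent.BR.Inst.CrossingFF

open ModularCurve AlgebraicCurve Fermat.Agent.X0 Fermat.Agent.Val Fermat.Agent.BR.TwoVal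
  Fermat.Agent.BR.ResGen Fermat.Agent.BR.TwoValInst Fermat.Agent.BR.KronTwisted
  Fermat.Agent.BR.SpecialFibre Fermat.Agent.BR.NodeLemma

variable {M q : ℕ} [NeZero M] [hq : Fact q.Prime]
variable (A : ValuationSubring (AlgebraicClosure ℚ)) (hA : A.LiesOverPrime q) (hqM : ¬ q ∣ M)

local notation "kA" => IsLocalRing.ResidueField A

/-- The inputs of the crossing lemma for an abstract model `R ⊆ Fb (M * q)`, `RM ⊆ Fb M`. -/
structure CrossingInput (R : Subring (Fb (M * q))) (RM : Subring (Fb M)) (P1 P2 : Ideal ↥R) :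
    Prop where
  le_OM : ∀ g ∈ RM, g ∈ OM M A hA
  alpha_mem : ∀ g ∈ RM, heckeAlphaBar Kb M q g ∈ R
  beta_mem : ∀ g ∈ RM, heckeBetaBar Kb M q g ∈ R
  mem_P1 : ∀ x : ↥R, x ∈ P1 ↔ (x : Fb (M * q)) ∈ (O1 M A hA).nonunits
  mem_P2 : ∀ x : ↥R, x ∈ P2 ↔ (x : Fb (M * q)) ∈ (O2 A hA hqM).nonunits
  S1 : ∀ x ∈ R, ∃ g ∈ RM, x - heckeAlphaBar Kb M q g ∈ (O1 M A hA).nonunits
  S2 : ∀ x ∈ R, ∃ g ∈ RM, x - heckeBetaBar Kb M q g ∈ (O2 A hA hqM).nonunits
  untwist : ∀ g (hg : g ∈ RM), ∃ g' : Fb M, ∃ hg' : g' ∈ RM,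
    resM M A hA ⟨g, le_OM g hg⟩ =
      haveI := charP_kB A hA
      coeffMap (frobenius kA q) (resM M A hA ⟨g', le_OM g' hg'⟩)

namespace CrossingInput

variable {A hA hqM}
variable {R : Subring (Fb (M * q))} {RM : Subring (Fb M)} {P1 P2 : Ideal ↥R}

/-- `α` restricted to the models -/
def alphaR (h : CrossingInput A hA hqM R RM P1 P2) : ↥RM →+* ↥R :=
  ((heckeAlphaBar Kb M q : Fb M →+* Fb (M * q)).comp RM.subtype).codRestrict R
    fun g => h.alpha_mem g g.2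

/-- `β` restricted to the models -/
def betaR (h : CrossingInput A hA hqM R RM P1 P2) : ↥RM →+* ↥R :=
  ((heckeBetaBar Kb M q : Fb M →+* Fb (M * q)).comp RM.subtype).codRestrict R
    fun g => h.beta_mem g g.2

@[simp]
theorem coe_alphaR (h : CrossingInput A hA hqM R RM P1 P2) (g : ↥RM) :
    ((h.alphaR g : ↥R) : Fb (M * q)) = heckeAlphaBar Kb M q (g : Fb M) := rfl

@[simp]
theorem coe_betaR (h : CrossingInput A hA hqM R RM P1 P2) (g : ↥RM) :
    ((h.betaR g : ↥R) : Fb (M * q)) = heckeBetaBar Kb M q (g : Fb M) := rfl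

/-- `(S1)` in ring form -/
theorem S1' (h : CrossingInput A hA hqM R RM P1 P2) (x : ↥R) :
    ∃ g : ↥RM, x - h.alphaR g ∈ P1 := by
  obtain ⟨g, hg, hx⟩ := h.S1 x x.2
  exact ⟨⟨g, hg⟩, (h.mem_P1 _).2 hx⟩

/-- `(S2)` in ring form -/
theorem S2' (h : CrossingInput A hA hqM R RM P1 P2) (x : ↥R) :
    ∃ g : ↥RM, x - h.betaR g ∈ P2 := by
  obtain ⟨g, hg, hx⟩ := h.S2 x x.2
  exact ⟨⟨g, hg⟩, (h.mem_P2 _).2 hx⟩

/-- **`(K1')`**: the twisted Kronecker congruence on the first component, in `R`. -/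
theorem K1 (h : CrossingInput A hA hqM R RM P1 P2) (g : ↥RM) :
    ∃ g' : ↥RM, h.betaR g - (h.alphaR g') ^ q ∈ P1 := by
  obtain ⟨g', hg', hres⟩ := h.untwist g g.2
  refine ⟨⟨g', hg'⟩, (h.mem_P1 _).2 ?_⟩
  exact kron_twisted₁ A hA (h.le_OM g g.2) (h.le_OM g' hg') hres

/-- **`(K2')`**: the twisted Kronecker congruence on the second component, in `R`. -/
theorem K2 (h : CrossingInput A hA hqM R RM P1 P2) (g : ↥RM) :
    ∃ g' : ↥RM, h.alphaR g - (h.betaR g') ^ q ∈ P2 := by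
  obtain ⟨g', hg', hres⟩ := h.untwist g g.2
  refine ⟨⟨g', hg'⟩, (h.mem_P2 _).2 ?_⟩
  exact kron_twisted₂ A hA hqM (h.le_OM g g.2) (h.le_OM g' hg') hres

/-- `P1 ⊄ P2` as soon as the Kronecker element `t = j_q - j^q` lies in `R` -/
theorem not_P1_le_P2 (h : CrossingInput A hA hqM R RM P1 P2) (ht : tKron M q ∈ R) :
    ¬ P1 ≤ P2 := fun hle =>
  tKron_notMem_nonunits_O2 A hA hqM
    ((h.mem_P2 ⟨tKron M q, ht⟩).1 (hle ((h.mem_P1 ⟨tKron M q, ht⟩).2
      (tKron_mem_nonunits_O1 A hA))))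

/-- `P2 ⊄ P1` as soon as `s = j - j_q^q` lies in `R` -/
theorem not_P2_le_P1 (h : CrossingInput A hA hqM R RM P1 P2) (hs : sKron M q ∈ R) :
    ¬ P2 ≤ P1 := fun hle =>
  sKron_notMem_nonunits_O1 A hA hqM
    ((h.mem_P1 ⟨sKron M q, hs⟩).1 (hle ((h.mem_P2 ⟨sKron M q, hs⟩).2
      (sKron_mem_nonunits_O2 A hA hqM))))

variable (n : Ideal ↥R) [n.IsPrime]

/-- **Transversality at a crossing point** `n ⊇ P1 + P2` of the model `R`: there are `u ∈ P1`,
`v ∈ P2` such that `n = P1 + (v) = P2 + (u)` locally at `n`. -/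
theorem crossing_transversal (h : CrossingInput A hA hqM R RM P1 P2)
    [IsDedekindDomain (↥R ⧸ P1)] [IsDedekindDomain (↥R ⧸ P2)]
    (ht : tKron M q ∈ R) (hs : sKron M q ∈ R) (hp1 : P1 ≤ n) (hp2 : P2 ≤ n) :
    ∃ u v : ↥R, u ∈ P1 ∧ v ∈ P2 ∧
      (∀ x ∈ n, ∃ s, s ∉ n ∧ s * x ∈ P1 ⊔ Ideal.span {v}) ∧
      (∀ x ∈ n, ∃ s, s ∉ n ∧ s * x ∈ P2 ⊔ Ideal.span {u}) := by
  have hne1 : P1 ≠ n := fun he => h.not_P2_le_P1 hs (he ▸ hp2)
  have hne2 : P2 ≠ n := fun he => h.not_P1_le_P2 ht (he ▸ hp1)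
  exact CrossingQuot.crossing_transversal_quot (α := h.alphaR) (β := h.betaR) hp1 hp2 hne1 hne2
    hq.out.two_le h.S1' h.S2' h.K1 h.K2

/-- **`NodeData` at a crossing point** of the two-component normal model `R`. -/
theorem crossing_nodeData (h : CrossingInput A hA hqM R RM P1 P2)
    [IsNoetherianRing ↥R] [IsIntegrallyClosed ↥R]
    [IsDedekindDomain (↥R ⧸ P1)] [IsDedekindDomain (↥R ⧸ P2)]
    (O : Type*) [CommRing O] [Algebra ↥R O] [IsLocalization.AtPrime O n] [IsLocalRing O]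
    {ϖ : ↥R} (hT : TwoComponents ϖ P1 P2)
    (ht : tKron M q ∈ R) (hs : sKron M q ∈ R) (hp1 : P1 ≤ n) (hp2 : P2 ≤ n) :
    ∃ u v : ↥R, u ∈ P1 ∧ v ∈ P2 ∧
      (∀ x ∈ n, ∃ s, s ∉ n ∧ s * x ∈ P1 ⊔ Ideal.span {v}) ∧
      (∀ x ∈ n, ∃ s, s ∉ n ∧ s * x ∈ P2 ⊔ Ideal.span {u}) ∧
      NodeData (algebraMap ↥R O ϖ) (algebraMap ↥R O u) (algebraMap ↥R O v)
        (P1.map (algebraMap ↥R O)) (P2.map (algebraMap ↥R O)) := by
  obtain ⟨u, v, hu, hv, hv1, hu2⟩ := h.crossing_transversal n ht hs hp1 hp2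
  exact ⟨u, v, hu, hv, hv1, hu2, hT.nodeData n O hp1 hp2 hu hv hv1 hu2⟩

end CrossingInput

/-! ### The untwist hypothesis from the lift lemma of B6.5(d) -/

section Untwist

variable {A hA}

/-- **The Frobenius untwist lifts**: if the reductions of the elements of `RM` are integral over
`k[j̃]` in `F̃_M` (`I`) and every element of `F̃_M` integral over `k[j̃]` is the reduction of an
element of `RM` (`L`, the lift lemma of B6.5(d)), then every `g ∈ RM` has a Frobenius untwist in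
`RM`. -/
theorem untwist_of_lift {RM : Subring (Fb M)} (le_OM : ∀ g ∈ RM, g ∈ OM M A hA)
    (I : ∀ g (hg : g ∈ RM), ∃ y : ↥(modularFunctionFieldFullC kA M),
      IsIntegral ↥(Algebra.adjoin kA {jFullC kA M}) y ∧
        (y : LaurentSeries kA) = resM M A hA ⟨g, le_OM g hg⟩)
    (L : ∀ y : ↥(modularFunctionFieldFullC kA M),
      IsIntegral ↥(Algebra.adjoin kA {jFullC kA M}) y →
        ∃ g' : Fb M, ∃ hg' : g' ∈ RM, resM M A hA ⟨g', le_OM g' hg'⟩ = (y : LaurentSeries kA))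
    (g : Fb M) (hg : g ∈ RM) :
    ∃ g' : Fb M, ∃ hg' : g' ∈ RM,
      resM M A hA ⟨g, le_OM g hg⟩ =
        haveI := charP_kB A hA
        coeffMap (frobenius kA q) (resM M A hA ⟨g', le_OM g' hg'⟩) := by
  haveI := charP_kB A hA
  haveI : IsAlgClosed kA := residueField_isAlgClosed A
  obtain ⟨y, hy, hyg⟩ := I g hg
  obtain ⟨y', hy', hyy'⟩ := exists_untwist_full q M y hy
  obtain ⟨g', hg', hres⟩ := L y' hy'
  exact ⟨g', hg', by rw [← hyg, hyy', hres]⟩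

end Untwist

end Fermat.Agent.BR.Inst.CrossingFF
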