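import Fermat.Agent.BR.Inst.SpecialIsoDedekind
import Fermat.Agent.BR.Inst.ChartInModel
import Fermat.Agent.BR.Inst.DegenModel
import Fermat.Agent.BR.Inst.CrossingFF

/-!
# Program B, node B6.5(d), part 3: plug-in for the normal models `IsModel (W[j]) (K'·F_N) C`

`W ⊆ A` a subring of constants containing `ℤ_(q)` with full residue field (`FullRes`), `K' ⊇ W` a
subfield of `ℚ̄`, `C` the model of level `M q` and `CM` the model of level `M`
(`NormalGen.IsModel (modelBase N W) (modelField N K') ·`, `BR/Inst/NormalModel`).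

* `model_isIntegral_AJ`, `modelM_isIntegral_AJM`, `GM_le_model` : the hypotheses of
  `BR/Inst/SpecialIso` hold for the models;
* `P1 P2 : Ideal C` := the kernels of `redOne`, `redTwo` (`mem_P1`, `mem_P2` : `x ∈ P_i ↔ x ∈ 𝔪(w_i)`);
* `isDedekindDomain_quot_P1`, `isDedekindDomain_quot_P2`; `quotP1`, `quotP2 : C ⧸ P_i ≃+* Ck M A`;
* `crossingInput : CrossingFF.CrossingInput A hA hqM C CM P1 P2` (input of B6.5(e)).
-/

set_option autoImplicit false
set_option linter.unusedSectionVars false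
set_option linter.style.haveILetI false

noncomputable section

set_option synthInstance.maxHeartbeats 400000

namespace Fermat.Agent.BR.Inst.SpecIso

open ModularCurve ModularCurve.IgusaScheme AlgebraicCurve Fermat.Agent.X0 Fermat.Agent.Val
  Fermat.Agent.BR.TwoVal Fermat.Agent.BR.ResGen Fermat.Agent.BR.TwoValInst
  Fermat.Agent.Good.Bridge Fermat.Agent.BR.Inst.NormalGen Fermat.Agent.BR.Inst.NormalModel
  Fermat.Agent.BR.Inst.ChartInModel Fermat.Agent.BR.Inst.DegenModel

variable {M q : ℕ} [NeZero M] [hq : Fact q.Prime]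
variable (A : ValuationSubring Kb) (hA : A.LiesOverPrime q) (hqM : ¬ q ∣ M)

local notation "kA" => IsLocalRing.ResidueField A

variable (W : Subring Kb) (K' : Subfield Kb) (hWA : ∀ a ∈ W, a ∈ A)

include hWA in
theorem modelBase_le_AJ : modelBase (M * q) W ≤ AJ M q A := by
  refine Subring.closure_le.2 ?_
  rintro x (⟨a, ha, rfl⟩ | hx)
  · exact Subring.subset_closure (Or.inl ⟨a, hWA a ha, rfl⟩)
  · rw [Set.mem_singleton_iff] at hx
    refine Subring.subset_closure (Or.inr ?_)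
    rw [Set.mem_singleton_iff, hx, ← jBarD_one_eq]
    rfl

include hWA in
theorem modelBase_le_AJM : modelBase M W ≤ AJM M A := by
  refine Subring.closure_le.2 ?_
  rintro x (⟨a, ha, rfl⟩ | hx)
  · exact Subring.subset_closure (Or.inl ⟨a, hWA a ha, rfl⟩)
  · rw [Set.mem_singleton_iff] at hx
    refine Subring.subset_closure (Or.inr ?_)
    rw [Set.mem_singleton_iff, hx, ← jBarD_one_eq]

variable {W K'}
variable {C : Subring (Fb (M * q))} {CM : Subring (Fb M)}
  (hC : IsModel (modelBase (M * q) W) (modelField (M * q) K') C)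
  (hCM : IsModel (modelBase M W) (modelField M K') CM)

include hWA hC in
/-- the elements of the level `M q` model are integral over `A[j]` -/
theorem model_isIntegral_AJ : ∀ x ∈ C, IsIntegral ↥(AJ M q A) x :=
  fun x hx => isIntegral_mono (modelBase_le_AJ A W hWA) ((hC x).1 hx).2

include hWA hCM in
/-- the elements of the level `M` model are integral over `A[j]` -/
theorem modelM_isIntegral_AJM : ∀ x ∈ CM, IsIntegral ↥(AJM M A) x :=
  fun x hx => isIntegral_mono (modelBase_le_AJM A W hWA) ((hCM x).1 hx).2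

include hWA hCM in
theorem modelM_le_OM' : ∀ g ∈ CM, g ∈ OM M A hA :=
  fun g hg => mem_OM_of_isIntegral A hA (modelM_isIntegral_AJM A hWA hCM g hg)

variable (hWK : ∀ a ∈ W, a ∈ K')
  (hZW : ∀ r : ↥(GaloisRep.ratLocalizedAt q), algebraMap ℚ Kb ((r : ↥(GaloisRep.ratLocalizedAt q)) : ℚ) ∈ W)

include hCM hWK hZW in
/-- the subring generated by `W` and the finite `ℤ_(q)`-chart lies in the level `M` model -/
theorem GM_le_model : GM M q (W : Set Kb) ≤ CM := by
  refine Subring.closure_le.2 ?_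
  rintro x (⟨a, ha, rfl⟩ | ⟨b, hb, rfl⟩)
  · exact const_mem_model M hCM hWK ha
  · exact barEmb_mem_model_of_mem_chartAlgFin M q hZW hCM hb

/-- `P₁ = C ∩ 𝔪(w₁)`, as the kernel of `res₁ : C → C_k`. -/
def P1 : Ideal ↥C := RingHom.ker (redOne A hA hqM C (model_isIntegral_AJ A hWA hC))

/-- `P₂ = C ∩ 𝔪(w₂)`, as the kernel of `res₂ : C → C_k`. -/
def P2 : Ideal ↥C := RingHom.ker (redTwo A hA hqM C (model_isIntegral_AJ A hWA hC))

theorem mem_P1 (x : ↥C) :
    x ∈ P1 A hA hqM hWA hC ↔ (x : Fb (M * q)) ∈ (O1 M A hA).nonunits :=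
  mem_ker_redOne A hA hqM C _ x

theorem mem_P2 (x : ↥C) :
    x ∈ P2 A hA hqM hWA hC ↔ (x : Fb (M * q)) ∈ (O2 A hA hqM).nonunits :=
  mem_ker_redTwo A hA hqM C _ x

instance isPrime_P1 : (P1 A hA hqM hWA hC).IsPrime := RingHom.ker_isPrime _

instance isPrime_P2 : (P2 A hA hqM hWA hC).IsPrime := RingHom.ker_isPrime _

variable (hW : ∀ a ∈ A, ∃ a' ∈ (W : Set Kb), a - a' ∈ A.nonunits)

include hC hCM hWK hZW in
theorem alpha_GM_mem :
    ∀ g ∈ GM M q (W : Set Kb), g ∈ OM M A hA → heckeAlphaBar Kb M q g ∈ C :=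
  fun _ hg _ => alpha_mem_model M q hCM hC (GM_le_model hCM hWK hZW hg)

include hC hCM hWK hZW in
theorem beta_GM_mem :
    ∀ g ∈ GM M q (W : Set Kb), g ∈ OM M A hA → heckeBetaBar Kb M q g ∈ C :=
  fun _ hg _ => beta_mem_model M q hq.out hCM hC (GM_le_model hCM hWK hZW hg)

/-- **`C ⧸ P₁ ≃ C_k`**. -/
def quotP1 : ↥C ⧸ P1 A hA hqM hWA hC ≃+* ↥(Ck M A) :=
  quotOne A hA hqM C (model_isIntegral_AJ A hWA hC) (W : Set Kb) hW
    (alpha_GM_mem A hA hC hCM hWK hZW)

/-- **`C ⧸ P₂ ≃ C_k`**. -/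
def quotP2 : ↥C ⧸ P2 A hA hqM hWA hC ≃+* ↥(Ck M A) :=
  quotTwo A hA hqM C (model_isIntegral_AJ A hWA hC) (W : Set Kb) hW
    (beta_GM_mem A hA hC hCM hWK hZW)

include hCM hWK hZW hW in
/-- **`C ⧸ P₁` is a Dedekind domain.** -/
theorem isDedekindDomain_quot_P1 : IsDedekindDomain (↥C ⧸ P1 A hA hqM hWA hC) :=
  isDedekindDomain_quotOne A hA hqM C (model_isIntegral_AJ A hWA hC) (W : Set Kb) hW
    (alpha_GM_mem A hA hC hCM hWK hZW)

include hCM hWK hZW hW in
/-- **`C ⧸ P₂` is a Dedekind domain.** -/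
theorem isDedekindDomain_quot_P2 : IsDedekindDomain (↥C ⧸ P2 A hA hqM hWA hC) :=
  isDedekindDomain_quotTwo A hA hqM C (model_isIntegral_AJ A hWA hC) (W : Set Kb) hW
    (beta_GM_mem A hA hC hCM hWK hZW)

include hCM hWK hZW hW in
/-- **The input of the crossing lemma (B6.5(e))** for the normal models. -/
theorem crossingInput :
    CrossingFF.CrossingInput A hA hqM C CM (P1 A hA hqM hWA hC) (P2 A hA hqM hWA hC) := by
  have hle : ∀ g ∈ CM, g ∈ OM M A hA := modelM_le_OM' A hA hWA hCM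
  refine
    { le_OM := hle
      alpha_mem := fun g hg => alpha_mem_model M q hCM hC hg
      beta_mem := fun g hg => beta_mem_model M q hq.out hCM hC hg
      mem_P1 := mem_P1 A hA hqM hWA hC
      mem_P2 := mem_P2 A hA hqM hWA hC
      S1 := ?_
      S2 := ?_
      untwist := ?_ }
  · intro x hx
    obtain ⟨g, hgG, -, hg⟩ := exists_alpha_sub_mem A hA hqM (W : Set Kb) hW
      (model_isIntegral_AJ A hWA hC x hx)
    exact ⟨g, GM_le_model hCM hWK hZW hgG, hg⟩
  · intro x hx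
    obtain ⟨g, hgG, -, hg⟩ := exists_beta_sub_mem A hA hqM (W : Set Kb) hW
      (model_isIntegral_AJ A hWA hC x hx)
    exact ⟨g, GM_le_model hCM hWK hZW hgG, hg⟩
  · refine CrossingFF.untwist_of_lift hle ?_ ?_
    · intro g hg
      exact ⟨redMF A hA hqM ⟨g, hle g hg⟩,
        isIntegral_redMF A hA hqM (modelM_isIntegral_AJM A hWA hCM g hg), rfl⟩
    · intro y hy
      obtain ⟨g', hg'G, hg', hred⟩ := exists_lift A hA hqM (W : Set Kb) hW y hy
      refine ⟨g', GM_le_model hCM hWK hZW hg'G, ?_⟩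
      rw [← hred]
      rfl

end Fermat.Agent.BR.Inst.SpecIso
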