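/-
Program B (bad reduction), the per-crossing instance for the modular tower, CLOSED FORM (helper19):
the fields `L`, `X`, `u_mem` of `Final.ModularData` without hypothesis.

* `baseNode_of_levelHyp` : the node lemma (`ModUnitNode.exists_node` at the transversal
  coordinates of `LevelHyp.crossing_transversal`) at the point of a crossing model of one level,
  in the shape `AnnulusInst.BaseNode`; `baseNode_modular` : at the base level `S = ∅` of the tower;
* `annulusLevels_modular_all`, `branchData_modular_all`, `u_mem_base_modular_all` : the three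
  fields for any atlas hypotheses `H` and charts (`Mod := NodeInstFinal.crossingModel_modular_final`,
  `L S := GeomModular.levelHyp_fin (levelHyp_tower B hB hqM S)`, `hnode := baseNode_modular`);
* `annulusLevels_modular_final`, `branchData_modular_final`, `u_mem_base_modular_final` : the same
  over `Final.setupFinal` = the arguments `L`, `X`, `u_mem` of `Final.modularDataOf`
  (`ι := fun _ => Finset Kb`);
* `modularData_of_thick` : `Final.ModularData` from `hzero`, `hord`; `modularData_final` : without
  hypothesis (`ThickFinal`).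
-/
import Mathlib
import Fermat.Agent.BR.Inst.AnnulusInst
import Fermat.Agent.BR.Inst.AnnulusBaseNode
import Fermat.Agent.BR.Inst.NodeInstFinal
import Fermat.Agent.BR.Final.Partial
import Fermat.Agent.BR.S0.ThickFinal

set_option autoImplicit false
set_option synthInstance.maxHeartbeats 400000
set_option linter.unusedSectionVars false
set_option linter.style.haveILetI false

namespace Fermat.Agent.BR.Inst.AnnulusInstFinal

open AlgebraicCurve ModularCurve IsLocalRing Polynomial
open Fermat.Agent.Red Fermat.Agent.Val Fermat.Agent.X0 Fermat.Agent.BR.SS Fermat.Agent.BR.Refine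
open Fermat.Agent.BR.Centre Fermat.Agent.BR.ConstRedTwo Fermat.Agent.BR.ModUnit
open Fermat.Agent.BR.S0 Fermat.Agent.BR.S0.RedModular Fermat.Agent.BR.S0.PointDict
open Fermat.Agent.BR.S0.Modular Fermat.Agent.BR.S0.RedHyp
open Fermat.Agent.BR.S0.AnnulusChartOfLevels Fermat.Agent.BR.S0.SmoothAssembly
open Fermat.Agent.BR.UnramCycloTower Fermat.Agent.BR.Inst.Levels
open Fermat.Agent.BR.Inst.NormalModel Fermat.Agent.BR.Inst.LevelsInst
open Fermat.Agent.BR.Inst.ModUnitNode Fermat.Agent.BR.Inst.AnnulusBaseNode
open Fermat.Agent.BR.TwoVal Fermat.Agent.BR.TwoValInst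
open Fermat.Agent.BR.Inst.SpecIso Fermat.Agent.BR.Inst.NodeInstFinal

section Level

variable {M q : ℕ} [NeZero M] [hq : Fact q.Prime]
variable {A : ValuationSubring Kb} {hA : A.LiesOverPrime q} {hqM : ¬ q ∣ M}
variable {K' : Subfield Kb} {W : Subring Kb} {π' : Kb}
variable {k : Type*} [Field k] {Ft₁ Ft₂ : Type*} [Field Ft₁] [Algebra k Ft₁] [Field Ft₂]
  [Algebra k Ft₂] {π : A →+* k} {O₁ O₂ : ValuationSubring (Fb (M * q))}
  {res₁ : O₁ →+* Ft₁} {res₂ : O₂ →+* Ft₂} {Q₁ : Place k Ft₁} {Q₂ : Place k Ft₂}
  {T : Set (Place Kb (Fb (M * q)))}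

/-- **The node lemma at a crossing point of one level**, in the shape `AnnulusInst.BaseNode`. -/
theorem baseNode_of_levelHyp (H : LevelsInst.LevelHyp A hA hqM K' W π') {e₀ : ℕ} {ε : Kb}
    (hu : QUnif W π' q e₀ ε) (he₀ : e₀ ≠ 0)
    (Mo : CrossingModel A π O₁ O₂ res₁ res₂ Q₁ Q₂ T (CQ M q W K') π')
    (hres0₁ : ∀ x : O₁, (x : Fb (M * q)) ∈ O₁.nonunits → res₁ x = 0)
    (hres0₂ : ∀ x : O₂, (x : Fb (M * q)) ∈ O₂.nonunits → res₂ x = 0)
    (hP1 : ∀ x : ↥(CQ M q W K'), x ∈ H.P1 ↔ (x : Fb (M * q)) ∈ O₁.nonunits)
    (hP2 : ∀ x : ↥(CQ M q W K'), x ∈ H.P2 ↔ (x : Fb (M * q)) ∈ O₂.nonunits) :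
    AnnulusInst.BaseNode Mo H.P1 H.P2 := by
  intro hloc
  have hp1 : H.P1 ≤ Mo.point := fun x hx =>
    Mo.mem_point_of_nonunits₁ hres0₁ x ((hP1 x).mp hx)
  have hp2 : H.P2 ≤ Mo.point := fun x hx =>
    Mo.mem_point_of_nonunits₂ hres0₂ x ((hP2 x).mp hx)
  have h21 : ¬ H.P2 ≤ H.P1 := H.crossingInput.not_P2_le_P1 H.sKron_mem
  have h12 : ¬ H.P1 ≤ H.P2 := H.crossingInput.not_P1_le_P2 H.tKron_mem
  have hp1n : H.P1 ≠ Mo.point := fun he => h21 (he ▸ hp2)
  have hp2n : H.P2 ≠ Mo.point := fun he => h12 (he ▸ hp1)
  obtain ⟨u₀, v₀, hu1, hv2, hv1, hu2⟩ := H.crossing_transversal Mo.point hp1 hp2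
  obtain ⟨e, u', v', η, he1, -, hN, -, -, hη, huv⟩ :=
    ModUnitNode.exists_node H.hdvr Mo.point Mo.loc H.modelHyp hu he₀ hp1 hp2 hp1n hp2n hu1 hv2
      hv1 hu2
  exact ⟨e, u', v', η, he1, hN, hη, huv,
    SpecialFibre.map_ne_maximalIdeal_of_ne Mo.point Mo.loc H.modelHyp.twoComponents.prime1 hp1 hp1n,
    SpecialFibre.map_ne_maximalIdeal_of_ne Mo.point Mo.loc H.modelHyp.twoComponents.prime2 hp2 hp2n⟩

end Level

section Modular

variable {M q : ℕ} [NeZero M] [hq : Fact q.Prime]
variable (B : ValuationSubring Kb) (hB : B.LiesOverPrime q) (hqM : ¬ q ∣ M)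

local notation "kB" => IsLocalRing.ResidueField B
local notation "FtM" => modularFunctionFieldFullC (IsLocalRing.ResidueField B) M

variable {x : Fb (M * q)} (H : AtlasHyp (chartDataModular B hB hqM) x)

set_option maxHeartbeats 2000000 in
/-- the node lemma at a crossing of the modular tower, base level -/
theorem baseNode_modular (e : Crossing (chartDataModular B hB hqM)) :
    AnnulusInst.BaseNode (crossingModel_modular_final B hB hqM H ∅ e)
      (levelHyp_tower B hB hqM ∅).P1 (levelHyp_tower B hB hqM ∅).P2 := by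
  obtain ⟨e₀, ε, he₀, hu⟩ := exists_qUnif_tower B hB hqM ∅
  exact baseNode_of_levelHyp (levelHyp_tower B hB hqM ∅) hu he₀
    (crossingModel_modular_final B hB hqM H ∅ e)
    (fun y hy => (constRed_res_eq_zero_iff (compW B hB hqM 0) y).mpr hy)
    (fun y hy => (constRed_res_eq_zero_iff (compW B hB hqM 1) y).mpr hy)
    (fun _ => Iff.rfl) (fun _ => Iff.rfl)

/-! ### The three fields `L`, `X`, `u_mem` of `Final.ModularData`, without hypothesis -/

set_option maxHeartbeats 4000000 in
/-- **The field `L` of `Final.ModularData`** for any atlas hypotheses and charts. -/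
noncomputable def annulusLevels_modular_all [IsAlgClosed (ResidueField B)]
    (hne : Nonempty (Crossing (chartDataModular B hB hqM)))
    (smooth₀ : ∀ Q : Place kB FtM, (∀ e, Q ≠ z₁ (chartDataModular B hB hqM) e) →
      SmoothChart B (compW B hB hqM 0).O (compW B hB hqM 0).res Q {P | H.r P = ⟨0, Q⟩})
    (smooth₁ : ∀ Q : Place kB FtM, (∀ e, Q ≠ z₂ (chartDataModular B hB hqM) e) →
      SmoothChart B (compW B hB hqM 1).O (compW B hB hqM 1).res Q {P | H.r P = ⟨1, Q⟩})
    (chart : ∀ e, NodeChart B (compW B hB hqM 0).O (compW B hB hqM 1).O (compW B hB hqM 0).res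
      (compW B hB hqM 1).res (z₁ (chartDataModular B hB hqM) e)
      (z₂ (chartDataModular B hB hqM) e)
      {P | H.r P = ⟨0, z₁ (chartDataModular B hB hqM) e⟩})
    (e : Crossing (chartDataModular B hB hqM)) :
    AnnulusLevels (F := Fb (M * q)) B
      (tube (modularInput H hne smooth₀ smooth₁ chart).toSetup e) (Finset Kb) :=
  haveI := isDedekindDomain_Ck B hB hqM
  haveI := isFractionRing_Ck B hB hqM
  haveI : IsScalarTower kB ↥(Ck M B) FtM := IsScalarTower.of_algebraMap_eq (fun _ => rfl)
  AnnulusInst.annulusLevels_modular (Dk := ↥(Ck M B)) H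
    (fun e S => crossingModel_modular_final B hB hqM H S e)
    (fun S => GeomModular.levelHyp_fin (levelHyp_tower B hB hqM S))
    (fun e => baseNode_modular B hB hqM H e) hne smooth₀ smooth₁ chart e

set_option maxHeartbeats 4000000 in
/-- **The field `X` of `Final.ModularData`** for any atlas hypotheses and charts. -/
theorem branchData_modular_all [IsAlgClosed (ResidueField B)]
    (hne : Nonempty (Crossing (chartDataModular B hB hqM)))
    (smooth₀ : ∀ Q : Place kB FtM, (∀ e, Q ≠ z₁ (chartDataModular B hB hqM) e) →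
      SmoothChart B (compW B hB hqM 0).O (compW B hB hqM 0).res Q {P | H.r P = ⟨0, Q⟩})
    (smooth₁ : ∀ Q : Place kB FtM, (∀ e, Q ≠ z₂ (chartDataModular B hB hqM) e) →
      SmoothChart B (compW B hB hqM 1).O (compW B hB hqM 1).res Q {P | H.r P = ⟨1, Q⟩})
    (chart : ∀ e, NodeChart B (compW B hB hqM 0).O (compW B hB hqM 1).O (compW B hB hqM 0).res
      (compW B hB hqM 1).res (z₁ (chartDataModular B hB hqM) e)
      (z₂ (chartDataModular B hB hqM) e)
      {P | H.r P = ⟨0, z₁ (chartDataModular B hB hqM) e⟩})
    (e : Crossing (chartDataModular B hB hqM)) :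
    BranchData (modularInput H hne smooth₀ smooth₁ chart).toSetup e
      (annulusLevels_modular_all B hB hqM H hne smooth₀ smooth₁ chart e) :=
  haveI := isDedekindDomain_Ck B hB hqM
  haveI := isFractionRing_Ck B hB hqM
  haveI : IsScalarTower kB ↥(Ck M B) FtM := IsScalarTower.of_algebraMap_eq (fun _ => rfl)
  AnnulusInst.branchData_modular (Dk := ↥(Ck M B)) H
    (fun e S => crossingModel_modular_final B hB hqM H S e)
    (fun S => GeomModular.levelHyp_fin (levelHyp_tower B hB hqM S))
    (fun e => baseNode_modular B hB hqM H e) hne smooth₀ smooth₁ chart e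

set_option maxHeartbeats 4000000 in
/-- **The field `u_mem` of `Final.ModularData`** for any atlas hypotheses and charts. -/
theorem u_mem_base_modular_all [IsAlgClosed (ResidueField B)]
    (hne : Nonempty (Crossing (chartDataModular B hB hqM)))
    (smooth₀ : ∀ Q : Place kB FtM, (∀ e, Q ≠ z₁ (chartDataModular B hB hqM) e) →
      SmoothChart B (compW B hB hqM 0).O (compW B hB hqM 0).res Q {P | H.r P = ⟨0, Q⟩})
    (smooth₁ : ∀ Q : Place kB FtM, (∀ e, Q ≠ z₂ (chartDataModular B hB hqM) e) →
      SmoothChart B (compW B hB hqM 1).O (compW B hB hqM 1).res Q {P | H.r P = ⟨1, Q⟩})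
    (chart : ∀ e, NodeChart B (compW B hB hqM 0).O (compW B hB hqM 1).O (compW B hB hqM 0).res
      (compW B hB hqM 1).res (z₁ (chartDataModular B hB hqM) e)
      (z₂ (chartDataModular B hB hqM) e)
      {P | H.r P = ⟨0, z₁ (chartDataModular B hB hqM) e⟩})
    (e : Crossing (chartDataModular B hB hqM)) :
    (annulusLevels_modular_all B hB hqM H hne smooth₀ smooth₁ chart e).u ∈
      modelField (M * q) (coeffField q (∅ : Finset Kb)).toSubfield :=
  haveI := isDedekindDomain_Ck B hB hqM
  haveI := isFractionRing_Ck B hB hqM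
  haveI : IsScalarTower kB ↥(Ck M B) FtM := IsScalarTower.of_algebraMap_eq (fun _ => rfl)
  AnnulusInst.u_mem_base_modular (Dk := ↥(Ck M B)) H
    (fun e S => crossingModel_modular_final B hB hqM H S e)
    (fun S => GeomModular.levelHyp_fin (levelHyp_tower B hB hqM S))
    (fun e => baseNode_modular B hB hqM H e) hne smooth₀ smooth₁ chart e

/-! ### The same over `Final.setupFinal` = the literal arguments of `Final.modularDataOf` -/

set_option maxHeartbeats 4000000 in
/-- **The field `L`** of `Final.modularDataOf` (index type `fun _ => Finset Kb`). -/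
noncomputable def annulusLevels_modular_final [IsAlgClosed (ResidueField B)]
    (hne : Nonempty (Crossing (chartDataModular B hB hqM)))
    (e : Crossing (chartDataModular B hB hqM)) :
    AnnulusLevels (F := Fb (M * q)) B (tube (Final.setupFinal B hB hqM hne) e) (Finset Kb) :=
  annulusLevels_modular_all B hB hqM _ hne _ _ _ e

set_option maxHeartbeats 4000000 in
/-- **The field `X`** of `Final.modularDataOf`. -/
theorem branchData_modular_final [IsAlgClosed (ResidueField B)]
    (hne : Nonempty (Crossing (chartDataModular B hB hqM)))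
    (e : Crossing (chartDataModular B hB hqM)) :
    BranchData (Final.setupFinal B hB hqM hne) e (annulusLevels_modular_final B hB hqM hne e) :=
  branchData_modular_all B hB hqM _ hne _ _ _ e

set_option maxHeartbeats 4000000 in
/-- **The field `u_mem`** of `Final.modularDataOf`. -/
theorem u_mem_base_modular_final [IsAlgClosed (ResidueField B)]
    (hne : Nonempty (Crossing (chartDataModular B hB hqM)))
    (e : Crossing (chartDataModular B hB hqM)) :
    (annulusLevels_modular_final B hB hqM hne e).u ∈
      modelField (M * q) (coeffField q (∅ : Finset Kb)).toSubfield :=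
  u_mem_base_modular_all B hB hqM _ hne _ _ _ e

set_option maxHeartbeats 4000000 in
/-- **`Final.ModularData` from the thickness statements `hzero`, `hord` alone.** -/
noncomputable def modularData_of_thick [IsAlgClosed (ResidueField B)]
    (hzero : haveI := charP_res q B hB
      ∀ Q : Place kB FtM, 0 < Q.ord (aeval (jFullC kB M) (TbarPolyK kB q)) →
        ∃ Q₂, GluedF (chartDataModular B hB hqM) Q Q₂)
    (hord : haveI := charP_res q B hB
      ∀ e : Crossing (chartDataModular B hB hqM),
        (z₁ (chartDataModular B hB hqM) e).ord (aeval (jFullC kB M) (TbarPolyK kB q)) ≤ 12) :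
    Final.ModularData M q B hB hqM :=
  Final.modularDataOf B hB hqM hzero hord (fun _ => Finset Kb)
    (fun hne e => annulusLevels_modular_final B hB hqM hne e)
    (fun hne e => branchData_modular_final B hB hqM hne e)
    (fun hne e => u_mem_base_modular_final B hB hqM hne e)

/-- **`Final.ModularData` for the two-component model of `X₀(qM)` at `q`, without hypothesis**
(`hzero`, `hord` := `ThickFinal.hzero_modular`, `ThickFinal.hord_modular`, helper7). -/
noncomputable def modularData_final [IsAlgClosed (ResidueField B)] :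
    Final.ModularData M q B hB hqM :=
  modularData_of_thick B hB hqM (ThickFinal.hzero_modular B hB hqM)
    (ThickFinal.hord_modular B hB hqM)

end Modular

end Fermat.Agent.BR.Inst.AnnulusInstFinal
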