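import Mathlib
import Fermat.Agent.BR.S0.BranchDataOfModels
import Fermat.Agent.BR.Inst.LevelsAnnulusCore
import Fermat.Agent.BR.S0.TwoCompInput

/-!
# Program B (BADRED), block B7.5 (producer), part (iv): the branch data of the swapped level data
of a family of global models at a crossing

`BR/Inst/LevelsAnnulusCore` (helper8) produces from `H : AnnulusModels A π O₁ O₂ res₁ res₂ Q₁ Q₂ T
C ϖ K' P1 P2 i₀ u v ε₀ thick` (`u ∈ 𝔪(O₁)`, `v ∈ 𝔪(O₂)`) the level data `H.levelsSwap :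
S0.AnnulusLevels A T ι` with annulus coordinate `L.u = v` and `L.v = u`.  With
`O₁ = S₀.O (src e)`, `O₂ = S₀.O (tgt e)` (orientation ruling: component `0 = src e`,
`1 = tgt e`) this is the orientation of the contract `Circle.AnnulusChart S₀ e`: `L.u` is a unit on
`src e` and vanishes identically on `tgt e`.

* `branchData_levelsSwap` : `BranchData S₀ e H.levelsSwap` (uniformizers at the two branches named,
  as elements of some model);
* `branchData_levelsSwap_of_red` : the same, the uniformizers coming from reductions of some models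
  onto Dedekind charts of the two components (`hred / surj` of `S0.SmoothAssembly.LevelHyp`);
* `branchData_levelsSwap_toSetup`, `branchData_levelsSwap_toSetup_of_red` : the same for
  `S₀ = I.toSetup`, `I : TwoCompInput A (residue A) Ft ν`, stated with the literals
  `(I.C 0).O`, `(I.C 1).O`, `I.z₁ e`, `I.z₂ e`, `{P | I.r P = ⟨0, I.z₁ e⟩}`;
* `annulusChart_levelsSwap`, `annulusChart_levelsSwap_u : (…).u = v` (`rfl`).
-/

set_option autoImplicit false
set_option linter.unusedSectionVars false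

noncomputable section

namespace Fermat.Agent.BR.Inst.BranchDataInst

open AlgebraicCurve IsLocalRing Fermat.Agent.Red Fermat.Agent.BR.Centre Fermat.Agent.BR.SS
  Fermat.Agent.BR.Refine Fermat.Agent.BR.Circle Fermat.Agent.BR.S0
  Fermat.Agent.BR.S0.AnnulusChartOfLevels Fermat.Agent.BR.S0.BranchDataOfModels
  Fermat.Agent.BR.Inst.LevelsAnnulusCore

section Setup

variable {K : Type} {F : Type*} [Field K] [Field F] [Algebra K F]
  {A : ValuationSubring K} [IsAlgClosed (ResidueField A)]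
  {ι₀ : Type} {Ft₀ : ι₀ → Type} [∀ v, Field (Ft₀ v)] [∀ v, Algebra (ResidueField A) (Ft₀ v)]
  {ν₀ : Type}
  {S₀ : SemistableSetup (F := F) A (residue A) ι₀ Ft₀ ν₀} {e : ν₀} {ι : Type*}
  {C : ι → Subring F} {ϖ : ι → K} {K' : ι → Subfield K} {P1 P2 : ∀ i, Ideal (C i)} {i₀ : ι}
  {u v ε₀ : F} {thick : K}

/-- **The branch data of the swapped level data** of a family of global models at the crossing
`e`. -/
theorem branchData_levelsSwap
    (H : AnnulusModels A (residue A) (S₀.O (S₀.src e)) (S₀.O (S₀.tgt e))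
      (S₀.res (S₀.src e)) (S₀.res (S₀.tgt e)) (S₀.s₁ e) (S₀.s₂ e) (tube S₀ e) C ϖ K' P1 P2 i₀
      u v ε₀ thick)
    (unif₁ : ∃ i, ∃ t : C i,
      (S₀.s₁ e).ord (S₀.res (S₀.src e) ⟨t, (H.model i).le₁ t t.2⟩) = 1)
    (unif₂ : ∃ i, ∃ t : C i,
      (S₀.s₂ e).ord (S₀.res (S₀.tgt e) ⟨t, (H.model i).le₂ t t.2⟩) = 1)
    (comp : ∀ w, w = S₀.src e ∨ w = S₀.tgt e) : BranchData S₀ e H.levelsSwap :=
  branchData_of_models (L := H.levelsSwap) H.model (fun _ => rfl) H.u_mem₁ H.v_mem₂ unif₁ unif₂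
    comp

/-- **The branch data of the swapped level data**, the uniformizers coming from reductions of some
models onto Dedekind charts of the two components. -/
theorem branchData_levelsSwap_of_red
    (H : AnnulusModels A (residue A) (S₀.O (S₀.src e)) (S₀.O (S₀.tgt e))
      (S₀.res (S₀.src e)) (S₀.res (S₀.tgt e)) (S₀.s₁ e) (S₀.s₂ e) (tube S₀ e) C ϖ K' P1 P2 i₀
      u v ε₀ thick)
    {Dk₁ : Type*} [CommRing Dk₁] [IsDedekindDomain Dk₁] [Algebra Dk₁ (Ft₀ (S₀.src e))]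
    [IsFractionRing Dk₁ (Ft₀ (S₀.src e))]
    {Dk₂ : Type*} [CommRing Dk₂] [IsDedekindDomain Dk₂] [Algebra Dk₂ (Ft₀ (S₀.tgt e))]
    [IsFractionRing Dk₂ (Ft₀ (S₀.tgt e))]
    (i₁ : ι) (red₁ : C i₁ →+* Dk₁)
    (hred₁ : ∀ x : C i₁, algebraMap Dk₁ (Ft₀ (S₀.src e)) (red₁ x) =
      S₀.res (S₀.src e) ⟨x, (H.model i₁).le₁ x x.2⟩)
    (hsurj₁ : Function.Surjective red₁)
    (i₂ : ι) (red₂ : C i₂ →+* Dk₂)
    (hred₂ : ∀ x : C i₂, algebraMap Dk₂ (Ft₀ (S₀.tgt e)) (red₂ x) =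
      S₀.res (S₀.tgt e) ⟨x, (H.model i₂).le₂ x x.2⟩)
    (hsurj₂ : Function.Surjective red₂)
    (comp : ∀ w, w = S₀.src e ∨ w = S₀.tgt e) : BranchData S₀ e H.levelsSwap :=
  branchData_of_models_of_red (L := H.levelsSwap) H.model (fun _ => rfl) H.u_mem₁ H.v_mem₂
    i₁ red₁ hred₁ hsurj₁ i₂ red₂ hred₂ hsurj₂ comp

/-- **The annulus chart of the node `e`** from a family of global models at the crossing. -/
def annulusChart_levelsSwap
    (H : AnnulusModels A (residue A) (S₀.O (S₀.src e)) (S₀.O (S₀.tgt e))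
      (S₀.res (S₀.src e)) (S₀.res (S₀.tgt e)) (S₀.s₁ e) (S₀.s₂ e) (tube S₀ e) C ϖ K' P1 P2 i₀
      u v ε₀ thick)
    (unif₁ : ∃ i, ∃ t : C i,
      (S₀.s₁ e).ord (S₀.res (S₀.src e) ⟨t, (H.model i).le₁ t t.2⟩) = 1)
    (unif₂ : ∃ i, ∃ t : C i,
      (S₀.s₂ e).ord (S₀.res (S₀.tgt e) ⟨t, (H.model i).le₂ t t.2⟩) = 1)
    (comp : ∀ w, w = S₀.src e ∨ w = S₀.tgt e) : AnnulusChart S₀ e :=
  (branchData_levelsSwap H unif₁ unif₂ comp).annulusChartOfLevels

@[simp] theorem annulusChart_levelsSwap_u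
    (H : AnnulusModels A (residue A) (S₀.O (S₀.src e)) (S₀.O (S₀.tgt e))
      (S₀.res (S₀.src e)) (S₀.res (S₀.tgt e)) (S₀.s₁ e) (S₀.s₂ e) (tube S₀ e) C ϖ K' P1 P2 i₀
      u v ε₀ thick)
    (unif₁ : ∃ i, ∃ t : C i,
      (S₀.s₁ e).ord (S₀.res (S₀.src e) ⟨t, (H.model i).le₁ t t.2⟩) = 1)
    (unif₂ : ∃ i, ∃ t : C i,
      (S₀.s₂ e).ord (S₀.res (S₀.tgt e) ⟨t, (H.model i).le₂ t t.2⟩) = 1)
    (comp : ∀ w, w = S₀.src e ∨ w = S₀.tgt e) :
    (annulusChart_levelsSwap H unif₁ unif₂ comp).u = v := rfl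

@[simp] theorem annulusChart_levelsSwap_thick
    (H : AnnulusModels A (residue A) (S₀.O (S₀.src e)) (S₀.O (S₀.tgt e))
      (S₀.res (S₀.src e)) (S₀.res (S₀.tgt e)) (S₀.s₁ e) (S₀.s₂ e) (tube S₀ e) C ϖ K' P1 P2 i₀
      u v ε₀ thick)
    (unif₁ : ∃ i, ∃ t : C i,
      (S₀.s₁ e).ord (S₀.res (S₀.src e) ⟨t, (H.model i).le₁ t t.2⟩) = 1)
    (unif₂ : ∃ i, ∃ t : C i,
      (S₀.s₂ e).ord (S₀.res (S₀.tgt e) ⟨t, (H.model i).le₂ t t.2⟩) = 1)
    (comp : ∀ w, w = S₀.src e ∨ w = S₀.tgt e) :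
    (annulusChart_levelsSwap H unif₁ unif₂ comp).thick = thick := rfl

end Setup

/-! ### The two-component setup -/

section TwoComp

variable {K : Type} {F : Type*} [Field K] [Field F] [Algebra K F]
  {A : ValuationSubring K} [IsAlgClosed (ResidueField A)]
  {Ft : Type} [Field Ft] [Algebra (ResidueField A) Ft] {ν : Type}
  (I : TwoCompInput (F := F) A (residue A) Ft ν) {e : ν} {ι : Type*}
  {C : ι → Subring F} {ϖ : ι → K} {K' : ι → Subfield K} {P1 P2 : ∀ i, Ideal (C i)} {i₀ : ι}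
  {u v ε₀ : F} {thick : K}

/-- `comp` for the two-component setup. -/
theorem comp_toSetup (e : ν) (w : Fin 2) : w = I.toSetup.src e ∨ w = I.toSetup.tgt e :=
  TwoCompInput.fin2_eq_zero_or_one w

/-- **The branch data of the swapped level data for the two-component setup** `I.toSetup`, with the
literals of `I`. -/
theorem branchData_levelsSwap_toSetup
    (H : AnnulusModels A (residue A) (I.C 0).O (I.C 1).O (I.C 0).res (I.C 1).res (I.z₁ e) (I.z₂ e)
      {P | I.r P = ⟨0, I.z₁ e⟩} C ϖ K' P1 P2 i₀ u v ε₀ thick)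
    (unif₁ : ∃ i, ∃ t : C i, (I.z₁ e).ord ((I.C 0).res ⟨t, (H.model i).le₁ t t.2⟩) = 1)
    (unif₂ : ∃ i, ∃ t : C i, (I.z₂ e).ord ((I.C 1).res ⟨t, (H.model i).le₂ t t.2⟩) = 1) :
    BranchData I.toSetup e (H.levelsSwap : AnnulusLevels A (tube I.toSetup e) ι) :=
  branchData_levelsSwap (S₀ := I.toSetup) (e := e) H unif₁ unif₂ (comp_toSetup I e)

/-- **The branch data of the swapped level data for the two-component setup**, the uniformizers
coming from reductions of some models onto Dedekind charts. -/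
theorem branchData_levelsSwap_toSetup_of_red
    (H : AnnulusModels A (residue A) (I.C 0).O (I.C 1).O (I.C 0).res (I.C 1).res (I.z₁ e) (I.z₂ e)
      {P | I.r P = ⟨0, I.z₁ e⟩} C ϖ K' P1 P2 i₀ u v ε₀ thick)
    {Dk₁ : Type*} [CommRing Dk₁] [IsDedekindDomain Dk₁] [Algebra Dk₁ Ft] [IsFractionRing Dk₁ Ft]
    {Dk₂ : Type*} [CommRing Dk₂] [IsDedekindDomain Dk₂] [Algebra Dk₂ Ft] [IsFractionRing Dk₂ Ft]
    (i₁ : ι) (red₁ : C i₁ →+* Dk₁)
    (hred₁ : ∀ x : C i₁, algebraMap Dk₁ Ft (red₁ x) = (I.C 0).res ⟨x, (H.model i₁).le₁ x x.2⟩)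
    (hsurj₁ : Function.Surjective red₁)
    (i₂ : ι) (red₂ : C i₂ →+* Dk₂)
    (hred₂ : ∀ x : C i₂, algebraMap Dk₂ Ft (red₂ x) = (I.C 1).res ⟨x, (H.model i₂).le₂ x x.2⟩)
    (hsurj₂ : Function.Surjective red₂) :
    BranchData I.toSetup e (H.levelsSwap : AnnulusLevels A (tube I.toSetup e) ι) :=
  branchData_levelsSwap_of_red (S₀ := I.toSetup) (e := e) H i₁ red₁ hred₁ hsurj₁ i₂ red₂ hred₂
    hsurj₂ (comp_toSetup I e)

end TwoComp

end Fermat.Agent.BR.Inst.BranchDataInst
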