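import Fermat.Agent.BR.TwoValQ

/-!
# Program B, node B6.5c-(I1'): the content of an element of `FK K' N` lies in `K'`

`K' ⊆ ℚ̄` any intermediate field, `FK K' N := Subfield.closure (K' ∪ barEmb F_N) ⊆ F̄_N` (helper23's
FRAME; the definition is *not* declared here, hypotheses are written with the closure unfolded).

* `exists_hasContent_mem_of_mem_barOver` : a nonzero element of `K' · F_N ⊆ L((q))` has a content
  lying in `K'` (generic `L`, `A`);
* `exists_content` : on `F̄_N`: `x ∈ FK K' N`, `x ≠ 0` ⇒ `x = c · (Gauss unit)` with `c ∈ K'`;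
* `Wq_mem_closure` : `w_q` preserves `FK K' (M q)`;
* `exists_content_O1/O2`, `exists_zpow_O1/O2` : `w_i(FK^×) = v(K'^×)`;
* `div_pi_mem_O1`, `div_pi_mem_O2` : `e(w_i | FK) = 1` when `v(K'^×) = v(π')^ℤ`.
-/

set_option autoImplicit false
set_option linter.unusedSectionVars false
set_option linter.style.haveILetI false

noncomputable section

namespace Fermat.Agent.BR.Inst.ContentFK

open ModularCurve HahnSeries Fermat.Agent.X0 Fermat.Agent.Val Fermat.Agent.BR.TwoVal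
  Fermat.Agent.Good.Bridge

/-! ### Generic part -/

section Generic

variable {L : Type*} [Field L] [Algebra ℚ L] (A : ValuationSubring L)

section NumberField

variable (K : IntermediateField ℚ L) [hfd : FiniteDimensional ℚ K]

/-- the image of `locK A K` in `L` lies in `K` -/
theorem coe_locKToA_mem (z : locK A K) : ((locKToA A K z : A) : L) ∈ K := by
  obtain ⟨x, y, rfl⟩ := IsLocalization.exists_mk'_eq (centreK A K).primeCompl z
  have h1 := IsLocalization.mk'_spec (locK A K) x y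
  have h2 := congrArg (fun w => ((locKToA A K w : A) : L)) h1
  simp only [map_mul, locKToA_algebraMap] at h2
  have hy0 : ((intClosureToA A K (y : integralClosure ℤ K) : A) : L) ≠ 0 := by
    intro h
    have hy : (y : integralClosure ℤ K) ∉ centreK A K := y.2
    apply hy
    have h3 : intClosureToA A K (y : integralClosure ℤ K) = 0 := Subtype.ext h
    show intClosureToA A K (y : integralClosure ℤ K) ∈ IsLocalRing.maximalIdeal A
    rw [h3]
    exact Ideal.zero_mem _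
  have h4 : ((locKToA A K (IsLocalization.mk' (locK A K) x y) : A) : L) =
      ((intClosureToA A K x : A) : L) / ((intClosureToA A K (y : integralClosure ℤ K) : A) : L) := by
    rw [eq_div_iff hy0]
    exact h2
  rw [h4]
  exact K.div_mem ((x : K)).2 (((y : integralClosure ℤ K) : K)).2

variable {k : Type*} [Field k] (π : A →+* k)

/-- a nonzero series over `locK A K` has a content lying in `K` -/
theorem exists_hasContent_oIota_mem {ℓ : ℕ} (hℓ : ℓ ≠ 0) (hA : A.LiesOverPrime ℓ)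
    {t : LaurentSeries (locK A K)} (ht : t ≠ 0) :
    ∃ c ∈ K, HasContent A π (oIota A (locKToA A K) t) c := by
  haveI := locK_isDVR A K hℓ hA
  obtain ⟨ϖ, m, t', hϖ, rfl, n, hn⟩ := exists_eq_C_pow_mul_of_ne_zero ht
  have hred : aRed π (coeffMap (locKToA A K) t') ≠ 0 := by
    intro h
    have h1 := congrArg (fun x => x.coeff n) h
    simp only [aRed_coeff, coeffMap_coeff, HahnSeries.coeff_zero] at h1
    exact ((hn.map (locKToA A K)).map π).ne_zero h1
  have hc : ((locKToA A K (ϖ ^ m) : A) : L) ≠ 0 := by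
    intro h
    have h2 : locKToA A K (ϖ ^ m) = 0 := Subtype.ext h
    rw [← map_zero (locKToA A K)] at h2
    exact pow_ne_zero m hϖ (locKToA_injective A K h2)
  refine ⟨((locKToA A K (ϖ ^ m) : A) : L) * 1, K.mul_mem (coe_locKToA_mem A K _) K.one_mem, ?_⟩
  have h3 : oIota A (locKToA A K) (HahnSeries.C (ϖ ^ m) * t') =
      HahnSeries.C ((locKToA A K (ϖ ^ m) : A) : L) * aIota A (coeffMap (locKToA A K) t') := by
    rw [oIota_apply, map_mul, map_mul, HahnSeries.C_apply, coeffMap_single, ← HahnSeries.C_apply,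
      aIota_C]
  rw [h3]
  exact (hasContent_aIota A π hred).C_mul hc

/-- a nonzero quotient of series over `locK A K` has a content lying in `K` -/
theorem exists_hasContent_mem_of_mem_fracFieldOver {ℓ : ℕ} (hℓ : ℓ ≠ 0) (hA : A.LiesOverPrime ℓ)
    {x : LaurentSeries L} (hx : x ∈ fracFieldOver A (locKToA A K)) (hx0 : x ≠ 0) :
    ∃ c ∈ K, HasContent A π x c := by
  obtain ⟨s, t, rfl⟩ := (mem_fracFieldOver_iff A (locKToA A K)).mp hx
  have hs : s ≠ 0 := by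
    rintro rfl
    rw [map_zero, zero_div] at hx0
    exact hx0 rfl
  have ht : t ≠ 0 := by
    rintro rfl
    rw [map_zero, div_zero] at hx0
    exact hx0 rfl
  obtain ⟨c, hcK, hc⟩ := exists_hasContent_oIota_mem A K π hℓ hA hs
  obtain ⟨d, hdK, hd⟩ := exists_hasContent_oIota_mem A K π hℓ hA ht
  exact ⟨c * d⁻¹, K.mul_mem hcK (K.inv_mem hdK), by rw [div_eq_mul_inv]; exact hc.mul hd.inv⟩

end NumberField

section Descent

variable [Algebra.IsAlgebraic ℚ L] (F₀ : IntermediateField ℚ (LaurentSeries ℚ))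

/-- Every element of `K' · F₀` lies in `K · F₀` for a number field `K ⊆ K'`. -/
theorem exists_finiteDimensional_le_mem_barOver (K' : IntermediateField ℚ L)
    {x : LaurentSeries L} (hx : x ∈ barOver F₀ K') :
    ∃ K : IntermediateField ℚ L, K ≤ K' ∧ FiniteDimensional ℚ K ∧ x ∈ barOver F₀ K := by
  unfold barOver at hx
  induction hx using Subfield.closure_induction with
  | mem y hy =>
      rcases hy with ⟨c, hc, rfl⟩ | ⟨z, hz, rfl⟩
      · refine ⟨IntermediateField.adjoin ℚ {c}, ?_,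
          IntermediateField.adjoin.finiteDimensional (Algebra.IsIntegral.isIntegral c), ?_⟩
        · rw [IntermediateField.adjoin_le_iff]
          rintro y rfl
          exact hc
        · apply Subfield.subset_closure
          left
          exact ⟨c, IntermediateField.mem_adjoin_simple_self ℚ c, rfl⟩
      · exact ⟨⊥, bot_le, inferInstance, Subfield.subset_closure (Or.inr ⟨z, hz, rfl⟩)⟩
  | one => exact ⟨⊥, bot_le, inferInstance, (barOver F₀ ⊥).one_mem⟩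
  | add x y _ _ hx hy =>
      obtain ⟨K, hKle, hK, hxK⟩ := hx
      obtain ⟨K₂, hK₂le, hK₂, hyK⟩ := hy
      exact ⟨K ⊔ K₂, sup_le hKle hK₂le, inferInstance, (barOver F₀ (K ⊔ K₂)).add_mem
        (barOver_mono F₀ le_sup_left hxK) (barOver_mono F₀ le_sup_right hyK)⟩
  | neg x _ hx =>
      obtain ⟨K, hKle, hK, hxK⟩ := hx
      exact ⟨K, hKle, hK, (barOver F₀ K).neg_mem hxK⟩
  | inv x _ hx =>
      obtain ⟨K, hKle, hK, hxK⟩ := hx
      exact ⟨K, hKle, hK, (barOver F₀ K).inv_mem hxK⟩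
  | mul x y _ _ hx hy =>
      obtain ⟨K, hKle, hK, hxK⟩ := hx
      obtain ⟨K₂, hK₂le, hK₂, hyK⟩ := hy
      exact ⟨K ⊔ K₂, sup_le hKle hK₂le, inferInstance, (barOver F₀ (K ⊔ K₂)).mul_mem
        (barOver_mono F₀ le_sup_left hxK) (barOver_mono F₀ le_sup_right hyK)⟩

variable {k : Type*} [Field k] (π : A →+* k)

/-- **The content lies in `K'`.** A nonzero element of `K' · F_N ⊆ L((q))` has a content in
`K'`. -/
theorem exists_hasContent_mem_of_mem_barOver (K' : IntermediateField ℚ L) (N : ℕ) [NeZero N]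
    {ℓ : ℕ} (hℓ : ℓ ≠ 0) (hA : A.LiesOverPrime ℓ) {x : LaurentSeries L}
    (hx : x ∈ barOver (modularFunctionFieldFull N) K') (hx0 : x ≠ 0) :
    ∃ c ∈ K', HasContent A π x c := by
  obtain ⟨K, hKle, hK, hxK⟩ :=
    exists_finiteDimensional_le_mem_barOver (modularFunctionFieldFull N) K' hx
  haveI := hK
  have hle : barOver (modularFunctionFieldFull N) K ≤ fracFieldOver A (locKToA A K) := by
    rw [barOver, Subfield.closure_le]
    rintro y (⟨c, hc, rfl⟩ | ⟨z, hz, rfl⟩)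
    · exact C_mem_fracFieldOver_locK A K ⟨c, hc⟩
    · exact coeffEmb_mem_fracFieldOver A (locKToA A K) N hz
  obtain ⟨c, hcK, hc⟩ :=
    exists_hasContent_mem_of_mem_fracFieldOver A K π hℓ hA (hle hxK) hx0
  exact ⟨c, hKle hcK, hc⟩

end Descent

end Generic

/-! ### `ℚ̄`: the content of an element of `FK K' N` -/

section Qbar

variable (B : ValuationSubring Kb) (K' : IntermediateField ℚ Kb) (N : ℕ) [NeZero N]

/-- the coefficient extension of an element of `FK K' N` lies in `K' · F_N` -/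
theorem coe_mem_barOver {x : Fb N}
    (hx : x ∈ Subfield.closure
      (⇑(algebraMap Kb (Fb N)) '' (K' : Set Kb) ∪ Set.range (barEmb N))) :
    (x : LaurentSeries Kb) ∈ barOver (modularFunctionFieldFull N) K' := by
  have hle : Subfield.closure
      (⇑(algebraMap Kb (Fb N)) '' (K' : Set Kb) ∪ Set.range (barEmb N)) ≤
      (barOver (modularFunctionFieldFull N) K').comap
        (algebraMap (Fb N) (LaurentSeries Kb)) := by
    rw [Subfield.closure_le]
    rintro y (⟨c, hc, rfl⟩ | ⟨z, rfl⟩)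
    · show algebraMap (Fb N) (LaurentSeries Kb) (algebraMap Kb (Fb N) c) ∈
        barOver (modularFunctionFieldFull N) K'
      rw [← IsScalarTower.algebraMap_apply, algebraMap_laurentSeries_eq_single]
      exact Subfield.subset_closure (Or.inl ⟨c, hc, rfl⟩)
    · show ((barEmb N z : Fb N) : LaurentSeries Kb) ∈ barOver (modularFunctionFieldFull N) K'
      rw [coe_barEmb]
      exact Subfield.subset_closure (Or.inr ⟨(z : LaurentSeries ℚ), z.2, rfl⟩)
  exact hle hx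

variable {ℓ : ℕ} (hℓ : ℓ ≠ 0) (hB : B.LiesOverPrime ℓ)

include hℓ hB in
/-- the content of a nonzero element of `FK K' N` can be chosen in `K'` -/
theorem exists_hasContent {x : Fb N}
    (hx : x ∈ Subfield.closure
      (⇑(algebraMap Kb (Fb N)) '' (K' : Set Kb) ∪ Set.range (barEmb N)))
    (hx0 : x ≠ 0) :
    ∃ c ∈ K', HasContent B (IsLocalRing.residue B) (x : LaurentSeries Kb) c := by
  haveI := algebraIsAlgebraic_rat_algebraicClosure
  refine exists_hasContent_mem_of_mem_barOver B (IsLocalRing.residue B) K' N hℓ hB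
    (coe_mem_barOver K' N hx) ?_
  intro h
  exact hx0 (Subtype.ext h)

theorem coe_algebraMap_inv_mul (c : Kb) (x : Fb N) :
    (((algebraMap Kb (Fb N) c)⁻¹ * x : Fb N) : LaurentSeries Kb) =
      HahnSeries.C c⁻¹ * (x : LaurentSeries Kb) := by
  rw [← map_inv₀]
  show algebraMap Kb (LaurentSeries Kb) c⁻¹ * (x : LaurentSeries Kb) = _
  rw [algebraMap_laurentSeries_eq_single, ← HahnSeries.C_apply]

/-- **value group of the Gauss valuation on `FK K' N`**: every nonzero element is a constant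
from `K'` times a Gauss unit (any level, any prime). -/
theorem exists_content {x : Fb N}
    (hx : x ∈ Subfield.closure
      (⇑(algebraMap Kb (Fb N)) '' (K' : Set Kb) ∪ Set.range (barEmb N)))
    (hx0 : x ≠ 0) :
    ∃ c ∈ K', c ≠ 0 ∧ (algebraMap Kb (Fb N) c)⁻¹ * x ∈ gaussValQbar B N hℓ hB ∧
      ((algebraMap Kb (Fb N) c)⁻¹ * x)⁻¹ ∈ gaussValQbar B N hℓ hB := by
  obtain ⟨c, hcK, hc⟩ := exists_hasContent B K' N hℓ hB hx hx0
  have hc0 : c ≠ 0 := hc.content_ne_zero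
  have h1 : HasContent B (IsLocalRing.residue B)
      (HahnSeries.C c⁻¹ * (x : LaurentSeries Kb)) (c⁻¹ * c) := hc.C_mul (inv_ne_zero hc0)
  rw [inv_mul_cancel₀ hc0] at h1
  have h2 : HasContent B (IsLocalRing.residue B)
      (HahnSeries.C c⁻¹ * (x : LaurentSeries Kb))⁻¹ (1 : Kb)⁻¹ := h1.inv
  rw [inv_one] at h2
  refine ⟨c, hcK, hc0, ?_, ?_⟩
  · show (((algebraMap Kb (Fb N) c)⁻¹ * x : Fb N) : LaurentSeries Kb) ∈
      gaussRingA B (IsLocalRing.residue B)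
    rw [coe_algebraMap_inv_mul]
    exact h1.mem_gaussRingA_of_mem B.one_mem
  · show ((((algebraMap Kb (Fb N) c)⁻¹ * x)⁻¹ : Fb N) : LaurentSeries Kb) ∈
      gaussRingA B (IsLocalRing.residue B)
    rw [IntermediateField.coe_inv, coe_algebraMap_inv_mul]
    exact h2.mem_gaussRingA_of_mem B.one_mem

end Qbar

/-! ### Level `M q`: the two valuations on `FK K' (M q)` -/

section Level

variable {M q : ℕ} [NeZero M] [hq : Fact q.Prime]

variable (B : ValuationSubring Kb) (hB : B.LiesOverPrime q) (hqM : ¬ q ∣ M)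
  (K' : IntermediateField ℚ Kb)

include hqM in
/-- `w_q` preserves `FK K' (M q)` -/
theorem Wq_mem_closure {x : Fb (M * q)}
    (hx : x ∈ Subfield.closure
      (⇑(algebraMap Kb (Fb (M * q))) '' (K' : Set Kb) ∪ Set.range (barEmb (M * q)))) :
    Wq hqM x ∈ Subfield.closure
      (⇑(algebraMap Kb (Fb (M * q))) '' (K' : Set Kb) ∪ Set.range (barEmb (M * q))) := by
  have hle : Subfield.closure
      (⇑(algebraMap Kb (Fb (M * q))) '' (K' : Set Kb) ∪ Set.range (barEmb (M * q))) ≤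
      (Subfield.closure
        (⇑(algebraMap Kb (Fb (M * q))) '' (K' : Set Kb) ∪ Set.range (barEmb (M * q)))).comap
        ((Wq hqM : Fb (M * q) ≃ₐ[Kb] Fb (M * q)) : Fb (M * q) →+* Fb (M * q)) := by
    rw [Subfield.closure_le]
    rintro y (⟨c, hc, rfl⟩ | ⟨z, rfl⟩)
    · show Wq hqM (algebraMap Kb (Fb (M * q)) c) ∈ Subfield.closure
        (⇑(algebraMap Kb (Fb (M * q))) '' (K' : Set Kb) ∪ Set.range (barEmb (M * q)))
      rw [AlgEquiv.commutes]
      exact Subfield.subset_closure (Or.inl ⟨c, hc, rfl⟩)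
    · show Wq hqM (barEmb (M * q) z) ∈ Subfield.closure
        (⇑(algebraMap Kb (Fb (M * q))) '' (K' : Set Kb) ∪ Set.range (barEmb (M * q)))
      obtain ⟨z', hz'⟩ := TwoValQ.exists_Wq_barEmb hqM z
      rw [hz']
      exact Subfield.subset_closure (Or.inr ⟨z', rfl⟩)
  exact hle hx

/-- **`w₁(FK^×) = v(K'^×)`**, unit form -/
theorem exists_content_O1 {x : Fb (M * q)}
    (hx : x ∈ Subfield.closure
      (⇑(algebraMap Kb (Fb (M * q))) '' (K' : Set Kb) ∪ Set.range (barEmb (M * q))))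
    (hx0 : x ≠ 0) :
    ∃ c ∈ K', c ≠ 0 ∧ (algebraMap Kb (Fb (M * q)) c)⁻¹ * x ∈ O1 M B hB ∧
      ((algebraMap Kb (Fb (M * q)) c)⁻¹ * x)⁻¹ ∈ O1 M B hB :=
  exists_content B K' (M * q) hq.out.ne_zero hB hx hx0

/-- **`w₂(FK^×) = v(K'^×)`**, unit form -/
theorem exists_content_O2 {x : Fb (M * q)}
    (hx : x ∈ Subfield.closure
      (⇑(algebraMap Kb (Fb (M * q))) '' (K' : Set Kb) ∪ Set.range (barEmb (M * q))))
    (hx0 : x ≠ 0) :
    ∃ c ∈ K', c ≠ 0 ∧ (algebraMap Kb (Fb (M * q)) c)⁻¹ * x ∈ O2 B hB hqM ∧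
      ((algebraMap Kb (Fb (M * q)) c)⁻¹ * x)⁻¹ ∈ O2 B hB hqM := by
  have hW0 : Wq hqM x ≠ 0 := fun h => hx0 (by
    have := congrArg (Wq hqM) h
    rwa [Wq_Wq, map_zero] at this)
  obtain ⟨c, hcK, hc0, h1, h2⟩ := exists_content_O1 B hB K' (Wq_mem_closure hqM K' hx) hW0
  refine ⟨c, hcK, hc0, ?_, ?_⟩
  · rw [mem_O2_iff, map_mul, map_inv₀, AlgEquiv.commutes]
    exact h1
  · rw [mem_O2_iff, map_inv₀, map_mul, map_inv₀, AlgEquiv.commutes]
    exact h2

/-- a constant whose valuation is `v(π') ^ n` is `π' ^ n` times a unit of `B` -/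
theorem const_div_zpow_unit {c π' : Kb} {n : ℤ} (hπ0 : π' ≠ 0)
    (h : B.valuation c = B.valuation π' ^ n) :
    c * (π' ^ n)⁻¹ ∈ B ∧ (c * (π' ^ n)⁻¹)⁻¹ ∈ B := by
  have hv0 : B.valuation (π' ^ n) ≠ 0 := (map_ne_zero _).2 (zpow_ne_zero n hπ0)
  have h1 : B.valuation (c * (π' ^ n)⁻¹) = 1 := by
    rw [map_mul, map_inv₀, map_zpow₀, h]
    rw [map_zpow₀] at hv0
    exact mul_inv_cancel₀ hv0
  constructor
  · rw [← B.valuation_le_one_iff, h1]
  · rw [← B.valuation_le_one_iff, map_inv₀, h1, inv_one]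

/-- **value group, `ℤ`-form, for `w₁`**: if `v(K'^×) ⊆ v(π')^ℤ` then every nonzero element of
`FK K' (M q)` is `π' ^ n` times a unit of `O1`. -/
theorem exists_zpow_O1 (π' : Kb) (hπ0 : π' ≠ 0)
    (hdvr : ∀ c ∈ K', c ≠ 0 → ∃ n : ℤ, B.valuation c = B.valuation π' ^ n)
    {x : Fb (M * q)}
    (hx : x ∈ Subfield.closure
      (⇑(algebraMap Kb (Fb (M * q))) '' (K' : Set Kb) ∪ Set.range (barEmb (M * q))))
    (hx0 : x ≠ 0) :
    ∃ n : ℤ, x * (algebraMap Kb (Fb (M * q)) π' ^ n)⁻¹ ∈ O1 M B hB ∧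
      (x * (algebraMap Kb (Fb (M * q)) π' ^ n)⁻¹)⁻¹ ∈ O1 M B hB := by
  obtain ⟨c, hcK, hc0, h1, h2⟩ := exists_content_O1 B hB K' hx hx0
  obtain ⟨n, hn⟩ := hdvr c hcK hc0
  obtain ⟨h3, h4⟩ := const_div_zpow_unit B hπ0 hn
  have hcF : algebraMap Kb (Fb (M * q)) c ≠ 0 := (map_ne_zero _).2 hc0
  have hπF : algebraMap Kb (Fb (M * q)) π' ^ n ≠ 0 := zpow_ne_zero n ((map_ne_zero _).2 hπ0)
  have e : x * (algebraMap Kb (Fb (M * q)) π' ^ n)⁻¹ =
      ((algebraMap Kb (Fb (M * q)) c)⁻¹ * x) * algebraMap Kb (Fb (M * q)) (c * (π' ^ n)⁻¹) := by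
    rw [map_mul, map_inv₀, map_zpow₀]
    field_simp
  refine ⟨n, ?_, ?_⟩
  · rw [e]
    exact (O1 M B hB).mul_mem _ _ h1 ((Separate.algebraMap_mem_O1_iff B hB _).2 h3)
  · rw [e, mul_inv]
    refine (O1 M B hB).mul_mem _ _ h2 ?_
    rw [← map_inv₀]
    exact (Separate.algebraMap_mem_O1_iff B hB _).2 h4

/-- **value group, `ℤ`-form, for `w₂`** -/
theorem exists_zpow_O2 (π' : Kb) (hπ0 : π' ≠ 0)
    (hdvr : ∀ c ∈ K', c ≠ 0 → ∃ n : ℤ, B.valuation c = B.valuation π' ^ n)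
    {x : Fb (M * q)}
    (hx : x ∈ Subfield.closure
      (⇑(algebraMap Kb (Fb (M * q))) '' (K' : Set Kb) ∪ Set.range (barEmb (M * q))))
    (hx0 : x ≠ 0) :
    ∃ n : ℤ, x * (algebraMap Kb (Fb (M * q)) π' ^ n)⁻¹ ∈ O2 B hB hqM ∧
      (x * (algebraMap Kb (Fb (M * q)) π' ^ n)⁻¹)⁻¹ ∈ O2 B hB hqM := by
  obtain ⟨c, hcK, hc0, h1, h2⟩ := exists_content_O2 B hB hqM K' hx hx0
  obtain ⟨n, hn⟩ := hdvr c hcK hc0
  obtain ⟨h3, h4⟩ := const_div_zpow_unit B hπ0 hn
  have hcF : algebraMap Kb (Fb (M * q)) c ≠ 0 := (map_ne_zero _).2 hc0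
  have hπF : algebraMap Kb (Fb (M * q)) π' ^ n ≠ 0 := zpow_ne_zero n ((map_ne_zero _).2 hπ0)
  have e : x * (algebraMap Kb (Fb (M * q)) π' ^ n)⁻¹ =
      ((algebraMap Kb (Fb (M * q)) c)⁻¹ * x) * algebraMap Kb (Fb (M * q)) (c * (π' ^ n)⁻¹) := by
    rw [map_mul, map_inv₀, map_zpow₀]
    field_simp
  refine ⟨n, ?_, ?_⟩
  · rw [e]
    exact (O2 B hB hqM).mul_mem _ _ h1 ((Separate.algebraMap_mem_O2_iff hqM B hB _).2 h3)
  · rw [e, mul_inv]
    refine (O2 B hB hqM).mul_mem _ _ h2 ?_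
    rw [← map_inv₀]
    exact (Separate.algebraMap_mem_O2_iff hqM B hB _).2 h4

/-- **(E1-1)** `e(w₁ | FK) = 1`: a non-unit of `O1` lying in `FK K' (M q)` is divisible by `π'`
in `O1`. -/
theorem div_pi_mem_O1 (π' : Kb) (hπ0 : π' ≠ 0) (hπ1 : B.valuation π' < 1)
    (hdvr : ∀ c ∈ K', c ≠ 0 → ∃ n : ℤ, B.valuation c = B.valuation π' ^ n)
    {x : Fb (M * q)}
    (hxF : x ∈ Subfield.closure
      (⇑(algebraMap Kb (Fb (M * q))) '' (K' : Set Kb) ∪ Set.range (barEmb (M * q))))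
    (hx : x ∈ (O1 M B hB).nonunits) :
    x / algebraMap Kb (Fb (M * q)) π' ∈ O1 M B hB := by
  by_cases hx0 : x = 0
  · rw [hx0, zero_div]
    exact (O1 M B hB).zero_mem
  obtain ⟨n, h1, h2⟩ := exists_zpow_O1 B hB K' π' hπ0 hdvr hxF hx0
  have hπF0 : algebraMap Kb (Fb (M * q)) π' ≠ 0 := (map_ne_zero _).2 hπ0
  have hπN : algebraMap Kb (Fb (M * q)) π' ∈ (O1 M B hB).nonunits :=
    (Separate.algebraMap_mem_nonunits_O1_iff B hB π').2 (B.mem_nonunits_iff.2 hπ1)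
  exact TwoValQ.div_mem_of_mem_nonunits hx0 hπF0 hπN h1 h2 hx

/-- **(E1-2)** `e(w₂ | FK) = 1`. -/
theorem div_pi_mem_O2 (π' : Kb) (hπ0 : π' ≠ 0) (hπ1 : B.valuation π' < 1)
    (hdvr : ∀ c ∈ K', c ≠ 0 → ∃ n : ℤ, B.valuation c = B.valuation π' ^ n)
    {x : Fb (M * q)}
    (hxF : x ∈ Subfield.closure
      (⇑(algebraMap Kb (Fb (M * q))) '' (K' : Set Kb) ∪ Set.range (barEmb (M * q))))
    (hx : x ∈ (O2 B hB hqM).nonunits) :
    x / algebraMap Kb (Fb (M * q)) π' ∈ O2 B hB hqM := by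
  by_cases hx0 : x = 0
  · rw [hx0, zero_div]
    exact (O2 B hB hqM).zero_mem
  obtain ⟨n, h1, h2⟩ := exists_zpow_O2 B hB hqM K' π' hπ0 hdvr hxF hx0
  have hπF0 : algebraMap Kb (Fb (M * q)) π' ≠ 0 := (map_ne_zero _).2 hπ0
  have hπN : algebraMap Kb (Fb (M * q)) π' ∈ (O2 B hB hqM).nonunits :=
    (Separate.algebraMap_mem_nonunits_O2_iff hqM B hB π').2 (B.mem_nonunits_iff.2 hπ1)
  exact TwoValQ.div_mem_of_mem_nonunits hx0 hπF0 hπN h1 h2 hx

end Level

/-! ### The same statements for a `Subfield` of `ℚ̄` (helper4's `modelField N K'`) -/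

section SubfieldForm

/-- a subfield of `ℚ̄` as an intermediate field -/
def toIF (K' : Subfield Kb) : IntermediateField ℚ Kb :=
  K'.toIntermediateField fun r => by rw [eq_ratCast]; exact SubfieldClass.ratCast_mem K' r

theorem coe_toIF (K' : Subfield Kb) : ((toIF K' : IntermediateField ℚ Kb) : Set Kb) = K' := rfl

theorem mem_toIF {K' : Subfield Kb} {c : Kb} : c ∈ toIF K' ↔ c ∈ K' := Iff.rfl

variable {M q : ℕ} [NeZero M] [hq : Fact q.Prime]

variable (B : ValuationSubring Kb) (hB : B.LiesOverPrime q) (hqM : ¬ q ∣ M) (K' : Subfield Kb)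

/-- the content of a nonzero element of `modelField N K'` can be chosen in `K'` (any level, any
prime) -/
theorem exists_content_sf (N : ℕ) [NeZero N] {ℓ : ℕ} (hℓ : ℓ ≠ 0) (hBℓ : B.LiesOverPrime ℓ)
    {x : Fb N}
    (hx : x ∈ Subfield.closure
      (⇑(algebraMap Kb (Fb N)) '' (K' : Set Kb) ∪ Set.range (barEmb N)))
    (hx0 : x ≠ 0) :
    ∃ c ∈ K', c ≠ 0 ∧ (algebraMap Kb (Fb N) c)⁻¹ * x ∈ gaussValQbar B N hℓ hBℓ ∧
      ((algebraMap Kb (Fb N) c)⁻¹ * x)⁻¹ ∈ gaussValQbar B N hℓ hBℓ :=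
  exists_content B (toIF K') N hℓ hBℓ hx hx0

include hqM in
theorem Wq_mem_closure_sf {x : Fb (M * q)}
    (hx : x ∈ Subfield.closure
      (⇑(algebraMap Kb (Fb (M * q))) '' (K' : Set Kb) ∪ Set.range (barEmb (M * q)))) :
    Wq hqM x ∈ Subfield.closure
      (⇑(algebraMap Kb (Fb (M * q))) '' (K' : Set Kb) ∪ Set.range (barEmb (M * q))) :=
  Wq_mem_closure hqM (toIF K') hx

theorem exists_content_O1_sf {x : Fb (M * q)}
    (hx : x ∈ Subfield.closure
      (⇑(algebraMap Kb (Fb (M * q))) '' (K' : Set Kb) ∪ Set.range (barEmb (M * q))))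
    (hx0 : x ≠ 0) :
    ∃ c ∈ K', c ≠ 0 ∧ (algebraMap Kb (Fb (M * q)) c)⁻¹ * x ∈ O1 M B hB ∧
      ((algebraMap Kb (Fb (M * q)) c)⁻¹ * x)⁻¹ ∈ O1 M B hB :=
  exists_content_O1 B hB (toIF K') hx hx0

theorem exists_content_O2_sf {x : Fb (M * q)}
    (hx : x ∈ Subfield.closure
      (⇑(algebraMap Kb (Fb (M * q))) '' (K' : Set Kb) ∪ Set.range (barEmb (M * q))))
    (hx0 : x ≠ 0) :
    ∃ c ∈ K', c ≠ 0 ∧ (algebraMap Kb (Fb (M * q)) c)⁻¹ * x ∈ O2 B hB hqM ∧
      ((algebraMap Kb (Fb (M * q)) c)⁻¹ * x)⁻¹ ∈ O2 B hB hqM :=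
  exists_content_O2 B hB hqM (toIF K') hx hx0

theorem exists_zpow_O1_sf (π' : Kb) (hπ0 : π' ≠ 0)
    (hdvr : ∀ c ∈ K', c ≠ 0 → ∃ n : ℤ, B.valuation c = B.valuation π' ^ n)
    {x : Fb (M * q)}
    (hx : x ∈ Subfield.closure
      (⇑(algebraMap Kb (Fb (M * q))) '' (K' : Set Kb) ∪ Set.range (barEmb (M * q))))
    (hx0 : x ≠ 0) :
    ∃ n : ℤ, x * (algebraMap Kb (Fb (M * q)) π' ^ n)⁻¹ ∈ O1 M B hB ∧
      (x * (algebraMap Kb (Fb (M * q)) π' ^ n)⁻¹)⁻¹ ∈ O1 M B hB :=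
  exists_zpow_O1 B hB (toIF K') π' hπ0 hdvr hx hx0

theorem exists_zpow_O2_sf (π' : Kb) (hπ0 : π' ≠ 0)
    (hdvr : ∀ c ∈ K', c ≠ 0 → ∃ n : ℤ, B.valuation c = B.valuation π' ^ n)
    {x : Fb (M * q)}
    (hx : x ∈ Subfield.closure
      (⇑(algebraMap Kb (Fb (M * q))) '' (K' : Set Kb) ∪ Set.range (barEmb (M * q))))
    (hx0 : x ≠ 0) :
    ∃ n : ℤ, x * (algebraMap Kb (Fb (M * q)) π' ^ n)⁻¹ ∈ O2 B hB hqM ∧
      (x * (algebraMap Kb (Fb (M * q)) π' ^ n)⁻¹)⁻¹ ∈ O2 B hB hqM :=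
  exists_zpow_O2 B hB hqM (toIF K') π' hπ0 hdvr hx hx0

/-- **(E1-1)**, `Subfield` form -/
theorem div_pi_mem_O1_sf (π' : Kb) (hπ0 : π' ≠ 0) (hπ1 : B.valuation π' < 1)
    (hdvr : ∀ c ∈ K', c ≠ 0 → ∃ n : ℤ, B.valuation c = B.valuation π' ^ n)
    {x : Fb (M * q)}
    (hxF : x ∈ Subfield.closure
      (⇑(algebraMap Kb (Fb (M * q))) '' (K' : Set Kb) ∪ Set.range (barEmb (M * q))))
    (hx : x ∈ (O1 M B hB).nonunits) :
    x / algebraMap Kb (Fb (M * q)) π' ∈ O1 M B hB :=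
  div_pi_mem_O1 B hB (toIF K') π' hπ0 hπ1 hdvr hxF hx

/-- **(E1-2)**, `Subfield` form -/
theorem div_pi_mem_O2_sf (π' : Kb) (hπ0 : π' ≠ 0) (hπ1 : B.valuation π' < 1)
    (hdvr : ∀ c ∈ K', c ≠ 0 → ∃ n : ℤ, B.valuation c = B.valuation π' ^ n)
    {x : Fb (M * q)}
    (hxF : x ∈ Subfield.closure
      (⇑(algebraMap Kb (Fb (M * q))) '' (K' : Set Kb) ∪ Set.range (barEmb (M * q))))
    (hx : x ∈ (O2 B hB hqM).nonunits) :
    x / algebraMap Kb (Fb (M * q)) π' ∈ O2 B hB hqM :=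
  div_pi_mem_O2 B hB hqM (toIF K') π' hπ0 hπ1 hdvr hxF hx

end SubfieldForm

end Fermat.Agent.BR.Inst.ContentFK
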