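import Fermat.Agent.BR.TwoValDefs
import Fermat.Agent.BR.CuspSepInt
import Fermat.Agent.BR.CuspSep

/-!
# Program B, node B6.5(g): the chart at infinity has no crossing points over `1/j = 0`
(frame-agnostic form, in the `BR/TwoValDefs` vocabulary `O1`, `O2`)

`h = hSep M q = j_q / j^q`, `x = 1/j = (jA M q)⁻¹` in `Fb (M * q)`.

* `hSep_sub_one_mem_nonunits_O1` : `h - 1` is a non-unit of `O1`;
* `hSep_pow_sub_mem_nonunits_O2` : `h^q - x^(q²-1)` is a non-unit of `O2`;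
* `isIntegral_hSep_of_mem` : `h` is integral over every subring of `Fb (M * q)` containing `x`;
* `no_crossing_at_infinity` : for ANY subring `C` of `Fb (M * q)` containing `x` and `h` (e.g. the
  integral closure of `W'[1/j]` in `K'·F_{Mq}`), any ideals `P₁ ⊇ C ∩ 𝔪(O1)`, `P₂ ⊇ C ∩ 𝔪(O2)` and
  any prime `n ∋ x` of `C`: `n` does not contain both `P₁` and `P₂`.

So every point at infinity of the normal model lies on exactly one of the two components, and
`SpecialFibre.smooth_point` applies there.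
-/

set_option autoImplicit false
set_option linter.unusedSectionVars false

noncomputable section

namespace Fermat.Agent.BR.Inst.Cusp

open ModularCurve AlgebraicCurve Fermat.Agent.X0 Fermat.Agent.Val Fermat.Agent.Hecke.AL
  Fermat.Agent.BR.TwoVal Fermat.Agent.BR.CuspSepVal

variable {M q : ℕ} [NeZero M] [hq : Fact q.Prime]
variable (A : ValuationSubring Kb) (hA : A.LiesOverPrime q) (hqM : ¬ q ∣ M)

theorem hSep_mem_O1 : hSep M q ∈ O1 M A hA :=
  hSep_mem_valOne hq.out A hA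

theorem hSep_mem_O2 : hSep M q ∈ O2 A hA hqM :=
  hSep_mem_valTwo hq.out (coprime_of_not_dvd hqM) A hA

theorem jA_inv_mem_O1 : (jA M q)⁻¹ ∈ O1 M A hA :=
  jA_inv_mem_valOne hq.out A hA

theorem jA_inv_mem_O2 : (jA M q)⁻¹ ∈ O2 A hA hqM :=
  jA_inv_mem_valTwo hq.out (coprime_of_not_dvd hqM) A hA

/-- `h - 1` is a non-unit of `O1`: on `Z₁` the separator is `1`. -/
theorem hSep_sub_one_mem_nonunits_O1 : hSep M q - 1 ∈ (O1 M A hA).nonunits := by
  rw [ValuationSubring.mem_nonunits_iff_exists_mem_maximalIdeal]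
  exact ⟨sub_mem (hSep_mem_O1 A hA) (one_mem _), hSep_sub_one_mem hq.out A hA⟩

/-- `h^q - (1/j)^(q²-1)` is a non-unit of `O2`: on `Z₂`, `h^q = (1/j)^(q²-1)`. -/
theorem hSep_pow_sub_mem_nonunits_O2 :
    (hSep M q) ^ q - ((jA M q)⁻¹) ^ (q * q - 1) ∈ (O2 A hA hqM).nonunits := by
  rw [ValuationSubring.mem_nonunits_iff_exists_mem_maximalIdeal]
  have hcop := coprime_of_not_dvd hqM
  have h1 : (hSep M q) ^ q - ((jA M q)⁻¹) ^ (q * q - 1) ∈ O2 A hA hqM :=
    sub_mem (pow_mem (hSep_mem_O2 A hA hqM) q) (pow_mem (jA_inv_mem_O2 A hA hqM) _)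
  refine ⟨h1, ?_⟩
  have h2 : (⟨(hSep M q) ^ q - ((jA M q)⁻¹) ^ (q * q - 1), h1⟩ :
      ValTwo.valTwo hq.out hcop A hA) ∈
      IsLocalRing.maximalIdeal (ValTwo.valTwo hq.out hcop A hA) := by
    rw [← ValTwo.resTwo_eq_zero_iff]
    have e : (⟨(hSep M q) ^ q - ((jA M q)⁻¹) ^ (q * q - 1), h1⟩ :
        ValTwo.valTwo hq.out hcop A hA) =
        ⟨hSep M q, hSep_mem_valTwo hq.out hcop A hA⟩ ^ q -
          ⟨(jA M q)⁻¹, jA_inv_mem_valTwo hq.out hcop A hA⟩ ^ (q * q - 1) := Subtype.ext rfl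
    rw [e, map_sub, map_pow, map_pow, resTwo_hSep, resTwo_jA_inv, ← pow_mul, ← pow_mul,
      mul_comm, sub_self]
  exact h2

/-- the separator is integral over every subring containing `1/j` -/
theorem isIntegral_hSep_of_mem {R : Subring (Fb (M * q))} (hR : (jA M q)⁻¹ ∈ R) :
    IsIntegral R (hSep M q) := by
  obtain ⟨p, hp, hroot⟩ := CuspSepInt.isIntegral_hSep (M := M) hq.out
  have hle : (Algebra.adjoin ℤ {(jA M q)⁻¹} : Subalgebra ℤ (Fb (M * q))).toSubring ≤ R := by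
    rw [Algebra.adjoin_eq_ring_closure, Subring.closure_le]
    rintro x (⟨n, rfl⟩ | hx)
    · rw [eq_intCast]
      exact intCast_mem R n
    · rw [Set.mem_singleton_iff] at hx
      rw [hx]; exact hR
  refine ⟨p.map (Subring.inclusion hle), hp.map _, ?_⟩
  rw [Polynomial.eval₂_map]
  exact hroot

/-- **no crossing point over `1/j = 0`** -/
theorem no_crossing_at_infinity (C : Subring (Fb (M * q))) (hx : (jA M q)⁻¹ ∈ C)
    (hh : hSep M q ∈ C) (P₁ P₂ : Ideal C)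
    (hP₁ : ∀ y : C, (y : Fb (M * q)) ∈ (O1 M A hA).nonunits → y ∈ P₁)
    (hP₂ : ∀ y : C, (y : Fb (M * q)) ∈ (O2 A hA hqM).nonunits → y ∈ P₂)
    (n : Ideal C) [n.IsPrime] (hn : (⟨(jA M q)⁻¹, hx⟩ : C) ∈ n) : ¬ (P₁ ≤ n ∧ P₂ ≤ n) := by
  have hb : 0 < q * q - 1 := by
    have := hq.out.two_le
    have : 4 ≤ q * q := by nlinarith
    omega
  refine CuspSep.not_both_le_of_separator (h := (⟨hSep M q, hh⟩ : C))
    (x := (⟨(jA M q)⁻¹, hx⟩ : C)) (c := 1) (a := q) (b := q * q - 1) hb ?_ ?_ hn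
  · exact hP₁ _ (hSep_sub_one_mem_nonunits_O1 A hA)
  · apply hP₂
    have := hSep_pow_sub_mem_nonunits_O2 (M := M) A hA hqM
    simpa using this

end Fermat.Agent.BR.Inst.Cusp
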