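import Fermat.Agent.BR.Inst.IndepFK
import Fermat.Agent.BR.TwoValQExh

/-!
# Program B, node B6.5c-(★'), part 2: exhaustion in the frame

`K' ⊆ ℚ̄` a subfield with `v_A(K'^×) = v_A(π')^ℤ`, `FK = modelField (M q) K' = K'·F_{Mq}`.
A valuation subring `O` of `FK` which contains `A ∩ K'` and `j`, in which `π'` is a nonunit, and
in which the residue of `j` is transcendental over `𝔽_q`, is the trace on `FK` of `w₁` or of `w₂`
(`eq_comap_O1_or_eq_comap_O2`).

Proof: extend `O` to `F̄_{Mq}` (Chevalley), apply the `ℚ̄`-level exhaustion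
`TwoValInst.eq_O1_or_eq_O2` for `B' = W ∩ ℚ̄`, and come back with the independence of
`O_i(B') ∩ FK` from the extension `B'` of `A ∩ K'` (`IndepFK`).
-/

set_option autoImplicit false
set_option linter.unusedSectionVars false
set_option linter.style.haveILetI false

noncomputable section

namespace Fermat.Agent.BR.Inst.ExhFK

open ModularCurve HahnSeries Polynomial Fermat.Agent.X0 Fermat.Agent.Val Fermat.Agent.BR.TwoVal
  Fermat.Agent.Good.Bridge Fermat.Agent.BR.Inst.NormalModel Fermat.Agent.BR.TwoValQ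

/-! ### generalities on valuation subrings -/

section Gen

variable {K : Type*} [Field K]

theorem inv_notMem_of_mem_nonunits {O : ValuationSubring K} {x : K} (hx0 : x ≠ 0)
    (hx : x ∈ O.nonunits) : x⁻¹ ∉ O := by
  intro h
  have h1 : O.valuation x < 1 := (O.mem_nonunits_iff).1 hx
  have h2 : O.valuation x⁻¹ ≤ 1 := (O.valuation_le_one_iff _).2 h
  have h3 : O.valuation x * O.valuation x⁻¹ = 1 := by
    rw [← map_mul, mul_inv_cancel₀ hx0, map_one]
  have h4 : O.valuation x * O.valuation x⁻¹ < 1 := by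
    calc O.valuation x * O.valuation x⁻¹ ≤ O.valuation x * 1 := mul_le_mul' le_rfl h2
      _ = O.valuation x := mul_one _
      _ < 1 := h1
  rw [h3] at h4
  exact lt_irrefl _ h4

theorem mul_mem_nonunits_of_mem {O : ValuationSubring K} {x y : K}
    (hx : x ∈ O.nonunits) (hy : y ∈ O) : x * y ∈ O.nonunits := by
  rw [O.mem_nonunits_iff] at hx ⊢
  rw [map_mul]
  calc O.valuation x * O.valuation y ≤ O.valuation x * 1 :=
        mul_le_mul' le_rfl ((O.valuation_le_one_iff _).2 hy)
    _ = O.valuation x := mul_one _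
    _ < 1 := hx

end Gen

/-! ### the cyclic value group: division by the uniformizer -/

section Unif

variable (A : ValuationSubring Kb) (K' : Subfield Kb) (π' : Kb) (hπK : π' ∈ K') (hπ0 : π' ≠ 0)
  (hπ1 : A.valuation π' < 1)
  (hdvr : ∀ c ∈ K', c ≠ 0 → ∃ n : ℤ, A.valuation c = A.valuation π' ^ n)

include hπK hπ0 hπ1 hdvr in
/-- a nonunit of `A` lying in `K'` is divisible by `π'` in `A ∩ K'` -/
theorem div_pi_mem {d : Kb} (hdK : d ∈ K') (hd : d ∈ A.nonunits) :
    d / π' ∈ A ∧ d / π' ∈ K' := by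
  refine ⟨?_, K'.div_mem hdK hπK⟩
  by_cases hd0 : d = 0
  · rw [hd0, zero_div]; exact A.zero_mem
  obtain ⟨n, hn⟩ := hdvr d hdK hd0
  obtain ⟨h1, h2⟩ := ContentFK.const_div_zpow_unit A hπ0 hn
  exact div_mem_of_mem_nonunits hd0 hπ0 (A.mem_nonunits_iff.2 hπ1) h1 h2 hd

end Unif

/-! ### the exhaustion -/

section Exh

variable {M q : ℕ} [NeZero M] [hq : Fact q.Prime]

variable (A : ValuationSubring Kb) (hA : A.LiesOverPrime q) (hqM : ¬ q ∣ M) (K' : Subfield Kb)
  (π' : Kb) (hπK : π' ∈ K') (hπ0 : π' ≠ 0) (hπ1 : A.valuation π' < 1)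
  (hdvr : ∀ c ∈ K', c ≠ 0 → ∃ n : ℤ, A.valuation c = A.valuation π' ^ n)

include hA hπK hπ0 hπ1 hdvr in
/-- **(I2') EXHAUSTION IN THE FRAME.** -/
theorem eq_comap_O1_or_eq_comap_O2 (O : ValuationSubring ↥(modelField (M * q) K'))
    (hconst : ∀ c : Kb, ∀ hc : c ∈ K', c ∈ A →
      (⟨algebraMap Kb (Fb (M * q)) c, const_mem_modelField (M * q) K' hc⟩ :
        ↥(modelField (M * q) K')) ∈ O)
    (hπO : (⟨algebraMap Kb (Fb (M * q)) π', const_mem_modelField (M * q) K' hπK⟩ :
        ↥(modelField (M * q) K')) ∈ O.nonunits)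
    (hj : (⟨jBar (M * q), jBar_mem_modelField (M * q) K'⟩ : ↥(modelField (M * q) K')) ∈ O)
    (htr : ∀ R : ℤ[X],
      aeval (⟨jBar (M * q), jBar_mem_modelField (M * q) K'⟩ : ↥(modelField (M * q) K')) R ∈
        O.nonunits → ∀ i, (q : ℤ) ∣ R.coeff i) :
    O = (O1 M A hA).comap (modelField (M * q) K').subtype ∨
      O = (O2 A hA hqM).comap (modelField (M * q) K').subtype := by
  obtain ⟨W, hW⟩ := exists_comap_eq (modelField (M * q) K').subtype O
  obtain ⟨B', hWB⟩ : ∃ B' : ValuationSubring Kb,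
      W.comap (algebraMap Kb (Fb (M * q))) = B' := ⟨_, rfl⟩
  -- constants of `A ∩ K'` lie in `W`
  have hcW : ∀ c : Kb, c ∈ K' → c ∈ A → algebraMap Kb (Fb (M * q)) c ∈ W := by
    intro c hc hcA
    have h1 := hconst c hc hcA
    rw [← hW, ValuationSubring.mem_comap] at h1
    exact h1
  have hπW : algebraMap Kb (Fb (M * q)) π' ∈ W.nonunits := by
    rw [← hW, mem_nonunits_comap] at hπO
    exact hπO
  -- nonunits of `A ∩ K'` are nonunits of `W`
  have hnW : ∀ d : Kb, d ∈ K' → d ∈ A.nonunits → algebraMap Kb (Fb (M * q)) d ∈ W.nonunits := by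
    intro d hdK hd
    obtain ⟨h1, h2⟩ := div_pi_mem A K' π' hπK hπ0 hπ1 hdvr hdK hd
    have e : algebraMap Kb (Fb (M * q)) d =
        algebraMap Kb (Fb (M * q)) π' * algebraMap Kb (Fb (M * q)) (d / π') := by
      rw [← map_mul, mul_div_cancel₀ _ hπ0]
    rw [e]
    exact mul_mem_nonunits_of_mem hπW (hcW _ h2 h1)
  -- the trace of `B'` on `K'` is `A ∩ K'`
  have htrace : ∀ c ∈ K', c ∈ B' ↔ c ∈ A := by
    intro c hc
    constructor
    · intro hcB
      by_contra hcA
      have hc0 : c ≠ 0 := by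
        rintro rfl
        exact hcA A.zero_mem
      have hinvA : c⁻¹ ∈ A := (A.mem_or_inv_mem c).resolve_left hcA
      have hinvN : c⁻¹ ∈ A.nonunits := by
        rw [A.mem_nonunits_iff]
        have h1 : ¬ A.valuation c ≤ 1 := fun h => hcA ((A.valuation_le_one_iff _).1 h)
        rw [not_le] at h1
        rw [map_inv₀]
        exact inv_lt_one_of_one_lt₀ h1
      have h2 := hnW c⁻¹ (K'.inv_mem hc) hinvN
      have h3 := inv_notMem_of_mem_nonunits
        ((map_ne_zero (algebraMap Kb (Fb (M * q)))).2 (inv_ne_zero hc0)) h2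
      rw [← map_inv₀, inv_inv] at h3
      apply h3
      have : c ∈ W.comap (algebraMap Kb (Fb (M * q))) := by rw [hWB]; exact hcB
      exact this
    · intro hcA
      rw [← hWB, ValuationSubring.mem_comap]
      exact hcW c hc hcA
  have hB' : B'.LiesOverPrime q := by
    show (q : Kb) ∈ B'.nonunits
    rw [← hWB, mem_nonunits_comap]
    exact hnW _ (natCast_mem K' q) hA
  have hjW : jBar (M * q) ∈ W := by
    rw [← hW, ValuationSubring.mem_comap] at hj
    exact hj
  have htrW : ∀ R : ℤ[X], aeval (jBar (M * q)) R ∈ W.nonunits → ∀ i, (q : ℤ) ∣ R.coeff i := by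
    intro R hR
    apply htr R
    rw [← hW, mem_nonunits_comap]
    have : (modelField (M * q) K').subtype
        (aeval (⟨jBar (M * q), jBar_mem_modelField (M * q) K'⟩ : ↥(modelField (M * q) K')) R) =
        aeval (jBar (M * q)) R := by
      rw [aeval_def, aeval_def, hom_eval₂]
      congr 1
    rwa [this]
  rcases TwoValInst.eq_O1_or_eq_O2 B' hB' hqM W (comap_alpha_eq_OM hqM W B' hWB hB' hjW htrW)
    with h | h
  · left
    rw [← hW, h]
    exact IndepFK.comap_O1_eq_of_trace_eq K' B' A hB' hA htrace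
  · right
    rw [← hW, h]
    exact IndepFK.comap_O2_eq_of_trace_eq K' B' A hB' hA hqM htrace

end Exh

end Fermat.Agent.BR.Inst.ExhFK
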