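import Fermat.Agent.BR.Inst.ContentFK
import Fermat.Agent.BR.Inst.NormalModel

/-!
# Program B, node B6.5c-(★'), part 1: independence of the extension of `W' = A ∩ K'`

`K' ⊆ ℚ̄` a subfield, `FK = modelField N K' = K'·F_N ⊆ F̄_N`.  If two valuation subrings `B₁`, `B₂`
of `ℚ̄` over `ℓ` have the same trace on `K'`, then the Gauss valuation subrings of `F̄_N` attached to
`B₁` and `B₂` have the same trace on `FK` (`mem_gauss_iff_of_trace_eq`), and likewise for
`w₁`, `w₂` at level `M q` (`mem_O1_iff_of_trace_eq`, `mem_O2_iff_of_trace_eq`).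

Proof: helper13's generic content theorem `ContentFK.exists_hasContent_mem_of_mem_barOver` applied
with the ambient field `L := ↥K'` produces a content whose witnesses are series over
`A₀ = B₁ ∩ K' = B₂ ∩ K'`; extending coefficients to `ℚ̄` gives the SAME content for `B₁` and `B₂`.
-/

set_option autoImplicit false
set_option linter.unusedSectionVars false
set_option linter.style.haveILetI false

noncomputable section

namespace Fermat.Agent.BR.Inst.IndepFK

open ModularCurve HahnSeries Fermat.Agent.X0 Fermat.Agent.Val Fermat.Agent.BR.TwoVal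
  Fermat.Agent.Good.Bridge Fermat.Agent.BR.Inst.NormalModel

/-! ### Transport of contents along an extension of the coefficient field -/

section Transport

variable {L₀ L : Type*} [Field L₀] [Field L] (ι : L₀ →+* L)
  (A₀ : ValuationSubring L₀) (B : ValuationSubring L) (hB : B.comap ι = A₀)

include hB in
theorem map_mem_of_comap_eq (a : A₀) : ι (a : L₀) ∈ B := by
  have : (a : L₀) ∈ B.comap ι := by rw [hB]; exact a.2
  exact this

/-- `A₀ → B` -/
def restrictHom : A₀ →+* B where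
  toFun a := ⟨ι (a : L₀), map_mem_of_comap_eq ι A₀ B hB a⟩
  map_one' := Subtype.ext (map_one ι)
  map_mul' _ _ := Subtype.ext (map_mul ι _ _)
  map_zero' := Subtype.ext (map_zero ι)
  map_add' _ _ := Subtype.ext (map_add ι _ _)

theorem aIota_coeffMap_restrictHom (a : LaurentSeries A₀) :
    aIota B (coeffMap (restrictHom ι A₀ B hB) a) = coeffMap ι (aIota A₀ a) := by
  apply HahnSeries.ext
  funext n
  rfl

theorem aRed_coeffMap_restrictHom_ne_zero {a : LaurentSeries A₀}
    (ha : aRed (IsLocalRing.residue A₀) a ≠ 0) :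
    aRed (IsLocalRing.residue B) (coeffMap (restrictHom ι A₀ B hB) a) ≠ 0 := by
  obtain ⟨n, hn⟩ : ∃ n, (aRed (IsLocalRing.residue A₀) a).coeff n ≠ 0 := by
    by_contra h
    apply ha
    apply HahnSeries.ext
    funext m
    by_contra hm
    exact h ⟨m, hm⟩
  rw [aRed_coeff] at hn
  have hu : IsUnit (a.coeff n) := by
    by_contra hnu
    exact hn ((IsLocalRing.residue_eq_zero_iff _).2 ((IsLocalRing.mem_maximalIdeal _).2 hnu))
  have hu' : IsUnit (restrictHom ι A₀ B hB (a.coeff n)) := hu.map _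
  intro h0
  have h1 := congrArg (fun s => s.coeff n) h0
  simp only [aRed_coeff, coeffMap_coeff, HahnSeries.coeff_zero] at h1
  rw [IsLocalRing.residue_eq_zero_iff] at h1
  exact (IsLocalRing.mem_maximalIdeal _).1 h1 hu'

include hB in
/-- a content over `A₀` stays a content over any `B` with `B ∩ L₀ = A₀` -/
theorem hasContent_coeffMap {x : LaurentSeries L₀} {c : L₀}
    (h : HasContent A₀ (IsLocalRing.residue A₀) x c) :
    HasContent B (IsLocalRing.residue B) (coeffMap ι x) (ι c) := by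
  obtain ⟨hc, a, b, ha, hb, hab⟩ := h
  refine ⟨(map_ne_zero ι).2 hc, coeffMap (restrictHom ι A₀ B hB) a,
    coeffMap (restrictHom ι A₀ B hB) b, aRed_coeffMap_restrictHom_ne_zero ι A₀ B hB ha,
    aRed_coeffMap_restrictHom_ne_zero ι A₀ B hB hb, ?_⟩
  rw [aIota_coeffMap_restrictHom, aIota_coeffMap_restrictHom, ← map_mul, hab, map_mul,
    HahnSeries.C_apply, coeffMap_single, ← HahnSeries.C_apply]

end Transport

/-! ### Elements of `modelField N K'` have their coefficients in `K'` -/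

section Coeffs

variable (K' : Subfield Kb) (N : ℕ) [NeZero N]

instance isAlgebraic_subfield : Algebra.IsAlgebraic ℚ ↥K' :=
  haveI := algebraIsAlgebraic_rat_algebraicClosure
  Algebra.IsAlgebraic.of_injective (IsScalarTower.toAlgHom ℚ ↥K' Kb) K'.subtype.injective

/-- the coefficient extension of an element of `modelField N K'` comes from a series over `K'`
lying in `K' · F_N` -/
theorem exists_coeffMap_eq {y : Fb N} (hy : y ∈ modelField N K') :
    ∃ y₀ : LaurentSeries ↥K',
      y₀ ∈ barOver (modularFunctionFieldFull N) (⊤ : IntermediateField ℚ ↥K') ∧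
      coeffMap K'.subtype y₀ = (y : LaurentSeries Kb) := by
  have hle : modelField N K' ≤
      ((barOver (modularFunctionFieldFull N) (⊤ : IntermediateField ℚ ↥K')).map
        (coeffMap K'.subtype)).comap (algebraMap (Fb N) (LaurentSeries Kb)) := by
    rw [modelField, Subfield.closure_le]
    rintro y (⟨c, hc, rfl⟩ | ⟨z, rfl⟩)
    · refine ⟨HahnSeries.C (⟨c, hc⟩ : ↥K'), Subfield.subset_closure
        (Or.inl ⟨⟨c, hc⟩, IntermediateField.mem_top, rfl⟩), ?_⟩
      show _ = algebraMap (Fb N) (LaurentSeries Kb) (algebraMap Kb (Fb N) c)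
      rw [← IsScalarTower.algebraMap_apply, algebraMap_laurentSeries_eq_single,
        HahnSeries.C_apply, coeffMap_single]
      rfl
    · refine ⟨coeffEmb ↥K' (z : LaurentSeries ℚ), Subfield.subset_closure
        (Or.inr ⟨(z : LaurentSeries ℚ), z.2, rfl⟩), ?_⟩
      show _ = ((barEmb N z : Fb N) : LaurentSeries Kb)
      rw [coe_barEmb, coeffEmb, coeffEmb, coeffMap_coeffMap]
      exact coeffMap_congr (RingHom.ext fun c => by simp) _
  obtain ⟨y₀, hy₀, h⟩ := hle hy
  exact ⟨y₀, hy₀, h⟩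

end Coeffs

/-! ### Independence of the Gauss valuation on `modelField N K'` -/

section Indep

variable (K' : Subfield Kb) (N : ℕ) [NeZero N] {ℓ : ℕ} (hℓ : ℓ ≠ 0)
  (B₁ B₂ : ValuationSubring Kb) (hB₁ : B₁.LiesOverPrime ℓ) (hB₂ : B₂.LiesOverPrime ℓ)

/-- a valuation subring of `ℚ̄` over `ℓ` restricts to one of `K'` over `ℓ` -/
theorem liesOverPrime_comap_subtype (B : ValuationSubring Kb) (hB : B.LiesOverPrime ℓ) :
    (B.comap K'.subtype).LiesOverPrime ℓ := by
  show ((ℓ : ℕ) : ↥K') ∈ (B.comap K'.subtype).nonunits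
  rw [TwoValQ.mem_nonunits_comap, map_natCast]
  exact hB

include hℓ hB₁ hB₂ in
/-- **Independence.** Two valuation subrings of `ℚ̄` over `ℓ` with the same trace on `K'` have
Gauss valuation subrings with the same trace on `modelField N K'`. -/
theorem mem_gauss_iff_of_trace_eq (h : ∀ c ∈ K', c ∈ B₁ ↔ c ∈ B₂) {y : Fb N}
    (hy : y ∈ modelField N K') :
    y ∈ gaussValQbar B₁ N hℓ hB₁ ↔ y ∈ gaussValQbar B₂ N hℓ hB₂ := by
  by_cases hy0 : y = 0
  · rw [hy0]
    exact ⟨fun _ => zero_mem _, fun _ => zero_mem _⟩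
  obtain ⟨y₀, hy₀, hyy⟩ := exists_coeffMap_eq K' N hy
  have hy₀0 : y₀ ≠ 0 := by
    rintro rfl
    rw [map_zero] at hyy
    exact hy0 (Subtype.ext hyy.symm)
  have hA₀ : B₂.comap K'.subtype = B₁.comap K'.subtype := by
    ext c
    exact (h c c.2).symm
  obtain ⟨c, -, hc⟩ := ContentFK.exists_hasContent_mem_of_mem_barOver (B₁.comap K'.subtype)
    (IsLocalRing.residue _) ⊤ N hℓ (liesOverPrime_comap_subtype K' B₁ hB₁) hy₀ hy₀0
  have h1 := hasContent_coeffMap K'.subtype (B₁.comap K'.subtype) B₁ rfl hc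
  have h2 := hasContent_coeffMap K'.subtype (B₁.comap K'.subtype) B₂ hA₀ hc
  rw [hyy] at h1 h2
  show (y : LaurentSeries Kb) ∈ gaussRingA B₁ (IsLocalRing.residue B₁) ↔
    (y : LaurentSeries Kb) ∈ gaussRingA B₂ (IsLocalRing.residue B₂)
  rw [h1.mem_gaussRingA_iff (residue_eq_zero_of_mem_maximalIdeal B₁),
    h2.mem_gaussRingA_iff (residue_eq_zero_of_mem_maximalIdeal B₂)]
  exact h _ c.2

end Indep

/-! ### Level `M q`: independence of `w₁`, `w₂` on `modelField (M q) K'` -/

section Level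

variable {M q : ℕ} [NeZero M] [hq : Fact q.Prime] (K' : Subfield Kb)
  (B₁ B₂ : ValuationSubring Kb) (hB₁ : B₁.LiesOverPrime q) (hB₂ : B₂.LiesOverPrime q)
  (hqM : ¬ q ∣ M)

include hB₁ hB₂ in
theorem mem_O1_iff_of_trace_eq (h : ∀ c ∈ K', c ∈ B₁ ↔ c ∈ B₂) {y : Fb (M * q)}
    (hy : y ∈ modelField (M * q) K') :
    y ∈ O1 M B₁ hB₁ ↔ y ∈ O1 M B₂ hB₂ :=
  mem_gauss_iff_of_trace_eq K' (M * q) hq.out.ne_zero B₁ B₂ hB₁ hB₂ h hy

include hB₁ hB₂ in
theorem mem_O2_iff_of_trace_eq (h : ∀ c ∈ K', c ∈ B₁ ↔ c ∈ B₂) {y : Fb (M * q)}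
    (hy : y ∈ modelField (M * q) K') :
    y ∈ O2 B₁ hB₁ hqM ↔ y ∈ O2 B₂ hB₂ hqM := by
  rw [mem_O2_iff, mem_O2_iff]
  exact mem_O1_iff_of_trace_eq K' B₁ B₂ hB₁ hB₂ h (ContentFK.Wq_mem_closure_sf hqM K' hy)

/-- subring form: the traces on `modelField` coincide -/
theorem comap_O1_eq_of_trace_eq (h : ∀ c ∈ K', c ∈ B₁ ↔ c ∈ B₂) :
    (O1 M B₁ hB₁).comap (modelField (M * q) K').subtype =
      (O1 M B₂ hB₂).comap (modelField (M * q) K').subtype := by
  ext y
  exact mem_O1_iff_of_trace_eq K' B₁ B₂ hB₁ hB₂ h y.2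

theorem comap_O2_eq_of_trace_eq (h : ∀ c ∈ K', c ∈ B₁ ↔ c ∈ B₂) :
    (O2 B₁ hB₁ hqM).comap (modelField (M * q) K').subtype =
      (O2 B₂ hB₂ hqM).comap (modelField (M * q) K').subtype := by
  ext y
  exact mem_O2_iff_of_trace_eq K' B₁ B₂ hB₁ hB₂ hqM h y.2

end Level

end Fermat.Agent.BR.Inst.IndepFK
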