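import Fermat.Agent.BR.Inst.FKCover
import Fermat.Agent.BR.UnramCyclo

/-!
# Program B, input (h1): inertia fixes `FK K₀ N`, `K₀ = ℚ(μ_{prime to q})`

`K₀ = UnramCyclo.cycloField ℚ̄ q` is fixed pointwise by the inertia group of any valuation subring
`A ⊂ ℚ̄` over `q` (`UnramCyclo.apply_eq_of_mem_inertia`), hence the arithmetic Galois action of an
inertia element fixes `FK K₀ N = K₀ · F_N ⊆ F̄_N` pointwise (`FKCover.gal_smul_eq_of_mem_FK`).

* `gal_smul_eq_of_mem_FK_cyclo` : one element;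
* `hu_of_mem_FK_cyclo` : a family `u : ι → F̄_N` with values in `FK K₀ N`, in the shape of the
  hypothesis `hu` of `Refine.HasModularInput` / `S0.TwoCompDeliverable`;
* `gal_smul_eq_of_mem_FK_le` : the same for any `K' ≤ K₀`; `_closure` forms with the subfield
  spelled out as a `Subfield.closure` (frame-free shape, `= NormalModel.modelField`).
-/

set_option autoImplicit false

open ModularCurve AlgebraicCurve

namespace Fermat.Agent.BR.Inst.InertiaFK

open Fermat.Agent.X0 Fermat.Agent.Good.Bridge Fermat.Agent.BR.Inst.FKCover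
  Fermat.Agent.BR.UnramCyclo

variable {q N : ℕ} [NeZero N] (A : ValuationSubring Kb)

/-- **(h1)** Inertia at `q` fixes `FK K₀ N` pointwise, `K₀ = ℚ(μ_{prime to q})`. -/
theorem gal_smul_eq_of_mem_FK_cyclo (hq : q.Prime) (hA : A.LiesOverPrime q)
    {σ : Kb ≃ₐ[ℚ] Kb} (hσ : σ ∈ A.inertiaSubgroupIn ℚ) {x : Fb N}
    (hx : x ∈ FK (cycloField Kb q) N) :
    arithmeticGalois (modularFunctionFieldFull N) σ • x = x :=
  gal_smul_eq_of_mem_FK (fun _ hc => apply_eq_of_mem_inertia A hq hA hσ hc) hx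

/-- The same for any subfield of constants contained in `K₀`. -/
theorem gal_smul_eq_of_mem_FK_le (hq : q.Prime) (hA : A.LiesOverPrime q)
    {K' : IntermediateField ℚ Kb} (hK' : K' ≤ cycloField Kb q)
    {σ : Kb ≃ₐ[ℚ] Kb} (hσ : σ ∈ A.inertiaSubgroupIn ℚ) {x : Fb N} (hx : x ∈ FK K' N) :
    arithmeticGalois (modularFunctionFieldFull N) σ • x = x :=
  gal_smul_eq_of_mem_FK_cyclo A hq hA hσ (FK_mono hK' hx)

/-- **(h1)**, frame-free shape: the subfield spelled out as a closure. -/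
theorem gal_smul_eq_of_mem_closure (hq : q.Prime) (hA : A.LiesOverPrime q)
    {σ : Kb ≃ₐ[ℚ] Kb} (hσ : σ ∈ A.inertiaSubgroupIn ℚ) {x : Fb N}
    (hx : x ∈ Subfield.closure
      (⇑(algebraMap Kb (Fb N)) '' ((cycloField Kb q : IntermediateField ℚ Kb) : Set Kb) ∪
        Set.range (barEmb N))) :
    arithmeticGalois (modularFunctionFieldFull N) σ • x = x :=
  gal_smul_eq_of_mem_FK_cyclo A hq hA hσ hx

/-- **(h1)**, `Subfield` shape (`FKs N E = NormalModel.modelField N E`), `E ≤ K₀`. -/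
theorem gal_smul_eq_of_mem_FKs_le (hq : q.Prime) (hA : A.LiesOverPrime q)
    {E : Subfield Kb} (hE : ∀ c ∈ E, c ∈ cycloField Kb q)
    {σ : Kb ≃ₐ[ℚ] Kb} (hσ : σ ∈ A.inertiaSubgroupIn ℚ) {x : Fb N} (hx : x ∈ FKs N E) :
    arithmeticGalois (modularFunctionFieldFull N) σ • x = x :=
  gal_smul_eq_of_mem_FKs E (fun c hc => apply_eq_of_mem_inertia A hq hA hσ (hE c hc)) hx

/-- **(h1)** in the shape of the hypothesis `hu` of `Refine.HasModularInput` /
`S0.TwoCompDeliverable`: a family of functions of `FK K₀ N` is fixed by inertia. -/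
theorem hu_of_mem_FK_cyclo (hq : q.Prime) (hA : A.LiesOverPrime q) {ι : Sort*} (u : ι → Fb N)
    (hu : ∀ e, u e ∈ FK (cycloField Kb q) N) :
    ∀ σ ∈ A.inertiaSubgroupIn ℚ, ∀ e,
      arithmeticGalois (modularFunctionFieldFull N) σ • u e = u e :=
  fun _ hσ e => gal_smul_eq_of_mem_FK_cyclo A hq hA hσ (hu e)

end Fermat.Agent.BR.Inst.InertiaFK
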