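import Fermat.Agent.BR.S0.RedCharts
import Fermat.Agent.BR.Inst.CentreFin

/-!
# Program B, B6.6 (instantiation of the field `r`): the reduction map of the places of `X₀(N)`
over `ℚ̄` from the two integral charts `ℤ_(ℓ)[j]`, `ℤ_(ℓ)[1/j]`, and its invariance under inertia

`F̄_N = modularFunctionFieldBar N`, `A` a valuation subring of `ℚ̄` over the prime `ℓ`,
`chartBar N ℓ S` the image in `F̄_N` of the Prelude chart algebra (`BR/Inst/CentreFin`).

* `chartPair N ℓ : Bool → Subring F̄_N` : `true ↦` the image of `chartAlgFin N ℓ` (functions
  integral over `ℤ_(ℓ)[j]`), `false ↦` the image of `chartAlgInf N ℓ` (integral over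
  `ℤ_(ℓ)[1/j]`);
* `cover_chartPair` : every place of degree one is integral on one of the two charts
  (`j(P) ∈ A` or `(1/j)(P) ∈ A`);
* `redChartsFin` : the structure `RedMap.RedCharts A (residue A) O res` on these two charts, from
  the three facts still to be supplied by the description of the special fibre (charts inside the
  two component rings; existence and uniqueness of the reduction of a place on a component);
* `red_gal_smul` : **`r (σ • P) = r P` for `σ` in the inertia group of `A`**, for the reduction map
  `r = X.red` of ANY `X : RedCharts A (residue A) O res` whose charts are `chartPair N ℓ`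
  (input `hr₀` of `Refine.HasModularInput`);
* `integralAt_chartPair_true_iff`, `not_integralAt_chartPair_true_iff` : the chart used for a
  place `P` is the affine one iff `j(P) ∈ A`; otherwise `(1/j)(P)` lies in the maximal ideal
  of `A`.
-/

set_option autoImplicit false
set_option linter.unusedSectionVars false

open IsLocalRing AlgebraicCurve ModularCurve ModularCurve.IgusaScheme

namespace Fermat.Agent.BR.Inst

open Fermat.Agent.Red Fermat.Agent.BR.Centre Fermat.Agent.Good.Bridge Fermat.Agent.BR.RedMap
  Fermat.Agent.X0

local notation "Qb" => AlgebraicClosure ℚ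

variable (N : ℕ) [NeZero N] (ℓ : ℕ) [hℓ : Fact ℓ.Prime]

set_option quotPrecheck false in
local notation "F₀" => ↥(modularFunctionFieldFull N)

set_option quotPrecheck false in
local notation "Fbar" => ↥(laurentBaseChange Qb (modularFunctionFieldFull N))

/-- The two integral charts of `X₀(N)` at `ℓ` inside `F̄_N`: the affine chart (`true`) and the
chart at infinity (`false`). -/
noncomputable def chartPair : Bool → Subring Fbar
  | true => chartBar N ℓ {jFull N}
  | false => chartBar N ℓ {(jFull N)⁻¹}

@[simp] theorem chartPair_true : chartPair N ℓ true = chartBar N ℓ {jFull N} := rfl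

@[simp] theorem chartPair_false : chartPair N ℓ false = chartBar N ℓ {(jFull N)⁻¹} := rfl

variable {N ℓ}

/-- The arithmetic Galois action fixes the two charts pointwise. -/
theorem gal_smul_of_mem_chartPair (σ : Qb ≃ₐ[ℚ] Qb) (c : Bool) {y : Fbar}
    (hy : y ∈ chartPair N ℓ c) : arithmeticGalois (modularFunctionFieldFull N) σ • y = y := by
  cases c
  · exact gal_smul_of_mem_chartBar σ hy
  · exact gal_smul_of_mem_chartBar σ hy

variable {A : ValuationSubring Qb}

/-- Every place of degree one is integral on the affine chart or on the chart at infinity. -/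
theorem cover_chartPair (hA : A.LiesOverPrime ℓ) (P : Place Qb Fbar) (hdeg : P.deg = 1) :
    IntegralAt A (chartPair N ℓ true) P ∨ IntegralAt A (chartPair N ℓ false) P := by
  rw [chartPair_true, chartPair_false, integralAt_chartBarFin_iff hA hdeg,
    integralAt_chartBarInf_iff hA hdeg, map_inv₀]
  by_cases hj : barEmb N (jFull N) ∈ P.toValuationSubring
  · obtain ⟨c, hc⟩ := exists_isValueAt P hdeg hj
    rcases A.mem_or_inv_mem c with hcA | hcA
    · exact Or.inl ⟨c, hcA, hc⟩
    · by_cases hc0 : c = 0
      · exact Or.inl ⟨c, hc0 ▸ A.zero_mem, hc⟩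
      · exact Or.inr ⟨c⁻¹, hcA, Centre.IsValueAt.inv hc hc0⟩
  · refine Or.inr ⟨0, A.zero_mem, ?_⟩
    rw [isValueAt_zero_iff, adicValuation_lt_one_iff]
    right
    rw [Place.mem_iff_ord_nonneg] at hj
    rw [Place.ord_inv]
    omega

/-- The affine chart is the chart of `P` iff `j(P) ∈ A`. -/
theorem integralAt_chartPair_true_iff (hA : A.LiesOverPrime ℓ) {P : Place Qb Fbar}
    (hdeg : P.deg = 1) :
    IntegralAt A (chartPair N ℓ true) P ↔
      ∃ c : Qb, c ∈ A ∧ IsValueAt P (barEmb N (jFull N)) c :=
  integralAt_chartBarFin_iff hA hdeg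

/-- If `P` is not integral on the affine chart then `1/j` takes at `P` a value in the maximal
ideal of `A`. -/
theorem exists_isValueAt_inv_of_not_integralAt (hA : A.LiesOverPrime ℓ) {P : Place Qb Fbar}
    (hdeg : P.deg = 1) (h : ¬ IntegralAt A (chartPair N ℓ true) P) :
    ∃ c : Qb, A.valuation c < 1 ∧ IsValueAt P (barEmb N (jFull N))⁻¹ c := by
  rw [integralAt_chartPair_true_iff hA hdeg] at h
  push Not at h
  by_cases hj : barEmb N (jFull N) ∈ P.toValuationSubring
  · obtain ⟨c, hc⟩ := exists_isValueAt P hdeg hj
    have hcA : c ∉ A := fun hcA => h c hcA hc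
    have hc0 : c ≠ 0 := fun h0 => hcA (h0 ▸ A.zero_mem)
    refine ⟨c⁻¹, ?_, Centre.IsValueAt.inv hc hc0⟩
    rw [map_inv₀]
    have h1 : 1 < A.valuation c := by
      rw [← not_le, ValuationSubring.valuation_le_one_iff]
      exact hcA
    exact inv_lt_one_of_one_lt₀ h1
  · refine ⟨0, ?_, ?_⟩
    · rw [map_zero]
      exact zero_lt_one
    · rw [isValueAt_zero_iff, adicValuation_lt_one_iff]
      right
      rw [Place.mem_iff_ord_nonneg] at hj
      rw [Place.ord_inv]
      omega

/-! ### the structure `RedCharts` -/

section RedCharts

/-- **The reduction charts of `X₀(N)` at `ℓ`**: the structure `RedCharts` on the two charts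
`chartPair N ℓ`, from the inclusion of the charts in the two component rings and the existence and
uniqueness of the reduction of a place on a component. -/
noncomputable def redChartsFin {Ft : Type*} [Field Ft] [Algebra (ResidueField A) Ft]
    {O : Fin 2 → ValuationSubring (laurentBaseChange Qb (modularFunctionFieldFull N))}
    {res : ∀ v, O v →+* Ft}
    (hA : A.LiesOverPrime ℓ)
    (hdeg : ∀ P : Place Qb (laurentBaseChange Qb (modularFunctionFieldFull N)), P.deg = 1)
    (le : ∀ c v, chartPair N ℓ c ≤ (O v).toSubring)
    (exists_red : ∀ (P : Place Qb (laurentBaseChange Qb (modularFunctionFieldFull N))) (c : Bool),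
      IntegralAt A (chartPair N ℓ c) P →
      ∃ (v : Fin 2) (Q : Place (ResidueField A) Ft),
        IsRedOf A (residue A) (chartPair N ℓ c) (O v) (res v) (le c v) P Q)
    (unique : ∀ (c : Bool) (v : Fin 2)
      (P : Place Qb (laurentBaseChange Qb (modularFunctionFieldFull N)))
      (Q Q' : Place (ResidueField A) Ft),
      IsRedOf A (residue A) (chartPair N ℓ c) (O v) (res v) (le c v) P Q →
      IsRedOf A (residue A) (chartPair N ℓ c) (O v) (res v) (le c v) P Q' → Q = Q') :
    RedCharts A (residue A) O res where
  R := chartPair N ℓ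
  le := le
  cover P := cover_chartPair hA P (hdeg P)
  exists_red := exists_red
  unique := unique

/-- **`r (σ • P) = r P` for `σ` in the inertia group of `A`**: the reduction map defined by the
two integral charts is invariant under the arithmetic Galois action of inertia. -/
theorem red_gal_smul {Ft : Type*} [Field Ft] [Algebra (ResidueField A) Ft]
    {O : Fin 2 → ValuationSubring (laurentBaseChange Qb (modularFunctionFieldFull N))}
    {res : ∀ v, O v →+* Ft}
    (X : RedCharts A (residue A) O res) (hX : X.R = chartPair N ℓ)
    {σ : Qb ≃ₐ[ℚ] Qb} (hσ : σ ∈ A.inertiaSubgroupIn ℚ)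
    (P : Place Qb (laurentBaseChange Qb (modularFunctionFieldFull N))) :
    X.red (arithmeticGalois (modularFunctionFieldFull N) σ • P) = X.red P := by
  have hfix : ∀ (c : Bool), ∀ y ∈ X.R c,
      arithmeticGalois (modularFunctionFieldFull N) σ • y = y := by
    intro c y hy
    rw [hX] at hy
    exact gal_smul_of_mem_chartPair σ c hy
  exact X.red_smul_of_inertiaLike (g := arithmeticGalois (modularFunctionFieldFull N) σ)
    (inertiaLike_arithmeticGalois A hσ (modularFunctionFieldFull N)) hfix P

end RedCharts

end Fermat.Agent.BR.Inst
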