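/-
Program B (BADRED), node B6.6-CONS, THE BRIDGE concrete (Inst) → abstract (S0) (helper22).

`levelHyp_modular` : for one level `H : LevelsInst.LevelHyp A hA hqM K' W π'` (helper4: `W = A ∩ K'`,
uniformizer `π'`, canonical model `CQ M q W K'` of `X₀(Mq)` over `W`), the abstract per-level
hypotheses of helper24's assembly

  `S0.SmoothAssembly.LevelHyp (chartDataModular A hA hqM) (CQ M q W K') π' H.P1 H.P2 H.red1 H.red2`

with Dedekind chart `Dk := ↥(SpecIso.Ck M A)` (the integral closure of `k[j̃]` in `F̃_M`): the model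
is a noetherian normal domain inside both valuation rings, its special fibre has the two components
`P1`, `P2` (B6.5(c)), the reductions `red1`, `red2` map it ONTO `C_k` with kernels `P1`, `P2`
(B6.5(d)) and are the residue maps of the two components of `chartDataModular`, and the constants
of the model fill the residue field (FullRes).

`levelHyp_modular_tower` : the same at every level `S` of helper27's tower, unconditionally, for
the model `Levels.CS (M*q) q (fun T => modelBase (M*q) (WS A q T)) S`.

The class instances on `↥(Ck M A)` which do not enter the fields (`IsDedekindDomain`,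
`IsFractionRing`, `Algebra k ·`, `IsScalarTower`) are left as instance arguments, so the bridge
composes with any choice of them.
-/
import Mathlib
import Fermat.Agent.BR.Inst.LevelsInst
import Fermat.Agent.BR.S0.SmoothAssembly
import Fermat.Agent.BR.S0.RedModularInst
import Fermat.Agent.BR.S0.RedHyp

set_option autoImplicit false
set_option linter.unusedSectionVars false
set_option linter.style.haveILetI false
set_option synthInstance.maxHeartbeats 400000

noncomputable section

namespace Fermat.Agent.BR.Inst.SmoothInst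

open ModularCurve AlgebraicCurve Fermat.Agent.X0 Fermat.Agent.Val Fermat.Agent.Good.Bridge
open Fermat.Agent.BR.TwoVal Fermat.Agent.BR.TwoValInst Fermat.Agent.BR.ConstRedTwo
open Fermat.Agent.BR.Inst.NormalGen Fermat.Agent.BR.Inst.NormalModel
open Fermat.Agent.BR.Inst.LevelsInst Fermat.Agent.BR.Inst.SpecIso
open Fermat.Agent.BR.S0.RedModular Fermat.Agent.BR.S0.SmoothAssembly
open Fermat.Agent.Red Fermat.Agent.BR.Centre Fermat.Agent.BR.Inst.ChartInModel

variable {M q : ℕ} [NeZero M] [hq : Fact q.Prime]
variable {A : ValuationSubring Kb} {hA : A.LiesOverPrime q} {hqM : ¬ q ∣ M}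


variable [IsDedekindDomain ↥(Ck M A)] [IsFractionRing ↥(Ck M A) ↥(modularFunctionFieldFullC (IsLocalRing.ResidueField A) M)] [Algebra (IsLocalRing.ResidueField A) ↥(Ck M A)]
  [IsScalarTower (IsLocalRing.ResidueField A) ↥(Ck M A) ↥(modularFunctionFieldFullC (IsLocalRing.ResidueField A) M)]

variable {K' : Subfield Kb} {W : Subring Kb} {π' : Kb}

/-- the residue map of the component `0` of `chartDataModular` on the model is `red1` -/
theorem algebraMap_red1 (H : LevelsInst.LevelHyp A hA hqM K' W π') (x : ↥(CQ M q W K')) :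
    algebraMap ↥(Ck M A) ↥(modularFunctionFieldFullC (IsLocalRing.ResidueField A) M) (H.red1 x) =
      (constRedW1 A hA hqM).res ⟨(x : Fb (M * q)), H.le_O1 x x.2⟩ := by
  apply Subtype.ext
  rw [coe_constRedW1_res]
  exact H.coe_coe_red1 x

/-- the residue map of the component `1` of `chartDataModular` on the model is `red2` -/
theorem algebraMap_red2 (H : LevelsInst.LevelHyp A hA hqM K' W π') (x : ↥(CQ M q W K')) :
    algebraMap ↥(Ck M A) ↥(modularFunctionFieldFullC (IsLocalRing.ResidueField A) M) (H.red2 x) =
      (constRedW2 A hA hqM).res ⟨(x : Fb (M * q)), H.le_O2 x x.2⟩ := by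
  apply Subtype.ext
  rw [coe_constRedW2_res]
  exact H.coe_coe_red2 x

/-- the model lies in the valuation rings of both components of `chartDataModular` -/
theorem le_compW (H : LevelsInst.LevelHyp A hA hqM K' W π') (v : Fin 2) :
    CQ M q W K' ≤ ((chartDataModular A hA hqM).O v).toSubring := by
  intro x hx
  fin_cases v
  · show x ∈ (compW A hA hqM 0).O
    rw [compW_O_zero]
    exact H.le_O1 x hx
  · show x ∈ (compW A hA hqM 1).O
    rw [compW_O_one]
    exact H.le_O2 x hx

/-- **THE BRIDGE**: the abstract per-level hypotheses of `S0.SmoothAssembly` for the canonical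
model of one level of the tower. -/
theorem levelHyp_modular (H : LevelsInst.LevelHyp A hA hqM K' W π') :
    S0.SmoothAssembly.LevelHyp (Dk := ↥(Ck M A)) (chartDataModular A hA hqM) (CQ M q W K') π'
      H.P1 H.P2 H.red1 H.red2 where
  noeth := H.isNoetherianRing
  intClosed := H.isIntegrallyClosed
  hCO := le_compW H
  unif_ne := H.hπ0
  unif_lt := H.hπ1
  unif_mem := H.modelHyp.pi_mem
  twoComp := H.twoComponents
  hred₀ := algebraMap_red1 H
  hred₁ := algebraMap_red2 H
  surj₀ := H.red1_surjective
  surj₁ := H.red2_surjective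
  mem_P₀ := fun x => (H.red1_eq_zero_iff x).symm
  mem_P₁ := fun x => (H.red2_eq_zero_iff x).symm
  fullRes := H.fullRes

/-! ### the finite chart lies in the model; places integral on it are integral on the model -/

omit [IsDedekindDomain ↥(Ck M A)] [IsFractionRing ↥(Ck M A) ↥(modularFunctionFieldFullC (IsLocalRing.ResidueField A) M)] [Algebra (IsLocalRing.ResidueField A) ↥(Ck M A)]
  [IsScalarTower (IsLocalRing.ResidueField A) ↥(Ck M A) ↥(modularFunctionFieldFullC (IsLocalRing.ResidueField A) M)] in
/-- **`hRC`**: the finite `ℤ_(q)`-chart of `chartDataModular` lies in the model of every level -/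
theorem chartFin_le_CQ (H : LevelsInst.LevelHyp A hA hqM K' W π') :
    (chartDataModular A hA hqM).Rfin ≤ CQ M q W K' := by
  intro y hy
  obtain ⟨b, hb, rfl⟩ := Inst.mem_chartBar_iff.mp (show y ∈ chartFin (M := M) (q := q) from hy)
  exact barEmb_mem_model_of_mem_chartAlgFin (M * q) q H.hZW (isModel_CQ M q W K') hb

omit [IsDedekindDomain ↥(Ck M A)] [IsFractionRing ↥(Ck M A) ↥(modularFunctionFieldFullC (IsLocalRing.ResidueField A) M)] [Algebra (IsLocalRing.ResidueField A) ↥(Ck M A)]
  [IsScalarTower (IsLocalRing.ResidueField A) ↥(Ck M A) ↥(modularFunctionFieldFullC (IsLocalRing.ResidueField A) M)] in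
/-- a place integral on the finite chart is integral on `W[j]` -/
theorem integralAt_modelBase (H : LevelsInst.LevelHyp A hA hqM K' W π')
    (P : Place Kb (Fb (M * q))) (hP : IntegralAt A (chartDataModular A hA hqM).Rfin P) :
    IntegralAt A (modelBase (M * q) W) P := by
  refine IntegralAt.closure ?_
  rintro y (⟨a, ha, rfl⟩ | hy)
  · exact ⟨a, H.hWA a ha, isValueAt_algebraMap P a⟩
  · rw [Set.mem_singleton_iff] at hy
    subst hy
    have hj : jBar (M * q) ∈ (chartDataModular A hA hqM).Rfin := by
      have h := S0.RedHyp.jx_mem_chartFin (M := M) (q := q)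
      rwa [S0.RedHyp.jx, barEmb_jFull] at h
    exact hP _ hj

omit [IsDedekindDomain ↥(Ck M A)] [IsFractionRing ↥(Ck M A) ↥(modularFunctionFieldFullC (IsLocalRing.ResidueField A) M)] [Algebra (IsLocalRing.ResidueField A) ↥(Ck M A)]
  [IsScalarTower (IsLocalRing.ResidueField A) ↥(Ck M A) ↥(modularFunctionFieldFullC (IsLocalRing.ResidueField A) M)] in
/-- **`hint`**: a place integral on the finite chart is integral on the model of every level -/
theorem integralAt_CQ (H : LevelsInst.LevelHyp A hA hqM K' W π')
    (P : Place Kb (Fb (M * q))) (hP : IntegralAt A (chartDataModular A hA hqM).Rfin P) :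
    IntegralAt A (CQ M q W K') P := fun y hy =>
  (integralAt_modelBase H P hP).of_isIntegral (S0.RedHyp.place_deg_eq_one P)
    ((isModel_CQ M q W K' y).mp hy).2

section Tower

open Fermat.Agent.BR.Inst.Levels

variable (A hA hqM)

/-- **The bridge at every level `S` of the tower**, unconditionally (model written
`CQ M q (WS A q S) (KS q S)`, which is helper27's `CS` by `LevelsInst.CQ_eq_CS : … = … := rfl`). -/
theorem levelHyp_modular_tower (S : Finset Kb) :
    S0.SmoothAssembly.LevelHyp (Dk := ↥(Ck M A)) (chartDataModular A hA hqM)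
      (CQ M q (WS A q S) (KS q S)) (unif A hq.out hA S)
      (levelHyp_tower A hA hqM S).P1 (levelHyp_tower A hA hqM S).P2
      (levelHyp_tower A hA hqM S).red1 (levelHyp_tower A hA hqM S).red2 :=
  levelHyp_modular (levelHyp_tower A hA hqM S)

omit [IsDedekindDomain ↥(Ck M A)]
  [IsFractionRing ↥(Ck M A) ↥(modularFunctionFieldFullC (IsLocalRing.ResidueField A) M)]
  [Algebra (IsLocalRing.ResidueField A) ↥(Ck M A)]
  [IsScalarTower (IsLocalRing.ResidueField A) ↥(Ck M A)
    ↥(modularFunctionFieldFullC (IsLocalRing.ResidueField A) M)] in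
/-- the first component at level `S`, as an ideal of helper27's model `CS` -/
def P1S (S : Finset Kb) : Ideal ↥(CS (M * q) q (fun T => modelBase (M * q) (WS A q T)) S) :=
  (levelHyp_tower A hA hqM S).P1

omit [IsDedekindDomain ↥(Ck M A)]
  [IsFractionRing ↥(Ck M A) ↥(modularFunctionFieldFullC (IsLocalRing.ResidueField A) M)]
  [Algebra (IsLocalRing.ResidueField A) ↥(Ck M A)]
  [IsScalarTower (IsLocalRing.ResidueField A) ↥(Ck M A)
    ↥(modularFunctionFieldFullC (IsLocalRing.ResidueField A) M)] in
/-- the second component at level `S`, as an ideal of helper27's model `CS` -/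
def P2S (S : Finset Kb) : Ideal ↥(CS (M * q) q (fun T => modelBase (M * q) (WS A q T)) S) :=
  (levelHyp_tower A hA hqM S).P2

omit [IsDedekindDomain ↥(Ck M A)]
  [IsFractionRing ↥(Ck M A) ↥(modularFunctionFieldFullC (IsLocalRing.ResidueField A) M)]
  [Algebra (IsLocalRing.ResidueField A) ↥(Ck M A)]
  [IsScalarTower (IsLocalRing.ResidueField A) ↥(Ck M A)
    ↥(modularFunctionFieldFullC (IsLocalRing.ResidueField A) M)] in
/-- `res₁` at level `S`, on helper27's model `CS` -/
def red1S (S : Finset Kb) :
    ↥(CS (M * q) q (fun T => modelBase (M * q) (WS A q T)) S) →+* ↥(Ck M A) :=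
  (levelHyp_tower A hA hqM S).red1

omit [IsDedekindDomain ↥(Ck M A)]
  [IsFractionRing ↥(Ck M A) ↥(modularFunctionFieldFullC (IsLocalRing.ResidueField A) M)]
  [Algebra (IsLocalRing.ResidueField A) ↥(Ck M A)]
  [IsScalarTower (IsLocalRing.ResidueField A) ↥(Ck M A)
    ↥(modularFunctionFieldFullC (IsLocalRing.ResidueField A) M)] in
/-- `res₂` at level `S`, on helper27's model `CS` -/
def red2S (S : Finset Kb) :
    ↥(CS (M * q) q (fun T => modelBase (M * q) (WS A q T)) S) →+* ↥(Ck M A) :=
  (levelHyp_tower A hA hqM S).red2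

/-- **The bridge at every level `S` of the tower, on helper27's models** `CS (M*q) q base S`,
`base T = W'_T[j]`, uniformizer `unif A hq hA S`: the family `L` of
`SmoothAssembly.smoothChartOf_zero_fin` / the per-level input of `LevelsFamily.smoothChartOfLevels`
(`M S := (levelHyp_modular_CS A hA hqM S).smoothModel_zero_fin …`). -/
theorem levelHyp_modular_CS (S : Finset Kb) :
    S0.SmoothAssembly.LevelHyp (Dk := ↥(Ck M A)) (chartDataModular A hA hqM)
      (CS (M * q) q (fun T => modelBase (M * q) (WS A q T)) S) (unif A hq.out hA S)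
      (P1S A hA hqM S) (P2S A hA hqM S) (red1S A hA hqM S) (red2S A hA hqM S) :=
  levelHyp_modular (levelHyp_tower A hA hqM S)

omit [IsDedekindDomain ↥(Ck M A)]
  [IsFractionRing ↥(Ck M A) ↥(modularFunctionFieldFullC (IsLocalRing.ResidueField A) M)]
  [Algebra (IsLocalRing.ResidueField A) ↥(Ck M A)]
  [IsScalarTower (IsLocalRing.ResidueField A) ↥(Ck M A)
    ↥(modularFunctionFieldFullC (IsLocalRing.ResidueField A) M)] in
/-- **`hRC`** at every level of the tower -/
theorem chartFin_le_CS (S : Finset Kb) :
    (chartDataModular A hA hqM).Rfin ≤ CS (M * q) q (fun T => modelBase (M * q) (WS A q T)) S :=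
  chartFin_le_CQ (levelHyp_tower A hA hqM S)

omit [IsDedekindDomain ↥(Ck M A)]
  [IsFractionRing ↥(Ck M A) ↥(modularFunctionFieldFullC (IsLocalRing.ResidueField A) M)]
  [Algebra (IsLocalRing.ResidueField A) ↥(Ck M A)]
  [IsScalarTower (IsLocalRing.ResidueField A) ↥(Ck M A)
    ↥(modularFunctionFieldFullC (IsLocalRing.ResidueField A) M)] in
/-- **`hint`** at every level of the tower -/
theorem integralAt_CS (S : Finset Kb) (P : Place Kb (Fb (M * q)))
    (hP : IntegralAt A (chartDataModular A hA hqM).Rfin P) :
    IntegralAt A (CS (M * q) q (fun T => modelBase (M * q) (WS A q T)) S) P :=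
  integralAt_CQ (levelHyp_tower A hA hqM S) P hP

omit [IsDedekindDomain ↥(Ck M A)]
  [IsFractionRing ↥(Ck M A) ↥(modularFunctionFieldFullC (IsLocalRing.ResidueField A) M)]
  [Algebra (IsLocalRing.ResidueField A) ↥(Ck M A)]
  [IsScalarTower (IsLocalRing.ResidueField A) ↥(Ck M A)
    ↥(modularFunctionFieldFullC (IsLocalRing.ResidueField A) M)] in
include hA in
/-- a function of the base level `S = ∅` lies in the model of every level -/
theorem mem_CS_of_mem_base {t : Fb (M * q)}
    (ht : t ∈ CS (M * q) q (fun T => modelBase (M * q) (WS A q T)) ∅) (S : Finset Kb) :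
    t ∈ CS (M * q) q (fun T => modelBase (M * q) (WS A q T)) S :=
  CS_mono (baseFamily_fin (M * q) A hq.out hA) (Finset.empty_subset S) ht

end Tower

end Fermat.Agent.BR.Inst.SmoothInst
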