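/-
Program B (BADRED), block B6, node B6.5(c), (★') part (W4) (helper22): the Krull assembly.

* `star_of_local` (generic): `C` a noetherian integrally closed domain inside a field `Ω`, `ϖ ∈ C`
  nonzero, `O₁ O₂` valuation subrings.  If at every height-one prime `p ∋ ϖ` of `C` the elements
  `x` of `O₁` (or of `O₂`) with `x ϖ ∈ C` have a denominator outside `p`, then
  `x ϖ ∈ C`, `x ∈ O₁`, `x ∈ O₂ ⟹ x ∈ C`   — this is (★).
* `star_of_exh` (frame): for a model `C` (`NormalGen.IsModel (modelBase (M*q) W) (modelField (M*q) K')`)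
  over `W = A ∩ K'`, (★') follows from two named inputs:
  - `hgd` (going-down, helper13): a height-one prime `p ∋ π'` of `C` meets `W[j]` in `(π')`;
  - `hexh` (frame exhaustion, helper15): a valuation subring `V` of `K'·F_{Mq}` containing `C`, in
    which `π'` is a non-unit and whose centre on `W[j]` is `(π')`, is `O₁ ∩ K'·F_{Mq}` or
    `O₂ ∩ K'·F_{Mq}`.
-/
import Mathlib
import Fermat.Agent.BR.Inst.TwoCompInstLoc

set_option autoImplicit false
set_option linter.unusedSectionVars false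
set_option linter.style.haveILetI false
set_option synthInstance.maxHeartbeats 400000

noncomputable section

namespace Fermat.Agent.BR.Inst.StarAssembly

open Fermat.Agent.BR.Inst.LocVal Fermat.Agent.BR.KrullNormal

/-! ### generic Krull assembly -/

section Generic

variable {Ω : Type*} [Field Ω] {C : Subring Ω}

/-- **(★) from its local form at the height-one primes containing `ϖ`.** -/
theorem star_of_local [IsNoetherianRing ↥C] [IsIntegrallyClosed ↥C] (ϖ : ↥C) (hϖ : ϖ ≠ 0)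
    {O₁ O₂ : ValuationSubring Ω}
    (hloc : ∀ p : Ideal ↥C, p.IsPrime → p.height = 1 → ϖ ∈ p →
      (∀ x : Ω, x * (ϖ : Ω) ∈ C → x ∈ O₁ → ∃ a s : ↥C, s ∉ p ∧ x * (s : Ω) = (a : Ω)) ∨
      (∀ x : Ω, x * (ϖ : Ω) ∈ C → x ∈ O₂ → ∃ a s : ↥C, s ∉ p ∧ x * (s : Ω) = (a : Ω)))
    (x : Ω) (hx : x * (ϖ : Ω) ∈ C) (h1 : x ∈ O₁) (h2 : x ∈ O₂) : x ∈ C := by
  have hϖΩ : (ϖ : Ω) ≠ 0 := fun h => hϖ (Subtype.ext h)
  have hdvd : ϖ ∣ (⟨x * (ϖ : Ω), hx⟩ : ↥C) := by
    refine dvd_of_forall_height_one hϖ fun p hp hht hap => ?_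
    have key : ∃ a s : ↥C, s ∉ p ∧ x * (s : Ω) = (a : Ω) := by
      rcases hloc p hp hht hap with h | h
      · exact h x hx h1
      · exact h x hx h2
    obtain ⟨a, s, hs, has⟩ := key
    refine ⟨s, hs, a, Subtype.ext ?_⟩
    show (s : Ω) * (x * (ϖ : Ω)) = (ϖ : Ω) * (a : Ω)
    rw [← has]
    ring
  obtain ⟨c, hc⟩ := hdvd
  have hc' : x * (ϖ : Ω) = (ϖ : Ω) * (c : Ω) := congrArg Subtype.val hc
  have hxc : x = (c : Ω) := by
    apply mul_right_cancel₀ hϖΩ
    rw [hc', mul_comm]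
  rw [hxc]
  exact c.2

end Generic

/-! ### the frame -/

section Frame

open ModularCurve AlgebraicCurve Fermat.Agent.X0 Fermat.Agent.Val Fermat.Agent.Good.Bridge
open Fermat.Agent.BR.TwoVal Fermat.Agent.BR.TwoValInst
open Fermat.Agent.BR.Inst.NormalGen Fermat.Agent.BR.Inst.NormalModel
open Fermat.Agent.BR.Inst.TwoCompInst

variable {M q : ℕ} [NeZero M] [hq : Fact q.Prime]
variable (A : ValuationSubring Kb) (hA : A.LiesOverPrime q) (hqM : ¬ q ∣ M)
variable {K' : Subfield Kb} {W : Subring Kb} {π' : Kb} {C : Subring (Fb (M * q))}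

/-- **(★') from going-down and the frame exhaustion.** -/
theorem star_of_exh (hW : ∀ x, x ∈ W ↔ x ∈ A ∧ x ∈ K') (hπK : π' ∈ K') (hπ0 : π' ≠ 0)
    (hπ1 : A.valuation π' < 1)
    (hval : ∀ x ∈ K', x ≠ 0 → ∃ n : ℤ, A.valuation x = A.valuation π' ^ n)
    (hC : IsModel (modelBase (M * q) W) (modelField (M * q) K') C)
    (hπC : algebraMap Kb (Fb (M * q)) π' ∈ C)
    (hπR : algebraMap Kb (Fb (M * q)) π' ∈ modelBase (M * q) W)
    (hRC : modelBase (M * q) W ≤ C)
    (hgd : ∀ p : Ideal ↥C, p.IsPrime → p.height = 1 →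
      (⟨algebraMap Kb (Fb (M * q)) π', hπC⟩ : ↥C) ∈ p →
      ∀ r : ↥(modelBase (M * q) W), (⟨(r : Fb (M * q)), hRC r.2⟩ : ↥C) ∈ p →
        r ∈ Ideal.span {(⟨algebraMap Kb (Fb (M * q)) π', hπR⟩ : ↥(modelBase (M * q) W))})
    (hexh : ∀ V : ValuationSubring ↥(modelField (M * q) K'),
      (∀ c (hc : c ∈ C), (⟨c, hC.le_field hc⟩ : ↥(modelField (M * q) K')) ∈ V) →
      (⟨algebraMap Kb (Fb (M * q)) π', hC.le_field hπC⟩ : ↥(modelField (M * q) K')) ∈
        V.nonunits →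
      (∀ r : ↥(modelBase (M * q) W),
        (⟨(r : Fb (M * q)), hC.le_field (hRC r.2)⟩ : ↥(modelField (M * q) K')) ∈ V.nonunits →
        r ∈ Ideal.span {(⟨algebraMap Kb (Fb (M * q)) π', hπR⟩ : ↥(modelBase (M * q) W))}) →
      V = (O1 M A hA).comap (algebraMap ↥(modelField (M * q) K') (Fb (M * q))) ∨
        V = (O2 A hA hqM).comap (algebraMap ↥(modelField (M * q) K') (Fb (M * q)))) :
    ∀ x : Fb (M * q), x * algebraMap Kb (Fb (M * q)) π' ∈ C → x ∈ O1 M A hA →
      x ∈ O2 A hA hqM → x ∈ C := by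
  have hn := model_normal_of_inter (M * q) A K' W hW π' hπK hπ0 hπ1 hval hC
  haveI := hn.1
  haveI := hn.2.1
  letI : Algebra ↥C ↥(modelField (M * q) K') := algebraOfLE hC.le_field
  haveI : IsFractionRing ↥C ↥(modelField (M * q) K') := hn.2.2.1
  have hπF0 : algebraMap Kb (Fb (M * q)) π' ≠ 0 :=
    (map_ne_zero_iff _ (algebraMap Kb (Fb (M * q))).injective).mpr hπ0
  have hϖ0 : (⟨algebraMap Kb (Fb (M * q)) π', hπC⟩ : ↥C) ≠ 0 := fun h =>
    hπF0 (congrArg Subtype.val h)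
  intro x hx h1 h2
  refine star_of_local (⟨algebraMap Kb (Fb (M * q)) π', hπC⟩ : ↥C) hϖ0
    (O₁ := O1 M A hA) (O₂ := O2 A hA hqM) ?_ x hx h1 h2
  intro p hp hht hπp
  haveI := hp
  -- the valuation ring `C_p` of the function field of the model
  set V : ValuationSubring ↥(modelField (M * q) K') :=
    locVS (F := ↥(modelField (M * q) K')) p hht with hV
  have hcentre : centre V (algebraMap_mem_locVS p hht) = p := centre_locVS p hht
  have hmem : ∀ c : ↥C, c ∈ p ↔
      (⟨(c : Fb (M * q)), hC.le_field c.2⟩ : ↥(modelField (M * q) K')) ∈ V.nonunits := by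
    intro c
    rw [← hcentre, mem_centre_iff]
    rfl
  have hV1 : ∀ c (hc : c ∈ C), (⟨c, hC.le_field hc⟩ : ↥(modelField (M * q) K')) ∈ V :=
    fun c hc => algebraMap_mem_locVS p hht ⟨c, hc⟩
  have hV2 : (⟨algebraMap Kb (Fb (M * q)) π', hC.le_field hπC⟩ :
      ↥(modelField (M * q) K')) ∈ V.nonunits := (hmem _).mp hπp
  have hV3 : ∀ r : ↥(modelBase (M * q) W),
      (⟨(r : Fb (M * q)), hC.le_field (hRC r.2)⟩ : ↥(modelField (M * q) K')) ∈ V.nonunits →
      r ∈ Ideal.span {(⟨algebraMap Kb (Fb (M * q)) π', hπR⟩ : ↥(modelBase (M * q) W))} :=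
    fun r hr => hgd p hp hht hπp r ((hmem ⟨(r : Fb (M * q)), hRC r.2⟩).mpr hr)
  -- regularity at `p` of the elements of `V`
  have hreg : ∀ (y : Fb (M * q)) (hy : y ∈ modelField (M * q) K'),
      (⟨y, hy⟩ : ↥(modelField (M * q) K')) ∈ V →
      ∃ a s : ↥C, s ∉ p ∧ y * (s : Fb (M * q)) = (a : Fb (M * q)) := by
    intro y hy hyV
    obtain ⟨a, s, hs, has⟩ := (mem_locVS_iff (F := ↥(modelField (M * q) K'))).mp hyV
    exact ⟨a, s, hs, congrArg Subtype.val has⟩
  have hfield : ∀ y : Fb (M * q), y * algebraMap Kb (Fb (M * q)) π' ∈ C →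
      y ∈ modelField (M * q) K' := by
    intro y hy
    have h3 : y = y * algebraMap Kb (Fb (M * q)) π' * (algebraMap Kb (Fb (M * q)) π')⁻¹ := by
      rw [mul_assoc, mul_inv_cancel₀ hπF0, mul_one]
    rw [h3]
    exact (modelField (M * q) K').mul_mem (hC.le_field hy)
      ((modelField (M * q) K').inv_mem (hC.le_field hπC))
  rcases hexh V hV1 hV2 hV3 with hVO | hVO
  · left
    intro y hy hy1
    refine hreg y (hfield y hy) ?_
    rw [hVO]
    exact hy1
  · right
    intro y hy hy2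
    refine hreg y (hfield y hy) ?_
    rw [hVO]
    exact hy2

end Frame

end Fermat.Agent.BR.Inst.StarAssembly
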