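import Fermat.Agent.BR.Inst.StarFKFinal
import Fermat.Agent.BR.Inst.TwoCompGlue

/-!
# Program B, node B6.5c: the saturation property `(★')` and the two vertical components, FINAL

Frame-free (helper4's `NormalModel`): `W = A ∩ K'`, `π'` a uniformizer (unfolded `IsDVRField`
fields), `C` any model `IsModel (modelBase (M q) W) (modelField (M q) K') C`.

* (`StarFKFinal.star_of_isModel`, helper15: `x π' ∈ C`, `x ∈ O₁`, `x ∈ O₂` ⟹ `x ∈ C`);
* `modelHyp` : helper22's `TwoCompInst.ModelHyp A hA hqM K' W π' C`, unconditional;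
* `twoComponents` : `SpecialFibre.TwoComponents π' P1 P2` on `C`.
-/

set_option autoImplicit false
set_option linter.unusedSectionVars false
set_option linter.style.haveILetI false
set_option synthInstance.maxHeartbeats 400000

noncomputable section

namespace Fermat.Agent.BR.Inst.StarFinal

open ModularCurve Fermat.Agent.X0 Fermat.Agent.BR.TwoVal
  Fermat.Agent.BR.Inst.NormalGen Fermat.Agent.BR.Inst.NormalModel Fermat.Agent.BR.Inst.TwoCompInst

variable {M q : ℕ} [NeZero M] [hq : Fact q.Prime]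

variable (A : ValuationSubring Kb) (hA : A.LiesOverPrime q) (hqM : ¬ q ∣ M)
  {K' : Subfield Kb} {W : Subring Kb} {π' : Kb} {C : Subring (Fb (M * q))}

/-- **`ModelHyp`, unconditional**: all inputs of helper22's instantiation are discharged. -/
theorem modelHyp (hW : ∀ x, x ∈ W ↔ x ∈ A ∧ x ∈ K') (hπK : π' ∈ K') (hπ0 : π' ≠ 0)
    (hπ1 : A.valuation π' < 1)
    (hdvr : ∀ c ∈ K', c ≠ 0 → ∃ n : ℤ, A.valuation c = A.valuation π' ^ n)
    (hC : IsModel (modelBase (M * q) W) (modelField (M * q) K') C) :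
    ModelHyp A hA hqM K' W π' C :=
  TwoCompGlue.modelHyp_of_star A hA hqM hW hπK hπ0 hπ1 hdvr hC
    (StarFKFinal.star_of_isModel A hA hqM hW hπK hπ0 hπ1 hdvr hC)

/-- **B6.5(c), FINAL**: the two vertical components of the normal model `C` of `X₀(Mq)` over
`W = A ∩ K'`. -/
theorem twoComponents (hW : ∀ x, x ∈ W ↔ x ∈ A ∧ x ∈ K') (hπK : π' ∈ K') (hπ0 : π' ≠ 0)
    (hπ1 : A.valuation π' < 1)
    (hdvr : ∀ c ∈ K', c ≠ 0 → ∃ n : ℤ, A.valuation c = A.valuation π' ^ n)
    (hC : IsModel (modelBase (M * q) W) (modelField (M * q) K') C) :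
    SpecialFibre.TwoComponents (modelHyp A hA hqM hW hπK hπ0 hπ1 hdvr hC).piC
      (modelHyp A hA hqM hW hπK hπ0 hπ1 hdvr hC).P1
      (modelHyp A hA hqM hW hπK hπ0 hπ1 hdvr hC).P2 :=
  (modelHyp A hA hqM hW hπK hπ0 hπ1 hdvr hC).twoComponents

end Fermat.Agent.BR.Inst.StarFinal
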